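import Fermat.Agent.S52.KleinDefs

set_option autoImplicit false

namespace Fermat.Agent.S52

section FamilyId

variable {R : Type*} [CommRing R]

set_option maxHeartbeats 0 in
set_option maxRecDepth 100000 in
/-- The discriminant of the family: `c₄'^3 - c₆'^2 = (c₄^3 - c₆^2) * g^5`. -/
theorem fam_disc (c4 c6 m n : R) :
    famC4 c4 c6 m n ^ 3 - famC6 c4 c6 m n ^ 2 = (c4 ^ 3 - c6 ^ 2) * famG c4 c6 m n ^ 5 := by
  simp only [famG, famG_blk0, famG_blk1, famG_blk2, famG_0, famG_2, famG_3, famG_4, famG_5, famG_6, famG_7,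
    famG_8, famG_9, famG_10, famG_11, famG_12, famC4, famC4_blk0, famC4_blk1, famC4_blk2,
    famC4_blk3, famC4_blk4, famC4_blk5, famC4_0, famC4_1, famC4_2, famC4_3, famC4_4, famC4_5,
    famC4_6, famC4_7, famC4_8, famC4_9, famC4_10, famC4_11, famC4_12, famC4_13, famC4_14,
    famC4_15, famC4_16, famC4_17, famC4_18, famC4_19, famC4_20, famC6, famC6_blk0, famC6_blk1,
    famC6_blk2, famC6_blk3, famC6_blk4, famC6_blk5, famC6_blk6, famC6_blk7, famC6_0, famC6_1,
    famC6_2, famC6_3, famC6_4, famC6_5, famC6_6, famC6_7, famC6_8, famC6_9, famC6_10, famC6_11,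
    famC6_12, famC6_13, famC6_14, famC6_15, famC6_16, famC6_17, famC6_18, famC6_19, famC6_20,
    famC6_21, famC6_22, famC6_23, famC6_24, famC6_25, famC6_26, famC6_27, famC6_28, famC6_29,
    famC6_30]
  ring

end FamilyId

end Fermat.Agent.S52
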