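import Fermat.Agent.S52.KleinDefs

set_option autoImplicit false

namespace Fermat.Agent.S52

section FamilyId

variable {R : Type*} [CommRing R]

theorem famG_zero_one (c4 c6 : R) : famG c4 c6 0 1 = 1 := by
  simp only [famG, famG_blk0, famG_blk1, famG_blk2, famG_0]
  ring

set_option maxHeartbeats 0 in
set_option maxRecDepth 100000 in
/-- homogeneity of degree 12 in `(m, n)` -/
theorem famG_smul (c4 c6 s m n : R) : famG c4 c6 (s * m) (s * n) = s ^ 12 * famG c4 c6 m n := by
  simp only [famG, famG_blk0, famG_blk1, famG_blk2]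
  ring

set_option maxHeartbeats 0 in
set_option maxRecDepth 100000 in
/-- ring homomorphisms commute with the family polynomial -/
theorem map_famG {S : Type*} [CommRing S] (φ : R →+* S) (c4 c6 m n : R) :
    φ (famG c4 c6 m n) = famG (φ c4) (φ c6) (φ m) (φ n) := by
  simp only [famG, famG_blk0, famG_blk1, famG_blk2, famG_0, famG_2, famG_3, famG_4, famG_5, famG_6, famG_7,
    famG_8, famG_9, famG_10, famG_11, famG_12,
    map_add, map_sub, map_mul, map_neg, map_pow, map_ofNat, map_one]

theorem famC4_zero_one (c4 c6 : R) : famC4 c4 c6 0 1 = c4 := by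
  simp only [famC4, famC4_blk0, famC4_blk1, famC4_blk2, famC4_blk3, famC4_blk4, famC4_blk5, famC4_0]
  ring

set_option maxHeartbeats 0 in
set_option maxRecDepth 100000 in
/-- homogeneity of degree 20 in `(m, n)` -/
theorem famC4_smul (c4 c6 s m n : R) : famC4 c4 c6 (s * m) (s * n) = s ^ 20 * famC4 c4 c6 m n := by
  simp only [famC4, famC4_blk0, famC4_blk1, famC4_blk2, famC4_blk3, famC4_blk4, famC4_blk5]
  ring

set_option maxHeartbeats 0 in
set_option maxRecDepth 100000 in
/-- ring homomorphisms commute with the family polynomial -/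
theorem map_famC4 {S : Type*} [CommRing S] (φ : R →+* S) (c4 c6 m n : R) :
    φ (famC4 c4 c6 m n) = famC4 (φ c4) (φ c6) (φ m) (φ n) := by
  simp only [famC4, famC4_blk0, famC4_blk1, famC4_blk2, famC4_blk3, famC4_blk4, famC4_blk5, famC4_0, famC4_1,
    famC4_2, famC4_3, famC4_4, famC4_5, famC4_6, famC4_7, famC4_8, famC4_9, famC4_10, famC4_11,
    famC4_12, famC4_13, famC4_14, famC4_15, famC4_16, famC4_17, famC4_18, famC4_19, famC4_20,
    map_add, map_sub, map_mul, map_neg, map_pow, map_ofNat, map_one]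

theorem famC6_zero_one (c4 c6 : R) : famC6 c4 c6 0 1 = c6 := by
  simp only [famC6, famC6_blk0, famC6_blk1, famC6_blk2, famC6_blk3, famC6_blk4, famC6_blk5, famC6_blk6,
    famC6_blk7, famC6_0]
  ring

set_option maxHeartbeats 0 in
set_option maxRecDepth 100000 in
/-- homogeneity of degree 30 in `(m, n)` -/
theorem famC6_smul (c4 c6 s m n : R) : famC6 c4 c6 (s * m) (s * n) = s ^ 30 * famC6 c4 c6 m n := by
  simp only [famC6, famC6_blk0, famC6_blk1, famC6_blk2, famC6_blk3, famC6_blk4, famC6_blk5, famC6_blk6,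
    famC6_blk7]
  ring

set_option maxHeartbeats 0 in
set_option maxRecDepth 100000 in
/-- ring homomorphisms commute with the family polynomial -/
theorem map_famC6 {S : Type*} [CommRing S] (φ : R →+* S) (c4 c6 m n : R) :
    φ (famC6 c4 c6 m n) = famC6 (φ c4) (φ c6) (φ m) (φ n) := by
  simp only [famC6, famC6_blk0, famC6_blk1, famC6_blk2, famC6_blk3, famC6_blk4, famC6_blk5, famC6_blk6,
    famC6_blk7, famC6_0, famC6_1, famC6_2, famC6_3, famC6_4, famC6_5, famC6_6, famC6_7, famC6_8,
    famC6_9, famC6_10, famC6_11, famC6_12, famC6_13, famC6_14, famC6_15, famC6_16, famC6_17,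
    famC6_18, famC6_19, famC6_20, famC6_21, famC6_22, famC6_23, famC6_24, famC6_25, famC6_26,
    famC6_27, famC6_28, famC6_29, famC6_30,
    map_add, map_sub, map_mul, map_neg, map_pow, map_ofNat, map_one]

/-- congruences of the family polynomials: `(m, n) ≡ (0, 1)` gives the original invariants. -/
theorem fam_congr (c4 c6 m n M : ℤ) (hm : M ∣ m) (hn : M ∣ n - 1) :
    M ∣ famC4 c4 c6 m n - c4 ∧ M ∣ famC6 c4 c6 m n - c6 ∧ M ∣ famG c4 c6 m n - 1 := by
  have hm' : ((m : ℤ) : ZMod M.natAbs) = 0 := by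
    rw [ZMod.intCast_zmod_eq_zero_iff_dvd]; exact Int.natAbs_dvd.mpr hm
  have hn' : ((n : ℤ) : ZMod M.natAbs) = 1 := by
    have : (((n - 1 : ℤ)) : ZMod M.natAbs) = 0 := by
      rw [ZMod.intCast_zmod_eq_zero_iff_dvd]; exact Int.natAbs_dvd.mpr hn
    push_cast at this
    exact sub_eq_zero.mp this
  have key : ∀ a b : ℤ, ((a : ℤ) : ZMod M.natAbs) = ((b : ℤ) : ZMod M.natAbs) → M ∣ a - b := by
    intro a b hab
    have : (((a - b : ℤ)) : ZMod M.natAbs) = 0 := by push_cast; exact sub_eq_zero.mpr hab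
    rw [ZMod.intCast_zmod_eq_zero_iff_dvd] at this
    exact Int.natAbs_dvd.mp this
  refine ⟨key _ _ ?_, key _ _ ?_, key _ _ ?_⟩
  · have := map_famC4 (Int.castRingHom (ZMod M.natAbs)) c4 c6 m n
    simp only [eq_intCast] at this
    rw [this, hm', hn', famC4_zero_one]
  · have := map_famC6 (Int.castRingHom (ZMod M.natAbs)) c4 c6 m n
    simp only [eq_intCast] at this
    rw [this, hm', hn', famC6_zero_one]
  · have := map_famG (Int.castRingHom (ZMod M.natAbs)) c4 c6 m n
    simp only [eq_intCast] at this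
    rw [this, hm', hn', famG_zero_one]
    simp

end FamilyId

end Fermat.Agent.S52
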