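import Fermat.Agent.S51.Assemble
import Fermat.Statements.S52

/-!
# S52 (III), row I3: no rational root of the 3-division quartic ⇒ `W[3]` irreducible

`Theta(z) = z^4 - 486 c₄ z^2 - 5832 c₆ z - 19683 c₄^2` is (up to the substitution `z = 108 x` and
the factor `108^4 / 3`) the 3-division polynomial `psi3 (-c₄/48) (-c₆/864) x` of the short model.
If `W[3]` is reducible, the landed S51 machinery produces a Galois-stable line, whose nonzero
points have a rational short `x`-coordinate, a rational root of `psi3`.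
-/

set_option autoImplicit false
open WeierstrassCurve WeierstrassCurve.Affine WeierstrassCurve.Affine.Point

namespace Fermat.Agent.S52

local notation "Qbar" => AlgebraicClosure ℚ

/-- A rational curve with reducible mod-3 representation has a rational root of the
3-division polynomial of its short model. -/
theorem h77_exists_psi3_root (E : WeierstrassCurve ℚ) (hΔ : E.Δ ≠ 0)
    (h3 : ¬ GaloisRepIsIrreducible (K := Qbar) ℚ E 3) :
    ∃ x0 : ℚ, S51.psi3 (S51.sA E) (S51.sB E) x0 = 0 := by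
  have hΔK' : (E⁄Qbar).Δ = algebraMap ℚ Qbar E.Δ := by
    simp [WeierstrassCurve.baseChange]
  have hΔK : (E⁄Qbar).Δ ≠ 0 := by
    rw [hΔK']
    exact (map_ne_zero_iff _ (algebraMap ℚ Qbar).injective).mpr hΔ
  obtain ⟨Q, hQ0, hQ3, hQσ⟩ := S51.asm_reducible E 3 Nat.prime_three S51.three_torsion_finite.1
    S51.three_torsion_finite.2 (S51.exists_three_torsion hΔK) h3
  have hpsi : S51.psi3 (S51.sA (E⁄Qbar)) (S51.sB (E⁄Qbar)) (S51.pX Q) = 0 :=
    S51.psi3_of_three_nsmul hQ0 hQ3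
  obtain ⟨x0, hx0⟩ := S51.rat_of_fixed (S51.pX Q)
    (fun σ => S51.asm_fix3 E hQ0 hQ3 σ (hQσ σ))
  refine ⟨x0, ?_⟩
  rw [S51.sA_baseChange, S51.sB_baseChange, ← hx0] at hpsi
  apply (algebraMap ℚ Qbar).injective
  simpa [S51.psi3, map_ofNat] using hpsi

theorem irred3_of_no_root (W : WeierstrassCurve ℤ) (hΔ : W.Δ ≠ 0) (h : ∀ z : ℚ, z ^ 4 - 486 * (W.c₄ : ℚ) * z ^ 2 - 5832 * (W.c₆ : ℚ) * z - 19683 * (W.c₄ : ℚ) ^ 2 ≠ 0) : W.ModRepIsIrreducible 3 := by
  unfold WeierstrassCurve.ModRepIsIrreducible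
  by_contra h3
  have hΔQ : (W.map (Int.castRingHom ℚ)).Δ ≠ 0 := by
    rw [WeierstrassCurve.map_Δ]
    simpa using hΔ
  obtain ⟨x0, hx0⟩ := h77_exists_psi3_root (W.map (Int.castRingHom ℚ)) hΔQ h3
  have hc4 : (W.map (Int.castRingHom ℚ)).c₄ = (W.c₄ : ℚ) := by
    rw [WeierstrassCurve.map_c₄]; simp
  have hc6 : (W.map (Int.castRingHom ℚ)).c₆ = (W.c₆ : ℚ) := by
    rw [WeierstrassCurve.map_c₆]; simp
  unfold S51.psi3 S51.sA S51.sB at hx0
  rw [hc4, hc6] at hx0
  apply h (108 * x0)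
  linear_combination (108 ^ 4 / 3 : ℚ) * hx0

end Fermat.Agent.S52
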