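import Mathlib
import Fermat.Statements.S52

/-!
# S52 (III), row M: an integral model with prescribed `c₄`, `c₆` congruent to a given one

`model_exists`: if `c4' ≡ W.c₄` and `c6' ≡ W.c₆` modulo `10368 = 2^7 * 3^4`, there is an integral
Weierstrass model `W'` with `W'.c₄ = c4'`, `W'.c₆ = c6'` and the same reduction as `W` modulo `2`,
`3` and every prime dividing both `c4' - W.c₄` and `c6' - W.c₆`.
-/

set_option autoImplicit false

namespace Fermat.Agent.S52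

open WeierstrassCurve

/-- The shifted model `⟨a₁, a₂, a₃, a₄ - 216 k, a₆ - 12 j - 18 b₂ k⟩`. -/
def h84_shiftModel (W : WeierstrassCurve ℤ) (k j : ℤ) : WeierstrassCurve ℤ :=
  ⟨W.a₁, W.a₂, W.a₃, W.a₄ - 216 * k, W.a₆ - 12 * j - 18 * W.b₂ * k⟩

theorem h84_shiftModel_c₄ (W : WeierstrassCurve ℤ) (k j : ℤ) :
    (h84_shiftModel W k j).c₄ = W.c₄ + 10368 * k := by
  simp only [h84_shiftModel, WeierstrassCurve.c₄, WeierstrassCurve.b₂, WeierstrassCurve.b₄]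
  ring

theorem h84_shiftModel_c₆ (W : WeierstrassCurve ℤ) (k j : ℤ) :
    (h84_shiftModel W k j).c₆ = W.c₆ + 10368 * j := by
  simp only [h84_shiftModel, WeierstrassCurve.c₆, WeierstrassCurve.b₂, WeierstrassCurve.b₄,
    WeierstrassCurve.b₆]
  ring

theorem h84_shiftModel_reductionMod (W : WeierstrassCurve ℤ) (k j : ℤ) (p : ℕ)
    (h1 : (p : ℤ) ∣ 216 * k) (h2 : (p : ℤ) ∣ 12 * j + 18 * W.b₂ * k) :
    (h84_shiftModel W k j).reductionMod p = W.reductionMod p := by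
  have e1 : ((216 * k : ℤ) : ZMod p) = 0 := (ZMod.intCast_zmod_eq_zero_iff_dvd _ p).mpr h1
  have e2 : ((12 * j + 18 * W.b₂ * k : ℤ) : ZMod p) = 0 :=
    (ZMod.intCast_zmod_eq_zero_iff_dvd _ p).mpr h2
  unfold WeierstrassCurve.reductionMod
  ext
  · rfl
  · rfl
  · rfl
  · change ((W.a₄ - 216 * k : ℤ) : ZMod p) = ((W.a₄ : ℤ) : ZMod p)
    rw [Int.cast_sub, e1, sub_zero]
  · change ((W.a₆ - 12 * j - 18 * W.b₂ * k : ℤ) : ZMod p) = ((W.a₆ : ℤ) : ZMod p)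
    have : (W.a₆ - 12 * j - 18 * W.b₂ * k : ℤ) = W.a₆ - (12 * j + 18 * W.b₂ * k) := by ring
    rw [this, Int.cast_sub, e2, sub_zero]

theorem h84_prime_dvd_of_dvd_10368_mul {p : ℕ} (hp : p.Prime) (h2 : p ≠ 2) (h3 : p ≠ 3) {k : ℤ}
    (h : (p : ℤ) ∣ 10368 * k) : (p : ℤ) ∣ k := by
  have hp' : Prime (p : ℤ) := Nat.prime_iff_prime_int.mp hp
  rcases hp'.dvd_or_dvd h with h' | h'
  · exfalso
    have h4 : p ∣ 10368 := by exact_mod_cast h'
    have h5 : (10368 : ℕ) = 2 ^ 7 * 3 ^ 4 := by norm_num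
    rw [h5] at h4
    rcases (Nat.Prime.dvd_mul hp).mp h4 with h6 | h6
    · exact h2 ((Nat.prime_dvd_prime_iff_eq hp Nat.prime_two).mp (hp.dvd_of_dvd_pow h6))
    · exact h3 ((Nat.prime_dvd_prime_iff_eq hp Nat.prime_three).mp (hp.dvd_of_dvd_pow h6))
  · exact h'

/-- **Row M**: an integral model with prescribed invariants `c4'`, `c6'` congruent to those of `W`
modulo `10368`, with the same reduction as `W` at `2`, `3` and at the common prime divisors of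
`c4' - W.c₄`, `c6' - W.c₆`. -/
theorem model_exists (W : WeierstrassCurve ℤ) (c4' c6' : ℤ) (h4 : (10368 : ℤ) ∣ c4' - W.c₄)
    (h6 : (10368 : ℤ) ∣ c6' - W.c₆) :
    ∃ W' : WeierstrassCurve ℤ, W'.c₄ = c4' ∧ W'.c₆ = c6' ∧
      ∀ p : ℕ, p.Prime → (p = 2 ∨ p = 3 ∨ ((p : ℤ) ∣ c4' - W.c₄ ∧ (p : ℤ) ∣ c6' - W.c₆)) →
        W'.reductionMod p = W.reductionMod p := by
  obtain ⟨k, hk⟩ := h4
  obtain ⟨j, hj⟩ := h6
  refine ⟨h84_shiftModel W k j, ?_, ?_, ?_⟩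
  · rw [h84_shiftModel_c₄]
    linarith
  · rw [h84_shiftModel_c₆]
    linarith
  · intro p hp hcase
    have key2 : ((2 : ℕ) : ℤ) ∣ 216 * k ∧ ((2 : ℕ) : ℤ) ∣ 12 * j + 18 * W.b₂ * k :=
      ⟨⟨108 * k, by push_cast; ring⟩, ⟨6 * j + 9 * W.b₂ * k, by push_cast; ring⟩⟩
    have key3 : ((3 : ℕ) : ℤ) ∣ 216 * k ∧ ((3 : ℕ) : ℤ) ∣ 12 * j + 18 * W.b₂ * k :=
      ⟨⟨72 * k, by push_cast; ring⟩, ⟨4 * j + 6 * W.b₂ * k, by push_cast; ring⟩⟩
    by_cases hp2 : p = 2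
    · subst hp2
      exact h84_shiftModel_reductionMod W k j 2 key2.1 key2.2
    by_cases hp3 : p = 3
    · subst hp3
      exact h84_shiftModel_reductionMod W k j 3 key3.1 key3.2
    rcases hcase with h | h | ⟨ha, hb⟩
    · exact absurd h hp2
    · exact absurd h hp3
    · rw [hk] at ha
      rw [hj] at hb
      have hk' : (p : ℤ) ∣ k := h84_prime_dvd_of_dvd_10368_mul hp hp2 hp3 ha
      have hj' : (p : ℤ) ∣ j := h84_prime_dvd_of_dvd_10368_mul hp hp2 hp3 hb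
      exact h84_shiftModel_reductionMod W k j p (Dvd.dvd.mul_left hk' _)
        (dvd_add (Dvd.dvd.mul_left hj' _) (Dvd.dvd.mul_left hk' _))

end Fermat.Agent.S52
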