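import Fermat.Statements.S52
import Fermat.Agent.S52.FamLemmas
import Fermat.Agent.S52.FamDisc
import Fermat.Agent.S52.Model
import Fermat.Agent.S52.Irred3

/-!
# S52: assembly of the 3-5 switch (helper51)

`asm_main_of` proves the statement of S52 from the three remaining block exports, taken as
hypotheses: `hirr` (block (IV): a member of the family without rational 3-isogeny), `hcong`
(block (II): congruence of the traces of Frobenius mod 5 along the family) and `hss`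
(semistability of the family away from the bad primes).
-/

set_option autoImplicit false
open WeierstrassCurve WeierstrassCurve.Affine WeierstrassCurve.Affine.Point
open CuspForm ModularFormClass UpperHalfPlane
open WeierstrassCurve

namespace Fermat.Agent.S52

theorem asm_dvd_of_red {W W' : WeierstrassCurve ℤ} {p : ℕ}
    (hr : W'.reductionMod p = W.reductionMod p) :
    (((p : ℤ) ∣ W'.Δ) ↔ ((p : ℤ) ∣ W.Δ)) ∧ (((p : ℤ) ∣ W'.c₄) ↔ ((p : ℤ) ∣ W.c₄)) := by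
  have hΔ : ((W'.Δ : ℤ) : ZMod p) = ((W.Δ : ℤ) : ZMod p) := by
    have := congrArg WeierstrassCurve.Δ hr
    simpa [WeierstrassCurve.reductionMod, WeierstrassCurve.map_Δ] using this
  have hc : ((W'.c₄ : ℤ) : ZMod p) = ((W.c₄ : ℤ) : ZMod p) := by
    have := congrArg WeierstrassCurve.c₄ hr
    simpa [WeierstrassCurve.reductionMod, WeierstrassCurve.map_c₄] using this
  constructor
  · rw [← ZMod.intCast_zmod_eq_zero_iff_dvd, ← ZMod.intCast_zmod_eq_zero_iff_dvd, hΔ]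
  · rw [← ZMod.intCast_zmod_eq_zero_iff_dvd, ← ZMod.intCast_zmod_eq_zero_iff_dvd, hc]

theorem asm_seven_le {p : ℕ} (hp : p.Prime) (h : ¬ (p : ℤ) ∣ 51840) : 7 ≤ p := by
  by_contra hlt
  push Not at hlt
  have hp2 := hp.two_le
  interval_cases p
  · exact h (by norm_num)
  · exact h (by norm_num)
  · exact absurd hp (by norm_num)
  · exact h (by norm_num)
  · exact absurd hp (by norm_num)

theorem asm_main_of
    (hirr : ∀ (c4 c6 : ℤ), c4 ^ 3 - c6 ^ 2 ≠ 0 → ∀ M : ℤ, 2 ≤ M →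
      ∃ m n : ℤ, M ∣ m ∧ M ∣ n - 1 ∧ IsCoprime m n ∧
        ∀ z : ℚ, z ^ 4 - 486 * ((famC4 c4 c6 m n : ℤ) : ℚ) * z ^ 2
          - 5832 * ((famC6 c4 c6 m n : ℤ) : ℚ) * z
          - 19683 * ((famC4 c4 c6 m n : ℤ) : ℚ) ^ 2 ≠ 0)
    (hcong : ∀ (ℓ : ℕ) [Fact ℓ.Prime], 7 ≤ ℓ → ∀ (W W' : WeierstrassCurve ℤ) (m n : ℤ),
      W'.c₄ = famC4 W.c₄ W.c₆ m n → W'.c₆ = famC6 W.c₄ W.c₆ m n →
      W.IsGoodPrimeFor ℓ → W'.IsGoodPrimeFor ℓ → (5 : ℤ) ∣ W'.apOfModel ℓ - W.apOfModel ℓ)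
    (hss : ∀ (p : ℕ) [Fact p.Prime], 7 ≤ p → ∀ (c4 c6 m n : ZMod p), c4 ^ 3 - c6 ^ 2 ≠ 0 →
      (m ≠ 0 ∨ n ≠ 0) → famC4 c4 c6 m n ^ 3 - famC6 c4 c6 m n ^ 2 = 0 → famC4 c4 c6 m n ≠ 0)
    (W : WeierstrassCurve ℤ) (hΔ : W.Δ ≠ 0) (hW : W.IsSemistableModel) :
    ∃ W' : WeierstrassCurve ℤ, W'.Δ ≠ 0 ∧ W'.IsSemistableModel ∧ W'.ModRepIsIrreducible 3 ∧
      ∀ ℓ : ℕ, ℓ.Prime → W.IsGoodPrimeFor ℓ → W'.IsGoodPrimeFor ℓ → ℓ ≠ 5 →
        (5 : ℤ) ∣ (W'.apOfModel ℓ - W.apOfModel ℓ) := by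
  set M : ℤ := 51840 * |W.Δ| with hMdef
  have habs : 1 ≤ |W.Δ| := Int.one_le_abs hΔ
  have hM2 : 2 ≤ M := by rw [hMdef]; nlinarith
  have hc : W.c₄ ^ 3 - W.c₆ ^ 2 ≠ 0 := by
    rw [← W.c_relation]; exact mul_ne_zero (by norm_num) hΔ
  obtain ⟨m, k, hm1, hk1, hcop, hroot⟩ := hirr W.c₄ W.c₆ hc M hM2
  obtain ⟨h4c, h6c, hGc⟩ := fam_congr W.c₄ W.c₆ m k M hm1 hk1
  have h10368 : (10368 : ℤ) ∣ M := ⟨5 * |W.Δ|, by rw [hMdef]; ring⟩
  have h51840 : (51840 : ℤ) ∣ M := ⟨|W.Δ|, by rw [hMdef]⟩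
  have hΔM : W.Δ ∣ M := Dvd.dvd.mul_left ((dvd_abs _ _).2 dvd_rfl) _
  obtain ⟨W', hW'4, hW'6, hred⟩ := model_exists W (famC4 W.c₄ W.c₆ m k) (famC6 W.c₄ W.c₆ m k)
    (h10368.trans h4c) (h10368.trans h6c)
  have h1728 : 1728 * W'.Δ = (W.c₄ ^ 3 - W.c₆ ^ 2) * famG W.c₄ W.c₆ m k ^ 5 := by
    rw [W'.c_relation, hW'4, hW'6, fam_disc]
  have hG : famG W.c₄ W.c₆ m k ≠ 0 := by
    intro h0
    rw [h0] at hGc
    have h1 : M ∣ 1 := by simpa using (dvd_neg.2 hGc)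
    have := Int.le_of_dvd one_pos h1
    omega
  have hΔ' : W'.Δ ≠ 0 := by
    intro h0
    rw [h0, mul_zero] at h1728
    exact (mul_ne_zero hc (pow_ne_zero 5 hG)) h1728.symm
  have hredM : ∀ p : ℕ, p.Prime → (p : ℤ) ∣ M → W'.reductionMod p = W.reductionMod p :=
    fun p hp hpM => hred p hp (Or.inr (Or.inr ⟨hpM.trans h4c, hpM.trans h6c⟩))
  refine ⟨W', hΔ', ?_, ?_, ?_⟩
  · -- semistable
    intro p hp hpΔ' hpc4'
    by_cases hpM : (p : ℤ) ∣ M
    · obtain ⟨h1, h2⟩ := asm_dvd_of_red (hredM p hp hpM)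
      exact hW p hp (h1.1 hpΔ') (h2.1 hpc4')
    · have : Fact p.Prime := ⟨hp⟩
      have hp7 : 7 ≤ p := asm_seven_le hp (fun h => hpM (h.trans h51840))
      have hpΔ : ¬ (p : ℤ) ∣ W.Δ := fun h => hpM (h.trans hΔM)
      have hp1728 : ¬ (p : ℤ) ∣ 1728 := fun h => hpM ((h.trans (by norm_num : (1728 : ℤ) ∣ 51840)).trans h51840)
      have hpz : Prime (p : ℤ) := Nat.prime_iff_prime_int.1 hp
      have key := hss p hp7 ((W.c₄ : ℤ) : ZMod p) ((W.c₆ : ℤ) : ZMod p)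
        ((m : ℤ) : ZMod p) ((k : ℤ) : ZMod p) ?_ ?_ ?_
      · apply key
        have := map_famC4 (Int.castRingHom (ZMod p)) W.c₄ W.c₆ m k
        simp only [eq_intCast] at this
        rw [← this, ← hW'4]
        exact (ZMod.intCast_zmod_eq_zero_iff_dvd _ _).2 hpc4'
      · intro h0
        have h0' : (((W.c₄ ^ 3 - W.c₆ ^ 2 : ℤ)) : ZMod p) = 0 := by push_cast; exact h0
        rw [ZMod.intCast_zmod_eq_zero_iff_dvd, ← W.c_relation] at h0'
        rcases hpz.dvd_or_dvd h0' with h | h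
        · exact hp1728 h
        · exact hpΔ h
      · by_contra hcon
        push Not at hcon
        obtain ⟨a, b, hab⟩ := hcop
        have h1 := (ZMod.intCast_zmod_eq_zero_iff_dvd _ _).1 hcon.1
        have h2 := (ZMod.intCast_zmod_eq_zero_iff_dvd _ _).1 hcon.2
        have h3 : (p : ℤ) ∣ 1 := by
          rw [← hab]
          exact dvd_add (Dvd.dvd.mul_left h1 _) (Dvd.dvd.mul_left h2 _)
        have := Int.le_of_dvd one_pos h3
        have := hp.two_le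
        omega
      · have h4 := map_famC4 (Int.castRingHom (ZMod p)) W.c₄ W.c₆ m k
        have h6 := map_famC6 (Int.castRingHom (ZMod p)) W.c₄ W.c₆ m k
        simp only [eq_intCast] at h4 h6
        rw [← h4, ← h6, ← hW'4, ← hW'6]
        have : (((W'.c₄ ^ 3 - W'.c₆ ^ 2 : ℤ)) : ZMod p) = 0 := by
          rw [ZMod.intCast_zmod_eq_zero_iff_dvd, ← W'.c_relation]
          exact Dvd.dvd.mul_left hpΔ' _
        push_cast at this
        exact this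
  · -- irreducible mod 3
    apply irred3_of_no_root W' hΔ'
    intro z
    rw [hW'4, hW'6]
    exact hroot z
  · -- congruence of traces
    intro ℓ hℓ hgood hgood' hℓ5
    have : Fact ℓ.Prime := ⟨hℓ⟩
    by_cases hℓM : (ℓ : ℤ) ∣ M
    · have hr := hredM ℓ hℓ hℓM
      have : W'.apOfModel ℓ = W.apOfModel ℓ := by
        unfold WeierstrassCurve.apOfModel
        rw [hr]
      rw [this, sub_self]
      exact dvd_zero _
    · have hℓ7 : 7 ≤ ℓ := asm_seven_le hℓ (fun h => hℓM (h.trans h51840))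
      exact hcong ℓ hℓ7 W W' m k hW'4 hW'6 hgood hgood'

end Fermat.Agent.S52
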