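import Fermat.Agent.S52.KleinDefs

set_option autoImplicit false

namespace Fermat.Agent.S52

section FamilyId

variable {R : Type*} [CommRing R]

/-- `α(X,Y)`: `∂f/∂y = x * α(x^5, y^5)`. -/
def kal (X Y : R) : R := X ^ 2 + 66 * X * Y - 11 * Y ^ 2

/-- `β(X,Y)`: `∂f/∂x = y * β(x^5, y^5)`. -/
def kbe (X Y : R) : R := 11 * X ^ 2 + 66 * X * Y - Y ^ 2

/-- `H(x,y) = kh (x^5) (y^5)`. -/
def kh (X Y : R) : R := -X ^ 4 + 228 * X ^ 3 * Y - 494 * X ^ 2 * Y ^ 2 - 228 * X * Y ^ 3 - Y ^ 4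

/-- `T(x,y) = kt (x^5) (y^5)`. -/
def kt (X Y : R) : R :=
  X ^ 6 + 522 * X ^ 5 * Y - 10005 * X ^ 4 * Y ^ 2 - 10005 * X ^ 2 * Y ^ 4 - 522 * X * Y ^ 5 + Y ^ 6

theorem kH_eq_kh (x y : R) : kH x y = kh (x ^ 5) (y ^ 5) := by
  unfold kH kh; ring

theorem kT_eq_kt (x y : R) : kT x y = kt (x ^ 5) (y ^ 5) := by
  unfold kT kt; ring

theorem kP1_eq_kal (x y : R) : kP1 x y = x * kal (x ^ 5) (y ^ 5) := by
  unfold kP1 kal; ring

theorem kP2_eq_kbe (x y : R) : kP2 x y = -(y * kbe (x ^ 5) (y ^ 5)) := by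
  unfold kP2 kbe; ring

theorem klein_rel (x y : R) : kT x y ^ 2 + kH x y ^ 3 = 1728 * kf x y ^ 5 := by
  unfold kT kH kf; ring

theorem klein_euler (x y : R) : x * kP2 x y - y * kP1 x y = -12 * kf x y := by
  unfold kP1 kP2 kf; ring

end FamilyId

end Fermat.Agent.S52
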