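import Fermat.Agent.S52.FamC4Defs

set_option autoImplicit false

namespace Fermat.Agent.S52

section FamilyId

variable {R : Type*} [CommRing R]

set_option maxHeartbeats 0 in
set_option maxRecDepth 100000 in
theorem fcoC4_11 (X Y : R) :
    feC4_11 X Y (kal X Y) (kbe X Y) = famC4_11 (-kh X Y) (-kt X Y) := by
  simp only [feC4_11, feC4_11_0, famC4_11, kal, kbe, kh, kt]
  ring

set_option maxHeartbeats 0 in
set_option maxRecDepth 100000 in
theorem fcoC4_12 (X Y : R) :
    feC4_12 X Y (kal X Y) (kbe X Y) = famC4_12 (-kh X Y) (-kt X Y) := by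
  simp only [feC4_12, feC4_12_0, famC4_12, kal, kbe, kh, kt]
  ring

set_option maxHeartbeats 0 in
set_option maxRecDepth 100000 in
theorem fcoC4_13 (X Y : R) :
    feC4_13 X Y (kal X Y) (kbe X Y) = famC4_13 (-kh X Y) (-kt X Y) := by
  simp only [feC4_13, feC4_13_0, famC4_13, kal, kbe, kh, kt]
  ring

set_option maxHeartbeats 0 in
set_option maxRecDepth 100000 in
theorem fcoC4_14 (X Y : R) :
    feC4_14 X Y (kal X Y) (kbe X Y) = famC4_14 (-kh X Y) (-kt X Y) := by
  simp only [feC4_14, feC4_14_0, famC4_14, kal, kbe, kh, kt]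
  ring

set_option maxHeartbeats 0 in
set_option maxRecDepth 100000 in
theorem fcoC4_15 (X Y : R) :
    feC4_15 X Y (kal X Y) (kbe X Y) = famC4_15 (-kh X Y) (-kt X Y) := by
  simp only [feC4_15, feC4_15_0, famC4_15, kal, kbe, kh, kt]
  ring

set_option maxHeartbeats 0 in
set_option maxRecDepth 100000 in
theorem fcoC4_16 (X Y : R) :
    feC4_16 X Y (kal X Y) (kbe X Y) = famC4_16 (-kh X Y) (-kt X Y) := by
  simp only [feC4_16, feC4_16_0, famC4_16, kal, kbe, kh, kt]
  ring

set_option maxHeartbeats 0 in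
set_option maxRecDepth 100000 in
theorem fcoC4_17 (X Y : R) :
    feC4_17 X Y (kal X Y) (kbe X Y) = famC4_17 (-kh X Y) (-kt X Y) := by
  simp only [feC4_17, feC4_17_0, famC4_17, kal, kbe, kh, kt]
  ring

set_option maxHeartbeats 0 in
set_option maxRecDepth 100000 in
theorem fcoC4_18 (X Y : R) :
    feC4_18 X Y (kal X Y) (kbe X Y) = famC4_18 (-kh X Y) (-kt X Y) := by
  simp only [feC4_18, feC4_18_0, famC4_18, kal, kbe, kh, kt]
  ring

set_option maxHeartbeats 0 in
set_option maxRecDepth 100000 in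
theorem fcoC4_19 (X Y : R) :
    feC4_19 X Y (kal X Y) (kbe X Y) = famC4_19 (-kh X Y) (-kt X Y) := by
  simp only [feC4_19, feC4_19_0, famC4_19, kal, kbe, kh, kt]
  ring

set_option maxHeartbeats 0 in
set_option maxRecDepth 100000 in
theorem fcoC4_20 (X Y : R) :
    feC4_20 X Y (kal X Y) (kbe X Y) = famC4_20 (-kh X Y) (-kt X Y) := by
  simp only [feC4_20, feC4_20_0, famC4_20, kal, kbe, kh, kt]
  ring

end FamilyId

end Fermat.Agent.S52
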