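import Fermat.Agent.S52.FamC4a
import Fermat.Agent.S52.FamC4b

set_option autoImplicit false

namespace Fermat.Agent.S52

section FamilyId

variable {R : Type*} [CommRing R]

set_option maxHeartbeats 0 in
set_option maxRecDepth 100000 in
theorem fsumC4 (X Y m n : R) :
    fxC4_0 X Y (kal X Y) (kbe X Y) m n + fxC4_1 X Y (kal X Y) (kbe X Y) m n + fxC4_2 X Y (kal X Y)
      (kbe X Y) m n + fxC4_3 X Y (kal X Y) (kbe X Y) m n + fxC4_4 X Y (kal X Y) (kbe X Y) m n +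
      fxC4_5 X Y (kal X Y) (kbe X Y) m n =
      famC4 (-kh X Y) (-kt X Y) m n := by
  simp only [fxC4_0, fxC4_1, fxC4_2, fxC4_3, fxC4_4, fxC4_5, fcoC4_0, fcoC4_1, fcoC4_2, fcoC4_3, fcoC4_4,
    fcoC4_5, fcoC4_6, fcoC4_7, fcoC4_8, fcoC4_9, fcoC4_10, fcoC4_11, fcoC4_12, fcoC4_13,
    fcoC4_14, fcoC4_15, fcoC4_16, fcoC4_17, fcoC4_18, fcoC4_19, fcoC4_20, famC4, famC4_blk0,
    famC4_blk1, famC4_blk2, famC4_blk3, famC4_blk4, famC4_blk5]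

set_option maxHeartbeats 0 in
set_option maxRecDepth 100000 in
theorem fam_H (x y m n : R) :
    -kH (n * x + m * kP1 x y) (n * y + m * kP2 x y) = famC4 (-kH x y) (-kT x y) m n := by
  have h1 := fexpC4 (x ^ 5) (y ^ 5) (kal (x ^ 5) (y ^ 5)) (kbe (x ^ 5) (y ^ 5)) m n
  have h2 := fsumC4 (x ^ 5) (y ^ 5) m n
  rw [kP1_eq_kal, kP2_eq_kbe, kH_eq_kh x y, kT_eq_kt x y]
  have h3 : -kH (n * x + m * (x * kal (x ^ 5) (y ^ 5))) (n * y + m * -(y * kbe (x ^ 5) (y ^ 5))) =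
      (x ^ 5) ^ 4 * (n + m * kal (x ^ 5) (y ^ 5)) ^ 20 - 228 * (x ^ 5) ^ 3 * (y ^ 5) * (n + m * kal (x
        ^ 5) (y ^ 5)) ^ 15 * (n - m * kbe (x ^ 5) (y ^ 5)) ^ 5 + 494 * (x ^ 5) ^ 2 * (y ^ 5) ^ 2
        * (n + m * kal (x ^ 5) (y ^ 5)) ^ 10 * (n - m * kbe (x ^ 5) (y ^ 5)) ^ 10 + 228 * (x ^
        5) * (y ^ 5) ^ 3 * (n + m * kal (x ^ 5) (y ^ 5)) ^ 5 * (n - m * kbe (x ^ 5) (y ^ 5)) ^
        15 + (y ^ 5) ^ 4 * (n - m * kbe (x ^ 5) (y ^ 5)) ^ 20 := by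
    unfold kH
    generalize kal (x ^ 5) (y ^ 5) = al
    generalize kbe (x ^ 5) (y ^ 5) = be
    ring
  rw [h3, h1, h2]

end FamilyId

end Fermat.Agent.S52
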