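import Fermat.Agent.S52.FamBase

set_option autoImplicit false

namespace Fermat.Agent.S52

section FamilyId

variable {R : Type*} [CommRing R]

/-- Auxiliary partial sum. -/
def feG_0_0 (X Y al be : R) : R :=
  X ^ 2 + 11 * X * Y - Y ^ 2

/-- Coefficient of `m^0 n^12` in the expansion. -/
def feG_0 (X Y al be : R) : R :=
  feG_0_0 X Y al be

/-- Auxiliary partial sum. -/
def feG_1_0 (X Y al be : R) : R :=
  -X ^ 2 * be + 11 * X ^ 2 * al - 66 * X * Y * be + 66 * X * Y * al + 11 * Y ^ 2 * be - Y ^ 2 * al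

/-- Coefficient of `m^1 n^11` in the expansion. -/
def feG_1 (X Y al be : R) : R :=
  feG_1_0 X Y al be

/-- Auxiliary partial sum. -/
def feG_2_0 (X Y al be : R) : R :=
  -11 * X ^ 2 * al * be + 55 * X ^ 2 * al ^ 2 + 165 * X * Y * be ^ 2 - 396 * X * Y * al * be + 165
    * X * Y * al ^ 2 - 55 * Y ^ 2 * be ^ 2 + 11 * Y ^ 2 * al * be

/-- Coefficient of `m^2 n^10` in the expansion. -/
def feG_2 (X Y al be : R) : R :=
  feG_2_0 X Y al be

/-- Auxiliary partial sum. -/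
def feG_3_0 (X Y al be : R) : R :=
  -55 * X ^ 2 * al ^ 2 * be + 165 * X ^ 2 * al ^ 3 - 220 * X * Y * be ^ 3 + 990 * X * Y * al * be
    ^ 2 - 990 * X * Y * al ^ 2 * be + 220 * X * Y * al ^ 3 + 165 * Y ^ 2 * be ^ 3 - 55 * Y ^ 2 *
    al * be ^ 2

/-- Coefficient of `m^3 n^9` in the expansion. -/
def feG_3 (X Y al be : R) : R :=
  feG_3_0 X Y al be

/-- Auxiliary partial sum. -/
def feG_4_0 (X Y al be : R) : R :=
  -165 * X ^ 2 * al ^ 3 * be + 330 * X ^ 2 * al ^ 4 + 165 * X * Y * be ^ 4 - 1320 * X * Y * al *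
    be ^ 3 + 2475 * X * Y * al ^ 2 * be ^ 2 - 1320 * X * Y * al ^ 3 * be + 165 * X * Y * al ^ 4
    - 330 * Y ^ 2 * be ^ 4 + 165 * Y ^ 2 * al * be ^ 3

/-- Coefficient of `m^4 n^8` in the expansion. -/
def feG_4 (X Y al be : R) : R :=
  feG_4_0 X Y al be

/-- Auxiliary partial sum. -/
def feG_5_0 (X Y al be : R) : R :=
  -330 * X ^ 2 * al ^ 4 * be + 462 * X ^ 2 * al ^ 5 - 66 * X * Y * be ^ 5 + 990 * X * Y * al * be
    ^ 4 - 3300 * X * Y * al ^ 2 * be ^ 3 + 3300 * X * Y * al ^ 3 * be ^ 2 - 990 * X * Y * al ^ 4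
    * be + 66 * X * Y * al ^ 5 + 462 * Y ^ 2 * be ^ 5 - 330 * Y ^ 2 * al * be ^ 4

/-- Coefficient of `m^5 n^7` in the expansion. -/
def feG_5 (X Y al be : R) : R :=
  feG_5_0 X Y al be

/-- Auxiliary partial sum. -/
def feG_6_0 (X Y al be : R) : R :=
  -462 * X ^ 2 * al ^ 5 * be + 462 * X ^ 2 * al ^ 6 + 11 * X * Y * be ^ 6 - 396 * X * Y * al * be
    ^ 5 + 2475 * X * Y * al ^ 2 * be ^ 4 - 4400 * X * Y * al ^ 3 * be ^ 3 + 2475 * X * Y * al ^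
    4 * be ^ 2 - 396 * X * Y * al ^ 5 * be + 11 * X * Y * al ^ 6 - 462 * Y ^ 2 * be ^ 6 + 462 *
    Y ^ 2 * al * be ^ 5

/-- Coefficient of `m^6 n^6` in the expansion. -/
def feG_6 (X Y al be : R) : R :=
  feG_6_0 X Y al be

/-- Auxiliary partial sum. -/
def feG_7_0 (X Y al be : R) : R :=
  -462 * X ^ 2 * al ^ 6 * be + 330 * X ^ 2 * al ^ 7 + 66 * X * Y * al * be ^ 6 - 990 * X * Y * al
    ^ 2 * be ^ 5 + 3300 * X * Y * al ^ 3 * be ^ 4 - 3300 * X * Y * al ^ 4 * be ^ 3 + 990 * X * Y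
    * al ^ 5 * be ^ 2 - 66 * X * Y * al ^ 6 * be + 330 * Y ^ 2 * be ^ 7 - 462 * Y ^ 2 * al * be
    ^ 6

/-- Coefficient of `m^7 n^5` in the expansion. -/
def feG_7 (X Y al be : R) : R :=
  feG_7_0 X Y al be

/-- Auxiliary partial sum. -/
def feG_8_0 (X Y al be : R) : R :=
  -330 * X ^ 2 * al ^ 7 * be + 165 * X ^ 2 * al ^ 8 + 165 * X * Y * al ^ 2 * be ^ 6 - 1320 * X * Y
    * al ^ 3 * be ^ 5 + 2475 * X * Y * al ^ 4 * be ^ 4 - 1320 * X * Y * al ^ 5 * be ^ 3 + 165 *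
    X * Y * al ^ 6 * be ^ 2 - 165 * Y ^ 2 * be ^ 8 + 330 * Y ^ 2 * al * be ^ 7

/-- Coefficient of `m^8 n^4` in the expansion. -/
def feG_8 (X Y al be : R) : R :=
  feG_8_0 X Y al be

/-- Auxiliary partial sum. -/
def feG_9_0 (X Y al be : R) : R :=
  -165 * X ^ 2 * al ^ 8 * be + 55 * X ^ 2 * al ^ 9 + 220 * X * Y * al ^ 3 * be ^ 6 - 990 * X * Y *
    al ^ 4 * be ^ 5 + 990 * X * Y * al ^ 5 * be ^ 4 - 220 * X * Y * al ^ 6 * be ^ 3 + 55 * Y ^ 2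
    * be ^ 9 - 165 * Y ^ 2 * al * be ^ 8

/-- Coefficient of `m^9 n^3` in the expansion. -/
def feG_9 (X Y al be : R) : R :=
  feG_9_0 X Y al be

/-- Auxiliary partial sum. -/
def feG_10_0 (X Y al be : R) : R :=
  -55 * X ^ 2 * al ^ 9 * be + 11 * X ^ 2 * al ^ 10 + 165 * X * Y * al ^ 4 * be ^ 6 - 396 * X * Y *
    al ^ 5 * be ^ 5 + 165 * X * Y * al ^ 6 * be ^ 4 - 11 * Y ^ 2 * be ^ 10 + 55 * Y ^ 2 * al *
    be ^ 9

/-- Coefficient of `m^10 n^2` in the expansion. -/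
def feG_10 (X Y al be : R) : R :=
  feG_10_0 X Y al be

/-- Auxiliary partial sum. -/
def feG_11_0 (X Y al be : R) : R :=
  -11 * X ^ 2 * al ^ 10 * be + X ^ 2 * al ^ 11 + 66 * X * Y * al ^ 5 * be ^ 6 - 66 * X * Y * al ^
    6 * be ^ 5 + Y ^ 2 * be ^ 11 - 11 * Y ^ 2 * al * be ^ 10

/-- Coefficient of `m^11 n^1` in the expansion. -/
def feG_11 (X Y al be : R) : R :=
  feG_11_0 X Y al be

/-- Auxiliary partial sum. -/
def feG_12_0 (X Y al be : R) : R :=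
  -X ^ 2 * al ^ 11 * be + 11 * X * Y * al ^ 6 * be ^ 6 + Y ^ 2 * al * be ^ 11

/-- Coefficient of `m^12 n^0` in the expansion. -/
def feG_12 (X Y al be : R) : R :=
  feG_12_0 X Y al be

/-- Auxiliary partial sum. -/
def fxG_0 (X Y al be m n : R) : R :=
  feG_0 X Y al be * (n ^ 12)
    + feG_1 X Y al be * (m * n ^ 11)
    + feG_2 X Y al be * (m ^ 2 * n ^ 10)
    + feG_3 X Y al be * (m ^ 3 * n ^ 9)

/-- Auxiliary partial sum. -/
def fxG_1 (X Y al be m n : R) : R :=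
  feG_4 X Y al be * (m ^ 4 * n ^ 8)
    + feG_5 X Y al be * (m ^ 5 * n ^ 7)
    + feG_6 X Y al be * (m ^ 6 * n ^ 6)
    + feG_7 X Y al be * (m ^ 7 * n ^ 5)

/-- Auxiliary partial sum. -/
def fxG_2 (X Y al be m n : R) : R :=
  feG_8 X Y al be * (m ^ 8 * n ^ 4)
    + feG_9 X Y al be * (m ^ 9 * n ^ 3)
    + feG_10 X Y al be * (m ^ 10 * n ^ 2)
    + feG_11 X Y al be * (m ^ 11 * n)

/-- Auxiliary partial sum. -/
def fxG_3 (X Y al be m n : R) : R :=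
  feG_12 X Y al be * (m ^ 12)

set_option maxHeartbeats 0 in
set_option maxRecDepth 100000 in
theorem fexpG (X Y al be m n : R) :
    X ^ 2 * (n + m * al) ^ 11 * (n - m * be) + 11 * X * Y * (n + m * al) ^ 6 * (n - m * be) ^ 6 - Y
      ^ 2 * (n + m * al) * (n - m * be) ^ 11 =
      fxG_0 X Y al be m n + fxG_1 X Y al be m n + fxG_2 X Y al be m n + fxG_3 X Y al be m n := by
  simp only [fxG_0, fxG_1, fxG_2, fxG_3, feG_0, feG_1, feG_2, feG_3, feG_4, feG_5, feG_6, feG_7, feG_8,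
    feG_9, feG_10, feG_11, feG_12, feG_0_0, feG_1_0, feG_2_0, feG_3_0, feG_4_0, feG_5_0,
    feG_6_0, feG_7_0, feG_8_0, feG_9_0, feG_10_0, feG_11_0, feG_12_0]
  ring

set_option maxHeartbeats 0 in
set_option maxRecDepth 100000 in
theorem fcoG_0 (X Y : R) :
    feG_0 X Y (kal X Y) (kbe X Y) = (X ^ 2 + 11 * X * Y - Y ^ 2) * famG_0 (-kh X Y) (-kt X Y) := by
  simp only [feG_0, feG_0_0, famG_0, kal, kbe, kh, kt]
  ring

set_option maxHeartbeats 0 in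
set_option maxRecDepth 100000 in
theorem fcoG_1 (X Y : R) :
    feG_1 X Y (kal X Y) (kbe X Y) = 0 := by
  simp only [feG_1, feG_1_0, kal, kbe, kh, kt]
  ring

set_option maxHeartbeats 0 in
set_option maxRecDepth 100000 in
theorem fcoG_2 (X Y : R) :
    feG_2 X Y (kal X Y) (kbe X Y) = (X ^ 2 + 11 * X * Y - Y ^ 2) * famG_2 (-kh X Y) (-kt X Y) := by
  simp only [feG_2, feG_2_0, famG_2, kal, kbe, kh, kt]
  ring

set_option maxHeartbeats 0 in
set_option maxRecDepth 100000 in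
theorem fcoG_3 (X Y : R) :
    feG_3 X Y (kal X Y) (kbe X Y) = (X ^ 2 + 11 * X * Y - Y ^ 2) * famG_3 (-kh X Y) (-kt X Y) := by
  simp only [feG_3, feG_3_0, famG_3, kal, kbe, kh, kt]
  ring

set_option maxHeartbeats 0 in
set_option maxRecDepth 100000 in
theorem fcoG_4 (X Y : R) :
    feG_4 X Y (kal X Y) (kbe X Y) = (X ^ 2 + 11 * X * Y - Y ^ 2) * famG_4 (-kh X Y) (-kt X Y) := by
  simp only [feG_4, feG_4_0, famG_4, kal, kbe, kh, kt]
  ring

set_option maxHeartbeats 0 in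
set_option maxRecDepth 100000 in
theorem fcoG_5 (X Y : R) :
    feG_5 X Y (kal X Y) (kbe X Y) = (X ^ 2 + 11 * X * Y - Y ^ 2) * famG_5 (-kh X Y) (-kt X Y) := by
  simp only [feG_5, feG_5_0, famG_5, kal, kbe, kh, kt]
  ring

set_option maxHeartbeats 0 in
set_option maxRecDepth 100000 in
theorem fcoG_6 (X Y : R) :
    feG_6 X Y (kal X Y) (kbe X Y) = (X ^ 2 + 11 * X * Y - Y ^ 2) * famG_6 (-kh X Y) (-kt X Y) := by
  simp only [feG_6, feG_6_0, famG_6, kal, kbe, kh, kt]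
  ring

set_option maxHeartbeats 0 in
set_option maxRecDepth 100000 in
theorem fcoG_7 (X Y : R) :
    feG_7 X Y (kal X Y) (kbe X Y) = (X ^ 2 + 11 * X * Y - Y ^ 2) * famG_7 (-kh X Y) (-kt X Y) := by
  simp only [feG_7, feG_7_0, famG_7, kal, kbe, kh, kt]
  ring

set_option maxHeartbeats 0 in
set_option maxRecDepth 100000 in
theorem fcoG_8 (X Y : R) :
    feG_8 X Y (kal X Y) (kbe X Y) = (X ^ 2 + 11 * X * Y - Y ^ 2) * famG_8 (-kh X Y) (-kt X Y) := by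
  simp only [feG_8, feG_8_0, famG_8, kal, kbe, kh, kt]
  ring

set_option maxHeartbeats 0 in
set_option maxRecDepth 100000 in
theorem fcoG_9 (X Y : R) :
    feG_9 X Y (kal X Y) (kbe X Y) = (X ^ 2 + 11 * X * Y - Y ^ 2) * famG_9 (-kh X Y) (-kt X Y) := by
  simp only [feG_9, feG_9_0, famG_9, kal, kbe, kh, kt]
  ring

set_option maxHeartbeats 0 in
set_option maxRecDepth 100000 in
theorem fcoG_10 (X Y : R) :
    feG_10 X Y (kal X Y) (kbe X Y) = (X ^ 2 + 11 * X * Y - Y ^ 2) * famG_10 (-kh X Y) (-kt X Y) := by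
  simp only [feG_10, feG_10_0, famG_10, kal, kbe, kh, kt]
  ring

set_option maxHeartbeats 0 in
set_option maxRecDepth 100000 in
theorem fcoG_11 (X Y : R) :
    feG_11 X Y (kal X Y) (kbe X Y) = (X ^ 2 + 11 * X * Y - Y ^ 2) * famG_11 (-kh X Y) (-kt X Y) := by
  simp only [feG_11, feG_11_0, famG_11, kal, kbe, kh, kt]
  ring

set_option maxHeartbeats 0 in
set_option maxRecDepth 100000 in
theorem fcoG_12 (X Y : R) :
    feG_12 X Y (kal X Y) (kbe X Y) = (X ^ 2 + 11 * X * Y - Y ^ 2) * famG_12 (-kh X Y) (-kt X Y) := by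
  simp only [feG_12, feG_12_0, famG_12, kal, kbe, kh, kt]
  ring

set_option maxHeartbeats 0 in
set_option maxRecDepth 100000 in
theorem fsumG (X Y m n : R) :
    fxG_0 X Y (kal X Y) (kbe X Y) m n + fxG_1 X Y (kal X Y) (kbe X Y) m n + fxG_2 X Y (kal X Y) (kbe
      X Y) m n + fxG_3 X Y (kal X Y) (kbe X Y) m n =
      (X ^ 2 + 11 * X * Y - Y ^ 2) * famG (-kh X Y) (-kt X Y) m n := by
  simp only [fxG_0, fxG_1, fxG_2, fxG_3, fcoG_0, fcoG_1, fcoG_2, fcoG_3, fcoG_4, fcoG_5, fcoG_6, fcoG_7,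
    fcoG_8, fcoG_9, fcoG_10, fcoG_11, fcoG_12, famG, famG_blk0, famG_blk1, famG_blk2]
  ring

set_option maxHeartbeats 0 in
set_option maxRecDepth 100000 in
theorem fam_f (x y m n : R) :
    kf (n * x + m * kP1 x y) (n * y + m * kP2 x y) = kf x y * famG (-kH x y) (-kT x y) m n := by
  have h1 := fexpG (x ^ 5) (y ^ 5) (kal (x ^ 5) (y ^ 5)) (kbe (x ^ 5) (y ^ 5)) m n
  have h2 := fsumG (x ^ 5) (y ^ 5) m n
  rw [kP1_eq_kal, kP2_eq_kbe, kH_eq_kh, kT_eq_kt]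
  have h3 : kf (n * x + m * (x * kal (x ^ 5) (y ^ 5))) (n * y + m * -(y * kbe (x ^ 5) (y ^ 5))) =
      x * y * ((x ^ 5) ^ 2 * (n + m * kal (x ^ 5) (y ^ 5)) ^ 11 * (n - m * kbe (x ^ 5) (y ^ 5)) + 11 * (x ^ 5)
        * (y ^ 5) * (n + m * kal (x ^ 5) (y ^ 5)) ^ 6 * (n - m * kbe (x ^ 5) (y ^ 5)) ^ 6 - (y ^
        5) ^ 2 * (n + m * kal (x ^ 5) (y ^ 5)) * (n - m * kbe (x ^ 5) (y ^ 5)) ^ 11) := by
    unfold kf
    generalize kal (x ^ 5) (y ^ 5) = al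
    generalize kbe (x ^ 5) (y ^ 5) = be
    ring
  have h4 : kf x y = x * y * ((x ^ 5) ^ 2 + 11 * x ^ 5 * y ^ 5 - (y ^ 5) ^ 2) := by
    unfold kf; ring
  rw [h3, h1, h2, h4]
  ring

end FamilyId

end Fermat.Agent.S52
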