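import Mathlib

set_option autoImplicit false

namespace Fermat.Agent.S52

section KleinDefs

variable {R : Type*} [CommRing R]

/-- Klein's icosahedral ground form (degree 12). `Δ = -f^5`. -/
def kf (x y : R) : R := x ^ 11 * y + 11 * x ^ 6 * y ^ 6 - x * y ^ 11

/-- Klein's Hessian form (degree 20). `c₄ = -H`. -/
def kH (x y : R) : R :=
  -x ^ 20 - y ^ 20 + 228 * (x ^ 15 * y ^ 5 - x ^ 5 * y ^ 15) - 494 * x ^ 10 * y ^ 10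

/-- Klein's Jacobian form (degree 30). `c₆ = -T`. -/
def kT (x y : R) : R :=
  x ^ 30 + y ^ 30 + 522 * (x ^ 25 * y ^ 5 - x ^ 5 * y ^ 25)
    - 10005 * (x ^ 20 * y ^ 10 + x ^ 10 * y ^ 20)

/-- First component of the covariant `Φ = (∂f/∂y, -∂f/∂x)`. -/
def kP1 (x y : R) : R := x ^ 11 + 66 * x ^ 6 * y ^ 5 - 11 * x * y ^ 10

/-- Second component of the covariant `Φ = (∂f/∂y, -∂f/∂x)`. -/
def kP2 (x y : R) : R := -(11 * x ^ 10 * y + 66 * x ^ 5 * y ^ 6 - y ^ 11)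

/-- Coefficient of `m^0 n^12` in `famG`. -/
def famG_0 (c4 c6 : R) : R := 1

/-- Coefficient of `m^2 n^10` in `famG`. -/
def famG_2 (c4 c6 : R) : R := -66 * c4

/-- Coefficient of `m^3 n^9` in `famG`. -/
def famG_3 (c4 c6 : R) : R := 440 * c6

/-- Coefficient of `m^4 n^8` in `famG`. -/
def famG_4 (c4 c6 : R) : R := -1485 * c4 ^ 2

/-- Coefficient of `m^5 n^7` in `famG`. -/
def famG_5 (c4 c6 : R) : R := 3168 * c4 * c6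

/-- Coefficient of `m^6 n^6` in `famG`. -/
def famG_6 (c4 c6 : R) : R := -10560 * c6 ^ 2 + 5940 * c4 ^ 3

/-- Coefficient of `m^7 n^5` in `famG`. -/
def famG_7 (c4 c6 : R) : R := 4752 * c4 ^ 2 * c6

/-- Coefficient of `m^8 n^4` in `famG`. -/
def famG_8 (c4 c6 : R) : R := 63360 * c4 * c6 ^ 2 - 66825 * c4 ^ 4

/-- Coefficient of `m^9 n^3` in `famG`. -/
def famG_9 (c4 c6 : R) : R := -140800 * c6 ^ 3 + 142560 * c4 ^ 3 * c6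

/-- Coefficient of `m^10 n^2` in `famG`. -/
def famG_10 (c4 c6 : R) : R := 133056 * c4 ^ 2 * c6 ^ 2 - 133650 * c4 ^ 5

/-- Coefficient of `m^11 n^1` in `famG`. -/
def famG_11 (c4 c6 : R) : R := -61440 * c4 * c6 ^ 3 + 61560 * c4 ^ 4 * c6

/-- Coefficient of `m^12 n^0` in `famG`. -/
def famG_12 (c4 c6 : R) : R := 102400 * c6 ^ 4 - 193536 * c4 ^ 3 * c6 ^ 2 + 91125 * c4 ^ 6

/-- Partial sum of `famG`. -/
def famG_blk0 (c4 c6 m n : R) : R :=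
  famG_0 c4 c6 * (n ^ 12)
    + famG_2 c4 c6 * (m ^ 2 * n ^ 10)
    + famG_3 c4 c6 * (m ^ 3 * n ^ 9)
    + famG_4 c4 c6 * (m ^ 4 * n ^ 8)

/-- Partial sum of `famG`. -/
def famG_blk1 (c4 c6 m n : R) : R :=
  famG_5 c4 c6 * (m ^ 5 * n ^ 7)
    + famG_6 c4 c6 * (m ^ 6 * n ^ 6)
    + famG_7 c4 c6 * (m ^ 7 * n ^ 5)
    + famG_8 c4 c6 * (m ^ 8 * n ^ 4)

/-- Partial sum of `famG`. -/
def famG_blk2 (c4 c6 m n : R) : R :=
  famG_9 c4 c6 * (m ^ 9 * n ^ 3)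
    + famG_10 c4 c6 * (m ^ 10 * n ^ 2)
    + famG_11 c4 c6 * (m ^ 11 * n)
    + famG_12 c4 c6 * (m ^ 12)

/-- The cusp polynomial: `f(n v + m Φ(v)) = f(v) * famG (-H v) (-T v) m n`. -/
def famG (c4 c6 m n : R) : R :=
  famG_blk0 c4 c6 m n
    + famG_blk1 c4 c6 m n
    + famG_blk2 c4 c6 m n

/-- Coefficient of `m^0 n^20` in `famC4`. -/
def famC4_0 (c4 c6 : R) : R := c4

/-- Coefficient of `m^1 n^19` in `famC4`. -/
def famC4_1 (c4 c6 : R) : R := -20 * c6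

/-- Coefficient of `m^2 n^18` in `famC4`. -/
def famC4_2 (c4 c6 : R) : R := 190 * c4 ^ 2

/-- Coefficient of `m^3 n^17` in `famC4`. -/
def famC4_3 (c4 c6 : R) : R := -1140 * c4 * c6

/-- Coefficient of `m^4 n^16` in `famC4`. -/
def famC4_4 (c4 c6 : R) : R := 5700 * c6 ^ 2 - 855 * c4 ^ 3

/-- Coefficient of `m^5 n^15` in `famC4`. -/
def famC4_5 (c4 c6 : R) : R := -15504 * c4 ^ 2 * c6

/-- Coefficient of `m^6 n^14` in `famC4`. -/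
def famC4_6 (c4 c6 : R) : R := -63840 * c4 * c6 ^ 2 + 102600 * c4 ^ 4

/-- Coefficient of `m^7 n^13` in `famC4`. -/
def famC4_7 (c4 c6 : R) : R := 182400 * c6 ^ 3 - 259920 * c4 ^ 3 * c6

/-- Coefficient of `m^8 n^12` in `famC4`. -/
def famC4_8 (c4 c6 : R) : R := 1126320 * c4 ^ 2 * c6 ^ 2 - 1000350 * c4 ^ 5

/-- Coefficient of `m^9 n^11` in `famC4`. -/
def famC4_9 (c4 c6 : R) : R := -7904000 * c4 * c6 ^ 3 + 7736040 * c4 ^ 4 * c6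

/-- Coefficient of `m^10 n^10` in `famC4`. -/
def famC4_10 (c4 c6 : R) : R := 15808000 * c6 ^ 4 - 5619744 * c4 ^ 3 * c6 ^ 2 - 10003500 * c4 ^ 6

/-- Coefficient of `m^11 n^9` in `famC4`. -/
def famC4_11 (c4 c6 : R) : R := -54853760 * c4 ^ 2 * c6 ^ 3 + 54685800 * c4 ^ 5 * c6

/-- Coefficient of `m^12 n^8` in `famC4`. -/
def famC4_12 (c4 c6 : R) : R := 37939200 * c4 * c6 ^ 4 + 7202520 * c4 ^ 4 * c6 ^ 2 - 45015750 * c4 ^ 7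

/-- Coefficient of `m^13 n^7` in `famC4`. -/
def famC4_13 (c4 c6 : R) : R := -58368000 * c6 ^ 5 + 23201280 * c4 ^ 3 * c6 ^ 3 + 35089200 * c4 ^ 6 * c6

/-- Coefficient of `m^14 n^6` in `famC4`. -/
def famC4_14 (c4 c6 : R) : R := 287462400 * c4 ^ 2 * c6 ^ 4 - 495188640 * c4 ^ 5 * c6 ^ 2 + 207765000 * c4 ^ 8

/-- Coefficient of `m^15 n^5` in `famC4`. -/
def famC4_15 (c4 c6 : R) : R := -466944000 * c4 * c6 ^ 5 + 882458496 * c4 ^ 4 * c6 ^ 3 - 415530000 * c4 ^ 7 * c6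

/-- Coefficient of `m^16 n^4` in `famC4`. -/
def famC4_16 (c4 c6 : R) : R := 583680000 * c6 ^ 6 - 1220474880 * c4 ^ 3 * c6 ^ 4 + 714711600 * c4 ^ 6 * c6 ^ 2 - 77911875 * c4 ^ 9

/-- Coefficient of `m^17 n^3` in `famC4`. -/
def famC4_17 (c4 c6 : R) : R := -361881600 * c4 ^ 2 * c6 ^ 5 + 715080960 * c4 ^ 5 * c6 ^ 3 - 353200500 * c4 ^ 8 * c6

/-- Coefficient of `m^18 n^2` in `famC4`. -/
def famC4_18 (c4 c6 : R) : R := -622592000 * c4 * c6 ^ 6 + 2026391040 * c4 ^ 4 * c6 ^ 4 - 2182917600 * c4 ^ 7 * c6 ^ 2 + 779118750 * c4 ^ 10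

/-- Coefficient of `m^19 n^1` in `famC4`. -/
def famC4_19 (c4 c6 : R) : R := 655360000 * c6 ^ 7 - 2005401600 * c4 ^ 3 * c6 ^ 5 + 2044414080 * c4 ^ 6 * c6 ^ 3 - 694372500 * c4 ^ 9 * c6

/-- Coefficient of `m^20 n^0` in `famC4`. -/
def famC4_20 (c4 c6 : R) : R := -180224000 * c4 ^ 2 * c6 ^ 6 + 544997376 * c4 ^ 5 * c6 ^ 4 - 549301500 * c4 ^ 8 * c6 ^ 2 + 184528125 * c4 ^ 11

/-- Partial sum of `famC4`. -/
def famC4_blk0 (c4 c6 m n : R) : R :=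
  famC4_0 c4 c6 * (n ^ 20)
    + famC4_1 c4 c6 * (m * n ^ 19)
    + famC4_2 c4 c6 * (m ^ 2 * n ^ 18)
    + famC4_3 c4 c6 * (m ^ 3 * n ^ 17)

/-- Partial sum of `famC4`. -/
def famC4_blk1 (c4 c6 m n : R) : R :=
  famC4_4 c4 c6 * (m ^ 4 * n ^ 16)
    + famC4_5 c4 c6 * (m ^ 5 * n ^ 15)
    + famC4_6 c4 c6 * (m ^ 6 * n ^ 14)
    + famC4_7 c4 c6 * (m ^ 7 * n ^ 13)

/-- Partial sum of `famC4`. -/
def famC4_blk2 (c4 c6 m n : R) : R :=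
  famC4_8 c4 c6 * (m ^ 8 * n ^ 12)
    + famC4_9 c4 c6 * (m ^ 9 * n ^ 11)
    + famC4_10 c4 c6 * (m ^ 10 * n ^ 10)
    + famC4_11 c4 c6 * (m ^ 11 * n ^ 9)

/-- Partial sum of `famC4`. -/
def famC4_blk3 (c4 c6 m n : R) : R :=
  famC4_12 c4 c6 * (m ^ 12 * n ^ 8)
    + famC4_13 c4 c6 * (m ^ 13 * n ^ 7)
    + famC4_14 c4 c6 * (m ^ 14 * n ^ 6)
    + famC4_15 c4 c6 * (m ^ 15 * n ^ 5)

/-- Partial sum of `famC4`. -/
def famC4_blk4 (c4 c6 m n : R) : R :=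
  famC4_16 c4 c6 * (m ^ 16 * n ^ 4)
    + famC4_17 c4 c6 * (m ^ 17 * n ^ 3)
    + famC4_18 c4 c6 * (m ^ 18 * n ^ 2)
    + famC4_19 c4 c6 * (m ^ 19 * n)

/-- Partial sum of `famC4`. -/
def famC4_blk5 (c4 c6 m n : R) : R :=
  famC4_20 c4 c6 * (m ^ 20)

/-- `c₄` of the family: `-H(n v + m Φ(v)) = famC4 (-H v) (-T v) m n`. -/
def famC4 (c4 c6 m n : R) : R :=
  famC4_blk0 c4 c6 m n
    + famC4_blk1 c4 c6 m n
    + famC4_blk2 c4 c6 m n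
    + famC4_blk3 c4 c6 m n
    + famC4_blk4 c4 c6 m n
    + famC4_blk5 c4 c6 m n

/-- Coefficient of `m^0 n^30` in `famC6`. -/
def famC6_0 (c4 c6 : R) : R := c6

/-- Coefficient of `m^1 n^29` in `famC6`. -/
def famC6_1 (c4 c6 : R) : R := -30 * c4 ^ 2

/-- Coefficient of `m^2 n^28` in `famC6`. -/
def famC6_2 (c4 c6 : R) : R := 435 * c4 * c6

/-- Coefficient of `m^3 n^27` in `famC6`. -/
def famC6_3 (c4 c6 : R) : R := -2900 * c6 ^ 2 - 1160 * c4 ^ 3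

/-- Coefficient of `m^4 n^26` in `famC6`. -/
def famC6_4 (c4 c6 : R) : R := 27405 * c4 ^ 2 * c6

/-- Coefficient of `m^5 n^25` in `famC6`. -/
def famC6_5 (c4 c6 : R) : R := -46980 * c4 * c6 ^ 2 - 95526 * c4 ^ 4

/-- Coefficient of `m^6 n^24` in `famC6`. -/
def famC6_6 (c4 c6 : R) : R := 156600 * c6 ^ 3 + 437175 * c4 ^ 3 * c6

/-- Coefficient of `m^7 n^23` in `famC6`. -/
def famC6_7 (c4 c6 : R) : R := -3915000 * c4 ^ 2 * c6 ^ 2 + 1879200 * c4 ^ 5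

/-- Coefficient of `m^8 n^22` in `famC6`. -/
def famC6_8 (c4 c6 : R) : R := 14407200 * c4 * c6 ^ 3 - 8554275 * c4 ^ 4 * c6

/-- Coefficient of `m^9 n^21` in `famC6`. -/
def famC6_9 (c4 c6 : R) : R := -32016000 * c6 ^ 4 + 42021000 * c4 ^ 3 * c6 ^ 2 - 24312150 * c4 ^ 6

/-- Coefficient of `m^10 n^20` in `famC6`. -/
def famC6_10 (c4 c6 : R) : R := -216588240 * c4 ^ 2 * c6 ^ 3 + 246633255 * c4 ^ 5 * c6

/-- Coefficient of `m^11 n^19` in `famC6`. -/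
def famC6_11 (c4 c6 : R) : R := 1459929600 * c4 * c6 ^ 4 - 1352475900 * c4 ^ 4 * c6 ^ 2 - 162081000 * c4 ^ 7

/-- Coefficient of `m^12 n^18` in `famC6`. -/
def famC6_12 (c4 c6 : R) : R := -2433216000 * c6 ^ 5 - 1612005600 * c4 ^ 3 * c6 ^ 3 + 4131714825 * c4 ^ 6 * c6

/-- Coefficient of `m^13 n^17` in `famC6`. -/
def famC6_13 (c4 c6 : R) : R := 12044419200 * c4 ^ 2 * c6 ^ 4 - 5235216300 * c4 ^ 5 * c6 ^ 2 - 6928962750 * c4 ^ 8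

/-- Coefficient of `m^14 n^16` in `famC6`. -/
def famC6_14 (c4 c6 : R) : R := -43045111800 * c4 ^ 4 * c6 ^ 3 + 43190534475 * c4 ^ 7 * c6

/-- Coefficient of `m^15 n^15` in `famC6`. -/
def famC6_15 (c4 c6 : R) : R := 79420170240 * c4 ^ 3 * c6 ^ 4 - 79575287760 * c4 ^ 6 * c6 ^ 2

/-- Coefficient of `m^16 n^14` in `famC6`. -/
def famC6_16 (c4 c6 : R) : R := -297825638400 * c4 ^ 2 * c6 ^ 5 + 474659611200 * c4 ^ 5 * c6 ^ 3 - 176688550125 * c4 ^ 8 * c6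

/-- Coefficient of `m^17 n^13` in `famC6`. -/
def famC6_17 (c4 c6 : R) : R := 700766208000 * c4 * c6 ^ 6 - 935084908800 * c4 ^ 4 * c6 ^ 4 - 77604382800 * c4 ^ 7 * c6 ^ 2 + 311803323750 * c4 ^ 10

/-- Coefficient of `m^18 n^12` in `famC6`. -/
def famC6_18 (c4 c6 : R) : R := -778629120000 * c6 ^ 7 - 303665356800 * c4 ^ 3 * c6 ^ 5 + 2776512362400 * c4 ^ 6 * c6 ^ 3 - 1694131392375 * c4 ^ 9 * c6

/-- Coefficient of `m^19 n^11` in `famC6`. -/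
def famC6_19 (c4 c6 : R) : R := 4290656256000 * c4 ^ 2 * c6 ^ 6 - 8100765158400 * c4 ^ 5 * c6 ^ 4 + 3481840250100 * c4 ^ 8 * c6 ^ 2 + 328214025000 * c4 ^ 11

/-- Coefficient of `m^20 n^10` in `famC6`. -/
def famC6_20 (c4 c6 : R) : R := -3442360320000 * c4 * c6 ^ 7 + 3892110842880 * c4 ^ 4 * c6 ^ 5 + 2424887357760 * c4 ^ 7 * c6 ^ 3 - 2874607835625 * c4 ^ 10 * c6

/-- Coefficient of `m^21 n^9` in `famC6`. -/
def famC6_21 (c4 c6 : R) : R := 3278438400000 * c6 ^ 8 - 5125838438400 * c4 ^ 3 * c6 ^ 6 + 2709129888000 * c4 ^ 6 * c6 ^ 4 - 3077188825500 * c4 ^ 9 * c6 ^ 2 + 2215444668750 * c4 ^ 12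

/-- Coefficient of `m^22 n^8` in `famC6`. -/
def famC6_22 (c4 c6 : R) : R := -4573421568000 * c4 ^ 2 * c6 ^ 7 + 7701051801600 * c4 ^ 5 * c6 ^ 5 - 1724509423800 * c4 ^ 8 * c6 ^ 3 - 1403114956875 * c4 ^ 11 * c6

/-- Coefficient of `m^23 n^7` in `famC6`. -/
def famC6_23 (c4 c6 : R) : R := -6157762560000 * c4 * c6 ^ 8 + 30337884979200 * c4 ^ 4 * c6 ^ 6 - 49888700928000 * c4 ^ 7 * c6 ^ 4 + 33414470973000 * c4 ^ 10 * c6 ^ 2 - 7705894500000 * c4 ^ 13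

/-- Coefficient of `m^24 n^6` in `famC6`. -/
def famC6_24 (c4 c6 : R) : R := 5131468800000 * c6 ^ 9 - 22779445248000 * c4 ^ 3 * c6 ^ 7 + 35246094796800 * c4 ^ 6 * c6 ^ 5 - 22687218914400 * c4 ^ 9 * c6 ^ 3 + 5089101159375 * c4 ^ 12 * c6

/-- Coefficient of `m^25 n^5` in `famC6`. -/
def famC6_25 (c4 c6 : R) : R := 18216714240000 * c4 ^ 2 * c6 ^ 8 - 71274600677376 * c4 ^ 5 * c6 ^ 6 + 105528606261120 * c4 ^ 8 * c6 ^ 4 - 70097953635000 * c4 ^ 11 * c6 ^ 2 + 17627233668750 * c4 ^ 14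

/-- Coefficient of `m^26 n^4` in `famC6`. -/
def famC6_26 (c4 c6 : R) : R := -41051750400000 * c4 * c6 ^ 9 + 163803539865600 * c4 ^ 4 * c6 ^ 7 - 245438120632320 * c4 ^ 7 * c6 ^ 5 + 163672057566000 * c4 ^ 10 * c6 ^ 3 - 40985726371875 * c4 ^ 13 * c6

/-- Coefficient of `m^27 n^3` in `famC6`. -/
def famC6_27 (c4 c6 : R) : R := 30408704000000 * c6 ^ 10 - 111934439424000 * c4 ^ 3 * c6 ^ 8 + 143803576074240 * c4 ^ 6 * c6 ^ 6 - 63806176396800 * c4 ^ 9 * c6 ^ 4 - 8104032382500 * c4 ^ 12 * c6 ^ 2 + 9632368125000 * c4 ^ 15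

/-- Coefficient of `m^28 n^2` in `famC6`. -/
def famC6_28 (c4 c6 : R) : R := -21438136320000 * c4 ^ 2 * c6 ^ 9 + 85731449241600 * c4 ^ 5 * c6 ^ 7 - 128580522647040 * c4 ^ 8 * c6 ^ 5 + 85719228804000 * c4 ^ 11 * c6 ^ 3 - 21432019078125 * c4 ^ 14 * c6

/-- Coefficient of `m^29 n^1` in `famC6`. -/
def famC6_29 (c4 c6 : R) : R := -5033164800000 * c4 * c6 ^ 10 + 31344427008000 * c4 ^ 4 * c6 ^ 8 - 75042714746880 * c4 ^ 7 * c6 ^ 6 + 87394892457600 * c4 ^ 10 * c6 ^ 4 - 49873523512500 * c4 ^ 13 * c6 ^ 2 + 11210083593750 * c4 ^ 16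

/-- Coefficient of `m^30 n^0` in `famC6`. -/
def famC6_30 (c4 c6 : R) : R := 3355443200000 * c6 ^ 11 - 17532190720000 * c4 ^ 3 * c6 ^ 9 + 36574189977600 * c4 ^ 6 * c6 ^ 7 - 38083944628224 * c4 ^ 9 * c6 ^ 5 + 19796866155000 * c4 ^ 12 * c6 ^ 3 - 4110363984375 * c4 ^ 15 * c6

/-- Partial sum of `famC6`. -/
def famC6_blk0 (c4 c6 m n : R) : R :=
  famC6_0 c4 c6 * (n ^ 30)
    + famC6_1 c4 c6 * (m * n ^ 29)
    + famC6_2 c4 c6 * (m ^ 2 * n ^ 28)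
    + famC6_3 c4 c6 * (m ^ 3 * n ^ 27)

/-- Partial sum of `famC6`. -/
def famC6_blk1 (c4 c6 m n : R) : R :=
  famC6_4 c4 c6 * (m ^ 4 * n ^ 26)
    + famC6_5 c4 c6 * (m ^ 5 * n ^ 25)
    + famC6_6 c4 c6 * (m ^ 6 * n ^ 24)
    + famC6_7 c4 c6 * (m ^ 7 * n ^ 23)

/-- Partial sum of `famC6`. -/
def famC6_blk2 (c4 c6 m n : R) : R :=
  famC6_8 c4 c6 * (m ^ 8 * n ^ 22)
    + famC6_9 c4 c6 * (m ^ 9 * n ^ 21)
    + famC6_10 c4 c6 * (m ^ 10 * n ^ 20)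
    + famC6_11 c4 c6 * (m ^ 11 * n ^ 19)

/-- Partial sum of `famC6`. -/
def famC6_blk3 (c4 c6 m n : R) : R :=
  famC6_12 c4 c6 * (m ^ 12 * n ^ 18)
    + famC6_13 c4 c6 * (m ^ 13 * n ^ 17)
    + famC6_14 c4 c6 * (m ^ 14 * n ^ 16)
    + famC6_15 c4 c6 * (m ^ 15 * n ^ 15)

/-- Partial sum of `famC6`. -/
def famC6_blk4 (c4 c6 m n : R) : R :=
  famC6_16 c4 c6 * (m ^ 16 * n ^ 14)
    + famC6_17 c4 c6 * (m ^ 17 * n ^ 13)
    + famC6_18 c4 c6 * (m ^ 18 * n ^ 12)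
    + famC6_19 c4 c6 * (m ^ 19 * n ^ 11)

/-- Partial sum of `famC6`. -/
def famC6_blk5 (c4 c6 m n : R) : R :=
  famC6_20 c4 c6 * (m ^ 20 * n ^ 10)
    + famC6_21 c4 c6 * (m ^ 21 * n ^ 9)
    + famC6_22 c4 c6 * (m ^ 22 * n ^ 8)
    + famC6_23 c4 c6 * (m ^ 23 * n ^ 7)

/-- Partial sum of `famC6`. -/
def famC6_blk6 (c4 c6 m n : R) : R :=
  famC6_24 c4 c6 * (m ^ 24 * n ^ 6)
    + famC6_25 c4 c6 * (m ^ 25 * n ^ 5)
    + famC6_26 c4 c6 * (m ^ 26 * n ^ 4)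
    + famC6_27 c4 c6 * (m ^ 27 * n ^ 3)

/-- Partial sum of `famC6`. -/
def famC6_blk7 (c4 c6 m n : R) : R :=
  famC6_28 c4 c6 * (m ^ 28 * n ^ 2)
    + famC6_29 c4 c6 * (m ^ 29 * n)
    + famC6_30 c4 c6 * (m ^ 30)

/-- `c₆` of the family: `-T(n v + m Φ(v)) = famC6 (-H v) (-T v) m n`. -/
def famC6 (c4 c6 m n : R) : R :=
  famC6_blk0 c4 c6 m n
    + famC6_blk1 c4 c6 m n
    + famC6_blk2 c4 c6 m n
    + famC6_blk3 c4 c6 m n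
    + famC6_blk4 c4 c6 m n
    + famC6_blk5 c4 c6 m n
    + famC6_blk6 c4 c6 m n
    + famC6_blk7 c4 c6 m n

end KleinDefs

end Fermat.Agent.S52
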