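import Mathlib
import Fermat.Agent.S52.KleinDefs

/-!
# S52 block (II), basic facts on Klein's forms `H`, `T`

* `klein_HT_coprime` : over a field with `2, 3, 5 ≠ 0`, the forms `kH`, `kT` have no common zero
  except `(0, 0)` (Bezout identity in `X = x⁵`, `Y = y⁵` with constant `2⁴ 3² 5¹⁰`);
* `klein_exists_u` : over an algebraically closed field with `2, 3, 5 ≠ 0`, every pair
  `(c₄, c₆)` with `c₄³ ≠ c₆²` is of the form `(-H(x, y), -T(x, y))`.
-/

set_option autoImplicit false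

namespace Fermat.Agent.S52

section forms

variable {R : Type*} [CommRing R]

/-- `kH x y` as a quartic form in `X = x⁵`, `Y = y⁵`. -/
def h34_H4 (X Y : R) : R :=
  -X ^ 4 + 228 * X ^ 3 * Y - 494 * X ^ 2 * Y ^ 2 - 228 * X * Y ^ 3 - Y ^ 4

/-- `kT x y` as a sextic form in `X = x⁵`, `Y = y⁵`. -/
def h34_T6 (X Y : R) : R :=
  X ^ 6 + 522 * X ^ 5 * Y - 10005 * X ^ 4 * Y ^ 2 - 10005 * X ^ 2 * Y ^ 4 - 522 * X * Y ^ 5 + Y ^ 6

theorem h34_kH_eq (x y : R) : kH x y = h34_H4 (x ^ 5) (y ^ 5) := by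
  simp only [kH, h34_H4]
  ring

theorem h34_kT_eq (x y : R) : kT x y = h34_T6 (x ^ 5) (y ^ 5) := by
  simp only [kT, h34_T6]
  ring

/-- Bezout identity for `H`, `T` (resultant `2⁴ 3² 5¹⁰`), `X`-side. -/
theorem h34_bezout_X (X Y : R) :
    (-950431323 * X ^ 5 + 20237705983 * X ^ 4 * Y + 103588896 * X ^ 3 * Y ^ 2
        + 20237108822 * X ^ 2 * Y ^ 3 + 1055557719 * X * Y ^ 4 - 2022161 * Y ^ 5) * h34_H4 X Y
      + (455818677 * X ^ 3 - 1001301767 * X ^ 2 * Y - 461063031 * X * Y ^ 2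
        - 2022161 * Y ^ 3) * h34_T6 X Y = 1406250000 * X ^ 9 := by
  simp only [h34_H4, h34_T6]
  ring

/-- Bezout identity for `H`, `T`, `Y`-side (apply `(X, Y) ↦ (Y, -X)`). -/
theorem h34_bezout_Y (X Y : R) :
    (-950431323 * Y ^ 5 - 20237705983 * Y ^ 4 * X + 103588896 * Y ^ 3 * X ^ 2
        - 20237108822 * Y ^ 2 * X ^ 3 + 1055557719 * Y * X ^ 4 + 2022161 * X ^ 5) * h34_H4 X Y
      + (455818677 * Y ^ 3 + 1001301767 * Y ^ 2 * X - 461063031 * Y * X ^ 2
        + 2022161 * X ^ 3) * h34_T6 X Y = 1406250000 * Y ^ 9 := by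
  simp only [h34_H4, h34_T6]
  ring

theorem h34_kH_smul (l x y : R) : kH (l * x) (l * y) = l ^ 20 * kH x y := by
  simp only [kH]
  ring

theorem h34_kT_smul (l x y : R) : kT (l * x) (l * y) = l ^ 30 * kT x y := by
  simp only [kT]
  ring

end forms

/-- Over a field in which `2, 3, 5` are invertible, `H` and `T` have no common zero but `0`. -/
theorem klein_HT_coprime {k : Type*} [Field k] (h2 : (2 : k) ≠ 0) (h3 : (3 : k) ≠ 0)
    (h5 : (5 : k) ≠ 0) (x y : k) (hH : kH x y = 0) (hT : kT x y = 0) : x = 0 ∧ y = 0 := by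
  rw [h34_kH_eq] at hH
  rw [h34_kT_eq] at hT
  have hc : (1406250000 : k) ≠ 0 := by
    have : (1406250000 : k) = 2 ^ 4 * 3 ^ 2 * 5 ^ 10 := by norm_num
    rw [this]
    exact mul_ne_zero (mul_ne_zero (pow_ne_zero _ h2) (pow_ne_zero _ h3)) (pow_ne_zero _ h5)
  constructor
  · have h := h34_bezout_X (x ^ 5) (y ^ 5)
    rw [hH, hT, mul_zero, mul_zero, add_zero] at h
    have h' : (x ^ 5) ^ 9 = 0 := (mul_eq_zero.mp h.symm).resolve_left hc
    exact pow_eq_zero_iff (by norm_num) |>.mp (pow_eq_zero_iff (by norm_num) |>.mp h')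
  · have h := h34_bezout_Y (x ^ 5) (y ^ 5)
    rw [hH, hT, mul_zero, mul_zero, add_zero] at h
    have h' : (y ^ 5) ^ 9 = 0 := (mul_eq_zero.mp h.symm).resolve_left hc
    exact pow_eq_zero_iff (by norm_num) |>.mp (pow_eq_zero_iff (by norm_num) |>.mp h')

open Polynomial in
/-- The polynomial `c₆² H(t,1)³ + c₄³ T(t,1)²` has a root when `c₄³ ≠ c₆²`. -/
theorem h34_exists_root {k : Type*} [Field k] [IsAlgClosed k] (c4 c6 : k)
    (hΔ : c4 ^ 3 - c6 ^ 2 ≠ 0) :
    ∃ t : k, c6 ^ 2 * kH t 1 ^ 3 + c4 ^ 3 * kT t 1 ^ 2 = 0 := by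
  set h₀ : k[X] := 228 * X ^ 15 - 494 * X ^ 10 - 228 * X ^ 5 - 1 with hh₀
  set τ₀ : k[X] := 522 * X ^ 25 - 10005 * X ^ 20 - 10005 * X ^ 10 - 522 * X ^ 5 + 1 with hτ₀
  set Q : k[X] := C (c6 ^ 2) * (3 * X ^ 40 * h₀ - 3 * X ^ 20 * h₀ ^ 2 + h₀ ^ 3)
    + C (c4 ^ 3) * (2 * X ^ 30 * τ₀ + τ₀ ^ 2) with hQ
  set P : k[X] := C (c4 ^ 3 - c6 ^ 2) * X ^ 60 + Q with hP
  have hQdeg : Q.natDegree ≤ 55 := by
    rw [hQ, hh₀, hτ₀]
    compute_degree
  have hcoeff : P.coeff 60 = c4 ^ 3 - c6 ^ 2 := by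
    rw [hP, coeff_add, coeff_C_mul, coeff_X_pow, if_pos rfl, mul_one,
      coeff_eq_zero_of_natDegree_lt (lt_of_le_of_lt hQdeg (by norm_num)), add_zero]
  have hPdeg : P.degree ≠ 0 := by
    intro h0
    have h1 : P.natDegree = 0 := natDegree_eq_zero_iff_degree_le_zero.mpr h0.le
    have h2 : P.coeff 60 = 0 := coeff_eq_zero_of_natDegree_lt (by rw [h1]; norm_num)
    exact hΔ (hcoeff ▸ h2)
  obtain ⟨t, ht⟩ := IsAlgClosed.exists_root P hPdeg
  refine ⟨t, ?_⟩
  have ht' : eval t P = 0 := ht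
  rw [hP, hQ, hh₀, hτ₀] at ht'
  simp only [eval_add, eval_mul, eval_C, eval_pow, eval_X, eval_sub, eval_ofNat, eval_one]
    at ht'
  simp only [kH, kT]
  linear_combination ht'

/-- Over an algebraically closed field with `2, 3, 5 ≠ 0`, every `(c₄, c₆)` with `c₄³ ≠ c₆²` is
`(-H(x, y), -T(x, y))` for some `(x, y)`. -/
theorem klein_exists_u {k : Type*} [Field k] [IsAlgClosed k] (h2 : (2 : k) ≠ 0)
    (h3 : (3 : k) ≠ 0) (h5 : (5 : k) ≠ 0) (c4 c6 : k) (hΔ : c4 ^ 3 - c6 ^ 2 ≠ 0) :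
    ∃ x y : k, -kH x y = c4 ∧ -kT x y = c6 := by
  obtain ⟨t, ht⟩ := h34_exists_root c4 c6 hΔ
  set h := kH t 1 with hh
  set τ := kT t 1 with hτ
  have hnot : ¬ (h = 0 ∧ τ = 0) := by
    rintro ⟨e1, e2⟩
    exact one_ne_zero (klein_HT_coprime h2 h3 h5 t 1 e1 e2).2
  -- `μ` with `μ² h = -c₄`, `μ³ τ = -c₆`
  obtain ⟨μ, hμ2, hμ3⟩ : ∃ μ : k, μ ^ 2 * h = -c4 ∧ μ ^ 3 * τ = -c6 := by
    by_cases e1 : h = 0
    · have e2 : τ ≠ 0 := fun e2 => hnot ⟨e1, e2⟩
      have hc4 : c4 = 0 := by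
        rw [e1] at ht
        have : c4 ^ 3 * τ ^ 2 = 0 := by linear_combination ht
        rcases mul_eq_zero.mp this with h' | h'
        · exact pow_eq_zero_iff (by norm_num) |>.mp h'
        · exact absurd (pow_eq_zero_iff (by norm_num) |>.mp h') e2
      obtain ⟨μ, hμ⟩ := IsAlgClosed.exists_pow_nat_eq (-c6 / τ) (show 0 < 3 by norm_num)
      refine ⟨μ, by rw [e1, hc4]; simp, ?_⟩
      rw [hμ]
      field_simp
    · by_cases e2 : τ = 0
      · have hc6 : c6 = 0 := by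
          rw [e2] at ht
          have : c6 ^ 2 * h ^ 3 = 0 := by linear_combination ht
          rcases mul_eq_zero.mp this with h' | h'
          · exact pow_eq_zero_iff (by norm_num) |>.mp h'
          · exact absurd (pow_eq_zero_iff (by norm_num) |>.mp h') e1
        obtain ⟨μ, hμ⟩ := IsAlgClosed.exists_pow_nat_eq (-c4 / h) (show 0 < 2 by norm_num)
        refine ⟨μ, ?_, by rw [e2, hc6]; simp⟩
        rw [hμ]
        field_simp
      · have hc4 : c4 ≠ 0 := by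
          intro hc4
          rw [hc4] at ht
          have : c6 ^ 2 * h ^ 3 = 0 := by linear_combination ht
          rcases mul_eq_zero.mp this with h' | h'
          · apply hΔ
            rw [hc4, pow_eq_zero_iff (by norm_num) |>.mp h']
            ring
          · exact absurd (pow_eq_zero_iff (by norm_num) |>.mp h') e1
        refine ⟨c6 * h / (c4 * τ), ?_, ?_⟩
        · field_simp
          linear_combination ht
        · field_simp
          linear_combination c6 * ht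
  obtain ⟨l, hl⟩ := IsAlgClosed.exists_pow_nat_eq μ (show 0 < 10 by norm_num)
  refine ⟨l * t, l, ?_, ?_⟩
  · have : kH (l * t) l = l ^ 20 * kH t 1 := by
      have := h34_kH_smul l t 1
      rwa [mul_one] at this
    rw [this, ← hh, show l ^ 20 = (l ^ 10) ^ 2 by ring, hl]
    linear_combination -hμ2
  · have : kT (l * t) l = l ^ 30 * kT t 1 := by
      have := h34_kT_smul l t 1
      rwa [mul_one] at this
    rw [this, ← hτ, show l ^ 30 = (l ^ 10) ^ 3 by ring, hl]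
    linear_combination -hμ3

end Fermat.Agent.S52
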