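import Fermat.Agent.S52.h58_NoPolyCore
import Fermat.Agent.S52.FamBase
import Fermat.Agent.S52.FamG
import Fermat.Agent.S52.FamC4
import Fermat.Agent.S52.FamDisc
import Fermat.Agent.S52.FamLemmas
import Fermat.Agent.S52.h34_KleinBasic

/-!
# S52 (IV), route HIT: `fam_nopoly`

The 3-division quartic of the Klein family `n ↦ (famC4, famC6)(c4, c6, M, n)` has no root in
`ℚ[n]`.
-/

set_option autoImplicit false

open Polynomial

namespace Fermat.Agent.S52

section Maps

variable {R S : Type*} [CommRing R] [CommRing S]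

theorem h58_map_kf (φ : R →+* S) (x y : R) : φ (kf x y) = kf (φ x) (φ y) := by
  unfold kf
  simp only [map_add, map_sub, map_mul, map_pow, map_ofNat]

theorem h58_map_kH (φ : R →+* S) (x y : R) : φ (kH x y) = kH (φ x) (φ y) := by
  unfold kH
  simp only [map_neg, map_add, map_sub, map_mul, map_pow, map_ofNat]

theorem h58_map_kT (φ : R →+* S) (x y : R) : φ (kT x y) = kT (φ x) (φ y) := by
  unfold kT
  simp only [map_add, map_sub, map_mul, map_pow, map_ofNat]

theorem h58_map_kP1 (φ : R →+* S) (x y : R) : φ (kP1 x y) = kP1 (φ x) (φ y) := by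
  unfold kP1
  simp only [map_add, map_sub, map_mul, map_pow, map_ofNat]

theorem h58_map_kP2 (φ : R →+* S) (x y : R) : φ (kP2 x y) = kP2 (φ x) (φ y) := by
  unfold kP2
  simp only [map_neg, map_add, map_sub, map_mul, map_pow, map_ofNat]

/-- Chain rule for the ground form. -/
theorem h58_derivative_kf (p q : R[X]) :
    derivative (kf p q) = -kP2 p q * derivative p + kP1 p q * derivative q := by
  unfold kf kP1 kP2
  simp only [derivative_add, derivative_sub, derivative_mul, derivative_pow,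
    derivative_ofNat, Nat.cast_ofNat, map_ofNat]
  ring

end Maps

section Field

variable {K : Type*} [Field K] [CharZero K]

/-- The covariant `Φ = (kP1, kP2)` has no nontrivial zero. -/
theorem h58_kP_coprime (a b : K) (h1 : kP1 a b = 0) (h2 : kP2 a b = 0) : a = 0 ∧ b = 0 := by
  by_cases ha : a = 0
  · subst ha
    refine ⟨rfl, ?_⟩
    have : b ^ 11 = 0 := by
      have := h2
      simp only [kP2] at this
      linear_combination this
    exact pow_eq_zero_iff (by norm_num) |>.mp this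
  by_cases hb : b = 0
  · subst hb
    refine ⟨?_, rfl⟩
    have : a ^ 11 = 0 := by
      have := h1
      simp only [kP1] at this
      linear_combination this
    exact pow_eq_zero_iff (by norm_num) |>.mp this
  exfalso
  have e1 : a ^ 10 + 66 * a ^ 5 * b ^ 5 - 11 * b ^ 10 = 0 := by
    have : a * (a ^ 10 + 66 * a ^ 5 * b ^ 5 - 11 * b ^ 10) = 0 := by
      simp only [kP1] at h1
      linear_combination h1
    exact (mul_eq_zero.mp this).resolve_left ha
  have e2 : 11 * a ^ 10 + 66 * a ^ 5 * b ^ 5 - b ^ 10 = 0 := by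
    have : b * (11 * a ^ 10 + 66 * a ^ 5 * b ^ 5 - b ^ 10) = 0 := by
      simp only [kP2] at h2
      linear_combination (-1 : K) * h2
    exact (mul_eq_zero.mp this).resolve_left hb
  have e3 : (7500 : K) * b ^ 15 = 0 := by
    linear_combination 726 * b ^ 5 * (e2 - e1) - (11 * a ^ 5 + 2 * b ^ 5) * (11 * e1 - e2)
  rcases mul_eq_zero.mp e3 with h | h
  · exact absurd h (by norm_num)
  · exact hb (pow_eq_zero_iff (by norm_num) |>.mp h)

end Field

section Field

variable {K : Type*} [Field K]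

/-- Linear algebra step: two independent linear conditions force `A = B = 0`. -/
theorem h58_lin (x y P1 P2 A B s m : K) (hm : m ≠ 0) (hdet : x * P2 - y * P1 ≠ 0)
    (h1 : -B * x + A * y = 0)
    (h2 : (s * x + m * P1) * B - (s * y + m * P2) * A = 0) : A = 0 ∧ B = 0 := by
  have k1 : m * (P1 * B - P2 * A) = 0 := by linear_combination h2 + s * h1
  have k1' : P1 * B - P2 * A = 0 := (mul_eq_zero.mp k1).resolve_left hm
  have hB0 : (x * P2 - y * P1) * B = 0 := by linear_combination (-P2) * h1 - y * k1'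
  have hA0 : (x * P2 - y * P1) * A = 0 := by linear_combination (-P1) * h1 - x * k1'
  exact ⟨(mul_eq_zero.mp hA0).resolve_left hdet, (mul_eq_zero.mp hB0).resolve_left hdet⟩

theorem h58_famG_natDegree (c4 c6 M : K) :
    (famG (C c4) (C c6) (C M) (X : K[X])).natDegree = 12 := by
  unfold famG famG_blk0 famG_blk1 famG_blk2 famG_0 famG_2 famG_3 famG_4 famG_5 famG_6 famG_7
    famG_8 famG_9 famG_10 famG_11 famG_12
  compute_degree!

theorem h58_famC4_natDegree_le (c4 c6 M : K) :
    (famC4 (C c4) (C c6) (C M) (X : K[X])).natDegree ≤ 20 := by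
  unfold famC4 famC4_blk0 famC4_blk1 famC4_blk2 famC4_blk3 famC4_blk4 famC4_blk5
    famC4_0 famC4_1 famC4_2 famC4_3 famC4_4 famC4_5 famC4_6 famC4_7 famC4_8 famC4_9 famC4_10
    famC4_11 famC4_12 famC4_13 famC4_14 famC4_15 famC4_16 famC4_17 famC4_18 famC4_19 famC4_20
  compute_degree

end Field

section Main

local notation "Qb" => AlgebraicClosure ℚ
local notation "φ" => algebraMap ℚ (AlgebraicClosure ℚ)

/-- Over the algebraic closure: the family has no common root of `famC4` and `famG`, and `famG`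
is separable. -/
theorem h58_fam_facts (c4 c6 M : ℚ) (hΔ : c4 ^ 3 - c6 ^ 2 ≠ 0) (hM : M ≠ 0) :
    IsCoprime (famC4 (C c4) (C c6) (C M) (X : ℚ[X])) (famG (C c4) (C c6) (C M) X) ∧
    Squarefree (famG (C c4) (C c6) (C M) (X : ℚ[X])) := by
  have h2 : (2 : Qb) ≠ 0 := two_ne_zero
  have h3 : (3 : Qb) ≠ 0 := three_ne_zero
  have h5 : (5 : Qb) ≠ 0 := by norm_num
  have hΔ' : (φ c4) ^ 3 - (φ c6) ^ 2 ≠ 0 := by
    rw [← map_pow, ← map_pow, ← map_sub]
    exact (map_ne_zero φ).mpr hΔ
  have hM' : φ M ≠ 0 := (map_ne_zero φ).mpr hM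
  obtain ⟨x, y, hx, hy⟩ := klein_exists_u h2 h3 h5 (φ c4) (φ c6) hΔ'
  have hf : kf x y ≠ 0 := by
    intro h0
    apply hΔ'
    have := klein_rel x y
    rw [← hx, ← hy]
    rw [h0] at this
    linear_combination -this
  have hdet0 : x * kP2 x y - y * kP1 x y ≠ 0 := by
    rw [klein_euler]
    exact mul_ne_zero (by norm_num) hf
  have hdet : ∀ s : Qb, ¬ (s * x + φ M * kP1 x y = 0 ∧ s * y + φ M * kP2 x y = 0) := by
    rintro s ⟨e1, e2⟩
    have : φ M * (x * kP2 x y - y * kP1 x y) = 0 := by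
      linear_combination x * e2 - y * e1
    exact mul_ne_zero hM' hdet0 this
  have hA : ∀ s : Qb, aeval s (famC4 (C c4) (C c6) (C M) (X : ℚ[X]))
      = -kH (s * x + φ M * kP1 x y) (s * y + φ M * kP2 x y) := by
    intro s
    rw [fam_H x y (φ M) s, hx, hy]
    have := map_famC4 ((aeval s : ℚ[X] →ₐ[ℚ] Qb) : ℚ[X] →+* Qb) (C c4) (C c6) (C M) X
    simpa using this
  have hG : ∀ s : Qb, kf x y * aeval s (famG (C c4) (C c6) (C M) (X : ℚ[X]))
      = kf (s * x + φ M * kP1 x y) (s * y + φ M * kP2 x y) := by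
    intro s
    rw [fam_f x y (φ M) s, hx, hy]
    have := map_famG ((aeval s : ℚ[X] →ₐ[ℚ] Qb) : ℚ[X] →+* Qb) (C c4) (C c6) (C M) X
    congr 1
    simpa using this
  constructor
  · refine (Polynomial.isCoprime_iff_aeval_ne_zero_of_isAlgClosed ℚ Qb _ _).mpr ?_
    intro s
    by_contra hcon
    push Not at hcon
    obtain ⟨ha0, hg0⟩ := hcon
    rw [hA] at ha0
    have hH0 : kH (s * x + φ M * kP1 x y) (s * y + φ M * kP2 x y) = 0 := neg_eq_zero.mp ha0
    have hfu : kf (s * x + φ M * kP1 x y) (s * y + φ M * kP2 x y) = 0 := by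
      rw [← hG s, hg0, mul_zero]
    have hT0 : kT (s * x + φ M * kP1 x y) (s * y + φ M * kP2 x y) = 0 := by
      have hrel := klein_rel (s * x + φ M * kP1 x y) (s * y + φ M * kP2 x y)
      rw [hH0, hfu] at hrel
      have h' : kT (s * x + φ M * kP1 x y) (s * y + φ M * kP2 x y) ^ 2 = 0 := by
        linear_combination hrel
      exact pow_eq_zero_iff (two_ne_zero) |>.mp h'
    exact hdet s (klein_HT_coprime h2 h3 h5 _ _ hH0 hT0)
  · apply Polynomial.Separable.squarefree
    rw [Polynomial.separable_def]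
    refine (Polynomial.isCoprime_iff_aeval_ne_zero_of_isAlgClosed ℚ Qb _ _).mpr ?_
    intro s
    by_contra hcon
    push Not at hcon
    obtain ⟨hg0, hg0'⟩ := hcon
    -- the polynomial identity over the algebraic closure
    have hmapG : (famG (C c4) (C c6) (C M) (X : ℚ[X])).map φ
        = famG (C (φ c4)) (C (φ c6)) (C (φ M)) (X : Qb[X]) := by
      have := map_famG (mapRingHom φ) (C c4) (C c6) (C M) (X : ℚ[X])
      simpa using this
    have hid : kf (X * C x + C (φ M) * kP1 (C x) (C y)) (X * C y + C (φ M) * kP2 (C x) (C y))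
        = C (kf x y) * (famG (C c4) (C c6) (C M) (X : ℚ[X])).map φ := by
      rw [fam_f (C x) (C y) (C (φ M)) (X : Qb[X]), hmapG, ← h58_map_kf C, ← h58_map_kH C,
        ← h58_map_kT C, ← map_neg, ← map_neg, hx, hy]
    have hder := congrArg derivative hid
    rw [h58_derivative_kf, derivative_C_mul, derivative_map] at hder
    have hp' : derivative (X * C x + C (φ M) * kP1 (C x) (C y) : Qb[X]) = C x := by
      rw [← h58_map_kP1 C]
      simp
    have hq' : derivative (X * C y + C (φ M) * kP2 (C x) (C y) : Qb[X]) = C y := by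
      rw [← h58_map_kP2 C]
      simp
    rw [hp', hq'] at hder
    have hps : eval s (X * C x + C (φ M) * kP1 (C x) (C y) : Qb[X])
        = s * x + φ M * kP1 x y := by
      rw [← h58_map_kP1 C]
      simp only [eval_add, eval_mul, eval_X, eval_C]
    have hqs : eval s (X * C y + C (φ M) * kP2 (C x) (C y) : Qb[X])
        = s * y + φ M * kP2 x y := by
      rw [← h58_map_kP2 C]
      simp only [eval_add, eval_mul, eval_X, eval_C]
    have e1 := h58_map_kP1 (evalRingHom s) (X * C x + C (φ M) * kP1 (C x) (C y) : Qb[X])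
      (X * C y + C (φ M) * kP2 (C x) (C y))
    have e2 := h58_map_kP2 (evalRingHom s) (X * C x + C (φ M) * kP1 (C x) (C y) : Qb[X])
      (X * C y + C (φ M) * kP2 (C x) (C y))
    simp only [coe_evalRingHom] at e1 e2
    rw [hps, hqs] at e1 e2
    have e3 : eval s ((derivative (famG (C c4) (C c6) (C M) (X : ℚ[X]))).map φ) = 0 := by
      rw [eval_map, ← aeval_def]
      exact hg0'
    have hev := congrArg (eval s) hder
    simp only [eval_add, eval_mul, eval_neg, eval_C, e1, e2, e3, mul_zero] at hev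
    have hfu : kf (s * x + φ M * kP1 x y) (s * y + φ M * kP2 x y) = 0 := by
      rw [← hG s, hg0, mul_zero]
    have heu := klein_euler (s * x + φ M * kP1 x y) (s * y + φ M * kP2 x y)
    rw [hfu, mul_zero] at heu
    obtain ⟨hA0, hB0⟩ := h58_lin x y (kP1 x y) (kP2 x y)
      (kP1 (s * x + φ M * kP1 x y) (s * y + φ M * kP2 x y))
      (kP2 (s * x + φ M * kP1 x y) (s * y + φ M * kP2 x y)) s (φ M) hM' hdet0 hev heu
    exact hdet s (h58_kP_coprime _ _ hA0 hB0)

/-- **`fam_nopoly`**: the 3-division quartic of the Klein family has no polynomial root. -/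
theorem fam_nopoly (c4 c6 M : ℚ) (hΔ : c4 ^ 3 - c6 ^ 2 ≠ 0) (hM : M ≠ 0) (Z : Polynomial ℚ) :
    Z ^ 4 - 486 * famC4 (C c4) (C c6) (C M) X * Z ^ 2 - 5832 * famC6 (C c4) (C c6) (C M) X * Z
      - 19683 * famC4 (C c4) (C c6) (C M) X ^ 2 ≠ 0 := by
  obtain ⟨hcop, hsq⟩ := h58_fam_facts c4 c6 M hΔ hM
  have hdisc : famC4 (C c4) (C c6) (C M) (X : ℚ[X]) ^ 3 - famC6 (C c4) (C c6) (C M) X ^ 2
      = C (c4 ^ 3 - c6 ^ 2) * famG (C c4) (C c6) (C M) X ^ 5 := by
    rw [fam_disc, map_sub, map_pow, map_pow]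
  exact h58_nopoly_core _ _ _ Z (c4 ^ 3 - c6 ^ 2) hΔ hdisc (h58_famG_natDegree c4 c6 M)
    (h58_famC4_natDegree_le c4 c6 M) hcop hsq

end Main

end Fermat.Agent.S52
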