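import Fermat.Agent.S52.h7_HITQuartic
import Fermat.Agent.S52.FamLemmas
import Fermat.Agent.S52.NoPoly

/-!
# S52 route HIT: `irr_exists_hit`

Some member `(m, n) = (M, k)`, `k ≡ 1 mod M`, of the Klein family has a 3-division quartic
without rational roots.  Inputs: `h7_irr_of_polys` (archimedean Hilbert irreducibility),
`fam_nopoly` (no polynomial root), and the top coefficients of the family.
-/

set_option autoImplicit false

namespace Fermat.Agent.S52

open Polynomial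

theorem h7_famC4_natDegree_le (c4 c6 M : ℤ) :
    (famC4 (C c4) (C c6) (C M) (X : ℤ[X])).natDegree ≤ 20 := by
  unfold famC4 famC4_blk0 famC4_blk1 famC4_blk2 famC4_blk3 famC4_blk4 famC4_blk5
    famC4_0 famC4_1 famC4_2 famC4_3 famC4_4 famC4_5 famC4_6 famC4_7 famC4_8 famC4_9 famC4_10 famC4_11 famC4_12 famC4_13 famC4_14 famC4_15 famC4_16 famC4_17 famC4_18 famC4_19 famC4_20
  compute_degree

theorem h7_famC4_coeff (c4 c6 M : ℤ) :
    (famC4 (C c4) (C c6) (C M) (X : ℤ[X])).coeff 20 = c4 := by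
  have hb0 : (famC4_blk0 (C c4) (C c6) (C M) (X : ℤ[X])).coeff 20 = c4 := by
    unfold famC4_blk0 famC4_0 famC4_1 famC4_2 famC4_3
    rw [add_assoc, add_assoc, coeff_add, coeff_C_mul_X_pow, if_pos rfl]
    rw [coeff_eq_zero_of_natDegree_lt, add_zero]
    refine lt_of_le_of_lt (b := 19) ?_ (by norm_num)
    compute_degree
  have hb1 : (famC4_blk1 (C c4) (C c6) (C M) (X : ℤ[X])).coeff 20 = 0 := by
    apply coeff_eq_zero_of_natDegree_lt
    unfold famC4_blk1 famC4_4 famC4_5 famC4_6 famC4_7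
    refine lt_of_le_of_lt (b := 16) ?_ (by norm_num)
    compute_degree
  have hb2 : (famC4_blk2 (C c4) (C c6) (C M) (X : ℤ[X])).coeff 20 = 0 := by
    apply coeff_eq_zero_of_natDegree_lt
    unfold famC4_blk2 famC4_8 famC4_9 famC4_10 famC4_11
    refine lt_of_le_of_lt (b := 12) ?_ (by norm_num)
    compute_degree
  have hb3 : (famC4_blk3 (C c4) (C c6) (C M) (X : ℤ[X])).coeff 20 = 0 := by
    apply coeff_eq_zero_of_natDegree_lt
    unfold famC4_blk3 famC4_12 famC4_13 famC4_14 famC4_15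
    refine lt_of_le_of_lt (b := 8) ?_ (by norm_num)
    compute_degree
  have hb4 : (famC4_blk4 (C c4) (C c6) (C M) (X : ℤ[X])).coeff 20 = 0 := by
    apply coeff_eq_zero_of_natDegree_lt
    unfold famC4_blk4 famC4_16 famC4_17 famC4_18 famC4_19
    refine lt_of_le_of_lt (b := 4) ?_ (by norm_num)
    compute_degree
  have hb5 : (famC4_blk5 (C c4) (C c6) (C M) (X : ℤ[X])).coeff 20 = 0 := by
    apply coeff_eq_zero_of_natDegree_lt
    unfold famC4_blk5 famC4_20
    refine lt_of_le_of_lt (b := 0) ?_ (by norm_num)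
    compute_degree
  unfold famC4
  simp only [coeff_add, hb0, hb1, hb2, hb3, hb4, hb5, add_zero]

theorem h7_famC6_natDegree_le (c4 c6 M : ℤ) :
    (famC6 (C c4) (C c6) (C M) (X : ℤ[X])).natDegree ≤ 30 := by
  unfold famC6 famC6_blk0 famC6_blk1 famC6_blk2 famC6_blk3 famC6_blk4 famC6_blk5 famC6_blk6 famC6_blk7
    famC6_0 famC6_1 famC6_2 famC6_3 famC6_4 famC6_5 famC6_6 famC6_7 famC6_8 famC6_9 famC6_10 famC6_11 famC6_12 famC6_13 famC6_14 famC6_15 famC6_16 famC6_17 famC6_18 famC6_19 famC6_20 famC6_21 famC6_22 famC6_23 famC6_24 famC6_25 famC6_26 famC6_27 famC6_28 famC6_29 famC6_30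
  compute_degree

theorem h7_famC6_coeff (c4 c6 M : ℤ) :
    (famC6 (C c4) (C c6) (C M) (X : ℤ[X])).coeff 30 = c6 := by
  have hb0 : (famC6_blk0 (C c4) (C c6) (C M) (X : ℤ[X])).coeff 30 = c6 := by
    unfold famC6_blk0 famC6_0 famC6_1 famC6_2 famC6_3
    rw [add_assoc, add_assoc, coeff_add, coeff_C_mul_X_pow, if_pos rfl]
    rw [coeff_eq_zero_of_natDegree_lt, add_zero]
    refine lt_of_le_of_lt (b := 29) ?_ (by norm_num)
    compute_degree
  have hb1 : (famC6_blk1 (C c4) (C c6) (C M) (X : ℤ[X])).coeff 30 = 0 := by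
    apply coeff_eq_zero_of_natDegree_lt
    unfold famC6_blk1 famC6_4 famC6_5 famC6_6 famC6_7
    refine lt_of_le_of_lt (b := 26) ?_ (by norm_num)
    compute_degree
  have hb2 : (famC6_blk2 (C c4) (C c6) (C M) (X : ℤ[X])).coeff 30 = 0 := by
    apply coeff_eq_zero_of_natDegree_lt
    unfold famC6_blk2 famC6_8 famC6_9 famC6_10 famC6_11
    refine lt_of_le_of_lt (b := 22) ?_ (by norm_num)
    compute_degree
  have hb3 : (famC6_blk3 (C c4) (C c6) (C M) (X : ℤ[X])).coeff 30 = 0 := by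
    apply coeff_eq_zero_of_natDegree_lt
    unfold famC6_blk3 famC6_12 famC6_13 famC6_14 famC6_15
    refine lt_of_le_of_lt (b := 18) ?_ (by norm_num)
    compute_degree
  have hb4 : (famC6_blk4 (C c4) (C c6) (C M) (X : ℤ[X])).coeff 30 = 0 := by
    apply coeff_eq_zero_of_natDegree_lt
    unfold famC6_blk4 famC6_16 famC6_17 famC6_18 famC6_19
    refine lt_of_le_of_lt (b := 14) ?_ (by norm_num)
    compute_degree
  have hb5 : (famC6_blk5 (C c4) (C c6) (C M) (X : ℤ[X])).coeff 30 = 0 := by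
    apply coeff_eq_zero_of_natDegree_lt
    unfold famC6_blk5 famC6_20 famC6_21 famC6_22 famC6_23
    refine lt_of_le_of_lt (b := 10) ?_ (by norm_num)
    compute_degree
  have hb6 : (famC6_blk6 (C c4) (C c6) (C M) (X : ℤ[X])).coeff 30 = 0 := by
    apply coeff_eq_zero_of_natDegree_lt
    unfold famC6_blk6 famC6_24 famC6_25 famC6_26 famC6_27
    refine lt_of_le_of_lt (b := 6) ?_ (by norm_num)
    compute_degree
  have hb7 : (famC6_blk7 (C c4) (C c6) (C M) (X : ℤ[X])).coeff 30 = 0 := by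
    apply coeff_eq_zero_of_natDegree_lt
    unfold famC6_blk7 famC6_28 famC6_29 famC6_30
    refine lt_of_le_of_lt (b := 2) ?_ (by norm_num)
    compute_degree
  unfold famC6
  simp only [coeff_add, hb0, hb1, hb2, hb3, hb4, hb5, hb6, hb7, add_zero]

/-- **Route HIT**: a member of the family without rational root of the 3-division quartic. -/
theorem irr_exists_hit (c4 c6 : ℤ) (hΔ : c4 ^ 3 - c6 ^ 2 ≠ 0) (M : ℤ) (hM : 2 ≤ M) :
    ∃ m n : ℤ, M ∣ m ∧ M ∣ n - 1 ∧ IsCoprime m n ∧ ∀ z : ℚ,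
      z ^ 4 - 486 * ((famC4 c4 c6 m n : ℤ) : ℚ) * z ^ 2
        - 5832 * ((famC6 c4 c6 m n : ℤ) : ℚ) * z
        - 19683 * ((famC4 c4 c6 m n : ℤ) : ℚ) ^ 2 ≠ 0 := by
  have hamap : (famC4 (C c4) (C c6) (C M) (X : ℤ[X])).map (Int.castRingHom ℚ)
      = famC4 (C (c4 : ℚ)) (C (c6 : ℚ)) (C (M : ℚ)) X := by
    have h := map_famC4 (mapRingHom (Int.castRingHom ℚ)) (C c4) (C c6) (C M) X
    simpa [coe_mapRingHom] using h
  have hbmap : (famC6 (C c4) (C c6) (C M) (X : ℤ[X])).map (Int.castRingHom ℚ)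
      = famC6 (C (c4 : ℚ)) (C (c6 : ℚ)) (C (M : ℚ)) X := by
    have h := map_famC6 (mapRingHom (Int.castRingHom ℚ)) (C c4) (C c6) (C M) X
    simpa [coe_mapRingHom] using h
  have haeval : ∀ k : ℤ, (famC4 (C c4) (C c6) (C M) (X : ℤ[X])).eval k = famC4 c4 c6 M k := by
    intro k
    have h := map_famC4 (evalRingHom k) (C c4) (C c6) (C M) X
    simpa [coe_evalRingHom] using h
  have hbeval : ∀ k : ℤ, (famC6 (C c4) (C c6) (C M) (X : ℤ[X])).eval k = famC6 c4 c6 M k := by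
    intro k
    have h := map_famC6 (evalRingHom k) (C c4) (C c6) (C M) X
    simpa [coe_evalRingHom] using h
  have hΔQ : ((c4 : ℚ)) ^ 3 - (c6 : ℚ) ^ 2 ≠ 0 := by exact_mod_cast hΔ
  have hMQ : (M : ℚ) ≠ 0 := by
    have h : M ≠ 0 := by omega
    exact_mod_cast h
  obtain ⟨k, hk, hno⟩ := h7_irr_of_polys (famC4 (C c4) (C c6) (C M) X)
    (famC6 (C c4) (C c6) (C M) X) c4 c6 hΔ (h7_famC4_natDegree_le c4 c6 M)
    (h7_famC6_natDegree_le c4 c6 M) (h7_famC4_coeff c4 c6 M) (h7_famC6_coeff c4 c6 M)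
    (fun Z => by
      rw [hamap, hbmap]
      exact fam_nopoly (c4 : ℚ) (c6 : ℚ) (M : ℚ) hΔQ hMQ Z) M hM
  refine ⟨M, k, dvd_rfl, hk, ?_, ?_⟩
  · obtain ⟨t, ht⟩ := hk
    exact ⟨-t, 1, by linarith⟩
  · intro z
    rw [← haeval k, ← hbeval k]
    exact hno z

end Fermat.Agent.S52
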