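import Mathlib
import Fermat.Agent.S52.KleinDefs
import Fermat.Agent.S52.FamBase
import Fermat.Agent.S52.FamC4
import Fermat.Agent.S52.FamG
import Fermat.Agent.S52.FamDisc
import Fermat.Agent.S52.FamLemmas
import Fermat.Agent.S52.h34_KleinBasic

/-!
# S52 (III), row S: the Klein family is never additive at `p ≥ 7`, `p ∤ Δ`

`klein_semistable`: over `ZMod p`, `p ≥ 7`, if `c₄³ - c₆² ≠ 0` and `(m, n) ≠ 0`, then a member
of the family with vanishing discriminant `famC4³ - famC6² = 0` has `famC4 ≠ 0`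
(multiplicative, not additive, reduction).

Proof: if `famC4 = 0` then `famG = 0` by `fam_disc`.  Over the algebraic closure write
`(c₄, c₆) = (-H(u), -T(u))` (`klein_exists_u`) and `u' = n u + m Φ(u)`; then `f(u') = 0`
(`fam_f`) and `H(u') = 0` (`fam_H`), hence `T(u') = 0` (`klein_rel`), hence `u' = 0`
(`klein_HT_coprime`); as `(m, n) ≠ 0` the determinant `det(u, Φ u) = -12 f(u)` vanishes
(`klein_euler`), so `c₄³ - c₆² = -1728 f(u)⁵ = 0`: contradiction.
-/

set_option autoImplicit false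

namespace Fermat.Agent.S52

theorem klein_semistable (p : ℕ) [Fact p.Prime] (hp : 7 ≤ p) (c4 c6 m n : ZMod p)
    (hΔ : c4 ^ 3 - c6 ^ 2 ≠ 0) (hmn : m ≠ 0 ∨ n ≠ 0)
    (h : famC4 c4 c6 m n ^ 3 - famC6 c4 c6 m n ^ 2 = 0) : famC4 c4 c6 m n ≠ 0 := by
  intro h4
  have hG : famG c4 c6 m n = 0 := by
    have hd := fam_disc c4 c6 m n
    rw [h] at hd
    have h5 : famG c4 c6 m n ^ 5 = 0 := (mul_eq_zero.mp hd.symm).resolve_left hΔ
    exact pow_eq_zero_iff (by norm_num) |>.mp h5
  -- pass to the algebraic closure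
  let φ : ZMod p →+* AlgebraicClosure (ZMod p) := algebraMap (ZMod p) (AlgebraicClosure (ZMod p))
  have hφ : Function.Injective φ := φ.injective
  have hnat : ∀ q : ℕ, 0 < q → q < 7 → ((q : ℕ) : AlgebraicClosure (ZMod p)) ≠ 0 := by
    intro q hq0 hq7 h0
    have h1 : φ ((q : ℕ) : ZMod p) = 0 := by rw [map_natCast]; exact h0
    have h2 : ((q : ℕ) : ZMod p) = 0 := hφ (by rw [h1, map_zero])
    have h3 : p ∣ q := (ZMod.natCast_eq_zero_iff q p).mp h2
    have := Nat.le_of_dvd hq0 h3
    omega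
  have h2 : (2 : AlgebraicClosure (ZMod p)) ≠ 0 := by
    exact_mod_cast hnat 2 (by norm_num) (by norm_num)
  have h3 : (3 : AlgebraicClosure (ZMod p)) ≠ 0 := by
    exact_mod_cast hnat 3 (by norm_num) (by norm_num)
  have h5 : (5 : AlgebraicClosure (ZMod p)) ≠ 0 := by
    exact_mod_cast hnat 5 (by norm_num) (by norm_num)
  have hΔ' : φ c4 ^ 3 - φ c6 ^ 2 ≠ 0 := by
    intro h0
    apply hΔ
    apply hφ
    rw [map_sub, map_pow, map_pow, h0, map_zero]
  obtain ⟨x, y, hH, hT⟩ := klein_exists_u h2 h3 h5 (φ c4) (φ c6) hΔ'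
  have hH' : kH (φ n * x + φ m * kP1 x y) (φ n * y + φ m * kP2 x y) = 0 := by
    have := fam_H x y (φ m) (φ n)
    rw [hH, hT, ← map_famC4, h4, map_zero] at this
    exact neg_eq_zero.mp this
  have hf' : kf (φ n * x + φ m * kP1 x y) (φ n * y + φ m * kP2 x y) = 0 := by
    have := fam_f x y (φ m) (φ n)
    rw [hH, hT, ← map_famG, hG, map_zero, mul_zero] at this
    exact this
  have hT' : kT (φ n * x + φ m * kP1 x y) (φ n * y + φ m * kP2 x y) = 0 := by
    have hrel := klein_rel (φ n * x + φ m * kP1 x y) (φ n * y + φ m * kP2 x y)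
    rw [hH', hf'] at hrel
    have : kT (φ n * x + φ m * kP1 x y) (φ n * y + φ m * kP2 x y) ^ 2 = 0 := by
      linear_combination hrel
    exact pow_eq_zero_iff (by norm_num) |>.mp this
  obtain ⟨hx', hy'⟩ := klein_HT_coprime h2 h3 h5 _ _ hH' hT'
  -- the determinant vanishes
  have hdet : x * kP2 x y - y * kP1 x y = 0 := by
    have hn : φ n * (x * kP2 x y - y * kP1 x y) = 0 := by
      linear_combination kP2 x y * hx' - kP1 x y * hy'
    have hm : φ m * (x * kP2 x y - y * kP1 x y) = 0 := by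
      linear_combination x * hy' - y * hx'
    rcases hmn with hm0 | hn0
    · have : φ m ≠ 0 := fun h0 => hm0 (hφ (by rw [h0, map_zero]))
      exact (mul_eq_zero.mp hm).resolve_left this
    · have : φ n ≠ 0 := fun h0 => hn0 (hφ (by rw [h0, map_zero]))
      exact (mul_eq_zero.mp hn).resolve_left this
  have hf : kf x y = 0 := by
    have h12 : (12 : AlgebraicClosure (ZMod p)) * kf x y = 0 := by
      have := klein_euler x y
      rw [hdet] at this
      linear_combination this
    have h12' : (12 : AlgebraicClosure (ZMod p)) ≠ 0 := by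
      have : (12 : AlgebraicClosure (ZMod p)) = 2 * 2 * 3 := by norm_num
      rw [this]
      exact mul_ne_zero (mul_ne_zero h2 h2) h3
    exact (mul_eq_zero.mp h12).resolve_left h12'
  apply hΔ'
  have hrel := klein_rel x y
  rw [hf] at hrel
  have e1 : kH x y = -φ c4 := by rw [← hH]; ring
  have e2 : kT x y = -φ c6 := by rw [← hT]; ring
  rw [e1, e2] at hrel
  linear_combination -hrel

end Fermat.Agent.S52
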