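import Fermat.Agent.S52.KleinActDefs

/-!
# S52 block (II), row CONJ: `T₀` for the conjugate roots `ζ², ζ³, ζ⁴`
(`T₀(ζ²) = J ∘ T₀(ζ)`, `T₀(ζ³) = -J ∘ T₀(ζ)`, `T₀(ζ⁴) = -T₀(ζ)`)

This file only needs the definitions (`KleinActDefs`); every auxiliary fact is derived directly
from `ζ⁴ + ζ³ + ζ² + ζ + 1 = 0`.
-/

set_option autoImplicit false

namespace Fermat.Agent.S52

section conj

variable {K : Type*} [Field K] (ζ : K)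

private theorem h68_zeta_pow5 (hζ : ζ ^ 4 + ζ ^ 3 + ζ ^ 2 + ζ + 1 = 0) : ζ ^ 5 = 1 := by
  linear_combination (ζ - 1) * hζ

private theorem h68_zeta_pow_mod (hζ : ζ ^ 4 + ζ ^ 3 + ζ ^ 2 + ζ + 1 = 0) (n : ℕ) :
    ζ ^ n = ζ ^ (n % 5) := by
  conv_lhs => rw [← Nat.div_add_mod n 5, pow_add, pow_mul, h68_zeta_pow5 ζ hζ, one_pow, one_mul]

private theorem h68_phi_sq (hζ : ζ ^ 4 + ζ ^ 3 + ζ ^ 2 + ζ + 1 = 0) :
    kphi ζ ^ 2 = kphi ζ + 1 := by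
  have h5 := h68_zeta_pow5 ζ hζ
  simp only [kphi]
  linear_combination (2 + ζ ^ 3) * h5 + hζ

private theorem h68_phi_sub_one_ne (hζ : ζ ^ 4 + ζ ^ 3 + ζ ^ 2 + ζ + 1 = 0) :
    kphi ζ - 1 ≠ 0 := by
  intro h
  have h1 := h68_phi_sq ζ hζ
  have : (1 : K) = 0 := by linear_combination (kphi ζ) * h - h1
  exact one_ne_zero this

private theorem h68_kb_ne (hζ : ζ ^ 4 + ζ ^ 3 + ζ ^ 2 + ζ + 1 = 0) (h5 : (5 : K) ≠ 0) :
    kb ζ ≠ 0 := by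
  intro h
  have h' : ζ ^ 2 * (1 - ζ) = 0 := by
    have : kb ζ = ζ ^ 2 * (1 - ζ) := by simp only [kb]; ring
    rw [← this]; exact h
  rcases mul_eq_zero.mp h' with h0 | h1
  · have hz : ζ = 0 := by simpa using h0
    rw [hz] at hζ
    norm_num at hζ
  · have hz : ζ = 1 := by linear_combination -h1
    rw [hz] at hζ
    apply h5
    linear_combination hζ

/-- The other primitive roots. -/
theorem kl_cyc_pow (hζ : ζ ^ 4 + ζ ^ 3 + ζ ^ 2 + ζ + 1 = 0) (c : ℕ) (hc : ¬ 5 ∣ c) :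
    (ζ ^ c) ^ 4 + (ζ ^ c) ^ 3 + (ζ ^ c) ^ 2 + ζ ^ c + 1 = 0 := by
  rw [h68_zeta_pow_mod ζ hζ c]
  obtain ⟨r, hr⟩ : ∃ r, r = c % 5 := ⟨_, rfl⟩
  rw [← hr]
  have hr5 : r < 5 := by rw [hr]; exact Nat.mod_lt _ (by norm_num)
  have hr0 : r ≠ 0 := by
    rw [hr]
    intro h0
    exact hc (Nat.dvd_of_mod_eq_zero h0)
  interval_cases r
  · exact absurd rfl hr0
  · linear_combination hζ
  · linear_combination (ζ ^ 4 - ζ ^ 3 + ζ ^ 2 - ζ + 1) * hζ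
  · linear_combination (ζ ^ 8 - ζ ^ 7 + ζ ^ 5 - ζ ^ 4 + ζ ^ 3 - ζ + 1) * hζ
  · linear_combination
      ((ζ ^ 4 - ζ ^ 3 + ζ ^ 2 - ζ + 1) * (ζ ^ 8 - ζ ^ 6 + ζ ^ 4 - ζ ^ 2 + 1)) * hζ

/-- `T₀` only depends on `ζ ^ n` through `n mod 5`. -/
theorem kl_T0_pow_mod (hζ : ζ ^ 4 + ζ ^ 3 + ζ ^ 2 + ζ + 1 = 0) (n : ℕ) (u : K × K) :
    kT0 (ζ ^ n) u = kT0 (ζ ^ (n % 5)) u := by
  have h := h68_zeta_pow_mod ζ hζ n
  exact congrArg (fun z => kT0 z u) h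

/-- `T₀` for the conjugate root `ζ²`. -/
theorem kl_T0_pow2 (hζ : ζ ^ 4 + ζ ^ 3 + ζ ^ 2 + ζ + 1 = 0) (h5 : (5 : K) ≠ 0) (u : K × K) :
    kT0 (ζ ^ 2) u = kJ (kT0 ζ u) := by
  have hp5 := h68_zeta_pow5 ζ hζ
  have hphi := h68_phi_sq ζ hζ
  have hne := h68_phi_sub_one_ne ζ hζ
  have hb := h68_kb_ne ζ hζ h5
  have hphi2 : kphi (ζ ^ 2) = 1 - kphi ζ := by
    simp only [kphi]
    linear_combination (-ζ ^ 3) * hp5 - hζ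
  have hb2 : kb (ζ ^ 2) = (kphi ζ - 1) * kb ζ := by
    simp only [kphi, kb]
    linear_combination (-ζ ^ 2) * hp5
  have hbb : (kphi ζ - 1) * kb ζ ≠ 0 := mul_ne_zero hne hb
  simp only [kT0, kJ, hphi2, hb2]
  refine Prod.ext ?_ ?_
  · show (u.1 + (1 - kphi ζ) * u.2) / ((kphi ζ - 1) * kb ζ) = (kphi ζ * u.1 - u.2) / kb ζ
    rw [div_eq_div_iff hbb hb]
    linear_combination (-(kb ζ * u.1)) * hphi
  · show ((1 - kphi ζ) * u.1 - u.2) / ((kphi ζ - 1) * kb ζ) = -((u.1 + kphi ζ * u.2) / kb ζ)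
    rw [← neg_div, div_eq_div_iff hbb hb]
    linear_combination (kb ζ * u.2) * hphi

/-- `T₀` for the conjugate root `ζ³`. -/
theorem kl_T0_pow3 (hζ : ζ ^ 4 + ζ ^ 3 + ζ ^ 2 + ζ + 1 = 0) (h5 : (5 : K) ≠ 0) (u : K × K) :
    kT0 (ζ ^ 3) u = -kJ (kT0 ζ u) := by
  have hp5 := h68_zeta_pow5 ζ hζ
  have hphi := h68_phi_sq ζ hζ
  have hne := h68_phi_sub_one_ne ζ hζ
  have hb := h68_kb_ne ζ hζ h5
  have hphi3 : kphi (ζ ^ 3) = 1 - kphi ζ := by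
    simp only [kphi]
    linear_combination (-ζ ^ 2 * (ζ ^ 5 + 1)) * hp5 - hζ
  have hb3 : kb (ζ ^ 3) = (1 - kphi ζ) * kb ζ := by
    simp only [kphi, kb]
    linear_combination (ζ ^ 2 - ζ ^ 4) * hp5
  have hne' : 1 - kphi ζ ≠ 0 := by
    intro h
    apply hne
    linear_combination -h
  have hbb : (1 - kphi ζ) * kb ζ ≠ 0 := mul_ne_zero hne' hb
  simp only [kT0, kJ, hphi3, hb3]
  refine Prod.ext ?_ ?_
  · show (u.1 + (1 - kphi ζ) * u.2) / ((1 - kphi ζ) * kb ζ) = -((kphi ζ * u.1 - u.2) / kb ζ)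
    rw [← neg_div, div_eq_div_iff hbb hb]
    linear_combination (-(kb ζ * u.1)) * hphi
  · show ((1 - kphi ζ) * u.1 - u.2) / ((1 - kphi ζ) * kb ζ) = -(-((u.1 + kphi ζ * u.2) / kb ζ))
    rw [neg_neg, div_eq_div_iff hbb hb]
    linear_combination (kb ζ * u.2) * hphi

/-- `T₀` for the conjugate root `ζ⁴`. -/
theorem kl_T0_pow4 (hζ : ζ ^ 4 + ζ ^ 3 + ζ ^ 2 + ζ + 1 = 0) (h5 : (5 : K) ≠ 0) (u : K × K) :
    kT0 (ζ ^ 4) u = -kT0 ζ u := by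
  have _h5 := h5
  have hp5 := h68_zeta_pow5 ζ hζ
  have hphi4 : kphi (ζ ^ 4) = kphi ζ := by
    simp only [kphi]
    linear_combination (-ζ * (ζ ^ 10 + ζ ^ 5 + 1)) * hp5
  have hb4 : kb (ζ ^ 4) = -kb ζ := by
    simp only [kb]
    linear_combination (ζ ^ 3 - ζ ^ 2 * (ζ ^ 5 + 1)) * hp5
  simp only [kT0, hphi4, hb4]
  refine Prod.ext ?_ ?_
  · show (u.1 + kphi ζ * u.2) / (-kb ζ) = -((u.1 + kphi ζ * u.2) / kb ζ)
    rw [div_neg]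
  · show (kphi ζ * u.1 - u.2) / (-kb ζ) = -((kphi ζ * u.1 - u.2) / kb ζ)
    rw [div_neg]

end conj

end Fermat.Agent.S52
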