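import Fermat.Agent.S52.KleinPts
import Fermat.Agent.S52.KleinActConj

/-!
# S52 block (II), row FROBU: Frobenius on `u`, on `R(u)` and on `R(T₀ u)`

`K` a field over `ZMod ℓ`; `kfrobU ℓ u = (u.1 ^ ℓ, u.2 ^ ℓ)` is the coordinatewise Frobenius.
It preserves the fibre `kFib A B` (`A B : ZMod ℓ`), commutes with the integral section `R`
(`φ(R(u)) = R(φ u)`), with the family `u ↦ n u + m Φ(u)` (`m n : ZMod ℓ`), and conjugates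
`S`, `T₀` for `ζ` into `S`, `T₀` for `ζ ^ ℓ`.  Since `T₀(ζ²) = J T₀(ζ)`, `T₀(ζ³) = -J T₀(ζ)`,
`T₀(ζ⁴) = -T₀(ζ)` and `2 R(u) = R(J u)`, this gives `φ(R(T₀ u)) = ℓ • R(T₀ (φ u))`.
-/

set_option autoImplicit false

namespace Fermat.Agent.S52

open WeierstrassCurve WeierstrassCurve.Affine

section frob

variable (ℓ : ℕ) [Fact ℓ.Prime] {K : Type*} [Field K] [DecidableEq K] [Algebra (ZMod ℓ) K]
  {A B : ZMod ℓ}

omit [DecidableEq K] in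
private theorem h79_charP : CharP K ℓ :=
  charP_of_injective_algebraMap (algebraMap (ZMod ℓ) K).injective ℓ

omit [DecidableEq K] in
private theorem h79_expChar : ExpChar K ℓ :=
  have := h79_charP ℓ (K := K)
  ExpChar.prime Fact.out

omit [DecidableEq K] in
/-- Frobenius fixes the prime field. -/
private theorem h79_frob_algebraMap (a : ZMod ℓ) :
    algebraMap (ZMod ℓ) K a ^ ℓ = algebraMap (ZMod ℓ) K a := by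
  rw [← map_pow, ZMod.pow_card]

omit [DecidableEq K] in
private theorem h79_pow_kH (x y : K) : kH x y ^ ℓ = kH (x ^ ℓ) (y ^ ℓ) := by
  have := h79_expChar ℓ (K := K)
  exact kl_map_kH (frobenius K ℓ) x y

omit [DecidableEq K] in
private theorem h79_pow_kT (x y : K) : kT x y ^ ℓ = kT (x ^ ℓ) (y ^ ℓ) := by
  have := h79_expChar ℓ (K := K)
  exact kl_map_kT (frobenius K ℓ) x y

omit [DecidableEq K] in
private theorem h79_pow_kX (x y : K) : kX x y ^ ℓ = kX (x ^ ℓ) (y ^ ℓ) := by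
  have := h79_expChar ℓ (K := K)
  exact kl_map_kX (frobenius K ℓ) x y

omit [DecidableEq K] in
private theorem h79_pow_kY (x y : K) : kY x y ^ ℓ = kY (x ^ ℓ) (y ^ ℓ) := by
  have := h79_expChar ℓ (K := K)
  exact kl_map_kY (frobenius K ℓ) x y

omit [DecidableEq K] in
private theorem h79_pow_kP1 (x y : K) : kP1 x y ^ ℓ = kP1 (x ^ ℓ) (y ^ ℓ) := by
  have := h79_expChar ℓ (K := K)
  exact kl_map_kP1 (frobenius K ℓ) x y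

omit [DecidableEq K] in
private theorem h79_pow_kP2 (x y : K) : kP2 x y ^ ℓ = kP2 (x ^ ℓ) (y ^ ℓ) := by
  have := h79_expChar ℓ (K := K)
  exact kl_map_kP2 (frobenius K ℓ) x y

omit [DecidableEq K] in
private theorem h79_add_pow (x y : K) : (x + y) ^ ℓ = x ^ ℓ + y ^ ℓ := by
  have := h79_expChar ℓ (K := K)
  exact map_add (frobenius K ℓ) x y

omit [DecidableEq K] in
private theorem h79_sub_pow (x y : K) : (x - y) ^ ℓ = x ^ ℓ - y ^ ℓ := by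
  have := h79_expChar ℓ (K := K)
  exact map_sub (frobenius K ℓ) x y

omit [DecidableEq K] in
private theorem h79_neg_pow (x : K) : (-x) ^ ℓ = -x ^ ℓ := by
  have := h79_expChar ℓ (K := K)
  exact map_neg (frobenius K ℓ) x

omit [DecidableEq K] in
private theorem h79_ofNat_pow (n : ℕ) : ((n : ℕ) : K) ^ ℓ = (n : K) := by
  have := h79_expChar ℓ (K := K)
  exact map_natCast (frobenius K ℓ) n

theorem kl_frob_mem {u : K × K} (hu : u ∈ kFib A B) : kfrobU ℓ u ∈ kFib A B := by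
  obtain ⟨hA, hB⟩ := hu
  refine ⟨?_, ?_⟩
  · show 27 * kH (u.1 ^ ℓ) (u.2 ^ ℓ) = algebraMap (ZMod ℓ) K A
    have h27 : ((27 : ℕ) : K) ^ ℓ = ((27 : ℕ) : K) := h79_ofNat_pow ℓ 27
    rw [← h79_pow_kH, ← h79_frob_algebraMap ℓ A, ← hA, mul_pow]
    push_cast at h27
    rw [h27]
  · show 54 * kT (u.1 ^ ℓ) (u.2 ^ ℓ) = algebraMap (ZMod ℓ) K B
    have h54 : ((54 : ℕ) : K) ^ ℓ = ((54 : ℕ) : K) := h79_ofNat_pow ℓ 54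
    rw [← h79_pow_kT, ← h79_frob_algebraMap ℓ B, ← hB, mul_pow]
    push_cast at h54
    rw [h54]

theorem kl_frob_R (h2 : (2 : ZMod ℓ) ≠ 0) (hΔ : 4 * A ^ 3 + 27 * B ^ 2 ≠ 0) {u : K × K}
    (hu : u ∈ kFib A B) : h5_frob A B K (kR A B u) = kR A B (kfrobU ℓ u) := by
  have heq : kY u.1 u.2 ^ 2 =
      kX u.1 u.2 ^ 3 + algebraMap (ZMod ℓ) K A * kX u.1 u.2 + algebraMap (ZMod ℓ) K B := by
    rw [← hu.1, ← hu.2]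
    exact kl_R_eqn u.1 u.2
  show h5_frob A B K (kpt A B (kX u.1 u.2) (kY u.1 u.2)) =
    kpt A B (kX (u.1 ^ ℓ) (u.2 ^ ℓ)) (kY (u.1 ^ ℓ) (u.2 ^ ℓ))
  rw [kl_kpt_eq, kl_kpt_eq, h5_frob_pt h2 hΔ heq, ZMod.card, h79_pow_kX, h79_pow_kY]

theorem kl_frob_T0 (ζ : K) (u : K × K) :
    kfrobU ℓ (kT0 ζ u) = kT0 (ζ ^ ℓ) (kfrobU ℓ u) := by
  have hphi : kphi (ζ ^ ℓ) = kphi ζ ^ ℓ := by
    simp only [kphi]
    rw [h79_sub_pow, h79_neg_pow, ← pow_mul, ← pow_mul, mul_comm ℓ 4]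
  have hb : kb (ζ ^ ℓ) = kb ζ ^ ℓ := by
    simp only [kb]
    rw [h79_sub_pow, ← pow_mul, ← pow_mul, ← pow_mul, ← pow_mul, mul_comm ℓ 2, mul_comm ℓ 3]
  refine Prod.ext ?_ ?_
  · show ((u.1 + kphi ζ * u.2) / kb ζ) ^ ℓ = (u.1 ^ ℓ + kphi (ζ ^ ℓ) * u.2 ^ ℓ) / kb (ζ ^ ℓ)
    rw [hphi, hb, div_pow, h79_add_pow, mul_pow]
  · show ((kphi ζ * u.1 - u.2) / kb ζ) ^ ℓ = (kphi (ζ ^ ℓ) * u.1 ^ ℓ - u.2 ^ ℓ) / kb (ζ ^ ℓ)
    rw [hphi, hb, div_pow, h79_sub_pow, mul_pow]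

theorem kl_frob_S (ζ : K) (u : K × K) :
    kfrobU ℓ (kS ζ u) = kS (ζ ^ ℓ) (kfrobU ℓ u) := by
  refine Prod.ext ?_ ?_
  · show (ζ ^ 3 * u.1) ^ ℓ = (ζ ^ ℓ) ^ 3 * u.1 ^ ℓ
    rw [mul_pow, ← pow_mul, ← pow_mul, mul_comm 3 ℓ]
  · show (ζ ^ 2 * u.2) ^ ℓ = (ζ ^ ℓ) ^ 2 * u.2 ^ ℓ
    rw [mul_pow, ← pow_mul, ← pow_mul, mul_comm 2 ℓ]

theorem kl_frob_fam (m n : ZMod ℓ) (u : K × K) :
    kfrobU ℓ (kfam (algebraMap (ZMod ℓ) K m) (algebraMap (ZMod ℓ) K n) u) =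
      kfam (algebraMap (ZMod ℓ) K m) (algebraMap (ZMod ℓ) K n) (kfrobU ℓ u) := by
  refine Prod.ext ?_ ?_
  · show (algebraMap (ZMod ℓ) K n * u.1 + algebraMap (ZMod ℓ) K m * kP1 u.1 u.2) ^ ℓ =
      algebraMap (ZMod ℓ) K n * u.1 ^ ℓ + algebraMap (ZMod ℓ) K m * kP1 (u.1 ^ ℓ) (u.2 ^ ℓ)
    rw [h79_add_pow, mul_pow, mul_pow, h79_frob_algebraMap, h79_frob_algebraMap, h79_pow_kP1]
  · show (algebraMap (ZMod ℓ) K n * u.2 + algebraMap (ZMod ℓ) K m * kP2 u.1 u.2) ^ ℓ =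
      algebraMap (ZMod ℓ) K n * u.2 ^ ℓ + algebraMap (ZMod ℓ) K m * kP2 (u.1 ^ ℓ) (u.2 ^ ℓ)
    rw [h79_add_pow, mul_pow, mul_pow, h79_frob_algebraMap, h79_frob_algebraMap, h79_pow_kP2]

private theorem h79_natCast_ne_zero (hℓ : 7 ≤ ℓ) (n : ℕ) (hn0 : 0 < n) (hn : n < 7) :
    ((n : ℕ) : ZMod ℓ) ≠ 0 := by
  intro h
  rw [ZMod.natCast_eq_zero_iff] at h
  have := Nat.le_of_dvd hn0 h
  omega

private theorem h79_two_ne (hℓ : 7 ≤ ℓ) : (2 : ZMod ℓ) ≠ 0 := by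
  have := h79_natCast_ne_zero ℓ hℓ 2 (by norm_num) (by norm_num)
  exact_mod_cast this

private theorem h79_five_ne (hℓ : 7 ≤ ℓ) : (5 : ZMod ℓ) ≠ 0 := by
  have := h79_natCast_ne_zero ℓ hℓ 5 (by norm_num) (by norm_num)
  exact_mod_cast this

private theorem h79_mod_five (hℓ : 7 ≤ ℓ) :
    ℓ % 5 = 1 ∨ ℓ % 5 = 2 ∨ ℓ % 5 = 3 ∨ ℓ % 5 = 4 := by
  have hp : ℓ.Prime := Fact.out
  have h0 : ℓ % 5 ≠ 0 := by
    intro h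
    have hd : 5 ∣ ℓ := Nat.dvd_of_mod_eq_zero h
    have := (Nat.prime_dvd_prime_iff_eq Nat.prime_five hp).1 hd
    omega
  omega

/-- `R(T₀(ζ^ℓ) v) = ℓ • R(T₀(ζ) v)` (cases `ℓ mod 5`: `T₀`, `J T₀`, `-J T₀`, `-T₀`). -/
theorem kl_R_T0_pow (hℓ : 7 ≤ ℓ) (hΔ : 4 * A ^ 3 + 27 * B ^ 2 ≠ 0) (ζ : K)
    (hζ : ζ ^ 4 + ζ ^ 3 + ζ ^ 2 + ζ + 1 = 0) {v : K × K} (hv : v ∈ kFib A B) :
    kR A B (kT0 (ζ ^ ℓ) v) = (ℓ : ℤ) • kR A B (kT0 ζ v) := by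
  have h2 : (2 : ZMod ℓ) ≠ 0 := h79_two_ne ℓ hℓ
  have h5 : (5 : ZMod ℓ) ≠ 0 := h79_five_ne ℓ hℓ
  have h5K : (5 : K) ≠ 0 := by
    have := (map_ne_zero (algebraMap (ZMod ℓ) K)).2 h5
    rwa [map_ofNat] at this
  have hw : kT0 ζ v ∈ kFib A B := kl_fib_T0 h5 ζ hζ hv
  have hfive : (5 : ℤ) • kR A B (kT0 ζ v) = 0 := kl_R_five h2 hΔ hw
  have hdbl : kR A B (kT0 ζ v) + kR A B (kT0 ζ v) = kR A B (kJ (kT0 ζ v)) := kl_R_dbl h2 hΔ hw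
  have hred : (ℓ : ℤ) • kR A B (kT0 ζ v) = ((ℓ % 5 : ℕ) : ℤ) • kR A B (kT0 ζ v) := by
    have hdiv : (ℓ : ℤ) = ((ℓ / 5 : ℕ) : ℤ) * 5 + ((ℓ % 5 : ℕ) : ℤ) := by
      have := Nat.div_add_mod ℓ 5
      omega
    conv_lhs => rw [hdiv]
    rw [add_smul, mul_smul, hfive, smul_zero, zero_add]
  rw [kl_T0_pow_mod ζ hζ ℓ v, hred]
  rcases h79_mod_five ℓ hℓ with h | h | h | h
  · rw [h, pow_one, Nat.cast_one, one_smul]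
  · rw [h, kl_T0_pow2 ζ hζ h5K v, ← hdbl]
    push_cast
    rw [two_smul]
  · rw [h, kl_T0_pow3 ζ hζ h5K v, kl_R_neg, ← hdbl]
    push_cast
    have e : (3 : ℤ) • kR A B (kT0 ζ v) =
        (5 : ℤ) • kR A B (kT0 ζ v) - (kR A B (kT0 ζ v) + kR A B (kT0 ζ v)) := by
      rw [← two_smul ℤ (kR A B (kT0 ζ v)), ← sub_smul]
      norm_num
    rw [e, hfive, zero_sub]
  · rw [h, kl_T0_pow4 ζ hζ h5K v, kl_R_neg]
    push_cast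
    have e : (4 : ℤ) • kR A B (kT0 ζ v) =
        (5 : ℤ) • kR A B (kT0 ζ v) - kR A B (kT0 ζ v) := by
      nth_rewrite 3 [← one_smul ℤ (kR A B (kT0 ζ v))]
      rw [← sub_smul]
      norm_num
    rw [e, hfive, zero_sub]

/-- Frobenius on `R(T₀ u)`: `φ(R(T₀ u)) = ℓ • R(T₀ (φ u))`. -/
theorem kl_frob_R_T0 (hℓ : 7 ≤ ℓ) (hΔ : 4 * A ^ 3 + 27 * B ^ 2 ≠ 0) (ζ : K)
    (hζ : ζ ^ 4 + ζ ^ 3 + ζ ^ 2 + ζ + 1 = 0) {u : K × K} (hu : u ∈ kFib A B) :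
    h5_frob A B K (kR A B (kT0 ζ u)) = (ℓ : ℤ) • kR A B (kT0 ζ (kfrobU ℓ u)) := by
  have h2 : (2 : ZMod ℓ) ≠ 0 := h79_two_ne ℓ hℓ
  have h5 : (5 : ZMod ℓ) ≠ 0 := h79_five_ne ℓ hℓ
  rw [kl_frob_R ℓ h2 hΔ (kl_fib_T0 h5 ζ hζ hu), kl_frob_T0,
    kl_R_T0_pow ℓ hℓ hΔ ζ hζ (kl_frob_mem ℓ hu)]

end frob

end Fermat.Agent.S52
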