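import Mathlib

/-!
# S52 block (II): data-independent bookkeeping (helper48)

An abstract "Klein system": a set `D` of frames `u : U`, stable under four maps `s t z ng`
(the two generators of the binary icosahedral group, multiplication by a fifth root of unity and
by `-1`), and a section `R : U → E` with values in an additive group (the integral `5`-torsion
section).  The level pair of a frame is `(P u, R u)` with `P u = -R (t u)`.

* `h48_word_law`: the level pair of `h48_act s t w u` is `h48_mat w` times the level pair of `u`;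
* `h48_orbit`: if `D` has at most `600` elements then any two frames of `D` differ by a word, a
  power of `z` and possibly `ng` (fibre = orbit, by counting);
* `h48_frobmat`: a "Frobenius" acts on the level pair by an integer matrix depending only on the
  word, the sign and the multiplier `c`;
* `h48_klein_abs`: two systems sharing the frame maps have the same Frobenius matrix.
-/

set_option autoImplicit false

namespace Fermat.Agent.S52

/-- Action of a word in the two generators (`true` is `s`, `false` is `t`). -/
def h48_act {U : Type*} (s t : U → U) : List Bool → U → U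
  | [], u => u
  | true :: w, u => s (h48_act s t w u)
  | false :: w, u => t (h48_act s t w u)

/-- The integer matrix `(m₀₀, m₀₁, m₁₀, m₁₁)` of a word: the product of the matrices
`N_s = [[1, 0], [-1, 1]]` and `N_t = [[0, 1], [-1, 0]]`. -/
def h48_mat : List Bool → ℤ × ℤ × ℤ × ℤ
  | [] => (1, 0, 0, 1)
  | true :: w => ((h48_mat w).1, (h48_mat w).2.1, (h48_mat w).2.2.1 - (h48_mat w).1,
      (h48_mat w).2.2.2 - (h48_mat w).2.1)
  | false :: w => ((h48_mat w).2.2.1, (h48_mat w).2.2.2, -(h48_mat w).1, -(h48_mat w).2.1)

/-- The sign attached to a boolean. -/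
def h48_eps (σ : Bool) : ℤ := if σ then -1 else 1

/-- Apply `ng` or not. -/
def h48_sgn {U : Type*} (ng : U → U) (σ : Bool) (u : U) : U := if σ then ng u else u

/-- An abstract Klein system. -/
structure h48_KSys {U E : Type*} [AddCommGroup E] (s t z ng : U → U) (R : U → E) (D : Set U) :
    Prop where
  s_mem : ∀ u ∈ D, s u ∈ D
  t_mem : ∀ u ∈ D, t u ∈ D
  z_mem : ∀ u ∈ D, z u ∈ D
  ng_mem : ∀ u ∈ D, ng u ∈ D
  R_s : ∀ u ∈ D, R (s u) = R u + R (t u)
  R_ts : ∀ u ∈ D, R (t (s u)) = R (t u)
  R_tt : ∀ u ∈ D, R (t (t u)) = -R u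
  R_z : ∀ u ∈ D, R (z u) = R u
  R_tz : ∀ u ∈ D, R (t (z u)) = R (t u)
  R_ng : ∀ u ∈ D, R (ng u) = -R u
  R_tng : ∀ u ∈ D, R (t (ng u)) = -R (t u)
  ng_ng : ∀ u ∈ D, ng (ng u) = u
  five : ∀ u ∈ D, (5 : ℤ) • R u = 0
  indep : ∀ u ∈ D, ∀ a b : ℤ, a • R (t u) + b • R u = 0 → (5 : ℤ) ∣ a ∧ (5 : ℤ) ∣ b
  z_inj : ∀ u ∈ D, ∀ j j' : ℕ, j < 5 → j' < 5 → z^[j] u = z^[j'] u → j = j'

/-- Representatives of the `60` classes of `SL₂(𝔽₅) / ±1` as words in the two generators. -/
def h48_wordList : List (List Bool) :=
  [[],
   [false],
   [true],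
   [false, true],
   [true, false],
   [true, true],
   [false, true, false],
   [false, true, true],
   [true, false, true],
   [true, true, false],
   [true, true, true],
   [false, true, false, true],
   [false, true, true, false],
   [false, true, true, true],
   [true, false, true, false],
   [true, false, true, true],
   [true, true, false, true],
   [true, true, true, false],
   [true, true, true, true],
   [false, true, false, true, true],
   [false, true, true, false, true],
   [false, true, true, true, false],
   [true, false, true, true, false],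
   [true, false, true, true, true],
   [true, true, false, true, false],
   [true, true, false, true, true],
   [true, true, true, false, true],
   [false, true, false, true, true, false],
   [false, true, false, true, true, true],
   [false, true, true, false, true, false],
   [false, true, true, false, true, true],
   [false, true, true, true, false, true],
   [true, false, true, true, true, false],
   [true, true, false, true, true, false],
   [true, true, false, true, true, true],
   [true, true, true, false, true, false],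
   [true, true, true, false, true, true],
   [false, true, false, true, true, true, false],
   [false, true, true, false, true, true, false],
   [false, true, true, false, true, true, true],
   [false, true, true, true, false, true, false],
   [false, true, true, true, false, true, true],
   [true, false, true, true, true, false, true],
   [true, true, false, true, true, true, false],
   [true, true, true, false, true, true, false],
   [true, true, true, false, true, true, true],
   [false, true, false, true, true, true, false, true],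
   [false, true, true, false, true, true, true, false],
   [false, true, true, true, false, true, true, false],
   [false, true, true, true, false, true, true, true],
   [true, false, true, true, true, false, true, true],
   [true, true, false, true, true, true, false, true],
   [false, true, false, true, true, true, false, true, true],
   [false, true, true, false, true, true, true, false, true],
   [true, false, true, true, true, false, true, true, false],
   [true, false, true, true, true, false, true, true, true],
   [true, true, false, true, true, true, false, true, true],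
   [false, true, false, true, true, true, false, true, true, true],
   [false, true, true, false, true, true, true, false, true, true],
   [true, true, false, true, true, true, false, true, true, true]]

/-- The `120` signed words. -/
def h48_swords : List (Bool × List Bool) :=
  h48_wordList.map (fun w => (false, w)) ++ h48_wordList.map (fun w => (true, w))

/-- The matrix `± N(w)` modulo `5`. -/
def h48_key (p : Bool × List Bool) : ℤ × ℤ × ℤ × ℤ :=
  ((h48_eps p.1 * (h48_mat p.2).1) % 5, (h48_eps p.1 * (h48_mat p.2).2.1) % 5,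
    (h48_eps p.1 * (h48_mat p.2).2.2.1) % 5, (h48_eps p.1 * (h48_mat p.2).2.2.2) % 5)

theorem h48_swords_length : h48_swords.length = 120 := by decide +kernel

/-- The `120` matrices `± N(w)` are pairwise distinct modulo `5`. -/
theorem h48_keys_nodup : (h48_swords.map h48_key).Nodup := by decide +kernel

section Sys

variable {U E : Type*} [AddCommGroup E] {s t z ng : U → U} {R : U → E} {D : Set U}

lemma h48_act_mem (h : h48_KSys s t z ng R D) (w : List Bool) {u : U} (hu : u ∈ D) :
    h48_act s t w u ∈ D := by
  induction w with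
  | nil => exact hu
  | cons b w ih =>
    cases b
    · exact h.t_mem _ ih
    · exact h.s_mem _ ih

/-- The word law: the level pair `(-R (t ·), R ·)` transforms by the matrix of the word. -/
theorem h48_word_law (h : h48_KSys s t z ng R D) (w : List Bool) {u : U} (hu : u ∈ D) :
    -R (t (h48_act s t w u)) = (h48_mat w).1 • (-R (t u)) + (h48_mat w).2.1 • R u ∧
      R (h48_act s t w u) = (h48_mat w).2.2.1 • (-R (t u)) + (h48_mat w).2.2.2 • R u := by
  induction w with
  | nil => simp [h48_act, h48_mat]
  | cons b w ih =>
    have hv := h48_act_mem h w hu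
    obtain ⟨ih1, ih2⟩ := ih
    cases b
    · -- `t`
      refine ⟨?_, ?_⟩
      · show -R (t (t (h48_act s t w u))) = _
        rw [h.R_tt _ hv, neg_neg, ih2]
        rfl
      · show R (t (h48_act s t w u)) = _
        have : R (t (h48_act s t w u)) = -(-R (t (h48_act s t w u))) := by rw [neg_neg]
        rw [this, ih1]
        simp only [h48_mat, neg_smul, smul_neg, neg_add_rev, neg_neg]
        abel
    · -- `s`
      refine ⟨?_, ?_⟩
      · show -R (t (s (h48_act s t w u))) = _
        rw [h.R_ts _ hv, ih1]
        rfl
      · show R (s (h48_act s t w u)) = _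
        have : R (s (h48_act s t w u)) =
            R (h48_act s t w u) - (-R (t (h48_act s t w u))) := by
          rw [h.R_s _ hv]; abel
        rw [this, ih1, ih2]
        simp only [h48_mat, sub_smul, smul_neg]
        abel

lemma h48_iter_z_mem (h : h48_KSys s t z ng R D) (j : ℕ) {u : U} (hu : u ∈ D) :
    z^[j] u ∈ D := by
  induction j with
  | zero => exact hu
  | succ j ih =>
    rw [Function.iterate_succ_apply']
    exact h.z_mem _ ih

lemma h48_iter_z_R (h : h48_KSys s t z ng R D) (j : ℕ) {u : U} (hu : u ∈ D) :
    R (z^[j] u) = R u ∧ R (t (z^[j] u)) = R (t u) := by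
  induction j with
  | zero => exact ⟨rfl, rfl⟩
  | succ j ih =>
    rw [Function.iterate_succ_apply']
    have hm := h48_iter_z_mem h j hu
    exact ⟨(h.R_z _ hm).trans ih.1, (h.R_tz _ hm).trans ih.2⟩

lemma h48_sgn_mem (h : h48_KSys s t z ng R D) (σ : Bool) {u : U} (hu : u ∈ D) :
    h48_sgn ng σ u ∈ D := by
  cases σ
  · exact hu
  · exact h.ng_mem _ hu

lemma h48_sgn_R (h : h48_KSys s t z ng R D) (σ : Bool) {u : U} (hu : u ∈ D) :
    R (h48_sgn ng σ u) = h48_eps σ • R u ∧ R (t (h48_sgn ng σ u)) = h48_eps σ • R (t u) := by
  cases σ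
  · simp [h48_sgn, h48_eps]
  · simp [h48_sgn, h48_eps, h.R_ng _ hu, h.R_tng _ hu]

/-- The level pair of the frame `± z^j (w u)`. -/
theorem h48_frame_law (h : h48_KSys s t z ng R D) (σ : Bool) (j : ℕ) (w : List Bool) {u : U}
    (hu : u ∈ D) :
    h48_sgn ng σ (z^[j] (h48_act s t w u)) ∈ D ∧
    -R (t (h48_sgn ng σ (z^[j] (h48_act s t w u)))) =
        (h48_eps σ * (h48_mat w).1) • (-R (t u)) + (h48_eps σ * (h48_mat w).2.1) • R u ∧
      R (h48_sgn ng σ (z^[j] (h48_act s t w u))) =
        (h48_eps σ * (h48_mat w).2.2.1) • (-R (t u)) + (h48_eps σ * (h48_mat w).2.2.2) • R u := by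
  have hv := h48_act_mem h w hu
  have hzv := h48_iter_z_mem h j hv
  obtain ⟨e1, e2⟩ := h48_sgn_R h σ hzv
  obtain ⟨f1, f2⟩ := h48_iter_z_R h j hv
  obtain ⟨g1, g2⟩ := h48_word_law h w hu
  refine ⟨h48_sgn_mem h σ hzv, ?_, ?_⟩
  · rw [e2, f2, ← smul_neg, g1, smul_add, smul_smul, smul_smul]
  · rw [e1, f1, g2, smul_add, smul_smul, smul_smul]

/-- Two frames `± z^j (w u)` that coincide have the same key. -/
lemma h48_key_eq_of_frame_eq (h : h48_KSys s t z ng R D) {u : U} (hu : u ∈ D)
    (p p' : Bool × List Bool) (j j' : ℕ)
    (he : h48_sgn ng p.1 (z^[j] (h48_act s t p.2 u)) =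
      h48_sgn ng p'.1 (z^[j'] (h48_act s t p'.2 u))) : h48_key p = h48_key p' := by
  obtain ⟨-, a1, a2⟩ := h48_frame_law h p.1 j p.2 hu
  obtain ⟨-, b1, b2⟩ := h48_frame_law h p'.1 j' p'.2 hu
  rw [he] at a1 a2
  rw [b1] at a1
  rw [b2] at a2
  have key : ∀ x y x' y' : ℤ, x' • (-R (t u)) + y' • R u = x • (-R (t u)) + y • R u →
      x % 5 = x' % 5 ∧ y % 5 = y' % 5 := by
    intro x y x' y' hxy
    have h0 : (x - x') • R (t u) + (y' - y) • R u = 0 := by
      have : (x - x') • R (t u) + (y' - y) • R u =
          (x' • (-R (t u)) + y' • R u) - (x • (-R (t u)) + y • R u) := by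
        simp only [sub_smul, smul_neg]; abel
      rw [this, hxy, sub_self]
    obtain ⟨d1, d2⟩ := h.indep u hu _ _ h0
    exact ⟨((Int.modEq_iff_dvd).2 d1).symm, (Int.modEq_iff_dvd).2 d2⟩
  obtain ⟨k1, k2⟩ := key _ _ _ _ a1
  obtain ⟨k3, k4⟩ := key _ _ _ _ a2
  unfold h48_key
  rw [k1, k2, k3, k4]

/-- An injective table of the `120` signed words. -/
lemma h48_exists_table : ∃ sw : Fin 120 → Bool × List Bool,
    ∀ k k' : Fin 120, h48_key (sw k) = h48_key (sw k') → k = k' := by
  refine ⟨fun k => h48_swords.get (Fin.cast h48_swords_length.symm k), ?_⟩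
  intro k k' hk
  have hnd := h48_keys_nodup
  rw [List.nodup_iff_injective_get] at hnd
  have hlen : (h48_swords.map h48_key).length = 120 := by
    rw [List.length_map, h48_swords_length]
  have := @hnd (Fin.cast hlen.symm k) (Fin.cast hlen.symm k') (by
    simp only [List.get_eq_getElem, List.getElem_map, Fin.val_cast]
    simpa [List.get_eq_getElem] using hk)
  exact Fin.ext (by simpa [Fin.ext_iff] using this)

/-- **Fibre = orbit** by counting: if `D` has at most `600` elements, any two frames in `D` differ
by a word in `s, t`, a power of `z` and a sign. -/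
theorem h48_orbit (h : h48_KSys s t z ng R D) (F : Finset U) (hF : F.card ≤ 600)
    (hDF : ∀ v ∈ D, v ∈ F) {u v : U} (hu : u ∈ D) (hv : v ∈ D) :
    ∃ (σ : Bool) (j : ℕ) (w : List Bool), v = h48_sgn ng σ (z^[j] (h48_act s t w u)) := by
  classical
  obtain ⟨sw, hsw_inj⟩ := h48_exists_table
  let o : Fin 120 × Fin 5 → U := fun q =>
    h48_sgn ng (sw q.1).1 (z^[(q.2 : ℕ)] (h48_act s t (sw q.1).2 u))
  have ho_mem : ∀ q, o q ∈ D := fun q => (h48_frame_law h _ _ _ hu).1
  have ho_inj : Function.Injective o := by
    rintro ⟨k, j⟩ ⟨k', j'⟩ he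
    have hk := h48_key_eq_of_frame_eq h hu (sw k) (sw k') j j' he
    have hkk : k = k' := hsw_inj k k' hk
    subst hkk
    have hv0 := h48_act_mem h (sw k).2 hu
    have hz : z^[(j : ℕ)] (h48_act s t (sw k).2 u) = z^[(j' : ℕ)] (h48_act s t (sw k).2 u) := by
      have he' : h48_sgn ng (sw k).1 (z^[(j : ℕ)] (h48_act s t (sw k).2 u))
          = h48_sgn ng (sw k).1 (z^[(j' : ℕ)] (h48_act s t (sw k).2 u)) := he
      cases hσ : (sw k).1
      · rw [hσ] at he'
        exact he'
      · rw [hσ] at he'
        have e1 := h.ng_ng _ (h48_iter_z_mem h j hv0)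
        have e2 := h.ng_ng _ (h48_iter_z_mem h j' hv0)
        have he'' : ng (z^[(j : ℕ)] (h48_act s t (sw k).2 u)) =
            ng (z^[(j' : ℕ)] (h48_act s t (sw k).2 u)) := he'
        rw [← e1, he'', e2]
    have := h.z_inj _ hv0 j j' j.2 j'.2 hz
    exact Prod.ext rfl (Fin.ext this)
  let o' : Fin 120 × Fin 5 → {x // x ∈ F} := fun q => ⟨o q, hDF _ (ho_mem q)⟩
  have ho'_inj : Function.Injective o' := fun a b hab => ho_inj (congrArg Subtype.val hab)
  have hc1 : Fintype.card (Fin 120 × Fin 5) = 600 := by
    rw [Fintype.card_prod, Fintype.card_fin, Fintype.card_fin]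
  have hc2 : Fintype.card {x // x ∈ F} = F.card := Fintype.card_coe F
  have hbij : Function.Bijective o' :=
    (Fintype.bijective_iff_injective_and_card o').2
      ⟨ho'_inj, by have := Fintype.card_le_of_injective o' ho'_inj; omega⟩
  obtain ⟨q, hq⟩ := hbij.2 ⟨v, hDF v hv⟩
  exact ⟨_, _, _, (congrArg Subtype.val hq).symm⟩

/-- The matrix by which a Frobenius with multiplier `c` acts on the level pair, when it maps the
frame to `± z^j (w u)`. -/
def h48_frobMat (c : ℤ) (σ : Bool) (w : List Bool) : ℤ × ℤ × ℤ × ℤ :=
  (c * (h48_eps σ * (h48_mat w).1), c * (h48_eps σ * (h48_mat w).2.1),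
    h48_eps σ * (h48_mat w).2.2.1, h48_eps σ * (h48_mat w).2.2.2)

/-- The Frobenius matrix on the level pair `(-R (t u), R u)`. -/
theorem h48_frobmat (h : h48_KSys s t z ng R D) (frob : E →+ E) (φ : U → U) (c : ℤ) {u : U}
    (hu : u ∈ D) (hR : frob (R u) = R (φ u)) (hP : frob (R (t u)) = c • R (t (φ u)))
    (σ : Bool) (j : ℕ) (w : List Bool)
    (hφ : φ u = h48_sgn ng σ (z^[j] (h48_act s t w u))) :
    frob (-R (t u)) = (h48_frobMat c σ w).1 • (-R (t u)) + (h48_frobMat c σ w).2.1 • R u ∧
      frob (R u) = (h48_frobMat c σ w).2.2.1 • (-R (t u)) + (h48_frobMat c σ w).2.2.2 • R u := by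
  obtain ⟨-, a1, a2⟩ := h48_frame_law h σ j w hu
  rw [← hφ] at a1 a2
  refine ⟨?_, ?_⟩
  · rw [map_neg, hP, ← smul_neg, a1, smul_add, smul_smul, smul_smul]
    rfl
  · rw [hR, a2]
    rfl

/-- Two Klein systems with the same frame maps: the two Frobenius maps act on the two level pairs
by the same integer matrix. -/
theorem h48_klein_abs {E' : Type*} [AddCommGroup E'] {R' : U → E'} {D' : Set U}
    (h : h48_KSys s t z ng R D) (h' : h48_KSys s t z ng R' D')
    (F : Finset U) (hF : F.card ≤ 600) (hDF : ∀ v ∈ D, v ∈ F)
    (frob : E →+ E) (frob' : E' →+ E') (φ : U → U) (c : ℤ) {u u' : U} (hu : u ∈ D)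
    (hu' : u' ∈ D') (hφD : φ u ∈ D)
    (hlink : ∀ (σ : Bool) (j : ℕ) (w : List Bool),
      φ u = h48_sgn ng σ (z^[j] (h48_act s t w u)) →
      φ u' = h48_sgn ng σ (z^[j] (h48_act s t w u')))
    (hR : frob (R u) = R (φ u)) (hP : frob (R (t u)) = c • R (t (φ u)))
    (hR' : frob' (R' u') = R' (φ u')) (hP' : frob' (R' (t u')) = c • R' (t (φ u'))) :
    ∃ α β γ δ : ℤ,
      (frob (-R (t u)) = α • (-R (t u)) + β • R u ∧ frob (R u) = γ • (-R (t u)) + δ • R u) ∧
      (frob' (-R' (t u')) = α • (-R' (t u')) + β • R' u' ∧
        frob' (R' u') = γ • (-R' (t u')) + δ • R' u') := by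
  obtain ⟨σ, j, w, hφ⟩ := h48_orbit h F hF hDF hu hφD
  exact ⟨_, _, _, _, h48_frobmat h frob φ c hu hR hP σ j w hφ,
    h48_frobmat h' frob' φ c hu' hR' hP' σ j w (hlink σ j w hφ)⟩

end Sys

end Fermat.Agent.S52
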