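import Fermat.Agent.S52.h48_CongrSw
import Fermat.Agent.S52.h48_KleinAbs

/-!
# S52 block (II): from level pairs to the congruence of traces (helper48)

* `h48_wire`: two pairs `(P, R)`, `(P', R')` of independent points of order `5` on the short models
  of the reductions of `W`, `W'` at `ℓ ≥ 5` on which Frobenius acts by the same integer matrix give
  `5 ∣ a_ℓ(W') - a_ℓ(W)`;
* `h48_klein_cong_abs`: the same conclusion from two abstract Klein systems (`h48_KSys`) with the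
  same frame maps.
-/

set_option autoImplicit false

namespace Fermat.Agent.S52

open WeierstrassCurve WeierstrassCurve.Affine

section frame

variable {E : Type*} [AddCommGroup E]

/-- The additive map `ZMod 5 × ZMod 5 → E`, `(a, b) ↦ a P + b R`, for `P`, `R` killed by `5`. -/
noncomputable def h48_frame (P R : E) (hP : (5 : ℤ) • P = 0) (hR : (5 : ℤ) • R = 0) :
    ZMod 5 × ZMod 5 →+ E :=
  AddMonoidHom.coprod (ZMod.lift 5 ⟨zmultiplesHom E P, by simpa using hP⟩)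
    (ZMod.lift 5 ⟨zmultiplesHom E R, by simpa using hR⟩)

lemma h48_frame_intCast (P R : E) (hP : (5 : ℤ) • P = 0) (hR : (5 : ℤ) • R = 0) (x y : ℤ) :
    h48_frame P R hP hR ((x : ZMod 5), (y : ZMod 5)) = x • P + y • R := by
  simp [h48_frame, ZMod.lift_coe]

lemma h48_frame_injective (P R : E) (hP : (5 : ℤ) • P = 0) (hR : (5 : ℤ) • R = 0)
    (hind : ∀ a b : ℤ, a • P + b • R = 0 → (5 : ℤ) ∣ a ∧ (5 : ℤ) ∣ b) :
    Function.Injective (h48_frame P R hP hR) := by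
  rw [injective_iff_map_eq_zero]
  rintro ⟨a, b⟩ hab
  have ha : ((a.cast : ℤ) : ZMod 5) = a := ZMod.intCast_zmod_cast a
  have hb : ((b.cast : ℤ) : ZMod 5) = b := ZMod.intCast_zmod_cast b
  rw [← ha, ← hb, h48_frame_intCast] at hab
  obtain ⟨d1, d2⟩ := hind _ _ hab
  have e1 : ((a.cast : ℤ) : ZMod 5) = 0 := by
    rw [ZMod.intCast_zmod_eq_zero_iff_dvd]; exact_mod_cast d1
  have e2 : ((b.cast : ℤ) : ZMod 5) = 0 := by
    rw [ZMod.intCast_zmod_eq_zero_iff_dvd]; exact_mod_cast d2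
  rw [ha] at e1
  rw [hb] at e2
  rw [e1, e2]
  rfl

lemma h48_frame_frob (P R : E) (hP : (5 : ℤ) • P = 0) (hR : (5 : ℤ) • R = 0) (frob : E →+ E)
    (α β γ δ : ℤ) (h1 : frob P = α • P + β • R) (h2 : frob R = γ • P + δ • R)
    (g : ZMod 5 × ZMod 5) :
    frob (h48_frame P R hP hR g) =
      h48_frame P R hP hR ((α : ZMod 5) * g.1 + (γ : ZMod 5) * g.2,
        (β : ZMod 5) * g.1 + (δ : ZMod 5) * g.2) := by
  obtain ⟨a, b⟩ := g
  have ha : ((a.cast : ℤ) : ZMod 5) = a := ZMod.intCast_zmod_cast a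
  have hb : ((b.cast : ℤ) : ZMod 5) = b := ZMod.intCast_zmod_cast b
  have e : (((α : ZMod 5) * a + (γ : ZMod 5) * b, (β : ZMod 5) * a + (δ : ZMod 5) * b) :
      ZMod 5 × ZMod 5) =
      (((α * a.cast + γ * b.cast : ℤ) : ZMod 5), ((β * a.cast + δ * b.cast : ℤ) : ZMod 5)) := by
    simp only [Int.cast_add, Int.cast_mul, ha, hb]
  rw [e, h48_frame_intCast]
  conv_lhs => rw [← ha, ← hb, h48_frame_intCast]
  rw [map_add, map_zsmul, map_zsmul, h1, h2]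
  simp only [smul_add, smul_smul, add_smul]
  have c1 : (a.cast : ℤ) * α = α * a.cast := mul_comm _ _
  have c2 : (a.cast : ℤ) * β = β * a.cast := mul_comm _ _
  have c3 : (b.cast : ℤ) * γ = γ * b.cast := mul_comm _ _
  have c4 : (b.cast : ℤ) * δ = δ * b.cast := mul_comm _ _
  rw [c1, c2, c3, c4]
  abel

end frame

section wire

variable (W W' : WeierstrassCurve ℤ) (ℓ : ℕ) [Fact ℓ.Prime]
variable {Ω : Type*} [Field Ω] [DecidableEq Ω] [Algebra (ZMod ℓ) Ω]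

/-- Two level pairs with the same Frobenius matrix give the congruence of traces modulo `5`. -/
theorem h48_wire (hℓ : 5 ≤ ℓ) (hgood : W.IsGoodPrimeFor ℓ) (hgood' : W'.IsGoodPrimeFor ℓ)
    (P R : h5_Pt (-27 * ((W.c₄ : ℤ) : ZMod ℓ)) (-54 * ((W.c₆ : ℤ) : ZMod ℓ)) Ω)
    (P' R' : h5_Pt (-27 * ((W'.c₄ : ℤ) : ZMod ℓ)) (-54 * ((W'.c₆ : ℤ) : ZMod ℓ)) Ω)
    (hP : (5 : ℤ) • P = 0) (hR : (5 : ℤ) • R = 0)
    (hind : ∀ a b : ℤ, a • P + b • R = 0 → (5 : ℤ) ∣ a ∧ (5 : ℤ) ∣ b)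
    (hP' : (5 : ℤ) • P' = 0) (hR' : (5 : ℤ) • R' = 0)
    (hind' : ∀ a b : ℤ, a • P' + b • R' = 0 → (5 : ℤ) ∣ a ∧ (5 : ℤ) ∣ b)
    (α β γ δ : ℤ)
    (h1 : h5_frob _ _ Ω P = α • P + β • R) (h2 : h5_frob _ _ Ω R = γ • P + δ • R)
    (h1' : h5_frob _ _ Ω P' = α • P' + β • R') (h2' : h5_frob _ _ Ω R' = γ • P' + δ • R') :
    (5 : ℤ) ∣ W'.apOfModel ℓ - W.apOfModel ℓ := by
  refine h48_ap_congr_sw W W' ℓ (G := ZMod 5 × ZMod 5) hℓ hgood hgood' (by decide)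
    ⟨(1, 0), by decide⟩ (h48_frame P R hP hR) (h48_frame P' R' hP' hR')
    (h48_frame_injective P R hP hR hind) (h48_frame_injective P' R' hP' hR' hind')
    (fun g => ((α : ZMod 5) * g.1 + (γ : ZMod 5) * g.2, (β : ZMod 5) * g.1 + (δ : ZMod 5) * g.2))
    (fun g => h48_frame_frob P R hP hR _ α β γ δ h1 h2 g)
    (fun g => h48_frame_frob P' R' hP' hR' _ α β γ δ h1' h2' g)

/-- **Abstract form of block (II)**: two Klein systems with the same frame maps, valued in the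
points of the short models of the reductions of `W` and `W'`, whose Frobenius maps are induced by
the same map `φ` of frames (with the same multiplier `c` on the `t`-translate), give the
congruence of traces modulo `5`. -/
theorem h48_klein_cong_abs (hℓ : 5 ≤ ℓ) (hgood : W.IsGoodPrimeFor ℓ)
    (hgood' : W'.IsGoodPrimeFor ℓ) {U : Type*} {s t z ng : U → U}
    {R : U → h5_Pt (-27 * ((W.c₄ : ℤ) : ZMod ℓ)) (-54 * ((W.c₆ : ℤ) : ZMod ℓ)) Ω}
    {R' : U → h5_Pt (-27 * ((W'.c₄ : ℤ) : ZMod ℓ)) (-54 * ((W'.c₆ : ℤ) : ZMod ℓ)) Ω}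
    {D D' : Set U} (h : h48_KSys s t z ng R D) (h' : h48_KSys s t z ng R' D')
    (F : Finset U) (hF : F.card ≤ 600) (hDF : ∀ v ∈ D, v ∈ F)
    (φ : U → U) (c : ℤ) {u u' : U} (hu : u ∈ D) (hu' : u' ∈ D') (hφD : φ u ∈ D)
    (hlink : ∀ (σ : Bool) (j : ℕ) (w : List Bool),
      φ u = h48_sgn ng σ (z^[j] (h48_act s t w u)) →
      φ u' = h48_sgn ng σ (z^[j] (h48_act s t w u')))
    (hR : h5_frob _ _ Ω (R u) = R (φ u)) (hP : h5_frob _ _ Ω (R (t u)) = c • R (t (φ u)))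
    (hR' : h5_frob _ _ Ω (R' u') = R' (φ u'))
    (hP' : h5_frob _ _ Ω (R' (t u')) = c • R' (t (φ u'))) :
    (5 : ℤ) ∣ W'.apOfModel ℓ - W.apOfModel ℓ := by
  obtain ⟨α, β, γ, δ, ⟨a1, a2⟩, ⟨b1, b2⟩⟩ :=
    h48_klein_abs h h' F hF hDF (h5_frob _ _ Ω) (h5_frob _ _ Ω) φ c hu hu' hφD hlink hR hP hR' hP'
  have ind : ∀ {E : Type _} [AddCommGroup E] (X Y : E),
      (∀ a b : ℤ, a • X + b • Y = 0 → (5 : ℤ) ∣ a ∧ (5 : ℤ) ∣ b) →
      ∀ a b : ℤ, a • (-X) + b • Y = 0 → (5 : ℤ) ∣ a ∧ (5 : ℤ) ∣ b := by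
    intro E _ X Y hXY a b hab
    have := hXY (-a) b (by rw [neg_smul, ← smul_neg]; exact hab)
    exact ⟨(dvd_neg).1 this.1, this.2⟩
  exact h48_wire W W' ℓ hℓ hgood hgood' (-R (t u)) (R u) (-R' (t u')) (R' u')
    (by rw [smul_neg, h.five _ (h.t_mem _ hu), neg_zero]) (h.five _ hu)
    (ind _ _ (h.indep u hu))
    (by rw [smul_neg, h'.five _ (h'.t_mem _ hu'), neg_zero]) (h'.five _ hu')
    (ind _ _ (h'.indep u' hu')) α β γ δ a1 a2 b1 b2

end wire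

end Fermat.Agent.S52
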