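import Fermat.Agent.S52.NoPoly

/-!
# S52: the family identity for `kT` (`fam_T`), derived from `fam_H`, `fam_f`, `fam_disc`

`(-kT u')² = famC6²` follows from `klein_rel`, `fam_H`, `fam_f`, `fam_disc`; in the universal
polynomial ring `ℤ[x, y, m, n]` (a domain) the sign is fixed by specialising `(m, n) = (0, 1)`.
-/

set_option autoImplicit false

open Polynomial

namespace Fermat.Agent.S52

/-- Abstract step: the squares agree. -/
theorem h58_famT_sq {P : Type*} [CommRing P] (a h ff f G C4' B kH0 kT0 : P)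
    (H1 : a ^ 2 + h ^ 3 = 1728 * ff ^ 5) (H2 : -h = C4') (H3 : ff = f * G)
    (H4 : C4' ^ 3 - B ^ 2 = ((-kH0) ^ 3 - (-kT0) ^ 2) * G ^ 5)
    (H5 : kT0 ^ 2 + kH0 ^ 3 = 1728 * f ^ 5) : (-a) ^ 2 = B ^ 2 := by
  subst H2 H3
  linear_combination H1 + H4 - G ^ 5 * H5

/-- `fam_T` in the universal ring `ℤ[x, y, m, n]`. -/
theorem h58_famT_univ :
    (-kT ((MvPolynomial.X 3 : MvPolynomial (Fin 4) ℤ) * MvPolynomial.X 0
            + MvPolynomial.X 2 * kP1 (MvPolynomial.X 0) (MvPolynomial.X 1))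
          (MvPolynomial.X 3 * MvPolynomial.X 1
            + MvPolynomial.X 2 * kP2 (MvPolynomial.X 0) (MvPolynomial.X 1)) :
        MvPolynomial (Fin 4) ℤ)
      = famC6 (-kH (MvPolynomial.X 0) (MvPolynomial.X 1)) (-kT (MvPolynomial.X 0) (MvPolynomial.X 1))
          (MvPolynomial.X 2) (MvPolynomial.X 3) := by
  set x : MvPolynomial (Fin 4) ℤ := MvPolynomial.X 0 with hx
  set y : MvPolynomial (Fin 4) ℤ := MvPolynomial.X 1 with hy
  set m : MvPolynomial (Fin 4) ℤ := MvPolynomial.X 2 with hm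
  set n : MvPolynomial (Fin 4) ℤ := MvPolynomial.X 3 with hn
  have hsq := h58_famT_sq (kT (n * x + m * kP1 x y) (n * y + m * kP2 x y))
    (kH (n * x + m * kP1 x y) (n * y + m * kP2 x y))
    (kf (n * x + m * kP1 x y) (n * y + m * kP2 x y)) (kf x y)
    (famG (-kH x y) (-kT x y) m n) (famC4 (-kH x y) (-kT x y) m n)
    (famC6 (-kH x y) (-kT x y) m n) (kH x y) (kT x y)
    (klein_rel _ _) (fam_H x y m n) (fam_f x y m n) (fam_disc _ _ m n) (klein_rel x y)
  have hprod : (-kT (n * x + m * kP1 x y) (n * y + m * kP2 x y)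
        - famC6 (-kH x y) (-kT x y) m n)
      * (-kT (n * x + m * kP1 x y) (n * y + m * kP2 x y)
        + famC6 (-kH x y) (-kT x y) m n) = 0 := by
    linear_combination hsq
  have hne : -kT (n * x + m * kP1 x y) (n * y + m * kP2 x y)
      + famC6 (-kH x y) (-kT x y) m n ≠ 0 := by
    intro h0
    -- specialise at (x, y, m, n) = (1, 0, 0, 1)
    let ev : MvPolynomial (Fin 4) ℤ →+* ℤ :=
      MvPolynomial.eval₂Hom (RingHom.id ℤ) (![1, 0, 0, 1] : Fin 4 → ℤ)
    have e0 : ev x = 1 := by simp [ev, hx]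
    have e1 : ev y = 0 := by simp [ev, hy]
    have e2 : ev m = 0 := by simp [ev, hm]
    have e3 : ev n = 1 := by simp [ev, hn]
    have := congrArg ev h0
    rw [map_add, map_neg, h58_map_kT, map_famC6, map_neg, map_neg, h58_map_kH, h58_map_kT,
      map_add, map_add, map_mul, map_mul, map_mul, map_mul, h58_map_kP1, h58_map_kP2,
      e0, e1, e2, e3, famC6_zero_one, map_zero] at this
    norm_num [kT] at this
  have := (mul_eq_zero.mp hprod).resolve_right hne
  exact sub_eq_zero.mp this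

/-- **`fam_T`** (statement of the S52 skeleton, under a private name). -/
theorem h58_fam_T {R : Type*} [CommRing R] (x y m n : R) :
    -kT (n * x + m * kP1 x y) (n * y + m * kP2 x y) = famC6 (-kH x y) (-kT x y) m n := by
  let φ : MvPolynomial (Fin 4) ℤ →+* R :=
    MvPolynomial.eval₂Hom (Int.castRingHom R) (![x, y, m, n] : Fin 4 → R)
  have e0 : φ (MvPolynomial.X 0) = x := by simp [φ]
  have e1 : φ (MvPolynomial.X 1) = y := by simp [φ]
  have e2 : φ (MvPolynomial.X 2) = m := by simp [φ]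
  have e3 : φ (MvPolynomial.X 3) = n := by simp [φ]
  have := congrArg φ h58_famT_univ
  rw [map_neg, h58_map_kT, map_famC6, map_neg, map_neg, h58_map_kH, h58_map_kT,
    map_add, map_add, map_mul, map_mul, map_mul, map_mul, h58_map_kP1, h58_map_kP2,
    e0, e1, e2, e3] at this
  exact this

end Fermat.Agent.S52
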