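import Fermat.Agent.S52.h34_KleinBasic

/-!
# S52 block (II): the counting half of "fibre = orbit" (helper5)

For `c₄³ ≠ c₆²` the fibre `{(x, y) : -H(x, y) = c₄, -T(x, y) = c₆}` of the Klein map has at most
`600` points (over any field).  Consequently an injective family of `600` points of the fibre
exhausts it.
-/

set_option autoImplicit false

namespace Fermat.Agent.S52

open Polynomial

section count

variable {k : Type*} [Field k]

/-- Points `(z y, y)` with `Q(z) = 0` and `yⁿ = r(z)`: at most `deg Q * n` of them. -/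
lemma h5_count_aux (Q : k[X]) (hQ : Q ≠ 0) (d n : ℕ) (hd : Q.natDegree ≤ d) (hn : 0 < n)
    (r : k → k) :
    ∃ s : Finset (k × k), s.card ≤ d * n ∧
      ∀ z y : k, Q.eval z = 0 → y ^ n = r z → (z * y, y) ∈ s := by
  classical
  refine ⟨Q.roots.toFinset.biUnion
    (fun z => (nthRoots n (r z)).toFinset.image (fun y => (z * y, y))), ?_, ?_⟩
  · calc _ ≤ ∑ z ∈ Q.roots.toFinset,
          ((nthRoots n (r z)).toFinset.image (fun y => (z * y, y))).card :=
        Finset.card_biUnion_le
      _ ≤ ∑ _z ∈ Q.roots.toFinset, n :=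
        Finset.sum_le_sum (fun z _ => Finset.card_image_le.trans
          ((Multiset.toFinset_card_le _).trans (card_nthRoots n _)))
      _ = Q.roots.toFinset.card * n := by simp
      _ ≤ d * n := Nat.mul_le_mul_right _
        ((Multiset.toFinset_card_le _).trans ((card_roots' Q).trans hd))
  · intro z y hz hy
    simp only [Finset.mem_biUnion, Multiset.mem_toFinset, Finset.mem_image]
    exact ⟨z, (mem_roots hQ).2 hz, y, (mem_nthRoots hn).2 hy, rfl⟩

/-- `H(z, 1)` as a polynomial. -/
noncomputable def h5_polyH : k[X] :=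
  -X ^ 20 - 1 + 228 * (X ^ 15 - X ^ 5) - 494 * X ^ 10

/-- `T(z, 1)` as a polynomial. -/
noncomputable def h5_polyT : k[X] :=
  X ^ 30 + 1 + 522 * (X ^ 25 - X ^ 5) - 10005 * (X ^ 20 + X ^ 10)

lemma h5_polyH_eval (z : k) : (h5_polyH : k[X]).eval z = kH z 1 := by
  simp only [h5_polyH, kH, eval_add, eval_sub, eval_mul, eval_neg, eval_pow, eval_X, eval_one,
    eval_ofNat]
  ring

lemma h5_polyT_eval (z : k) : (h5_polyT : k[X]).eval z = kT z 1 := by
  simp only [h5_polyT, kT, eval_add, eval_sub, eval_mul, eval_pow, eval_X, eval_one,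
    eval_ofNat]
  ring

lemma h5_polyH_natDegree : (h5_polyH : k[X]).natDegree ≤ 20 := by
  unfold h5_polyH
  compute_degree

lemma h5_polyT_natDegree : (h5_polyT : k[X]).natDegree ≤ 30 := by
  unfold h5_polyT
  compute_degree

lemma h5_polyH_ne_zero : (h5_polyH : k[X]) ≠ 0 := by
  intro h
  have := h5_polyH_eval (0 : k)
  rw [h, eval_zero] at this
  simp [kH] at this

lemma h5_polyT_ne_zero : (h5_polyT : k[X]) ≠ 0 := by
  intro h
  have := h5_polyT_eval (0 : k)
  rw [h, eval_zero] at this
  simp [kT] at this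

/-- The fibre of the Klein map over `(c₄, c₆)`, `c₄³ ≠ c₆²`, has at most `600` points. -/
theorem h5_klein_fibre_finset (c4 c6 : k) (hΔ : c4 ^ 3 - c6 ^ 2 ≠ 0) :
    ∃ s : Finset (k × k), s.card ≤ 600 ∧
      ∀ x y : k, -kH x y = c4 → -kT x y = c6 → (x, y) ∈ s := by
  -- common preparation for a point of the fibre
  have prep : ∀ x y : k, -kH x y = c4 → -kT x y = c6 →
      y ≠ 0 ∧ x = x / y * y ∧ y ^ 20 * kH (x / y) 1 = -c4 ∧ y ^ 30 * kT (x / y) 1 = -c6 := by
    intro x y hx hy
    have hy0 : y ≠ 0 := by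
      rintro rfl
      apply hΔ
      rw [← hx, ← hy]
      simp only [kH, kT]
      ring
    have hxy : x = x / y * y := by field_simp
    refine ⟨hy0, hxy, ?_, ?_⟩
    · have h := h34_kH_smul y (x / y) 1
      rw [mul_one, mul_comm y (x / y), ← hxy] at h
      rw [← h, ← hx]
      ring
    · have h := h34_kT_smul y (x / y) 1
      rw [mul_one, mul_comm y (x / y), ← hxy] at h
      rw [← h, ← hy]
      ring
  by_cases h4 : c4 = 0
  · -- `c₄ = 0`: `z` is a root of `H(z, 1)`, and `y³⁰` is determined
    have h6 : c6 ≠ 0 := by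
      rintro rfl
      apply hΔ
      rw [h4]
      ring
    obtain ⟨s, hs, hmem⟩ := h5_count_aux (h5_polyH : k[X]) h5_polyH_ne_zero 20 30
      h5_polyH_natDegree (by norm_num) (fun z => -c6 / kT z 1)
    refine ⟨s, by simpa using hs, fun x y hx hy => ?_⟩
    obtain ⟨hy0, hxy, e20, e30⟩ := prep x y hx hy
    have hτ : kT (x / y) 1 ≠ 0 := by
      intro h0
      rw [h0, mul_zero] at e30
      exact h6 (neg_eq_zero.mp e30.symm)
    have := hmem (x / y) y (by
      rw [h5_polyH_eval]
      rw [h4, neg_zero] at e20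
      exact (mul_eq_zero.mp e20).resolve_left (pow_ne_zero _ hy0)) (by
      rw [eq_div_iff hτ]
      exact e30)
    rwa [← hxy] at this
  · by_cases h6 : c6 = 0
    · -- `c₆ = 0`: `z` is a root of `T(z, 1)`, and `y²⁰` is determined
      obtain ⟨s, hs, hmem⟩ := h5_count_aux (h5_polyT : k[X]) h5_polyT_ne_zero 30 20
        h5_polyT_natDegree (by norm_num) (fun z => -c4 / kH z 1)
      refine ⟨s, by simpa using hs, fun x y hx hy => ?_⟩
      obtain ⟨hy0, hxy, e20, e30⟩ := prep x y hx hy
      have hh : kH (x / y) 1 ≠ 0 := by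
        intro h0
        rw [h0, mul_zero] at e20
        exact h4 (neg_eq_zero.mp e20.symm)
      have := hmem (x / y) y (by
        rw [h5_polyT_eval]
        rw [h6, neg_zero] at e30
        exact (mul_eq_zero.mp e30).resolve_left (pow_ne_zero _ hy0)) (by
        rw [eq_div_iff hh]
        exact e20)
      rwa [← hxy] at this
    · -- generic case: `z` is a root of `c₆² H³ + c₄³ T²`, and `y¹⁰` is determined
      set P : k[X] := C (c6 ^ 2) * h5_polyH ^ 3 + C (c4 ^ 3) * h5_polyT ^ 2 with hP
      have hPeval : ∀ z : k, P.eval z = c6 ^ 2 * kH z 1 ^ 3 + c4 ^ 3 * kT z 1 ^ 2 := by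
        intro z
        rw [hP]
        simp only [eval_add, eval_mul, eval_C, eval_pow, h5_polyH_eval, h5_polyT_eval]
      have hP0 : P ≠ 0 := by
        intro h
        have := hPeval 0
        rw [h, eval_zero] at this
        apply hΔ
        simp only [kH, kT] at this
        linear_combination -this
      have hPdeg : P.natDegree ≤ 60 := by
        rw [hP]
        refine (natDegree_add_le _ _).trans (max_le ?_ ?_)
        · refine (natDegree_C_mul_le _ _).trans ?_
          exact (natDegree_pow_le_of_le 3 h5_polyH_natDegree).trans (by norm_num)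
        · refine (natDegree_C_mul_le _ _).trans ?_
          exact (natDegree_pow_le_of_le 2 h5_polyT_natDegree).trans (by norm_num)
      obtain ⟨s, hs, hmem⟩ := h5_count_aux P hP0 60 10 hPdeg (by norm_num)
        (fun z => c6 * kH z 1 / (c4 * kT z 1))
      refine ⟨s, by simpa using hs, fun x y hx hy => ?_⟩
      obtain ⟨hy0, hxy, e20, e30⟩ := prep x y hx hy
      have hτ : kT (x / y) 1 ≠ 0 := by
        intro h0
        rw [h0, mul_zero] at e30
        exact h6 (neg_eq_zero.mp e30.symm)
      have := hmem (x / y) y (by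
        rw [hPeval]
        have h60 : y ^ 60 * (c6 ^ 2 * kH (x / y) 1 ^ 3 + c4 ^ 3 * kT (x / y) 1 ^ 2) = 0 := by
          linear_combination c6 ^ 2 * ((y ^ 20 * kH (x / y) 1) ^ 2 +
            (y ^ 20 * kH (x / y) 1) * (-c4) + c4 ^ 2) * e20 +
            c4 ^ 3 * (y ^ 30 * kT (x / y) 1 + (-c6)) * e30
        exact (mul_eq_zero.mp h60).resolve_left (pow_ne_zero _ hy0)) (by
        rw [eq_div_iff (mul_ne_zero h4 hτ)]
        linear_combination (y ^ 10 * kT (x / y) 1) * e20 - kH (x / y) 1 * e30)
      rwa [← hxy] at this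

/-- An injective family of `600` points of the fibre exhausts the fibre. -/
theorem h5_klein_fibre_eq_range {I : Type*} [Fintype I] (hI : 600 ≤ Fintype.card I)
    (c4 c6 : k) (hΔ : c4 ^ 3 - c6 ^ 2 ≠ 0) (o : I → k × k) (ho : Function.Injective o)
    (hmem : ∀ i, -kH (o i).1 (o i).2 = c4 ∧ -kT (o i).1 (o i).2 = c6) (x y : k)
    (hx : -kH x y = c4) (hy : -kT x y = c6) : ∃ i, o i = (x, y) := by
  classical
  obtain ⟨s, hs, hs'⟩ := h5_klein_fibre_finset c4 c6 hΔ
  have hsub : Finset.univ.image o ⊆ s := by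
    intro p hp
    obtain ⟨i, -, rfl⟩ := Finset.mem_image.mp hp
    exact hs' _ _ (hmem i).1 (hmem i).2
  have hcard : s.card ≤ (Finset.univ.image o).card := by
    rw [Finset.card_image_of_injective _ ho, Finset.card_univ]
    exact hs.trans hI
  have heq := Finset.eq_of_subset_of_card_le hsub hcard
  have : (x, y) ∈ Finset.univ.image o := by
    rw [heq]
    exact hs' x y hx hy
  obtain ⟨i, -, hi⟩ := Finset.mem_image.mp this
  exact ⟨i, hi⟩

end count

end Fermat.Agent.S52
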