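import Fermat.Agent.S52.KleinChord
import Fermat.Agent.S52.KleinFrobU
import Fermat.Agent.S52.h48_Wire
import Fermat.Agent.S52.h5_FibreCount
import Fermat.Agent.S52.h34_KleinBasic
import Fermat.Agent.S52.h58_FamT

/-!
# S52 block (II): instantiation of the abstract Klein system and `klein_cong` (helper48)

`h48_klein_cong` is the block-(II) export `klein_cong` verbatim.  The closure deliberately avoids
the heavy `FamC6*` files: `fam_T` is taken from `h58_FamT` (`h58_fam_T`).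
-/

set_option autoImplicit false

namespace Fermat.Agent.S52

open WeierstrassCurve Polynomial

section sys

variable {F : Type*} [Field F] {K : Type*} [Field K] [DecidableEq K] [Algebra F K] {A B : F}

/-- The fibre `kFib A B` with the maps `S`, `T₀`, `ζ • ·`, `-·` and the section `kR A B` is an
abstract Klein system. -/
theorem h48_kl_ksys (h2 : (2 : F) ≠ 0) (h3 : (3 : F) ≠ 0) (h5 : (5 : F) ≠ 0)
    (hΔ : 4 * A ^ 3 + 27 * B ^ 2 ≠ 0) (ζ : K) (hζ : ζ ^ 4 + ζ ^ 3 + ζ ^ 2 + ζ + 1 = 0) :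
    h48_KSys (kS ζ) (kT0 ζ) (fun u : K × K => ζ • u) (fun u : K × K => -u) (kR A B)
      (kFib (K := K) A B) := by
  have h5K : (5 : K) ≠ 0 := by
    rw [← map_ofNat (algebraMap F K) 5]
    exact (_root_.map_ne_zero _).2 h5
  have hζ5 : ζ ^ 5 = 1 := kl_zeta_pow5 ζ hζ
  have hζ10 : ζ ^ 10 = 1 := by
    have : ζ ^ 10 = (ζ ^ 5) ^ 2 := by ring
    rw [this, hζ5, one_pow]
  refine
    { s_mem := fun u hu => kl_fib_S ζ hζ hu
      t_mem := fun u hu => kl_fib_T0 h5 ζ hζ hu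
      z_mem := fun u hu => kl_fib_smul ζ hζ10 hu
      ng_mem := fun u hu => kl_fib_neg hu
      R_s := fun u hu => kl_R_chord h2 h3 h5 hΔ ζ hζ hu
      R_ts := fun u _ => kl_R_T0_S h5 ζ hζ u
      R_tt := fun u _ => by rw [kl_T0_T0 ζ hζ h5K u, kl_R_neg]
      R_z := fun u _ => kl_R_smul ζ hζ5 u
      R_tz := fun u _ => by
        show kR A B (kT0 ζ (ζ • u)) = _
        rw [kl_T0_smul, kl_R_smul ζ hζ5]
      R_ng := fun u _ => kl_R_neg u
      R_tng := fun u _ => by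
        show kR A B (kT0 ζ (-u)) = _
        have : -u = (-1 : K) • u := by rw [neg_one_smul]
        rw [this, kl_T0_smul, neg_one_smul, kl_R_neg]
      ng_ng := fun u _ => neg_neg u
      five := fun u hu => kl_R_five h2 hΔ hu
      indep := fun u hu a b h => kl_indep h2 h3 h5 hΔ ζ hζ hu a b h
      z_inj := ?_ }
  intro u hu j j' hj hj' h
  have hz : ∀ k : ℕ, (fun v : K × K => ζ • v)^[k] u = ζ ^ k • u := by
    intro k
    induction k with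
    | zero => simp
    | succ k ih => rw [Function.iterate_succ_apply', ih, smul_smul, pow_succ']
  rw [hz, hz] at h
  have hu0 := kl_fib_ne_zero hΔ hu
  have : ζ ^ j = ζ ^ j' := by
    by_contra hne
    have h0 : (ζ ^ j - ζ ^ j') • u = 0 := by rw [sub_smul, h, sub_self]
    rcases smul_eq_zero.1 h0 with h1 | h1
    · exact hne (sub_eq_zero.1 h1)
    · exact hu0 h1
  exact kl_zeta_pow_inj ζ hζ h5K hj hj' this

end sys

section link

variable {K : Type*} [Field K]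

/-- The family map commutes with words, powers of `ζ` and signs. -/
theorem h48_kl_link (h5K : (5 : K) ≠ 0) (ζ : K) (hζ : ζ ^ 4 + ζ ^ 3 + ζ ^ 2 + ζ + 1 = 0)
    (m n : K) (σ : Bool) (j : ℕ) (w : List Bool) (u : K × K) :
    kfam m n (h48_sgn (fun u : K × K => -u) σ
        ((fun v : K × K => ζ • v)^[j] (h48_act (kS ζ) (kT0 ζ) w u))) =
      h48_sgn (fun u : K × K => -u) σ
        ((fun v : K × K => ζ • v)^[j] (h48_act (kS ζ) (kT0 ζ) w (kfam m n u))) := by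
  have hζ10 : ζ ^ 10 = 1 := by
    have : ζ ^ 10 = (ζ ^ 5) ^ 2 := by ring
    rw [this, kl_zeta_pow5 ζ hζ, one_pow]
  have hw : ∀ w : List Bool, kfam m n (h48_act (kS ζ) (kT0 ζ) w u) =
      h48_act (kS ζ) (kT0 ζ) w (kfam m n u) := by
    intro w
    induction w with
    | nil => rfl
    | cons b w ih =>
      cases b
      · show kfam m n (kT0 ζ (h48_act (kS ζ) (kT0 ζ) w u)) = kT0 ζ _
        rw [kl_fam_T0 ζ hζ h5K, ih]
      · show kfam m n (kS ζ (h48_act (kS ζ) (kT0 ζ) w u)) = kS ζ _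
        rw [kl_fam_S ζ hζ, ih]
  have hj : ∀ (j : ℕ) (v : K × K), kfam m n ((fun v : K × K => ζ • v)^[j] v) =
      (fun v : K × K => ζ • v)^[j] (kfam m n v) := by
    intro j v
    induction j with
    | zero => rfl
    | succ j ih =>
      rw [Function.iterate_succ_apply', Function.iterate_succ_apply', kl_fam_smul ζ hζ10, ih]
  have hneg : ∀ v : K × K, kfam m n (-v) = -kfam m n v := by
    intro v
    have e : -v = (-1 : K) • v := by rw [neg_one_smul]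
    rw [e, kl_fam_smul (-1) (by norm_num), neg_one_smul]
  cases σ
  · show kfam m n ((fun v : K × K => ζ • v)^[j] _) = (fun v : K × K => ζ • v)^[j] _
    rw [hj, hw]
  · show kfam m n (-((fun v : K × K => ζ • v)^[j] _)) = -((fun v : K × K => ζ • v)^[j] _)
    rw [hneg, hj, hw]

end link

/-- **Block (II)**: members of the Klein family have congruent traces of Frobenius modulo `5`. -/
theorem h48_klein_cong (ℓ : ℕ) [Fact ℓ.Prime] (hℓ : 7 ≤ ℓ) (W W' : WeierstrassCurve ℤ)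
    (m n : ℤ) (h4 : W'.c₄ = famC4 W.c₄ W.c₆ m n) (h6 : W'.c₆ = famC6 W.c₄ W.c₆ m n)
    (hgood : W.IsGoodPrimeFor ℓ) (hgood' : W'.IsGoodPrimeFor ℓ) :
    (5 : ℤ) ∣ W'.apOfModel ℓ - W.apOfModel ℓ := by
  classical
  have hp : ℓ.Prime := Fact.out
  have hsmall : ∀ k : ℕ, 0 < k → k < 7 → ((k : ℕ) : ZMod ℓ) ≠ 0 := by
    intro k hk0 hk7 h
    rw [ZMod.natCast_eq_zero_iff] at h
    have := Nat.le_of_dvd hk0 h
    omega
  have h2 : (2 : ZMod ℓ) ≠ 0 := by exact_mod_cast hsmall 2 (by norm_num) (by norm_num)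
  have h3 : (3 : ZMod ℓ) ≠ 0 := by exact_mod_cast hsmall 3 (by norm_num) (by norm_num)
  have h5 : (5 : ZMod ℓ) ≠ 0 := by exact_mod_cast hsmall 5 (by norm_num) (by norm_num)
  -- the discriminants
  have hdisc : ∀ V : WeierstrassCurve ℤ, V.IsGoodPrimeFor ℓ →
      ((V.c₄ : ℤ) : ZMod ℓ) ^ 3 - ((V.c₆ : ℤ) : ZMod ℓ) ^ 2 ≠ 0 := by
    intro V hV h0
    have hrel : (1728 : ZMod ℓ) * ((V.Δ : ℤ) : ZMod ℓ) =
        ((V.c₄ : ℤ) : ZMod ℓ) ^ 3 - ((V.c₆ : ℤ) : ZMod ℓ) ^ 2 := by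
      have := congrArg (Int.cast : ℤ → ZMod ℓ) V.c_relation
      push_cast at this
      exact this
    rw [h0] at hrel
    have h1728 : (1728 : ZMod ℓ) ≠ 0 := by
      have : (1728 : ZMod ℓ) = 2 ^ 6 * 3 ^ 3 := by norm_num
      rw [this]
      exact mul_ne_zero (pow_ne_zero _ h2) (pow_ne_zero _ h3)
    rcases mul_eq_zero.1 hrel with h | h
    · exact h1728 h
    · exact hV ((ZMod.intCast_zmod_eq_zero_iff_dvd _ _).1 h)
  have hΔs : ∀ a b : ZMod ℓ, a ^ 3 - b ^ 2 ≠ 0 →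
      4 * (-27 * a) ^ 3 + 27 * (-54 * b) ^ 2 ≠ 0 := by
    intro a b hab h0
    have e : 4 * (-27 * a) ^ 3 + 27 * (-54 * b) ^ 2 = -(2 ^ 2 * 3 ^ 9) * (a ^ 3 - b ^ 2) := by
      ring
    rw [e] at h0
    rcases mul_eq_zero.1 h0 with h | h
    · exact (neg_ne_zero.2 (mul_ne_zero (pow_ne_zero _ h2) (pow_ne_zero _ h3))) h
    · exact hab h
  set c4 : ZMod ℓ := ((W.c₄ : ℤ) : ZMod ℓ) with hc4
  set c6 : ZMod ℓ := ((W.c₆ : ℤ) : ZMod ℓ) with hc6
  set c4' : ZMod ℓ := ((W'.c₄ : ℤ) : ZMod ℓ) with hc4'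
  set c6' : ZMod ℓ := ((W'.c₆ : ℤ) : ZMod ℓ) with hc6'
  have hΔ := hΔs c4 c6 (hdisc W hgood)
  have hΔ' := hΔs c4' c6' (hdisc W' hgood')
  -- the algebraic closure
  let Ω := AlgebraicClosure (ZMod ℓ)
  let al : ZMod ℓ →+* Ω := algebraMap (ZMod ℓ) Ω
  have hal : Function.Injective al := (algebraMap (ZMod ℓ) Ω).injective
  have h2Ω : (2 : Ω) ≠ 0 := by
    rw [← map_ofNat al 2]; exact (_root_.map_ne_zero al).2 h2
  have h3Ω : (3 : Ω) ≠ 0 := by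
    rw [← map_ofNat al 3]; exact (_root_.map_ne_zero al).2 h3
  have h5Ω : (5 : Ω) ≠ 0 := by
    rw [← map_ofNat al 5]; exact (_root_.map_ne_zero al).2 h5
  have hΔΩ : al c4 ^ 3 - al c6 ^ 2 ≠ 0 := by
    rw [← map_pow, ← map_pow, ← map_sub]
    exact (_root_.map_ne_zero al).2 (hdisc W hgood)
  obtain ⟨x, y, hx, hy⟩ := klein_exists_u h2Ω h3Ω h5Ω (al c4) (al c6) hΔΩ
  obtain ⟨ζ, hζ⟩ : ∃ ζ : Ω, ζ ^ 4 + ζ ^ 3 + ζ ^ 2 + ζ + 1 = 0 := by
    have hdeg : (X ^ 4 + X ^ 3 + X ^ 2 + X + 1 : Polynomial Ω).degree ≠ 0 := by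
      have : (X ^ 4 + X ^ 3 + X ^ 2 + X + 1 : Polynomial Ω).degree = 4 := by
        compute_degree!
      rw [this]; norm_num
    obtain ⟨ζ, hζ⟩ := IsAlgClosed.exists_root _ hdeg
    exact ⟨ζ, by simpa using hζ⟩
  -- the frames
  let mΩ : Ω := al ((m : ℤ) : ZMod ℓ)
  let nΩ : Ω := al ((n : ℤ) : ZMod ℓ)
  have hu : ((x, y) : Ω × Ω) ∈ kFib (K := Ω) (-27 * c4) (-54 * c6) := by
    refine ⟨?_, ?_⟩
    · show 27 * kH x y = al (-27 * c4)
      rw [map_mul, map_neg, map_ofNat, ← hx]; ring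
    · show 54 * kT x y = al (-54 * c6)
      rw [map_mul, map_neg, map_ofNat, ← hy]; ring
  have e4 : al c4' = -kH (nΩ * x + mΩ * kP1 x y) (nΩ * y + mΩ * kP2 x y) := by
    rw [fam_H, hx, hy, hc4', h4]
    have : ((famC4 W.c₄ W.c₆ m n : ℤ) : ZMod ℓ) =
        famC4 c4 c6 ((m : ℤ) : ZMod ℓ) ((n : ℤ) : ZMod ℓ) :=
      map_famC4 (Int.castRingHom (ZMod ℓ)) W.c₄ W.c₆ m n
    rw [this, map_famC4 al c4 c6 ((m : ℤ) : ZMod ℓ) ((n : ℤ) : ZMod ℓ)]
  have e6 : al c6' = -kT (nΩ * x + mΩ * kP1 x y) (nΩ * y + mΩ * kP2 x y) := by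
    rw [h58_fam_T, hx, hy, hc6', h6]
    have : ((famC6 W.c₄ W.c₆ m n : ℤ) : ZMod ℓ) =
        famC6 c4 c6 ((m : ℤ) : ZMod ℓ) ((n : ℤ) : ZMod ℓ) :=
      map_famC6 (Int.castRingHom (ZMod ℓ)) W.c₄ W.c₆ m n
    rw [this, map_famC6 al c4 c6 ((m : ℤ) : ZMod ℓ) ((n : ℤ) : ZMod ℓ)]
  have hu' : kfam mΩ nΩ ((x, y) : Ω × Ω) ∈ kFib (K := Ω) (-27 * c4') (-54 * c6') := by
    refine ⟨?_, ?_⟩
    · show 27 * kH (nΩ * x + mΩ * kP1 x y) (nΩ * y + mΩ * kP2 x y) = al (-27 * c4')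
      rw [map_mul, map_neg, map_ofNat, e4]; ring
    · show 54 * kT (nΩ * x + mΩ * kP1 x y) (nΩ * y + mΩ * kP2 x y) = al (-54 * c6')
      rw [map_mul, map_neg, map_ofNat, e6]; ring
  -- the count
  obtain ⟨Fs, hFs, hFm⟩ := h5_klein_fibre_finset (al c4) (al c6) hΔΩ
  have h27 : (27 : Ω) ≠ 0 := by
    have : (27 : Ω) = 3 ^ 3 := by norm_num
    rw [this]; exact pow_ne_zero _ h3Ω
  have h54 : (54 : Ω) ≠ 0 := by
    have : (54 : Ω) = 2 * 3 ^ 3 := by norm_num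
    rw [this]; exact mul_ne_zero h2Ω (pow_ne_zero _ h3Ω)
  have hDF : ∀ v ∈ kFib (K := Ω) (-27 * c4) (-54 * c6), v ∈ Fs := by
    rintro ⟨v1, v2⟩ ⟨hv1, hv2⟩
    refine hFm v1 v2 ?_ ?_
    · have hv1' : 27 * kH v1 v2 = al (-27 * c4) := hv1
      rw [map_mul, map_neg, map_ofNat] at hv1'
      have : 27 * (-kH v1 v2) = 27 * al c4 := by linear_combination -hv1'
      exact mul_left_cancel₀ h27 this
    · have hv2' : 54 * kT v1 v2 = al (-54 * c6) := hv2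
      rw [map_mul, map_neg, map_ofNat] at hv2'
      have : 54 * (-kT v1 v2) = 54 * al c6 := by linear_combination -hv2'
      exact mul_left_cancel₀ h54 this
  -- the two systems
  have hsys := h48_kl_ksys (K := Ω) h2 h3 h5 hΔ ζ hζ
  have hsys' := h48_kl_ksys (K := Ω) h2 h3 h5 hΔ' ζ hζ
  refine h48_klein_cong_abs W W' ℓ (by omega) hgood hgood' hsys hsys' Fs hFs hDF (kfrobU ℓ)
    (ℓ : ℤ) hu hu' (kl_frob_mem ℓ hu) ?_ (kl_frob_R ℓ h2 hΔ hu) (kl_frob_R_T0 ℓ hℓ hΔ ζ hζ hu)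
    (kl_frob_R ℓ h2 hΔ' hu') (kl_frob_R_T0 ℓ hℓ hΔ' ζ hζ hu')
  intro σ j w hφ
  have hfam : kfrobU ℓ (kfam mΩ nΩ ((x, y) : Ω × Ω)) = kfam mΩ nΩ (kfrobU ℓ (x, y)) :=
    kl_frob_fam ℓ ((m : ℤ) : ZMod ℓ) ((n : ℤ) : ZMod ℓ) (x, y)
  rw [hfam, hφ]
  exact h48_kl_link h5Ω ζ hζ mΩ nΩ σ j w (x, y)

end Fermat.Agent.S52
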