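import Fermat.Agent.S52.h5_ManinDefs
import Fermat.Agent.S51.VarChange
import Fermat.Prelude.Def_FLTPrelim_Modularity

/-
helper48, project S52 block (I), row W: reduction of the general Weierstrass form to the short
form `h5_sw A B` (change of variables over `F`, compatible with Frobenius over every extension),
and the `apOfModel` form for the reduction of an integral model.  Row X (`h5_frob_charpoly`, the
short-form statement) enters as the hypothesis `hX`; the final exports `h5_frob_charpoly_W`,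
`h5_frob_charpoly_int` are one-line instantiations (file `h5_FrobW.lean`).
-/

set_option autoImplicit false

namespace Fermat.Agent.S52

open WeierstrassCurve WeierstrassCurve.Affine

/-- Over a field with `2, 3 ≠ 0` every Weierstrass curve is a change of variables away from a
short Weierstrass form. -/
theorem h48_exists_short {F : Type*} [Field F] (h2 : (2 : F) ≠ 0) (h3 : (3 : F) ≠ 0)
    (W : WeierstrassCurve F) :
    ∃ (C : VariableChange F) (A B : F), C • W = h5_sw A B := by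
  have h12 : (12 : F) ≠ 0 := by
    have : (12 : F) = 2 ^ 2 * 3 := by norm_num
    rw [this]
    exact mul_ne_zero (pow_ne_zero _ h2) h3
  let C : VariableChange F :=
    ⟨1, -(W.b₂ / 12), -(W.a₁ / 2), -((W.a₃ + -(W.b₂ / 12) * W.a₁) / 2)⟩
  refine ⟨C, (C • W).a₄, (C • W).a₆, ?_⟩
  ext
  · simp only [C, variableChange_a₁, h5_sw_a₁]
    field_simp
    ring
  · simp only [C, variableChange_a₂, h5_sw_a₂, WeierstrassCurve.b₂]
    field_simp
    ring
  · simp only [C, variableChange_a₃, h5_sw_a₃]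
    field_simp
    ring
  · rfl
  · rfl

/-- Compatibility of the point map of a change of variables with coordinatewise maps induced by
a ring endomorphism fixing the coefficients of the change of variables. -/
theorem h48_vc_comm {K : Type*} [Field K] [DecidableEq K] (W₀ : WeierstrassCurve K)
    (C : VariableChange K) (f : K →+* K) (hu : f (C.u : K) = C.u) (hr : f C.r = C.r)
    (hs : f C.s = C.s) (ht : f C.t = C.t)
    (φ : (C • W₀).toAffine.Point → (C • W₀).toAffine.Point) (hφ0 : φ 0 = 0)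
    (hφ : ∀ (x y : K) (h : (C • W₀).toAffine.Nonsingular x y),
      ∃ h', φ (Affine.Point.some x y h) = Affine.Point.some (f x) (f y) h')
    (φ₀ : W₀.toAffine.Point → W₀.toAffine.Point) (hφ₀0 : φ₀ 0 = 0)
    (hφ₀ : ∀ (X Y : K) (h : W₀.toAffine.Nonsingular X Y),
      ∃ h', φ₀ (Affine.Point.some X Y h) = Affine.Point.some (f X) (f Y) h')
    (T : (C • W₀).toAffine.Point) :
    S51.vc_addEquiv W₀ C (φ T) = φ₀ (S51.vc_addEquiv W₀ C T) := by
  rcases T with _ | ⟨x, y, h⟩
  · change S51.vc_addEquiv W₀ C (φ 0) = φ₀ (S51.vc_addEquiv W₀ C 0)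
    rw [hφ0, map_zero, hφ₀0]
  · obtain ⟨h', e⟩ := hφ x y h
    rw [e, S51.vc_addEquiv_apply, S51.vc_addEquiv_apply, S51.vc_fun_some, S51.vc_fun_some]
    obtain ⟨h'', e'⟩ := hφ₀ _ _ ((S51.vc_nonsingular_iff W₀ C x y).mp h)
    rw [e', Affine.Point.some.injEq]
    constructor
    · simp only [S51.vc_X, map_add, map_mul, map_pow, hu, hr]
    · simp only [S51.vc_Y, map_add, map_mul, map_pow, hu, hs, ht]

/-- Transport of a quadratic relation for a coordinatewise endomorphism along a change of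
variables whose coefficients are fixed. -/
theorem h48_charpoly_transport {K : Type*} [Field K] [DecidableEq K] (W₁ W₂ : WeierstrassCurve K)
    (C : VariableChange K) (hC : C • W₁ = W₂) (f : K →+* K) (hu : f (C.u : K) = C.u)
    (hr : f C.r = C.r) (hs : f C.s = C.s) (ht : f C.t = C.t)
    (φ₁ : W₁.toAffine.Point →+ W₁.toAffine.Point)
    (hφ₁ : ∀ (X Y : K) (h : W₁.toAffine.Nonsingular X Y),
      ∃ h', φ₁ (Affine.Point.some X Y h) = Affine.Point.some (f X) (f Y) h')
    (φ₂ : W₂.toAffine.Point →+ W₂.toAffine.Point)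
    (hφ₂ : ∀ (X Y : K) (h : W₂.toAffine.Nonsingular X Y),
      ∃ h', φ₂ (Affine.Point.some X Y h) = Affine.Point.some (f X) (f Y) h')
    (a q : ℤ) (h : ∀ P : W₂.toAffine.Point, φ₂ (φ₂ P) - a • φ₂ P + q • P = 0)
    (Q : W₁.toAffine.Point) : φ₁ (φ₁ Q) - a • φ₁ Q + q • Q = 0 := by
  subst hC
  obtain ⟨P, rfl⟩ := (S51.vc_addEquiv W₁ C).surjective Q
  have hcomm := h48_vc_comm W₁ C f hu hr hs ht φ₂ (map_zero _) hφ₂ φ₁ (map_zero _) hφ₁
  have e1 : φ₁ (φ₁ (S51.vc_addEquiv W₁ C P)) = S51.vc_addEquiv W₁ C (φ₂ (φ₂ P)) := by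
    rw [hcomm, hcomm]
  have e2 : φ₁ (S51.vc_addEquiv W₁ C P) = S51.vc_addEquiv W₁ C (φ₂ P) := (hcomm P).symm
  have e3 := congrArg (S51.vc_addEquiv W₁ C) (h P)
  rw [map_add, map_sub, map_zsmul, map_zsmul, map_zero] at e3
  rw [e1, e2]
  exact e3

section W

variable {F : Type*} [Field F] [Fintype F]

/-- Row W, with row X (`h5_frob_charpoly`) as a hypothesis. -/
theorem h48_frob_charpoly_W_of (h2 : (2 : F) ≠ 0) (h3 : (3 : F) ≠ 0) (W : WeierstrassCurve F)
    (hΔ : W.Δ ≠ 0) {Ω' : Type*} [Field Ω'] [DecidableEq Ω'] [Algebra F Ω']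
    (hX : ∀ A B : F, 4 * A ^ 3 + 27 * B ^ 2 ≠ 0 →
      ∀ Q : h5_Pt A B Ω', h5_psi A B (h5_trace A B) Q = 0)
    (Q : (W.toAffine⁄Ω').Point) :
    Affine.Point.map (W' := W.toAffine) (FiniteField.frobeniusAlgHom F Ω')
        (Affine.Point.map (W' := W.toAffine) (FiniteField.frobeniusAlgHom F Ω') Q)
      - W.traceOfFrobenius • Affine.Point.map (W' := W.toAffine) (FiniteField.frobeniusAlgHom F Ω') Q
      + (Fintype.card F : ℤ) • Q = 0 := by
  classical
  obtain ⟨C, A, B, hC⟩ := h48_exists_short h2 h3 W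
  have hΔ' : 4 * A ^ 3 + 27 * B ^ 2 ≠ 0 := by
    intro h0
    have h1 : (C • W).Δ = 0 := by rw [hC, h5_sw_Δ, h0, mul_zero]
    rw [variableChange_Δ] at h1
    rcases mul_eq_zero.mp h1 with h4 | h4
    · exact (pow_ne_zero 12 (Units.ne_zero _)) h4
    · exact hΔ h4
  have hcard : Nat.card W.toAffine.Point = Nat.card (h5_sw A B).toAffine.Point := by
    rw [← hC]
    exact (Nat.card_congr (S51.vc_addEquiv W C).toEquiv).symm
  have htr : W.traceOfFrobenius = h5_trace A B := by
    unfold WeierstrassCurve.traceOfFrobenius WeierstrassCurve.card h5_trace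
    rw [hcard, Nat.card_eq_fintype_card]
  have hC' : C.map (algebraMap F Ω') • W.map (algebraMap F Ω') =
      (h5_sw A B).map (algebraMap F Ω') := by
    rw [map_variableChange, hC]
  rw [htr]
  exact h48_charpoly_transport (W.map (algebraMap F Ω')) ((h5_sw A B).map (algebraMap F Ω'))
    (C.map (algebraMap F Ω')) hC' (FiniteField.frobeniusAlgHom F Ω' : Ω' →+* Ω')
    ((FiniteField.frobeniusAlgHom F Ω').commutes _) ((FiniteField.frobeniusAlgHom F Ω').commutes _)
    ((FiniteField.frobeniusAlgHom F Ω').commutes _) ((FiniteField.frobeniusAlgHom F Ω').commutes _)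
    (Affine.Point.map (W' := W.toAffine) (FiniteField.frobeniusAlgHom F Ω'))
    (fun X Y h => ⟨_, Affine.Point.map_some (W' := W.toAffine) _ h⟩)
    (h5_frob A B Ω')
    (fun X Y h => ⟨_, Affine.Point.map_some (W' := (h5_sw A B).toAffine) _ h⟩)
    (h5_trace A B) (Fintype.card F : ℤ) (fun P => hX A B hΔ' P) Q

end W

/-- Row W, integral form, with row X as a hypothesis. -/
theorem h48_frob_charpoly_int_of (W : WeierstrassCurve ℤ) (ℓ : ℕ) [Fact ℓ.Prime] (hℓ : 5 ≤ ℓ)
    (hgood : W.IsGoodPrimeFor ℓ) {Ω' : Type*} [Field Ω'] [DecidableEq Ω'] [Algebra (ZMod ℓ) Ω']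
    (hX : ∀ A B : ZMod ℓ, 4 * A ^ 3 + 27 * B ^ 2 ≠ 0 →
      ∀ Q : h5_Pt A B Ω', h5_psi A B (h5_trace A B) Q = 0)
    (Q : ((W.reductionMod ℓ).toAffine⁄Ω').Point) :
    Affine.Point.map (W' := (W.reductionMod ℓ).toAffine) (FiniteField.frobeniusAlgHom (ZMod ℓ) Ω')
        (Affine.Point.map (W' := (W.reductionMod ℓ).toAffine)
          (FiniteField.frobeniusAlgHom (ZMod ℓ) Ω') Q)
      - W.apOfModel ℓ • Affine.Point.map (W' := (W.reductionMod ℓ).toAffine)
          (FiniteField.frobeniusAlgHom (ZMod ℓ) Ω') Q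
      + (ℓ : ℤ) • Q = 0 := by
  have hp : ℓ.Prime := Fact.out
  have h2 : (2 : ZMod ℓ) ≠ 0 := by
    intro h
    have h' : ((2 : ℕ) : ZMod ℓ) = 0 := by exact_mod_cast h
    rw [ZMod.natCast_eq_zero_iff] at h'
    have := Nat.le_of_dvd (by norm_num) h'
    omega
  have h3 : (3 : ZMod ℓ) ≠ 0 := by
    intro h
    have h' : ((3 : ℕ) : ZMod ℓ) = 0 := by exact_mod_cast h
    rw [ZMod.natCast_eq_zero_iff] at h'
    have := Nat.le_of_dvd (by norm_num) h'
    omega
  have hΔ : (W.reductionMod ℓ).Δ ≠ 0 := by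
    unfold WeierstrassCurve.reductionMod
    rw [map_Δ]
    intro h
    exact hgood ((ZMod.intCast_zmod_eq_zero_iff_dvd _ _).mp h)
  have key := h48_frob_charpoly_W_of h2 h3 (W.reductionMod ℓ) hΔ hX Q
  rw [ZMod.card] at key
  exact key

end Fermat.Agent.S52
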