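import Fermat.Agent.S52.h5_Frob
import Fermat.Agent.S52.h48_FrobW

/-
helper48, project S52 block (I), row W (final): the characteristic equation of Frobenius for a
general Weierstrass curve over a finite field of characteristic `≠ 2, 3`, and for the reduction
of an integral model at a good prime `ℓ ≥ 5` in terms of `apOfModel`; plus the consumer used by
block (II): Frobenius-compatible injections of a group killed by `5` give `a_ℓ(W') ≡ a_ℓ(W) (5)`.
-/

set_option autoImplicit false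

namespace Fermat.Agent.S52

open WeierstrassCurve WeierstrassCurve.Affine

section W
variable {F : Type*} [Field F] [Fintype F]

theorem h5_frob_charpoly_W (h2 : (2 : F) ≠ 0) (h3 : (3 : F) ≠ 0) (W : WeierstrassCurve F)
    (hΔ : W.Δ ≠ 0) {Ω' : Type*} [Field Ω'] [DecidableEq Ω'] [Algebra F Ω']
    (Q : (W.toAffine⁄Ω').Point) :
    Affine.Point.map (W' := W.toAffine) (FiniteField.frobeniusAlgHom F Ω')
        (Affine.Point.map (W' := W.toAffine) (FiniteField.frobeniusAlgHom F Ω') Q)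
      - W.traceOfFrobenius • Affine.Point.map (W' := W.toAffine) (FiniteField.frobeniusAlgHom F Ω') Q
      + (Fintype.card F : ℤ) • Q = 0 :=
  h48_frob_charpoly_W_of h2 h3 W hΔ (fun A B hΔ' Q => h5_frob_charpoly A B h2 hΔ' Q) Q

end W

/-- Row X for `ZMod ℓ`, `ℓ ≥ 5`, in the shape of the hypothesis `hX` of the `h48_*_of` lemmas. -/
theorem h48_hX_zmod (ℓ : ℕ) [Fact ℓ.Prime] (hℓ : 5 ≤ ℓ)
    {Ω' : Type*} [Field Ω'] [DecidableEq Ω'] [Algebra (ZMod ℓ) Ω'] :
    ∀ A B : ZMod ℓ, 4 * A ^ 3 + 27 * B ^ 2 ≠ 0 →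
      ∀ Q : h5_Pt A B Ω', h5_psi A B (h5_trace A B) Q = 0 :=
  fun A B hΔ' Q => h5_frob_charpoly A B
    (by
      intro h
      have hp : ℓ.Prime := Fact.out
      have h' : ((2 : ℕ) : ZMod ℓ) = 0 := by exact_mod_cast h
      rw [ZMod.natCast_eq_zero_iff] at h'
      have := Nat.le_of_dvd (by norm_num) h'
      omega) hΔ' Q

/-- the form block (II) consumes: reduction of an integral model at a good prime `ℓ ≥ 5` -/
theorem h5_frob_charpoly_int (W : WeierstrassCurve ℤ) (ℓ : ℕ) [Fact ℓ.Prime] (hℓ : 5 ≤ ℓ)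
    (hgood : W.IsGoodPrimeFor ℓ) {Ω' : Type*} [Field Ω'] [DecidableEq Ω'] [Algebra (ZMod ℓ) Ω']
    (Q : ((W.reductionMod ℓ).toAffine⁄Ω').Point) :
    Affine.Point.map (W' := (W.reductionMod ℓ).toAffine) (FiniteField.frobeniusAlgHom (ZMod ℓ) Ω')
        (Affine.Point.map (W' := (W.reductionMod ℓ).toAffine)
          (FiniteField.frobeniusAlgHom (ZMod ℓ) Ω') Q)
      - W.apOfModel ℓ • Affine.Point.map (W' := (W.reductionMod ℓ).toAffine)
          (FiniteField.frobeniusAlgHom (ZMod ℓ) Ω') Q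
      + (ℓ : ℤ) • Q = 0 :=
  h48_frob_charpoly_int_of W ℓ hℓ hgood (h48_hX_zmod ℓ hℓ) Q

end Fermat.Agent.S52
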