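import Fermat.Agent.S52.FamBase

set_option autoImplicit false

namespace Fermat.Agent.S52

section FamilyId

variable {R : Type*} [CommRing R]

/-- Auxiliary partial sum. -/
def feC4_0_0 (X Y al be : R) : R :=
  X ^ 4 - 228 * X ^ 3 * Y + 494 * X ^ 2 * Y ^ 2 + 228 * X * Y ^ 3 + Y ^ 4

/-- Coefficient of `m^0 n^20` in the expansion. -/
def feC4_0 (X Y al be : R) : R :=
  feC4_0_0 X Y al be

/-- Auxiliary partial sum. -/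
def feC4_1_0 (X Y al be : R) : R :=
  20 * X ^ 4 * al + 1140 * X ^ 3 * Y * be - 3420 * X ^ 3 * Y * al - 4940 * X ^ 2 * Y ^ 2 * be +
    4940 * X ^ 2 * Y ^ 2 * al - 3420 * X * Y ^ 3 * be + 1140 * X * Y ^ 3 * al - 20 * Y ^ 4 * be

/-- Coefficient of `m^1 n^19` in the expansion. -/
def feC4_1 (X Y al be : R) : R :=
  feC4_1_0 X Y al be

/-- Auxiliary partial sum. -/
def feC4_2_0 (X Y al be : R) : R :=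
  190 * X ^ 4 * al ^ 2 - 2280 * X ^ 3 * Y * be ^ 2 + 17100 * X ^ 3 * Y * al * be - 23940 * X ^ 3 *
    Y * al ^ 2 + 22230 * X ^ 2 * Y ^ 2 * be ^ 2 - 49400 * X ^ 2 * Y ^ 2 * al * be + 22230 * X ^
    2 * Y ^ 2 * al ^ 2 + 23940 * X * Y ^ 3 * be ^ 2 - 17100 * X * Y ^ 3 * al * be + 2280 * X * Y
    ^ 3 * al ^ 2 + 190 * Y ^ 4 * be ^ 2

/-- Coefficient of `m^2 n^18` in the expansion. -/
def feC4_2 (X Y al be : R) : R :=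
  feC4_2_0 X Y al be

/-- Auxiliary partial sum. -/
def feC4_3_0 (X Y al be : R) : R :=
  1140 * X ^ 4 * al ^ 3 + 2280 * X ^ 3 * Y * be ^ 3 - 34200 * X ^ 3 * Y * al * be ^ 2 + 119700 * X
    ^ 3 * Y * al ^ 2 * be - 103740 * X ^ 3 * Y * al ^ 3 - 59280 * X ^ 2 * Y ^ 2 * be ^ 3 +
    222300 * X ^ 2 * Y ^ 2 * al * be ^ 2 - 222300 * X ^ 2 * Y ^ 2 * al ^ 2 * be + 59280 * X ^ 2
    * Y ^ 2 * al ^ 3 - 103740 * X * Y ^ 3 * be ^ 3 + 119700 * X * Y ^ 3 * al * be ^ 2 - 34200 *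
    X * Y ^ 3 * al ^ 2 * be + 2280 * X * Y ^ 3 * al ^ 3 - 1140 * Y ^ 4 * be ^ 3

/-- Coefficient of `m^3 n^17` in the expansion. -/
def feC4_3 (X Y al be : R) : R :=
  feC4_3_0 X Y al be

/-- Auxiliary partial sum. -/
def feC4_4_0 (X Y al be : R) : R :=
  4845 * X ^ 4 * al ^ 4 - 1140 * X ^ 3 * Y * be ^ 4 + 34200 * X ^ 3 * Y * al * be ^ 3 - 239400 * X
    ^ 3 * Y * al ^ 2 * be ^ 2 + 518700 * X ^ 3 * Y * al ^ 3 * be - 311220 * X ^ 3 * Y * al ^ 4 +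
    103740 * X ^ 2 * Y ^ 2 * be ^ 4 - 592800 * X ^ 2 * Y ^ 2 * al * be ^ 3 + 1000350 * X ^ 2 * Y
    ^ 2 * al ^ 2 * be ^ 2 - 592800 * X ^ 2 * Y ^ 2 * al ^ 3 * be + 103740 * X ^ 2 * Y ^ 2 * al ^
    4 + 311220 * X * Y ^ 3 * be ^ 4 - 518700 * X * Y ^ 3 * al * be ^ 3 + 239400 * X * Y ^ 3 * al
    ^ 2 * be ^ 2 - 34200 * X * Y ^ 3 * al ^ 3 * be + 1140 * X * Y ^ 3 * al ^ 4 + 4845 * Y ^ 4 *
    be ^ 4

/-- Coefficient of `m^4 n^16` in the expansion. -/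
def feC4_4 (X Y al be : R) : R :=
  feC4_4_0 X Y al be

/-- Auxiliary partial sum. -/
def feC4_5_0 (X Y al be : R) : R :=
  15504 * X ^ 4 * al ^ 5 + 228 * X ^ 3 * Y * be ^ 5 - 17100 * X ^ 3 * Y * al * be ^ 4 + 239400 * X
    ^ 3 * Y * al ^ 2 * be ^ 3 - 1037400 * X ^ 3 * Y * al ^ 3 * be ^ 2 + 1556100 * X ^ 3 * Y * al
    ^ 4 * be - 684684 * X ^ 3 * Y * al ^ 5 - 124488 * X ^ 2 * Y ^ 2 * be ^ 5 + 1037400 * X ^ 2 *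
    Y ^ 2 * al * be ^ 4 - 2667600 * X ^ 2 * Y ^ 2 * al ^ 2 * be ^ 3 + 2667600 * X ^ 2 * Y ^ 2 *
    al ^ 3 * be ^ 2 - 1037400 * X ^ 2 * Y ^ 2 * al ^ 4 * be + 124488 * X ^ 2 * Y ^ 2 * al ^ 5 -
    684684 * X * Y ^ 3 * be ^ 5 + 1556100 * X * Y ^ 3 * al * be ^ 4 - 1037400 * X * Y ^ 3 * al ^
    2 * be ^ 3 + 239400 * X * Y ^ 3 * al ^ 3 * be ^ 2 - 17100 * X * Y ^ 3 * al ^ 4 * be + 228 *
    X * Y ^ 3 * al ^ 5 - 15504 * Y ^ 4 * be ^ 5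

/-- Coefficient of `m^5 n^15` in the expansion. -/
def feC4_5 (X Y al be : R) : R :=
  feC4_5_0 X Y al be

/-- Auxiliary partial sum. -/
def feC4_6_0 (X Y al be : R) : R :=
  38760 * X ^ 4 * al ^ 6 + 3420 * X ^ 3 * Y * al * be ^ 5 - 119700 * X ^ 3 * Y * al ^ 2 * be ^ 4 +
    1037400 * X ^ 3 * Y * al ^ 3 * be ^ 3 - 3112200 * X ^ 3 * Y * al ^ 4 * be ^ 2 + 3423420 * X
    ^ 3 * Y * al ^ 5 * be - 1141140 * X ^ 3 * Y * al ^ 6 + 103740 * X ^ 2 * Y ^ 2 * be ^ 6 -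
    1244880 * X ^ 2 * Y ^ 2 * al * be ^ 5 + 4668300 * X ^ 2 * Y ^ 2 * al ^ 2 * be ^ 4 - 7113600
    * X ^ 2 * Y ^ 2 * al ^ 3 * be ^ 3 + 4668300 * X ^ 2 * Y ^ 2 * al ^ 4 * be ^ 2 - 1244880 * X
    ^ 2 * Y ^ 2 * al ^ 5 * be + 103740 * X ^ 2 * Y ^ 2 * al ^ 6 + 1141140 * X * Y ^ 3 * be ^ 6 -
    3423420 * X * Y ^ 3 * al * be ^ 5 + 3112200 * X * Y ^ 3 * al ^ 2 * be ^ 4 - 1037400 * X * Y
    ^ 3 * al ^ 3 * be ^ 3 + 119700 * X * Y ^ 3 * al ^ 4 * be ^ 2 - 3420 * X * Y ^ 3 * al ^ 5 *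
    be + 38760 * Y ^ 4 * be ^ 6

/-- Coefficient of `m^6 n^14` in the expansion. -/
def feC4_6 (X Y al be : R) : R :=
  feC4_6_0 X Y al be

/-- Auxiliary partial sum. -/
def feC4_7_0 (X Y al be : R) : R :=
  77520 * X ^ 4 * al ^ 7 + 23940 * X ^ 3 * Y * al ^ 2 * be ^ 5 - 518700 * X ^ 3 * Y * al ^ 3 * be
    ^ 4 + 3112200 * X ^ 3 * Y * al ^ 4 * be ^ 3 - 6846840 * X ^ 3 * Y * al ^ 5 * be ^ 2 +
    5705700 * X ^ 3 * Y * al ^ 6 * be - 1467180 * X ^ 3 * Y * al ^ 7 - 59280 * X ^ 2 * Y ^ 2 *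
    be ^ 7 + 1037400 * X ^ 2 * Y ^ 2 * al * be ^ 6 - 5601960 * X ^ 2 * Y ^ 2 * al ^ 2 * be ^ 5 +
    12448800 * X ^ 2 * Y ^ 2 * al ^ 3 * be ^ 4 - 12448800 * X ^ 2 * Y ^ 2 * al ^ 4 * be ^ 3 +
    5601960 * X ^ 2 * Y ^ 2 * al ^ 5 * be ^ 2 - 1037400 * X ^ 2 * Y ^ 2 * al ^ 6 * be + 59280 *
    X ^ 2 * Y ^ 2 * al ^ 7 - 1467180 * X * Y ^ 3 * be ^ 7 + 5705700 * X * Y ^ 3 * al * be ^ 6 -
    6846840 * X * Y ^ 3 * al ^ 2 * be ^ 5 + 3112200 * X * Y ^ 3 * al ^ 3 * be ^ 4 - 518700 * X *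
    Y ^ 3 * al ^ 4 * be ^ 3 + 23940 * X * Y ^ 3 * al ^ 5 * be ^ 2 - 77520 * Y ^ 4 * be ^ 7

/-- Coefficient of `m^7 n^13` in the expansion. -/
def feC4_7 (X Y al be : R) : R :=
  feC4_7_0 X Y al be

/-- Auxiliary partial sum. -/
def feC4_8_0 (X Y al be : R) : R :=
  125970 * X ^ 4 * al ^ 8 + 103740 * X ^ 3 * Y * al ^ 3 * be ^ 5 - 1556100 * X ^ 3 * Y * al ^ 4 *
    be ^ 4 + 6846840 * X ^ 3 * Y * al ^ 5 * be ^ 3 - 11411400 * X ^ 3 * Y * al ^ 6 * be ^ 2 +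
    7335900 * X ^ 3 * Y * al ^ 7 * be - 1467180 * X ^ 3 * Y * al ^ 8 + 22230 * X ^ 2 * Y ^ 2 *
    be ^ 8 - 592800 * X ^ 2 * Y ^ 2 * al * be ^ 7 + 4668300 * X ^ 2 * Y ^ 2 * al ^ 2 * be ^ 6 -
    14938560 * X ^ 2 * Y ^ 2 * al ^ 3 * be ^ 5 + 21785400 * X ^ 2 * Y ^ 2 * al ^ 4 * be ^ 4 -
    14938560 * X ^ 2 * Y ^ 2 * al ^ 5 * be ^ 3 + 4668300 * X ^ 2 * Y ^ 2 * al ^ 6 * be ^ 2 -
    592800 * X ^ 2 * Y ^ 2 * al ^ 7 * be + 22230 * X ^ 2 * Y ^ 2 * al ^ 8 + 1467180 * X * Y ^ 3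
    * be ^ 8 - 7335900 * X * Y ^ 3 * al * be ^ 7 + 11411400 * X * Y ^ 3 * al ^ 2 * be ^ 6 -
    6846840 * X * Y ^ 3 * al ^ 3 * be ^ 5 + 1556100 * X * Y ^ 3 * al ^ 4 * be ^ 4 - 103740 * X *
    Y ^ 3 * al ^ 5 * be ^ 3 + 125970 * Y ^ 4 * be ^ 8

/-- Coefficient of `m^8 n^12` in the expansion. -/
def feC4_8 (X Y al be : R) : R :=
  feC4_8_0 X Y al be

/-- Auxiliary partial sum. -/
def feC4_9_0 (X Y al be : R) : R :=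
  167960 * X ^ 4 * al ^ 9 + 311220 * X ^ 3 * Y * al ^ 4 * be ^ 5 - 3423420 * X ^ 3 * Y * al ^ 5 *
    be ^ 4 + 11411400 * X ^ 3 * Y * al ^ 6 * be ^ 3 - 14671800 * X ^ 3 * Y * al ^ 7 * be ^ 2 +
    7335900 * X ^ 3 * Y * al ^ 8 * be - 1141140 * X ^ 3 * Y * al ^ 9 - 4940 * X ^ 2 * Y ^ 2 * be
    ^ 9 + 222300 * X ^ 2 * Y ^ 2 * al * be ^ 8 - 2667600 * X ^ 2 * Y ^ 2 * al ^ 2 * be ^ 7 +
    12448800 * X ^ 2 * Y ^ 2 * al ^ 3 * be ^ 6 - 26142480 * X ^ 2 * Y ^ 2 * al ^ 4 * be ^ 5 +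
    26142480 * X ^ 2 * Y ^ 2 * al ^ 5 * be ^ 4 - 12448800 * X ^ 2 * Y ^ 2 * al ^ 6 * be ^ 3 +
    2667600 * X ^ 2 * Y ^ 2 * al ^ 7 * be ^ 2 - 222300 * X ^ 2 * Y ^ 2 * al ^ 8 * be + 4940 * X
    ^ 2 * Y ^ 2 * al ^ 9 - 1141140 * X * Y ^ 3 * be ^ 9 + 7335900 * X * Y ^ 3 * al * be ^ 8 -
    14671800 * X * Y ^ 3 * al ^ 2 * be ^ 7 + 11411400 * X * Y ^ 3 * al ^ 3 * be ^ 6 - 3423420 *
    X * Y ^ 3 * al ^ 4 * be ^ 5 + 311220 * X * Y ^ 3 * al ^ 5 * be ^ 4 - 167960 * Y ^ 4 * be ^ 9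

/-- Coefficient of `m^9 n^11` in the expansion. -/
def feC4_9 (X Y al be : R) : R :=
  feC4_9_0 X Y al be

/-- Auxiliary partial sum. -/
def feC4_10_0 (X Y al be : R) : R :=
  184756 * X ^ 4 * al ^ 10 + 684684 * X ^ 3 * Y * al ^ 5 * be ^ 5 - 5705700 * X ^ 3 * Y * al ^ 6 *
    be ^ 4 + 14671800 * X ^ 3 * Y * al ^ 7 * be ^ 3 - 14671800 * X ^ 3 * Y * al ^ 8 * be ^ 2 +
    5705700 * X ^ 3 * Y * al ^ 9 * be - 684684 * X ^ 3 * Y * al ^ 10 + 494 * X ^ 2 * Y ^ 2 * be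
    ^ 10 - 49400 * X ^ 2 * Y ^ 2 * al * be ^ 9 + 1000350 * X ^ 2 * Y ^ 2 * al ^ 2 * be ^ 8 -
    7113600 * X ^ 2 * Y ^ 2 * al ^ 3 * be ^ 7 + 21785400 * X ^ 2 * Y ^ 2 * al ^ 4 * be ^ 6 -
    31370976 * X ^ 2 * Y ^ 2 * al ^ 5 * be ^ 5 + 21785400 * X ^ 2 * Y ^ 2 * al ^ 6 * be ^ 4 -
    7113600 * X ^ 2 * Y ^ 2 * al ^ 7 * be ^ 3 + 1000350 * X ^ 2 * Y ^ 2 * al ^ 8 * be ^ 2 -
    49400 * X ^ 2 * Y ^ 2 * al ^ 9 * be + 494 * X ^ 2 * Y ^ 2 * al ^ 10 + 684684 * X * Y ^ 3 *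
    be ^ 10 - 5705700 * X * Y ^ 3 * al * be ^ 9 + 14671800 * X * Y ^ 3 * al ^ 2 * be ^ 8 -
    14671800 * X * Y ^ 3 * al ^ 3 * be ^ 7 + 5705700 * X * Y ^ 3 * al ^ 4 * be ^ 6 - 684684 * X
    * Y ^ 3 * al ^ 5 * be ^ 5

/-- Auxiliary partial sum. -/
def feC4_10_1 (X Y al be : R) : R :=
  184756 * Y ^ 4 * be ^ 10

/-- Coefficient of `m^10 n^10` in the expansion. -/
def feC4_10 (X Y al be : R) : R :=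
  feC4_10_0 X Y al be + feC4_10_1 X Y al be

/-- Auxiliary partial sum. -/
def feC4_11_0 (X Y al be : R) : R :=
  167960 * X ^ 4 * al ^ 11 + 1141140 * X ^ 3 * Y * al ^ 6 * be ^ 5 - 7335900 * X ^ 3 * Y * al ^ 7
    * be ^ 4 + 14671800 * X ^ 3 * Y * al ^ 8 * be ^ 3 - 11411400 * X ^ 3 * Y * al ^ 9 * be ^ 2 +
    3423420 * X ^ 3 * Y * al ^ 10 * be - 311220 * X ^ 3 * Y * al ^ 11 + 4940 * X ^ 2 * Y ^ 2 *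
    al * be ^ 10 - 222300 * X ^ 2 * Y ^ 2 * al ^ 2 * be ^ 9 + 2667600 * X ^ 2 * Y ^ 2 * al ^ 3 *
    be ^ 8 - 12448800 * X ^ 2 * Y ^ 2 * al ^ 4 * be ^ 7 + 26142480 * X ^ 2 * Y ^ 2 * al ^ 5 * be
    ^ 6 - 26142480 * X ^ 2 * Y ^ 2 * al ^ 6 * be ^ 5 + 12448800 * X ^ 2 * Y ^ 2 * al ^ 7 * be ^
    4 - 2667600 * X ^ 2 * Y ^ 2 * al ^ 8 * be ^ 3 + 222300 * X ^ 2 * Y ^ 2 * al ^ 9 * be ^ 2 -
    4940 * X ^ 2 * Y ^ 2 * al ^ 10 * be - 311220 * X * Y ^ 3 * be ^ 11 + 3423420 * X * Y ^ 3 *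
    al * be ^ 10 - 11411400 * X * Y ^ 3 * al ^ 2 * be ^ 9 + 14671800 * X * Y ^ 3 * al ^ 3 * be ^
    8 - 7335900 * X * Y ^ 3 * al ^ 4 * be ^ 7 + 1141140 * X * Y ^ 3 * al ^ 5 * be ^ 6 - 167960 *
    Y ^ 4 * be ^ 11

/-- Coefficient of `m^11 n^9` in the expansion. -/
def feC4_11 (X Y al be : R) : R :=
  feC4_11_0 X Y al be

/-- Auxiliary partial sum. -/
def feC4_12_0 (X Y al be : R) : R :=
  125970 * X ^ 4 * al ^ 12 + 1467180 * X ^ 3 * Y * al ^ 7 * be ^ 5 - 7335900 * X ^ 3 * Y * al ^ 8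
    * be ^ 4 + 11411400 * X ^ 3 * Y * al ^ 9 * be ^ 3 - 6846840 * X ^ 3 * Y * al ^ 10 * be ^ 2 +
    1556100 * X ^ 3 * Y * al ^ 11 * be - 103740 * X ^ 3 * Y * al ^ 12 + 22230 * X ^ 2 * Y ^ 2 *
    al ^ 2 * be ^ 10 - 592800 * X ^ 2 * Y ^ 2 * al ^ 3 * be ^ 9 + 4668300 * X ^ 2 * Y ^ 2 * al ^
    4 * be ^ 8 - 14938560 * X ^ 2 * Y ^ 2 * al ^ 5 * be ^ 7 + 21785400 * X ^ 2 * Y ^ 2 * al ^ 6
    * be ^ 6 - 14938560 * X ^ 2 * Y ^ 2 * al ^ 7 * be ^ 5 + 4668300 * X ^ 2 * Y ^ 2 * al ^ 8 *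
    be ^ 4 - 592800 * X ^ 2 * Y ^ 2 * al ^ 9 * be ^ 3 + 22230 * X ^ 2 * Y ^ 2 * al ^ 10 * be ^ 2
    + 103740 * X * Y ^ 3 * be ^ 12 - 1556100 * X * Y ^ 3 * al * be ^ 11 + 6846840 * X * Y ^ 3 *
    al ^ 2 * be ^ 10 - 11411400 * X * Y ^ 3 * al ^ 3 * be ^ 9 + 7335900 * X * Y ^ 3 * al ^ 4 *
    be ^ 8 - 1467180 * X * Y ^ 3 * al ^ 5 * be ^ 7 + 125970 * Y ^ 4 * be ^ 12

/-- Coefficient of `m^12 n^8` in the expansion. -/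
def feC4_12 (X Y al be : R) : R :=
  feC4_12_0 X Y al be

/-- Auxiliary partial sum. -/
def feC4_13_0 (X Y al be : R) : R :=
  77520 * X ^ 4 * al ^ 13 + 1467180 * X ^ 3 * Y * al ^ 8 * be ^ 5 - 5705700 * X ^ 3 * Y * al ^ 9 *
    be ^ 4 + 6846840 * X ^ 3 * Y * al ^ 10 * be ^ 3 - 3112200 * X ^ 3 * Y * al ^ 11 * be ^ 2 +
    518700 * X ^ 3 * Y * al ^ 12 * be - 23940 * X ^ 3 * Y * al ^ 13 + 59280 * X ^ 2 * Y ^ 2 * al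
    ^ 3 * be ^ 10 - 1037400 * X ^ 2 * Y ^ 2 * al ^ 4 * be ^ 9 + 5601960 * X ^ 2 * Y ^ 2 * al ^ 5
    * be ^ 8 - 12448800 * X ^ 2 * Y ^ 2 * al ^ 6 * be ^ 7 + 12448800 * X ^ 2 * Y ^ 2 * al ^ 7 *
    be ^ 6 - 5601960 * X ^ 2 * Y ^ 2 * al ^ 8 * be ^ 5 + 1037400 * X ^ 2 * Y ^ 2 * al ^ 9 * be ^
    4 - 59280 * X ^ 2 * Y ^ 2 * al ^ 10 * be ^ 3 - 23940 * X * Y ^ 3 * be ^ 13 + 518700 * X * Y
    ^ 3 * al * be ^ 12 - 3112200 * X * Y ^ 3 * al ^ 2 * be ^ 11 + 6846840 * X * Y ^ 3 * al ^ 3 *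
    be ^ 10 - 5705700 * X * Y ^ 3 * al ^ 4 * be ^ 9 + 1467180 * X * Y ^ 3 * al ^ 5 * be ^ 8 -
    77520 * Y ^ 4 * be ^ 13

/-- Coefficient of `m^13 n^7` in the expansion. -/
def feC4_13 (X Y al be : R) : R :=
  feC4_13_0 X Y al be

/-- Auxiliary partial sum. -/
def feC4_14_0 (X Y al be : R) : R :=
  38760 * X ^ 4 * al ^ 14 + 1141140 * X ^ 3 * Y * al ^ 9 * be ^ 5 - 3423420 * X ^ 3 * Y * al ^ 10
    * be ^ 4 + 3112200 * X ^ 3 * Y * al ^ 11 * be ^ 3 - 1037400 * X ^ 3 * Y * al ^ 12 * be ^ 2 +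
    119700 * X ^ 3 * Y * al ^ 13 * be - 3420 * X ^ 3 * Y * al ^ 14 + 103740 * X ^ 2 * Y ^ 2 * al
    ^ 4 * be ^ 10 - 1244880 * X ^ 2 * Y ^ 2 * al ^ 5 * be ^ 9 + 4668300 * X ^ 2 * Y ^ 2 * al ^ 6
    * be ^ 8 - 7113600 * X ^ 2 * Y ^ 2 * al ^ 7 * be ^ 7 + 4668300 * X ^ 2 * Y ^ 2 * al ^ 8 * be
    ^ 6 - 1244880 * X ^ 2 * Y ^ 2 * al ^ 9 * be ^ 5 + 103740 * X ^ 2 * Y ^ 2 * al ^ 10 * be ^ 4
    + 3420 * X * Y ^ 3 * be ^ 14 - 119700 * X * Y ^ 3 * al * be ^ 13 + 1037400 * X * Y ^ 3 * al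
    ^ 2 * be ^ 12 - 3112200 * X * Y ^ 3 * al ^ 3 * be ^ 11 + 3423420 * X * Y ^ 3 * al ^ 4 * be ^
    10 - 1141140 * X * Y ^ 3 * al ^ 5 * be ^ 9 + 38760 * Y ^ 4 * be ^ 14

/-- Coefficient of `m^14 n^6` in the expansion. -/
def feC4_14 (X Y al be : R) : R :=
  feC4_14_0 X Y al be

/-- Auxiliary partial sum. -/
def feC4_15_0 (X Y al be : R) : R :=
  15504 * X ^ 4 * al ^ 15 + 684684 * X ^ 3 * Y * al ^ 10 * be ^ 5 - 1556100 * X ^ 3 * Y * al ^ 11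
    * be ^ 4 + 1037400 * X ^ 3 * Y * al ^ 12 * be ^ 3 - 239400 * X ^ 3 * Y * al ^ 13 * be ^ 2 +
    17100 * X ^ 3 * Y * al ^ 14 * be - 228 * X ^ 3 * Y * al ^ 15 + 124488 * X ^ 2 * Y ^ 2 * al ^
    5 * be ^ 10 - 1037400 * X ^ 2 * Y ^ 2 * al ^ 6 * be ^ 9 + 2667600 * X ^ 2 * Y ^ 2 * al ^ 7 *
    be ^ 8 - 2667600 * X ^ 2 * Y ^ 2 * al ^ 8 * be ^ 7 + 1037400 * X ^ 2 * Y ^ 2 * al ^ 9 * be ^
    6 - 124488 * X ^ 2 * Y ^ 2 * al ^ 10 * be ^ 5 - 228 * X * Y ^ 3 * be ^ 15 + 17100 * X * Y ^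
    3 * al * be ^ 14 - 239400 * X * Y ^ 3 * al ^ 2 * be ^ 13 + 1037400 * X * Y ^ 3 * al ^ 3 * be
    ^ 12 - 1556100 * X * Y ^ 3 * al ^ 4 * be ^ 11 + 684684 * X * Y ^ 3 * al ^ 5 * be ^ 10 -
    15504 * Y ^ 4 * be ^ 15

/-- Coefficient of `m^15 n^5` in the expansion. -/
def feC4_15 (X Y al be : R) : R :=
  feC4_15_0 X Y al be

/-- Auxiliary partial sum. -/
def feC4_16_0 (X Y al be : R) : R :=
  4845 * X ^ 4 * al ^ 16 + 311220 * X ^ 3 * Y * al ^ 11 * be ^ 5 - 518700 * X ^ 3 * Y * al ^ 12 *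
    be ^ 4 + 239400 * X ^ 3 * Y * al ^ 13 * be ^ 3 - 34200 * X ^ 3 * Y * al ^ 14 * be ^ 2 + 1140
    * X ^ 3 * Y * al ^ 15 * be + 103740 * X ^ 2 * Y ^ 2 * al ^ 6 * be ^ 10 - 592800 * X ^ 2 * Y
    ^ 2 * al ^ 7 * be ^ 9 + 1000350 * X ^ 2 * Y ^ 2 * al ^ 8 * be ^ 8 - 592800 * X ^ 2 * Y ^ 2 *
    al ^ 9 * be ^ 7 + 103740 * X ^ 2 * Y ^ 2 * al ^ 10 * be ^ 6 - 1140 * X * Y ^ 3 * al * be ^
    15 + 34200 * X * Y ^ 3 * al ^ 2 * be ^ 14 - 239400 * X * Y ^ 3 * al ^ 3 * be ^ 13 + 518700 *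
    X * Y ^ 3 * al ^ 4 * be ^ 12 - 311220 * X * Y ^ 3 * al ^ 5 * be ^ 11 + 4845 * Y ^ 4 * be ^
    16

/-- Coefficient of `m^16 n^4` in the expansion. -/
def feC4_16 (X Y al be : R) : R :=
  feC4_16_0 X Y al be

/-- Auxiliary partial sum. -/
def feC4_17_0 (X Y al be : R) : R :=
  1140 * X ^ 4 * al ^ 17 + 103740 * X ^ 3 * Y * al ^ 12 * be ^ 5 - 119700 * X ^ 3 * Y * al ^ 13 *
    be ^ 4 + 34200 * X ^ 3 * Y * al ^ 14 * be ^ 3 - 2280 * X ^ 3 * Y * al ^ 15 * be ^ 2 + 59280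
    * X ^ 2 * Y ^ 2 * al ^ 7 * be ^ 10 - 222300 * X ^ 2 * Y ^ 2 * al ^ 8 * be ^ 9 + 222300 * X ^
    2 * Y ^ 2 * al ^ 9 * be ^ 8 - 59280 * X ^ 2 * Y ^ 2 * al ^ 10 * be ^ 7 - 2280 * X * Y ^ 3 *
    al ^ 2 * be ^ 15 + 34200 * X * Y ^ 3 * al ^ 3 * be ^ 14 - 119700 * X * Y ^ 3 * al ^ 4 * be ^
    13 + 103740 * X * Y ^ 3 * al ^ 5 * be ^ 12 - 1140 * Y ^ 4 * be ^ 17

/-- Coefficient of `m^17 n^3` in the expansion. -/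
def feC4_17 (X Y al be : R) : R :=
  feC4_17_0 X Y al be

/-- Auxiliary partial sum. -/
def feC4_18_0 (X Y al be : R) : R :=
  190 * X ^ 4 * al ^ 18 + 23940 * X ^ 3 * Y * al ^ 13 * be ^ 5 - 17100 * X ^ 3 * Y * al ^ 14 * be
    ^ 4 + 2280 * X ^ 3 * Y * al ^ 15 * be ^ 3 + 22230 * X ^ 2 * Y ^ 2 * al ^ 8 * be ^ 10 - 49400
    * X ^ 2 * Y ^ 2 * al ^ 9 * be ^ 9 + 22230 * X ^ 2 * Y ^ 2 * al ^ 10 * be ^ 8 - 2280 * X * Y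
    ^ 3 * al ^ 3 * be ^ 15 + 17100 * X * Y ^ 3 * al ^ 4 * be ^ 14 - 23940 * X * Y ^ 3 * al ^ 5 *
    be ^ 13 + 190 * Y ^ 4 * be ^ 18

/-- Coefficient of `m^18 n^2` in the expansion. -/
def feC4_18 (X Y al be : R) : R :=
  feC4_18_0 X Y al be

/-- Auxiliary partial sum. -/
def feC4_19_0 (X Y al be : R) : R :=
  20 * X ^ 4 * al ^ 19 + 3420 * X ^ 3 * Y * al ^ 14 * be ^ 5 - 1140 * X ^ 3 * Y * al ^ 15 * be ^ 4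
    + 4940 * X ^ 2 * Y ^ 2 * al ^ 9 * be ^ 10 - 4940 * X ^ 2 * Y ^ 2 * al ^ 10 * be ^ 9 - 1140 *
    X * Y ^ 3 * al ^ 4 * be ^ 15 + 3420 * X * Y ^ 3 * al ^ 5 * be ^ 14 - 20 * Y ^ 4 * be ^ 19

/-- Coefficient of `m^19 n^1` in the expansion. -/
def feC4_19 (X Y al be : R) : R :=
  feC4_19_0 X Y al be

/-- Auxiliary partial sum. -/
def feC4_20_0 (X Y al be : R) : R :=
  X ^ 4 * al ^ 20 + 228 * X ^ 3 * Y * al ^ 15 * be ^ 5 + 494 * X ^ 2 * Y ^ 2 * al ^ 10 * be ^ 10 -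
    228 * X * Y ^ 3 * al ^ 5 * be ^ 15 + Y ^ 4 * be ^ 20

/-- Coefficient of `m^20 n^0` in the expansion. -/
def feC4_20 (X Y al be : R) : R :=
  feC4_20_0 X Y al be

/-- Auxiliary partial sum. -/
def fxC4_0 (X Y al be m n : R) : R :=
  feC4_0 X Y al be * (n ^ 20)
    + feC4_1 X Y al be * (m * n ^ 19)
    + feC4_2 X Y al be * (m ^ 2 * n ^ 18)
    + feC4_3 X Y al be * (m ^ 3 * n ^ 17)

/-- Auxiliary partial sum. -/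
def fxC4_1 (X Y al be m n : R) : R :=
  feC4_4 X Y al be * (m ^ 4 * n ^ 16)
    + feC4_5 X Y al be * (m ^ 5 * n ^ 15)
    + feC4_6 X Y al be * (m ^ 6 * n ^ 14)
    + feC4_7 X Y al be * (m ^ 7 * n ^ 13)

/-- Auxiliary partial sum. -/
def fxC4_2 (X Y al be m n : R) : R :=
  feC4_8 X Y al be * (m ^ 8 * n ^ 12)
    + feC4_9 X Y al be * (m ^ 9 * n ^ 11)
    + feC4_10 X Y al be * (m ^ 10 * n ^ 10)
    + feC4_11 X Y al be * (m ^ 11 * n ^ 9)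

/-- Auxiliary partial sum. -/
def fxC4_3 (X Y al be m n : R) : R :=
  feC4_12 X Y al be * (m ^ 12 * n ^ 8)
    + feC4_13 X Y al be * (m ^ 13 * n ^ 7)
    + feC4_14 X Y al be * (m ^ 14 * n ^ 6)
    + feC4_15 X Y al be * (m ^ 15 * n ^ 5)

/-- Auxiliary partial sum. -/
def fxC4_4 (X Y al be m n : R) : R :=
  feC4_16 X Y al be * (m ^ 16 * n ^ 4)
    + feC4_17 X Y al be * (m ^ 17 * n ^ 3)
    + feC4_18 X Y al be * (m ^ 18 * n ^ 2)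
    + feC4_19 X Y al be * (m ^ 19 * n)

/-- Auxiliary partial sum. -/
def fxC4_5 (X Y al be m n : R) : R :=
  feC4_20 X Y al be * (m ^ 20)

set_option maxHeartbeats 0 in
set_option maxRecDepth 100000 in
theorem fexpC4 (X Y al be m n : R) :
    X ^ 4 * (n + m * al) ^ 20 - 228 * X ^ 3 * Y * (n + m * al) ^ 15 * (n - m * be) ^ 5 + 494 * X ^ 2
      * Y ^ 2 * (n + m * al) ^ 10 * (n - m * be) ^ 10 + 228 * X * Y ^ 3 * (n + m * al) ^ 5 * (n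
      - m * be) ^ 15 + Y ^ 4 * (n - m * be) ^ 20 =
      fxC4_0 X Y al be m n + fxC4_1 X Y al be m n + fxC4_2 X Y al be m n + fxC4_3 X Y al be m n + fxC4_4 X Y al be m n + fxC4_5 X Y al be m n := by
  simp only [fxC4_0, fxC4_1, fxC4_2, fxC4_3, fxC4_4, fxC4_5, feC4_0, feC4_1, feC4_2, feC4_3, feC4_4, feC4_5,
    feC4_6, feC4_7, feC4_8, feC4_9, feC4_10, feC4_11, feC4_12, feC4_13, feC4_14, feC4_15,
    feC4_16, feC4_17, feC4_18, feC4_19, feC4_20, feC4_0_0, feC4_1_0, feC4_2_0, feC4_3_0,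
    feC4_4_0, feC4_5_0, feC4_6_0, feC4_7_0, feC4_8_0, feC4_9_0, feC4_10_0, feC4_10_1, feC4_11_0,
    feC4_12_0, feC4_13_0, feC4_14_0, feC4_15_0, feC4_16_0, feC4_17_0, feC4_18_0, feC4_19_0,
    feC4_20_0]
  ring

end FamilyId

end Fermat.Agent.S52
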