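import Fermat.Agent.S52.FamC4Defs

set_option autoImplicit false

namespace Fermat.Agent.S52

section FamilyId

variable {R : Type*} [CommRing R]

set_option maxHeartbeats 0 in
set_option maxRecDepth 100000 in
theorem fcoC4_0 (X Y : R) :
    feC4_0 X Y (kal X Y) (kbe X Y) = famC4_0 (-kh X Y) (-kt X Y) := by
  simp only [feC4_0, feC4_0_0, famC4_0, kal, kbe, kh, kt]
  ring

set_option maxHeartbeats 0 in
set_option maxRecDepth 100000 in
theorem fcoC4_1 (X Y : R) :
    feC4_1 X Y (kal X Y) (kbe X Y) = famC4_1 (-kh X Y) (-kt X Y) := by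
  simp only [feC4_1, feC4_1_0, famC4_1, kal, kbe, kh, kt]
  ring

set_option maxHeartbeats 0 in
set_option maxRecDepth 100000 in
theorem fcoC4_2 (X Y : R) :
    feC4_2 X Y (kal X Y) (kbe X Y) = famC4_2 (-kh X Y) (-kt X Y) := by
  simp only [feC4_2, feC4_2_0, famC4_2, kal, kbe, kh, kt]
  ring

set_option maxHeartbeats 0 in
set_option maxRecDepth 100000 in
theorem fcoC4_3 (X Y : R) :
    feC4_3 X Y (kal X Y) (kbe X Y) = famC4_3 (-kh X Y) (-kt X Y) := by
  simp only [feC4_3, feC4_3_0, famC4_3, kal, kbe, kh, kt]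
  ring

set_option maxHeartbeats 0 in
set_option maxRecDepth 100000 in
theorem fcoC4_4 (X Y : R) :
    feC4_4 X Y (kal X Y) (kbe X Y) = famC4_4 (-kh X Y) (-kt X Y) := by
  simp only [feC4_4, feC4_4_0, famC4_4, kal, kbe, kh, kt]
  ring

set_option maxHeartbeats 0 in
set_option maxRecDepth 100000 in
theorem fcoC4_5 (X Y : R) :
    feC4_5 X Y (kal X Y) (kbe X Y) = famC4_5 (-kh X Y) (-kt X Y) := by
  simp only [feC4_5, feC4_5_0, famC4_5, kal, kbe, kh, kt]
  ring

set_option maxHeartbeats 0 in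
set_option maxRecDepth 100000 in
theorem fcoC4_6 (X Y : R) :
    feC4_6 X Y (kal X Y) (kbe X Y) = famC4_6 (-kh X Y) (-kt X Y) := by
  simp only [feC4_6, feC4_6_0, famC4_6, kal, kbe, kh, kt]
  ring

set_option maxHeartbeats 0 in
set_option maxRecDepth 100000 in
theorem fcoC4_7 (X Y : R) :
    feC4_7 X Y (kal X Y) (kbe X Y) = famC4_7 (-kh X Y) (-kt X Y) := by
  simp only [feC4_7, feC4_7_0, famC4_7, kal, kbe, kh, kt]
  ring

set_option maxHeartbeats 0 in
set_option maxRecDepth 100000 in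
theorem fcoC4_8 (X Y : R) :
    feC4_8 X Y (kal X Y) (kbe X Y) = famC4_8 (-kh X Y) (-kt X Y) := by
  simp only [feC4_8, feC4_8_0, famC4_8, kal, kbe, kh, kt]
  ring

set_option maxHeartbeats 0 in
set_option maxRecDepth 100000 in
theorem fcoC4_9 (X Y : R) :
    feC4_9 X Y (kal X Y) (kbe X Y) = famC4_9 (-kh X Y) (-kt X Y) := by
  simp only [feC4_9, feC4_9_0, famC4_9, kal, kbe, kh, kt]
  ring

set_option maxHeartbeats 0 in
set_option maxRecDepth 100000 in
theorem fcoC4_10 (X Y : R) :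
    feC4_10 X Y (kal X Y) (kbe X Y) = famC4_10 (-kh X Y) (-kt X Y) := by
  simp only [feC4_10, feC4_10_0, feC4_10_1, famC4_10, kal, kbe, kh, kt]
  ring

end FamilyId

end Fermat.Agent.S52
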