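import Fermat.Agent.S52.FamC6Defs

set_option autoImplicit false

namespace Fermat.Agent.S52

section FamilyId

variable {R : Type*} [CommRing R]

set_option maxHeartbeats 0 in
set_option maxRecDepth 100000 in
theorem fcoC6_0 (X Y : R) :
    feC6_0 X Y (kal X Y) (kbe X Y) = famC6_0 (-kh X Y) (-kt X Y) := by
  simp only [feC6_0, feC6_0_0, famC6_0, kal, kbe, kh, kt]
  ring

set_option maxHeartbeats 0 in
set_option maxRecDepth 100000 in
theorem fcoC6_1 (X Y : R) :
    feC6_1 X Y (kal X Y) (kbe X Y) = famC6_1 (-kh X Y) (-kt X Y) := by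
  simp only [feC6_1, feC6_1_0, famC6_1, kal, kbe, kh, kt]
  ring

set_option maxHeartbeats 0 in
set_option maxRecDepth 100000 in
theorem fcoC6_2 (X Y : R) :
    feC6_2 X Y (kal X Y) (kbe X Y) = famC6_2 (-kh X Y) (-kt X Y) := by
  simp only [feC6_2, feC6_2_0, famC6_2, kal, kbe, kh, kt]
  ring

set_option maxHeartbeats 0 in
set_option maxRecDepth 100000 in
theorem fcoC6_3 (X Y : R) :
    feC6_3 X Y (kal X Y) (kbe X Y) = famC6_3 (-kh X Y) (-kt X Y) := by
  simp only [feC6_3, feC6_3_0, famC6_3, kal, kbe, kh, kt]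
  ring

set_option maxHeartbeats 0 in
set_option maxRecDepth 100000 in
theorem fcoC6_4 (X Y : R) :
    feC6_4 X Y (kal X Y) (kbe X Y) = famC6_4 (-kh X Y) (-kt X Y) := by
  simp only [feC6_4, feC6_4_0, famC6_4, kal, kbe, kh, kt]
  ring

set_option maxHeartbeats 0 in
set_option maxRecDepth 100000 in
theorem fcoC6_5 (X Y : R) :
    feC6_5 X Y (kal X Y) (kbe X Y) = famC6_5 (-kh X Y) (-kt X Y) := by
  simp only [feC6_5, feC6_5_0, feC6_5_1, famC6_5, kal, kbe, kh, kt]
  ring

set_option maxHeartbeats 0 in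
set_option maxRecDepth 100000 in
theorem fcoC6_6 (X Y : R) :
    feC6_6 X Y (kal X Y) (kbe X Y) = famC6_6 (-kh X Y) (-kt X Y) := by
  simp only [feC6_6, feC6_6_0, feC6_6_1, famC6_6, kal, kbe, kh, kt]
  ring

set_option maxHeartbeats 0 in
set_option maxRecDepth 100000 in
theorem fcoC6_7 (X Y : R) :
    feC6_7 X Y (kal X Y) (kbe X Y) = famC6_7 (-kh X Y) (-kt X Y) := by
  simp only [feC6_7, feC6_7_0, feC6_7_1, famC6_7, kal, kbe, kh, kt]
  ring

end FamilyId

end Fermat.Agent.S52
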