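import Fermat.Agent.S52.FamC6Defs

set_option autoImplicit false

namespace Fermat.Agent.S52

section FamilyId

variable {R : Type*} [CommRing R]

set_option maxHeartbeats 0 in
set_option maxRecDepth 100000 in
theorem fcoC6_8 (X Y : R) :
    feC6_8 X Y (kal X Y) (kbe X Y) = famC6_8 (-kh X Y) (-kt X Y) := by
  simp only [feC6_8, feC6_8_0, feC6_8_1, famC6_8, kal, kbe, kh, kt]
  ring

set_option maxHeartbeats 0 in
set_option maxRecDepth 100000 in
theorem fcoC6_9 (X Y : R) :
    feC6_9 X Y (kal X Y) (kbe X Y) = famC6_9 (-kh X Y) (-kt X Y) := by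
  simp only [feC6_9, feC6_9_0, feC6_9_1, famC6_9, kal, kbe, kh, kt]
  ring

set_option maxHeartbeats 0 in
set_option maxRecDepth 100000 in
theorem fcoC6_10 (X Y : R) :
    feC6_10 X Y (kal X Y) (kbe X Y) = famC6_10 (-kh X Y) (-kt X Y) := by
  simp only [feC6_10, feC6_10_0, feC6_10_1, famC6_10, kal, kbe, kh, kt]
  ring

set_option maxHeartbeats 0 in
set_option maxRecDepth 100000 in
theorem fcoC6_11 (X Y : R) :
    feC6_11 X Y (kal X Y) (kbe X Y) = famC6_11 (-kh X Y) (-kt X Y) := by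
  simp only [feC6_11, feC6_11_0, feC6_11_1, famC6_11, kal, kbe, kh, kt]
  ring

set_option maxHeartbeats 0 in
set_option maxRecDepth 100000 in
theorem fcoC6_12 (X Y : R) :
    feC6_12 X Y (kal X Y) (kbe X Y) = famC6_12 (-kh X Y) (-kt X Y) := by
  simp only [feC6_12, feC6_12_0, feC6_12_1, famC6_12, kal, kbe, kh, kt]
  ring

end FamilyId

end Fermat.Agent.S52
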