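import Fermat.Agent.S52.FamC6Defs

set_option autoImplicit false

namespace Fermat.Agent.S52

section FamilyId

variable {R : Type*} [CommRing R]

set_option maxHeartbeats 0 in
set_option maxRecDepth 100000 in
theorem fcoC6_13 (X Y : R) :
    feC6_13 X Y (kal X Y) (kbe X Y) = famC6_13 (-kh X Y) (-kt X Y) := by
  simp only [feC6_13, feC6_13_0, feC6_13_1, famC6_13, kal, kbe, kh, kt]
  ring

set_option maxHeartbeats 0 in
set_option maxRecDepth 100000 in
theorem fcoC6_14 (X Y : R) :
    feC6_14 X Y (kal X Y) (kbe X Y) = famC6_14 (-kh X Y) (-kt X Y) := by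
  simp only [feC6_14, feC6_14_0, feC6_14_1, famC6_14, kal, kbe, kh, kt]
  ring

set_option maxHeartbeats 0 in
set_option maxRecDepth 100000 in
theorem fcoC6_15 (X Y : R) :
    feC6_15 X Y (kal X Y) (kbe X Y) = famC6_15 (-kh X Y) (-kt X Y) := by
  simp only [feC6_15, feC6_15_0, feC6_15_1, famC6_15, kal, kbe, kh, kt]
  ring

set_option maxHeartbeats 0 in
set_option maxRecDepth 100000 in
theorem fcoC6_16 (X Y : R) :
    feC6_16 X Y (kal X Y) (kbe X Y) = famC6_16 (-kh X Y) (-kt X Y) := by
  simp only [feC6_16, feC6_16_0, feC6_16_1, famC6_16, kal, kbe, kh, kt]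
  ring

end FamilyId

end Fermat.Agent.S52
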