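import Fermat.Agent.S52.FamC6Defs

set_option autoImplicit false

namespace Fermat.Agent.S52

section FamilyId

variable {R : Type*} [CommRing R]

set_option maxHeartbeats 0 in
set_option maxRecDepth 100000 in
theorem fcoC6_17 (X Y : R) :
    feC6_17 X Y (kal X Y) (kbe X Y) = famC6_17 (-kh X Y) (-kt X Y) := by
  simp only [feC6_17, feC6_17_0, feC6_17_1, famC6_17, kal, kbe, kh, kt]
  ring

set_option maxHeartbeats 0 in
set_option maxRecDepth 100000 in
theorem fcoC6_18 (X Y : R) :
    feC6_18 X Y (kal X Y) (kbe X Y) = famC6_18 (-kh X Y) (-kt X Y) := by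
  simp only [feC6_18, feC6_18_0, feC6_18_1, famC6_18, kal, kbe, kh, kt]
  ring

set_option maxHeartbeats 0 in
set_option maxRecDepth 100000 in
theorem fcoC6_19 (X Y : R) :
    feC6_19 X Y (kal X Y) (kbe X Y) = famC6_19 (-kh X Y) (-kt X Y) := by
  simp only [feC6_19, feC6_19_0, feC6_19_1, famC6_19, kal, kbe, kh, kt]
  ring

set_option maxHeartbeats 0 in
set_option maxRecDepth 100000 in
theorem fcoC6_20 (X Y : R) :
    feC6_20 X Y (kal X Y) (kbe X Y) = famC6_20 (-kh X Y) (-kt X Y) := by
  simp only [feC6_20, feC6_20_0, feC6_20_1, famC6_20, kal, kbe, kh, kt]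
  ring

end FamilyId

end Fermat.Agent.S52
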