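import Fermat.Agent.S52.FamC6Defs

set_option autoImplicit false

namespace Fermat.Agent.S52

section FamilyId

variable {R : Type*} [CommRing R]

set_option maxHeartbeats 0 in
set_option maxRecDepth 100000 in
theorem fcoC6_21 (X Y : R) :
    feC6_21 X Y (kal X Y) (kbe X Y) = famC6_21 (-kh X Y) (-kt X Y) := by
  simp only [feC6_21, feC6_21_0, feC6_21_1, famC6_21, kal, kbe, kh, kt]
  ring

set_option maxHeartbeats 0 in
set_option maxRecDepth 100000 in
theorem fcoC6_22 (X Y : R) :
    feC6_22 X Y (kal X Y) (kbe X Y) = famC6_22 (-kh X Y) (-kt X Y) := by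
  simp only [feC6_22, feC6_22_0, feC6_22_1, famC6_22, kal, kbe, kh, kt]
  ring

set_option maxHeartbeats 0 in
set_option maxRecDepth 100000 in
theorem fcoC6_23 (X Y : R) :
    feC6_23 X Y (kal X Y) (kbe X Y) = famC6_23 (-kh X Y) (-kt X Y) := by
  simp only [feC6_23, feC6_23_0, feC6_23_1, famC6_23, kal, kbe, kh, kt]
  ring

set_option maxHeartbeats 0 in
set_option maxRecDepth 100000 in
theorem fcoC6_24 (X Y : R) :
    feC6_24 X Y (kal X Y) (kbe X Y) = famC6_24 (-kh X Y) (-kt X Y) := by
  simp only [feC6_24, feC6_24_0, feC6_24_1, famC6_24, kal, kbe, kh, kt]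
  ring

end FamilyId

end Fermat.Agent.S52
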