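import Fermat.Agent.S52.FamC6Defs

set_option autoImplicit false

namespace Fermat.Agent.S52

section FamilyId

variable {R : Type*} [CommRing R]

set_option maxHeartbeats 0 in
set_option maxRecDepth 100000 in
theorem fcoC6_25 (X Y : R) :
    feC6_25 X Y (kal X Y) (kbe X Y) = famC6_25 (-kh X Y) (-kt X Y) := by
  simp only [feC6_25, feC6_25_0, feC6_25_1, famC6_25, kal, kbe, kh, kt]
  ring

set_option maxHeartbeats 0 in
set_option maxRecDepth 100000 in
theorem fcoC6_26 (X Y : R) :
    feC6_26 X Y (kal X Y) (kbe X Y) = famC6_26 (-kh X Y) (-kt X Y) := by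
  simp only [feC6_26, feC6_26_0, famC6_26, kal, kbe, kh, kt]
  ring

set_option maxHeartbeats 0 in
set_option maxRecDepth 100000 in
theorem fcoC6_27 (X Y : R) :
    feC6_27 X Y (kal X Y) (kbe X Y) = famC6_27 (-kh X Y) (-kt X Y) := by
  simp only [feC6_27, feC6_27_0, famC6_27, kal, kbe, kh, kt]
  ring

set_option maxHeartbeats 0 in
set_option maxRecDepth 100000 in
theorem fcoC6_28 (X Y : R) :
    feC6_28 X Y (kal X Y) (kbe X Y) = famC6_28 (-kh X Y) (-kt X Y) := by
  simp only [feC6_28, feC6_28_0, famC6_28, kal, kbe, kh, kt]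
  ring

set_option maxHeartbeats 0 in
set_option maxRecDepth 100000 in
theorem fcoC6_29 (X Y : R) :
    feC6_29 X Y (kal X Y) (kbe X Y) = famC6_29 (-kh X Y) (-kt X Y) := by
  simp only [feC6_29, feC6_29_0, famC6_29, kal, kbe, kh, kt]
  ring

set_option maxHeartbeats 0 in
set_option maxRecDepth 100000 in
theorem fcoC6_30 (X Y : R) :
    feC6_30 X Y (kal X Y) (kbe X Y) = famC6_30 (-kh X Y) (-kt X Y) := by
  simp only [feC6_30, feC6_30_0, famC6_30, kal, kbe, kh, kt]
  ring

end FamilyId

end Fermat.Agent.S52
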