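import Fermat.Agent.S52.FamC6Exp
import Fermat.Agent.S52.FamC6a
import Fermat.Agent.S52.FamC6b
import Fermat.Agent.S52.FamC6c
import Fermat.Agent.S52.FamC6d
import Fermat.Agent.S52.FamC6e
import Fermat.Agent.S52.FamC6f

set_option autoImplicit false

namespace Fermat.Agent.S52

section FamilyId

variable {R : Type*} [CommRing R]

set_option maxHeartbeats 0 in
set_option maxRecDepth 100000 in
theorem fsumC6 (X Y m n : R) :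
    fxC6_0 X Y (kal X Y) (kbe X Y) m n + fxC6_1 X Y (kal X Y) (kbe X Y) m n + fxC6_2 X Y (kal X Y)
      (kbe X Y) m n + fxC6_3 X Y (kal X Y) (kbe X Y) m n + fxC6_4 X Y (kal X Y) (kbe X Y) m n +
      fxC6_5 X Y (kal X Y) (kbe X Y) m n + fxC6_6 X Y (kal X Y) (kbe X Y) m n + fxC6_7 X Y (kal
      X Y) (kbe X Y) m n =
      famC6 (-kh X Y) (-kt X Y) m n := by
  simp only [fxC6_0, fxC6_1, fxC6_2, fxC6_3, fxC6_4, fxC6_5, fxC6_6, fxC6_7, fcoC6_0, fcoC6_1, fcoC6_2,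
    fcoC6_3, fcoC6_4, fcoC6_5, fcoC6_6, fcoC6_7, fcoC6_8, fcoC6_9, fcoC6_10, fcoC6_11, fcoC6_12,
    fcoC6_13, fcoC6_14, fcoC6_15, fcoC6_16, fcoC6_17, fcoC6_18, fcoC6_19, fcoC6_20, fcoC6_21,
    fcoC6_22, fcoC6_23, fcoC6_24, fcoC6_25, fcoC6_26, fcoC6_27, fcoC6_28, fcoC6_29, fcoC6_30,
    famC6, famC6_blk0, famC6_blk1, famC6_blk2, famC6_blk3, famC6_blk4, famC6_blk5, famC6_blk6,
    famC6_blk7]

set_option maxHeartbeats 0 in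
set_option maxRecDepth 100000 in
theorem fam_T (x y m n : R) :
    -kT (n * x + m * kP1 x y) (n * y + m * kP2 x y) = famC6 (-kH x y) (-kT x y) m n := by
  have h1 := fexpC6 (x ^ 5) (y ^ 5) (kal (x ^ 5) (y ^ 5)) (kbe (x ^ 5) (y ^ 5)) m n
  have h2 := fsumC6 (x ^ 5) (y ^ 5) m n
  rw [kP1_eq_kal, kP2_eq_kbe, kH_eq_kh x y, kT_eq_kt x y]
  have h3 : -kT (n * x + m * (x * kal (x ^ 5) (y ^ 5))) (n * y + m * -(y * kbe (x ^ 5) (y ^ 5))) =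
      -(x ^ 5) ^ 6 * (n + m * kal (x ^ 5) (y ^ 5)) ^ 30 - 522 * (x ^ 5) ^ 5 * (y ^ 5) * (n + m * kal
        (x ^ 5) (y ^ 5)) ^ 25 * (n - m * kbe (x ^ 5) (y ^ 5)) ^ 5 + 10005 * (x ^ 5) ^ 4 * (y ^
        5) ^ 2 * (n + m * kal (x ^ 5) (y ^ 5)) ^ 20 * (n - m * kbe (x ^ 5) (y ^ 5)) ^ 10 + 10005
        * (x ^ 5) ^ 2 * (y ^ 5) ^ 4 * (n + m * kal (x ^ 5) (y ^ 5)) ^ 10 * (n - m * kbe (x ^ 5)
        (y ^ 5)) ^ 20 + 522 * (x ^ 5) * (y ^ 5) ^ 5 * (n + m * kal (x ^ 5) (y ^ 5)) ^ 5 * (n - m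
        * kbe (x ^ 5) (y ^ 5)) ^ 25 - (y ^ 5) ^ 6 * (n - m * kbe (x ^ 5) (y ^ 5)) ^ 30 := by
    unfold kT
    generalize kal (x ^ 5) (y ^ 5) = al
    generalize kbe (x ^ 5) (y ^ 5) = be
    ring
  rw [h3, h1, h2]

end FamilyId

end Fermat.Agent.S52
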