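import Fermat.Agent.S52.FamBase

set_option autoImplicit false

namespace Fermat.Agent.S52

section FamilyId

variable {R : Type*} [CommRing R]

/-- Auxiliary partial sum. -/
def feC6_0_0 (X Y al be : R) : R :=
  -X ^ 6 - 522 * X ^ 5 * Y + 10005 * X ^ 4 * Y ^ 2 + 10005 * X ^ 2 * Y ^ 4 + 522 * X * Y ^ 5 - Y ^
    6

/-- Coefficient of `m^0 n^30` in the expansion. -/
def feC6_0 (X Y al be : R) : R :=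
  feC6_0_0 X Y al be

/-- Auxiliary partial sum. -/
def feC6_1_0 (X Y al be : R) : R :=
  -30 * X ^ 6 * al + 2610 * X ^ 5 * Y * be - 13050 * X ^ 5 * Y * al - 100050 * X ^ 4 * Y ^ 2 * be
    + 200100 * X ^ 4 * Y ^ 2 * al - 200100 * X ^ 2 * Y ^ 4 * be + 100050 * X ^ 2 * Y ^ 4 * al -
    13050 * X * Y ^ 5 * be + 2610 * X * Y ^ 5 * al + 30 * Y ^ 6 * be

/-- Coefficient of `m^1 n^29` in the expansion. -/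
def feC6_1 (X Y al be : R) : R :=
  feC6_1_0 X Y al be

/-- Auxiliary partial sum. -/
def feC6_2_0 (X Y al be : R) : R :=
  -435 * X ^ 6 * al ^ 2 - 5220 * X ^ 5 * Y * be ^ 2 + 65250 * X ^ 5 * Y * al * be - 156600 * X ^ 5
    * Y * al ^ 2 + 450225 * X ^ 4 * Y ^ 2 * be ^ 2 - 2001000 * X ^ 4 * Y ^ 2 * al * be + 1900950
    * X ^ 4 * Y ^ 2 * al ^ 2 + 1900950 * X ^ 2 * Y ^ 4 * be ^ 2 - 2001000 * X ^ 2 * Y ^ 4 * al *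
    be + 450225 * X ^ 2 * Y ^ 4 * al ^ 2 + 156600 * X * Y ^ 5 * be ^ 2 - 65250 * X * Y ^ 5 * al
    * be + 5220 * X * Y ^ 5 * al ^ 2 - 435 * Y ^ 6 * be ^ 2

/-- Coefficient of `m^2 n^28` in the expansion. -/
def feC6_2 (X Y al be : R) : R :=
  feC6_2_0 X Y al be

/-- Auxiliary partial sum. -/
def feC6_3_0 (X Y al be : R) : R :=
  -4060 * X ^ 6 * al ^ 3 + 5220 * X ^ 5 * Y * be ^ 3 - 130500 * X ^ 5 * Y * al * be ^ 2 + 783000 *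
    X ^ 5 * Y * al ^ 2 * be - 1200600 * X ^ 5 * Y * al ^ 3 - 1200600 * X ^ 4 * Y ^ 2 * be ^ 3 +
    9004500 * X ^ 4 * Y ^ 2 * al * be ^ 2 - 19009500 * X ^ 4 * Y ^ 2 * al ^ 2 * be + 11405700 *
    X ^ 4 * Y ^ 2 * al ^ 3 - 11405700 * X ^ 2 * Y ^ 4 * be ^ 3 + 19009500 * X ^ 2 * Y ^ 4 * al *
    be ^ 2 - 9004500 * X ^ 2 * Y ^ 4 * al ^ 2 * be + 1200600 * X ^ 2 * Y ^ 4 * al ^ 3 - 1200600
    * X * Y ^ 5 * be ^ 3 + 783000 * X * Y ^ 5 * al * be ^ 2 - 130500 * X * Y ^ 5 * al ^ 2 * be +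
    5220 * X * Y ^ 5 * al ^ 3 + 4060 * Y ^ 6 * be ^ 3

/-- Coefficient of `m^3 n^27` in the expansion. -/
def feC6_3 (X Y al be : R) : R :=
  feC6_3_0 X Y al be

/-- Auxiliary partial sum. -/
def feC6_4_0 (X Y al be : R) : R :=
  -27405 * X ^ 6 * al ^ 4 - 2610 * X ^ 5 * Y * be ^ 4 + 130500 * X ^ 5 * Y * al * be ^ 3 - 1566000
    * X ^ 5 * Y * al ^ 2 * be ^ 2 + 6003000 * X ^ 5 * Y * al ^ 3 * be - 6603300 * X ^ 5 * Y * al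
    ^ 4 + 2101050 * X ^ 4 * Y ^ 2 * be ^ 4 - 24012000 * X ^ 4 * Y ^ 2 * al * be ^ 3 + 85542750 *
    X ^ 4 * Y ^ 2 * al ^ 2 * be ^ 2 - 114057000 * X ^ 4 * Y ^ 2 * al ^ 3 * be + 48474225 * X ^ 4
    * Y ^ 2 * al ^ 4 + 48474225 * X ^ 2 * Y ^ 4 * be ^ 4 - 114057000 * X ^ 2 * Y ^ 4 * al * be ^
    3 + 85542750 * X ^ 2 * Y ^ 4 * al ^ 2 * be ^ 2 - 24012000 * X ^ 2 * Y ^ 4 * al ^ 3 * be +
    2101050 * X ^ 2 * Y ^ 4 * al ^ 4 + 6603300 * X * Y ^ 5 * be ^ 4 - 6003000 * X * Y ^ 5 * al *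
    be ^ 3 + 1566000 * X * Y ^ 5 * al ^ 2 * be ^ 2 - 130500 * X * Y ^ 5 * al ^ 3 * be + 2610 * X
    * Y ^ 5 * al ^ 4 - 27405 * Y ^ 6 * be ^ 4

/-- Coefficient of `m^4 n^26` in the expansion. -/
def feC6_4 (X Y al be : R) : R :=
  feC6_4_0 X Y al be

/-- Auxiliary partial sum. -/
def feC6_5_0 (X Y al be : R) : R :=
  -142506 * X ^ 6 * al ^ 5 + 522 * X ^ 5 * Y * be ^ 5 - 65250 * X ^ 5 * Y * al * be ^ 4 + 1566000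
    * X ^ 5 * Y * al ^ 2 * be ^ 3 - 12006000 * X ^ 5 * Y * al ^ 3 * be ^ 2 + 33016500 * X ^ 5 *
    Y * al ^ 4 * be - 27733860 * X ^ 5 * Y * al ^ 5 - 2521260 * X ^ 4 * Y ^ 2 * be ^ 5 +
    42021000 * X ^ 4 * Y ^ 2 * al * be ^ 4 - 228114000 * X ^ 4 * Y ^ 2 * al ^ 2 * be ^ 3 +
    513256500 * X ^ 4 * Y ^ 2 * al ^ 3 * be ^ 2 - 484742250 * X ^ 4 * Y ^ 2 * al ^ 4 * be +
    155117520 * X ^ 4 * Y ^ 2 * al ^ 5 - 155117520 * X ^ 2 * Y ^ 4 * be ^ 5 + 484742250 * X ^ 2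
    * Y ^ 4 * al * be ^ 4 - 513256500 * X ^ 2 * Y ^ 4 * al ^ 2 * be ^ 3 + 228114000 * X ^ 2 * Y
    ^ 4 * al ^ 3 * be ^ 2 - 42021000 * X ^ 2 * Y ^ 4 * al ^ 4 * be + 2521260 * X ^ 2 * Y ^ 4 *
    al ^ 5 - 27733860 * X * Y ^ 5 * be ^ 5 + 33016500 * X * Y ^ 5 * al * be ^ 4 - 12006000 * X *
    Y ^ 5 * al ^ 2 * be ^ 3 + 1566000 * X * Y ^ 5 * al ^ 3 * be ^ 2 - 65250 * X * Y ^ 5 * al ^ 4
    * be

/-- Auxiliary partial sum. -/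
def feC6_5_1 (X Y al be : R) : R :=
  522 * X * Y ^ 5 * al ^ 5 + 142506 * Y ^ 6 * be ^ 5

/-- Coefficient of `m^5 n^25` in the expansion. -/
def feC6_5 (X Y al be : R) : R :=
  feC6_5_0 X Y al be + feC6_5_1 X Y al be

/-- Auxiliary partial sum. -/
def feC6_6_0 (X Y al be : R) : R :=
  -593775 * X ^ 6 * al ^ 6 + 13050 * X ^ 5 * Y * al * be ^ 5 - 783000 * X ^ 5 * Y * al ^ 2 * be ^
    4 + 12006000 * X ^ 5 * Y * al ^ 3 * be ^ 3 - 66033000 * X ^ 5 * Y * al ^ 4 * be ^ 2 +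
    138669300 * X ^ 5 * Y * al ^ 5 * be - 92446200 * X ^ 5 * Y * al ^ 6 + 2101050 * X ^ 4 * Y ^
    2 * be ^ 6 - 50425200 * X ^ 4 * Y ^ 2 * al * be ^ 5 + 399199500 * X ^ 4 * Y ^ 2 * al ^ 2 *
    be ^ 4 - 1368684000 * X ^ 4 * Y ^ 2 * al ^ 3 * be ^ 3 + 2181340125 * X ^ 4 * Y ^ 2 * al ^ 4
    * be ^ 2 - 1551175200 * X ^ 4 * Y ^ 2 * al ^ 5 * be + 387793800 * X ^ 4 * Y ^ 2 * al ^ 6 +
    387793800 * X ^ 2 * Y ^ 4 * be ^ 6 - 1551175200 * X ^ 2 * Y ^ 4 * al * be ^ 5 + 2181340125 *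
    X ^ 2 * Y ^ 4 * al ^ 2 * be ^ 4 - 1368684000 * X ^ 2 * Y ^ 4 * al ^ 3 * be ^ 3 + 399199500 *
    X ^ 2 * Y ^ 4 * al ^ 4 * be ^ 2 - 50425200 * X ^ 2 * Y ^ 4 * al ^ 5 * be + 2101050 * X ^ 2 *
    Y ^ 4 * al ^ 6 + 92446200 * X * Y ^ 5 * be ^ 6 - 138669300 * X * Y ^ 5 * al * be ^ 5 +
    66033000 * X * Y ^ 5 * al ^ 2 * be ^ 4

/-- Auxiliary partial sum. -/
def feC6_6_1 (X Y al be : R) : R :=
  -12006000 * X * Y ^ 5 * al ^ 3 * be ^ 3 + 783000 * X * Y ^ 5 * al ^ 4 * be ^ 2 - 13050 * X * Y ^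
    5 * al ^ 5 * be - 593775 * Y ^ 6 * be ^ 6

/-- Coefficient of `m^6 n^24` in the expansion. -/
def feC6_6 (X Y al be : R) : R :=
  feC6_6_0 X Y al be + feC6_6_1 X Y al be

/-- Auxiliary partial sum. -/
def feC6_7_0 (X Y al be : R) : R :=
  -2035800 * X ^ 6 * al ^ 7 + 156600 * X ^ 5 * Y * al ^ 2 * be ^ 5 - 6003000 * X ^ 5 * Y * al ^ 3
    * be ^ 4 + 66033000 * X ^ 5 * Y * al ^ 4 * be ^ 3 - 277338600 * X ^ 5 * Y * al ^ 5 * be ^ 2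
    + 462231000 * X ^ 5 * Y * al ^ 6 * be - 250925400 * X ^ 5 * Y * al ^ 7 - 1200600 * X ^ 4 * Y
    ^ 2 * be ^ 7 + 42021000 * X ^ 4 * Y ^ 2 * al * be ^ 6 - 479039400 * X ^ 4 * Y ^ 2 * al ^ 2 *
    be ^ 5 + 2395197000 * X ^ 4 * Y ^ 2 * al ^ 3 * be ^ 4 - 5816907000 * X ^ 4 * Y ^ 2 * al ^ 4
    * be ^ 3 + 6980288400 * X ^ 4 * Y ^ 2 * al ^ 5 * be ^ 2 - 3877938000 * X ^ 4 * Y ^ 2 * al ^
    6 * be + 775587600 * X ^ 4 * Y ^ 2 * al ^ 7 - 775587600 * X ^ 2 * Y ^ 4 * be ^ 7 +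
    3877938000 * X ^ 2 * Y ^ 4 * al * be ^ 6 - 6980288400 * X ^ 2 * Y ^ 4 * al ^ 2 * be ^ 5 +
    5816907000 * X ^ 2 * Y ^ 4 * al ^ 3 * be ^ 4 - 2395197000 * X ^ 2 * Y ^ 4 * al ^ 4 * be ^ 3
    + 479039400 * X ^ 2 * Y ^ 4 * al ^ 5 * be ^ 2 - 42021000 * X ^ 2 * Y ^ 4 * al ^ 6 * be +
    1200600 * X ^ 2 * Y ^ 4 * al ^ 7 - 250925400 * X * Y ^ 5 * be ^ 7

/-- Auxiliary partial sum. -/
def feC6_7_1 (X Y al be : R) : R :=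
  462231000 * X * Y ^ 5 * al * be ^ 6 - 277338600 * X * Y ^ 5 * al ^ 2 * be ^ 5 + 66033000 * X * Y
    ^ 5 * al ^ 3 * be ^ 4 - 6003000 * X * Y ^ 5 * al ^ 4 * be ^ 3 + 156600 * X * Y ^ 5 * al ^ 5
    * be ^ 2 + 2035800 * Y ^ 6 * be ^ 7

/-- Coefficient of `m^7 n^23` in the expansion. -/
def feC6_7 (X Y al be : R) : R :=
  feC6_7_0 X Y al be + feC6_7_1 X Y al be

/-- Auxiliary partial sum. -/
def feC6_8_0 (X Y al be : R) : R :=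
  -5852925 * X ^ 6 * al ^ 8 + 1200600 * X ^ 5 * Y * al ^ 3 * be ^ 5 - 33016500 * X ^ 5 * Y * al ^
    4 * be ^ 4 + 277338600 * X ^ 5 * Y * al ^ 5 * be ^ 3 - 924462000 * X ^ 5 * Y * al ^ 6 * be ^
    2 + 1254627000 * X ^ 5 * Y * al ^ 7 * be - 564582150 * X ^ 5 * Y * al ^ 8 + 450225 * X ^ 4 *
    Y ^ 2 * be ^ 8 - 24012000 * X ^ 4 * Y ^ 2 * al * be ^ 7 + 399199500 * X ^ 4 * Y ^ 2 * al ^ 2
    * be ^ 6 - 2874236400 * X ^ 4 * Y ^ 2 * al ^ 3 * be ^ 5 + 10179587250 * X ^ 4 * Y ^ 2 * al ^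
    4 * be ^ 4 - 18614102400 * X ^ 4 * Y ^ 2 * al ^ 5 * be ^ 3 + 17450721000 * X ^ 4 * Y ^ 2 *
    al ^ 6 * be ^ 2 - 7755876000 * X ^ 4 * Y ^ 2 * al ^ 7 * be + 1260329850 * X ^ 4 * Y ^ 2 * al
    ^ 8 + 1260329850 * X ^ 2 * Y ^ 4 * be ^ 8 - 7755876000 * X ^ 2 * Y ^ 4 * al * be ^ 7 +
    17450721000 * X ^ 2 * Y ^ 4 * al ^ 2 * be ^ 6 - 18614102400 * X ^ 2 * Y ^ 4 * al ^ 3 * be ^
    5 + 10179587250 * X ^ 2 * Y ^ 4 * al ^ 4 * be ^ 4 - 2874236400 * X ^ 2 * Y ^ 4 * al ^ 5 * be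
    ^ 3 + 399199500 * X ^ 2 * Y ^ 4 * al ^ 6 * be ^ 2 - 24012000 * X ^ 2 * Y ^ 4 * al ^ 7 * be

/-- Auxiliary partial sum. -/
def feC6_8_1 (X Y al be : R) : R :=
  450225 * X ^ 2 * Y ^ 4 * al ^ 8 + 564582150 * X * Y ^ 5 * be ^ 8 - 1254627000 * X * Y ^ 5 * al *
    be ^ 7 + 924462000 * X * Y ^ 5 * al ^ 2 * be ^ 6 - 277338600 * X * Y ^ 5 * al ^ 3 * be ^ 5 +
    33016500 * X * Y ^ 5 * al ^ 4 * be ^ 4 - 1200600 * X * Y ^ 5 * al ^ 5 * be ^ 3 - 5852925 * Y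
    ^ 6 * be ^ 8

/-- Coefficient of `m^8 n^22` in the expansion. -/
def feC6_8 (X Y al be : R) : R :=
  feC6_8_0 X Y al be + feC6_8_1 X Y al be

/-- Auxiliary partial sum. -/
def feC6_9_0 (X Y al be : R) : R :=
  -14307150 * X ^ 6 * al ^ 9 + 6603300 * X ^ 5 * Y * al ^ 4 * be ^ 5 - 138669300 * X ^ 5 * Y * al
    ^ 5 * be ^ 4 + 924462000 * X ^ 5 * Y * al ^ 6 * be ^ 3 - 2509254000 * X ^ 5 * Y * al ^ 7 *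
    be ^ 2 + 2822910750 * X ^ 5 * Y * al ^ 8 * be - 1066432950 * X ^ 5 * Y * al ^ 9 - 100050 * X
    ^ 4 * Y ^ 2 * be ^ 9 + 9004500 * X ^ 4 * Y ^ 2 * al * be ^ 8 - 228114000 * X ^ 4 * Y ^ 2 *
    al ^ 2 * be ^ 7 + 2395197000 * X ^ 4 * Y ^ 2 * al ^ 3 * be ^ 6 - 12215504700 * X ^ 4 * Y ^ 2
    * al ^ 4 * be ^ 5 + 32574679200 * X ^ 4 * Y ^ 2 * al ^ 5 * be ^ 4 - 46535256000 * X ^ 4 * Y
    ^ 2 * al ^ 6 * be ^ 3 + 34901442000 * X ^ 4 * Y ^ 2 * al ^ 7 * be ^ 2 - 12603298500 * X ^ 4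
    * Y ^ 2 * al ^ 8 * be + 1680439800 * X ^ 4 * Y ^ 2 * al ^ 9 - 1680439800 * X ^ 2 * Y ^ 4 *
    be ^ 9 + 12603298500 * X ^ 2 * Y ^ 4 * al * be ^ 8 - 34901442000 * X ^ 2 * Y ^ 4 * al ^ 2 *
    be ^ 7 + 46535256000 * X ^ 2 * Y ^ 4 * al ^ 3 * be ^ 6 - 32574679200 * X ^ 2 * Y ^ 4 * al ^
    4 * be ^ 5 + 12215504700 * X ^ 2 * Y ^ 4 * al ^ 5 * be ^ 4 - 2395197000 * X ^ 2 * Y ^ 4 * al
    ^ 6 * be ^ 3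

/-- Auxiliary partial sum. -/
def feC6_9_1 (X Y al be : R) : R :=
  228114000 * X ^ 2 * Y ^ 4 * al ^ 7 * be ^ 2 - 9004500 * X ^ 2 * Y ^ 4 * al ^ 8 * be + 100050 * X
    ^ 2 * Y ^ 4 * al ^ 9 - 1066432950 * X * Y ^ 5 * be ^ 9 + 2822910750 * X * Y ^ 5 * al * be ^
    8 - 2509254000 * X * Y ^ 5 * al ^ 2 * be ^ 7 + 924462000 * X * Y ^ 5 * al ^ 3 * be ^ 6 -
    138669300 * X * Y ^ 5 * al ^ 4 * be ^ 5 + 6603300 * X * Y ^ 5 * al ^ 5 * be ^ 4 + 14307150 *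
    Y ^ 6 * be ^ 9

/-- Coefficient of `m^9 n^21` in the expansion. -/
def feC6_9 (X Y al be : R) : R :=
  feC6_9_0 X Y al be + feC6_9_1 X Y al be

/-- Auxiliary partial sum. -/
def feC6_10_0 (X Y al be : R) : R :=
  -30045015 * X ^ 6 * al ^ 10 + 27733860 * X ^ 5 * Y * al ^ 5 * be ^ 5 - 462231000 * X ^ 5 * Y *
    al ^ 6 * be ^ 4 + 2509254000 * X ^ 5 * Y * al ^ 7 * be ^ 3 - 5645821500 * X ^ 5 * Y * al ^ 8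
    * be ^ 2 + 5332164750 * X ^ 5 * Y * al ^ 9 * be - 1706292720 * X ^ 5 * Y * al ^ 10 + 10005 *
    X ^ 4 * Y ^ 2 * be ^ 10 - 2001000 * X ^ 4 * Y ^ 2 * al * be ^ 9 + 85542750 * X ^ 4 * Y ^ 2 *
    al ^ 2 * be ^ 8 - 1368684000 * X ^ 4 * Y ^ 2 * al ^ 3 * be ^ 7 + 10179587250 * X ^ 4 * Y ^ 2
    * al ^ 4 * be ^ 6 - 39089615040 * X ^ 4 * Y ^ 2 * al ^ 5 * be ^ 5 + 81436698000 * X ^ 4 * Y
    ^ 2 * al ^ 6 * be ^ 4 - 93070512000 * X ^ 4 * Y ^ 2 * al ^ 7 * be ^ 3 + 56714843250 * X ^ 4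
    * Y ^ 2 * al ^ 8 * be ^ 2 - 16804398000 * X ^ 4 * Y ^ 2 * al ^ 9 * be + 1848483780 * X ^ 4 *
    Y ^ 2 * al ^ 10 + 1848483780 * X ^ 2 * Y ^ 4 * be ^ 10 - 16804398000 * X ^ 2 * Y ^ 4 * al *
    be ^ 9 + 56714843250 * X ^ 2 * Y ^ 4 * al ^ 2 * be ^ 8 - 93070512000 * X ^ 2 * Y ^ 4 * al ^
    3 * be ^ 7 + 81436698000 * X ^ 2 * Y ^ 4 * al ^ 4 * be ^ 6 - 39089615040 * X ^ 2 * Y ^ 4 *
    al ^ 5 * be ^ 5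

/-- Auxiliary partial sum. -/
def feC6_10_1 (X Y al be : R) : R :=
  10179587250 * X ^ 2 * Y ^ 4 * al ^ 6 * be ^ 4 - 1368684000 * X ^ 2 * Y ^ 4 * al ^ 7 * be ^ 3 +
    85542750 * X ^ 2 * Y ^ 4 * al ^ 8 * be ^ 2 - 2001000 * X ^ 2 * Y ^ 4 * al ^ 9 * be + 10005 *
    X ^ 2 * Y ^ 4 * al ^ 10 + 1706292720 * X * Y ^ 5 * be ^ 10 - 5332164750 * X * Y ^ 5 * al *
    be ^ 9 + 5645821500 * X * Y ^ 5 * al ^ 2 * be ^ 8 - 2509254000 * X * Y ^ 5 * al ^ 3 * be ^ 7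
    + 462231000 * X * Y ^ 5 * al ^ 4 * be ^ 6 - 27733860 * X * Y ^ 5 * al ^ 5 * be ^ 5 -
    30045015 * Y ^ 6 * be ^ 10

/-- Coefficient of `m^10 n^20` in the expansion. -/
def feC6_10 (X Y al be : R) : R :=
  feC6_10_0 X Y al be + feC6_10_1 X Y al be

/-- Auxiliary partial sum. -/
def feC6_11_0 (X Y al be : R) : R :=
  -54627300 * X ^ 6 * al ^ 11 + 92446200 * X ^ 5 * Y * al ^ 6 * be ^ 5 - 1254627000 * X ^ 5 * Y *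
    al ^ 7 * be ^ 4 + 5645821500 * X ^ 5 * Y * al ^ 8 * be ^ 3 - 10664329500 * X ^ 5 * Y * al ^
    9 * be ^ 2 + 8531463600 * X ^ 5 * Y * al ^ 10 * be - 2326762800 * X ^ 5 * Y * al ^ 11 +
    200100 * X ^ 4 * Y ^ 2 * al * be ^ 10 - 19009500 * X ^ 4 * Y ^ 2 * al ^ 2 * be ^ 9 +
    513256500 * X ^ 4 * Y ^ 2 * al ^ 3 * be ^ 8 - 5816907000 * X ^ 4 * Y ^ 2 * al ^ 4 * be ^ 7 +
    32574679200 * X ^ 4 * Y ^ 2 * al ^ 5 * be ^ 6 - 97724037600 * X ^ 4 * Y ^ 2 * al ^ 6 * be ^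
    5 + 162873396000 * X ^ 4 * Y ^ 2 * al ^ 7 * be ^ 4 - 151239582000 * X ^ 4 * Y ^ 2 * al ^ 8 *
    be ^ 3 + 75619791000 * X ^ 4 * Y ^ 2 * al ^ 9 * be ^ 2 - 18484837800 * X ^ 4 * Y ^ 2 * al ^
    10 * be + 1680439800 * X ^ 4 * Y ^ 2 * al ^ 11 - 1680439800 * X ^ 2 * Y ^ 4 * be ^ 11 +
    18484837800 * X ^ 2 * Y ^ 4 * al * be ^ 10 - 75619791000 * X ^ 2 * Y ^ 4 * al ^ 2 * be ^ 9 +
    151239582000 * X ^ 2 * Y ^ 4 * al ^ 3 * be ^ 8 - 162873396000 * X ^ 2 * Y ^ 4 * al ^ 4 * be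
    ^ 7 + 97724037600 * X ^ 2 * Y ^ 4 * al ^ 5 * be ^ 6

/-- Auxiliary partial sum. -/
def feC6_11_1 (X Y al be : R) : R :=
  -32574679200 * X ^ 2 * Y ^ 4 * al ^ 6 * be ^ 5 + 5816907000 * X ^ 2 * Y ^ 4 * al ^ 7 * be ^ 4 -
    513256500 * X ^ 2 * Y ^ 4 * al ^ 8 * be ^ 3 + 19009500 * X ^ 2 * Y ^ 4 * al ^ 9 * be ^ 2 -
    200100 * X ^ 2 * Y ^ 4 * al ^ 10 * be - 2326762800 * X * Y ^ 5 * be ^ 11 + 8531463600 * X *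
    Y ^ 5 * al * be ^ 10 - 10664329500 * X * Y ^ 5 * al ^ 2 * be ^ 9 + 5645821500 * X * Y ^ 5 *
    al ^ 3 * be ^ 8 - 1254627000 * X * Y ^ 5 * al ^ 4 * be ^ 7 + 92446200 * X * Y ^ 5 * al ^ 5 *
    be ^ 6 + 54627300 * Y ^ 6 * be ^ 11

/-- Coefficient of `m^11 n^19` in the expansion. -/
def feC6_11 (X Y al be : R) : R :=
  feC6_11_0 X Y al be + feC6_11_1 X Y al be

/-- Auxiliary partial sum. -/
def feC6_12_0 (X Y al be : R) : R :=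
  -86493225 * X ^ 6 * al ^ 12 + 250925400 * X ^ 5 * Y * al ^ 7 * be ^ 5 - 2822910750 * X ^ 5 * Y *
    al ^ 8 * be ^ 4 + 10664329500 * X ^ 5 * Y * al ^ 9 * be ^ 3 - 17062927200 * X ^ 5 * Y * al ^
    10 * be ^ 2 + 11633814000 * X ^ 5 * Y * al ^ 11 * be - 2714556600 * X ^ 5 * Y * al ^ 12 +
    1900950 * X ^ 4 * Y ^ 2 * al ^ 2 * be ^ 10 - 114057000 * X ^ 4 * Y ^ 2 * al ^ 3 * be ^ 9 +
    2181340125 * X ^ 4 * Y ^ 2 * al ^ 4 * be ^ 8 - 18614102400 * X ^ 4 * Y ^ 2 * al ^ 5 * be ^ 7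
    + 81436698000 * X ^ 4 * Y ^ 2 * al ^ 6 * be ^ 6 - 195448075200 * X ^ 4 * Y ^ 2 * al ^ 7 * be
    ^ 5 + 264669268500 * X ^ 4 * Y ^ 2 * al ^ 8 * be ^ 4 - 201652776000 * X ^ 4 * Y ^ 2 * al ^ 9
    * be ^ 3 + 83181770100 * X ^ 4 * Y ^ 2 * al ^ 10 * be ^ 2 - 16804398000 * X ^ 4 * Y ^ 2 * al
    ^ 11 * be + 1260329850 * X ^ 4 * Y ^ 2 * al ^ 12 + 1260329850 * X ^ 2 * Y ^ 4 * be ^ 12 -
    16804398000 * X ^ 2 * Y ^ 4 * al * be ^ 11 + 83181770100 * X ^ 2 * Y ^ 4 * al ^ 2 * be ^ 10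
    - 201652776000 * X ^ 2 * Y ^ 4 * al ^ 3 * be ^ 9 + 264669268500 * X ^ 2 * Y ^ 4 * al ^ 4 *
    be ^ 8 - 195448075200 * X ^ 2 * Y ^ 4 * al ^ 5 * be ^ 7

/-- Auxiliary partial sum. -/
def feC6_12_1 (X Y al be : R) : R :=
  81436698000 * X ^ 2 * Y ^ 4 * al ^ 6 * be ^ 6 - 18614102400 * X ^ 2 * Y ^ 4 * al ^ 7 * be ^ 5 +
    2181340125 * X ^ 2 * Y ^ 4 * al ^ 8 * be ^ 4 - 114057000 * X ^ 2 * Y ^ 4 * al ^ 9 * be ^ 3 +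
    1900950 * X ^ 2 * Y ^ 4 * al ^ 10 * be ^ 2 + 2714556600 * X * Y ^ 5 * be ^ 12 - 11633814000
    * X * Y ^ 5 * al * be ^ 11 + 17062927200 * X * Y ^ 5 * al ^ 2 * be ^ 10 - 10664329500 * X *
    Y ^ 5 * al ^ 3 * be ^ 9 + 2822910750 * X * Y ^ 5 * al ^ 4 * be ^ 8 - 250925400 * X * Y ^ 5 *
    al ^ 5 * be ^ 7 - 86493225 * Y ^ 6 * be ^ 12

/-- Coefficient of `m^12 n^18` in the expansion. -/
def feC6_12 (X Y al be : R) : R :=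
  feC6_12_0 X Y al be + feC6_12_1 X Y al be

/-- Auxiliary partial sum. -/
def feC6_13_0 (X Y al be : R) : R :=
  -119759850 * X ^ 6 * al ^ 13 + 564582150 * X ^ 5 * Y * al ^ 8 * be ^ 5 - 5332164750 * X ^ 5 * Y
    * al ^ 9 * be ^ 4 + 17062927200 * X ^ 5 * Y * al ^ 10 * be ^ 3 - 23267628000 * X ^ 5 * Y *
    al ^ 11 * be ^ 2 + 13572783000 * X ^ 5 * Y * al ^ 12 * be - 2714556600 * X ^ 5 * Y * al ^ 13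
    + 11405700 * X ^ 4 * Y ^ 2 * al ^ 3 * be ^ 10 - 484742250 * X ^ 4 * Y ^ 2 * al ^ 4 * be ^ 9
    + 6980288400 * X ^ 4 * Y ^ 2 * al ^ 5 * be ^ 8 - 46535256000 * X ^ 4 * Y ^ 2 * al ^ 6 * be ^
    7 + 162873396000 * X ^ 4 * Y ^ 2 * al ^ 7 * be ^ 6 - 317603122200 * X ^ 4 * Y ^ 2 * al ^ 8 *
    be ^ 5 + 352892358000 * X ^ 4 * Y ^ 2 * al ^ 9 * be ^ 4 - 221818053600 * X ^ 4 * Y ^ 2 * al
    ^ 10 * be ^ 3 + 75619791000 * X ^ 4 * Y ^ 2 * al ^ 11 * be ^ 2 - 12603298500 * X ^ 4 * Y ^ 2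
    * al ^ 12 * be + 775587600 * X ^ 4 * Y ^ 2 * al ^ 13 - 775587600 * X ^ 2 * Y ^ 4 * be ^ 13 +
    12603298500 * X ^ 2 * Y ^ 4 * al * be ^ 12 - 75619791000 * X ^ 2 * Y ^ 4 * al ^ 2 * be ^ 11
    + 221818053600 * X ^ 2 * Y ^ 4 * al ^ 3 * be ^ 10 - 352892358000 * X ^ 2 * Y ^ 4 * al ^ 4 *
    be ^ 9 + 317603122200 * X ^ 2 * Y ^ 4 * al ^ 5 * be ^ 8

/-- Auxiliary partial sum. -/
def feC6_13_1 (X Y al be : R) : R :=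
  -162873396000 * X ^ 2 * Y ^ 4 * al ^ 6 * be ^ 7 + 46535256000 * X ^ 2 * Y ^ 4 * al ^ 7 * be ^ 6
    - 6980288400 * X ^ 2 * Y ^ 4 * al ^ 8 * be ^ 5 + 484742250 * X ^ 2 * Y ^ 4 * al ^ 9 * be ^ 4
    - 11405700 * X ^ 2 * Y ^ 4 * al ^ 10 * be ^ 3 - 2714556600 * X * Y ^ 5 * be ^ 13 +
    13572783000 * X * Y ^ 5 * al * be ^ 12 - 23267628000 * X * Y ^ 5 * al ^ 2 * be ^ 11 +
    17062927200 * X * Y ^ 5 * al ^ 3 * be ^ 10 - 5332164750 * X * Y ^ 5 * al ^ 4 * be ^ 9 +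
    564582150 * X * Y ^ 5 * al ^ 5 * be ^ 8 + 119759850 * Y ^ 6 * be ^ 13

/-- Coefficient of `m^13 n^17` in the expansion. -/
def feC6_13 (X Y al be : R) : R :=
  feC6_13_0 X Y al be + feC6_13_1 X Y al be

/-- Auxiliary partial sum. -/
def feC6_14_0 (X Y al be : R) : R :=
  -145422675 * X ^ 6 * al ^ 14 + 1066432950 * X ^ 5 * Y * al ^ 9 * be ^ 5 - 8531463600 * X ^ 5 * Y
    * al ^ 10 * be ^ 4 + 23267628000 * X ^ 5 * Y * al ^ 11 * be ^ 3 - 27145566000 * X ^ 5 * Y *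
    al ^ 12 * be ^ 2 + 13572783000 * X ^ 5 * Y * al ^ 13 * be - 2326762800 * X ^ 5 * Y * al ^ 14
    + 48474225 * X ^ 4 * Y ^ 2 * al ^ 4 * be ^ 10 - 1551175200 * X ^ 4 * Y ^ 2 * al ^ 5 * be ^ 9
    + 17450721000 * X ^ 4 * Y ^ 2 * al ^ 6 * be ^ 8 - 93070512000 * X ^ 4 * Y ^ 2 * al ^ 7 * be
    ^ 7 + 264669268500 * X ^ 4 * Y ^ 2 * al ^ 8 * be ^ 6 - 423470829600 * X ^ 4 * Y ^ 2 * al ^ 9
    * be ^ 5 + 388181593800 * X ^ 4 * Y ^ 2 * al ^ 10 * be ^ 4 - 201652776000 * X ^ 4 * Y ^ 2 *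
    al ^ 11 * be ^ 3 + 56714843250 * X ^ 4 * Y ^ 2 * al ^ 12 * be ^ 2 - 7755876000 * X ^ 4 * Y ^
    2 * al ^ 13 * be + 387793800 * X ^ 4 * Y ^ 2 * al ^ 14 + 387793800 * X ^ 2 * Y ^ 4 * be ^ 14
    - 7755876000 * X ^ 2 * Y ^ 4 * al * be ^ 13 + 56714843250 * X ^ 2 * Y ^ 4 * al ^ 2 * be ^ 12
    - 201652776000 * X ^ 2 * Y ^ 4 * al ^ 3 * be ^ 11 + 388181593800 * X ^ 2 * Y ^ 4 * al ^ 4 *
    be ^ 10 - 423470829600 * X ^ 2 * Y ^ 4 * al ^ 5 * be ^ 9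

/-- Auxiliary partial sum. -/
def feC6_14_1 (X Y al be : R) : R :=
  264669268500 * X ^ 2 * Y ^ 4 * al ^ 6 * be ^ 8 - 93070512000 * X ^ 2 * Y ^ 4 * al ^ 7 * be ^ 7 +
    17450721000 * X ^ 2 * Y ^ 4 * al ^ 8 * be ^ 6 - 1551175200 * X ^ 2 * Y ^ 4 * al ^ 9 * be ^ 5
    + 48474225 * X ^ 2 * Y ^ 4 * al ^ 10 * be ^ 4 + 2326762800 * X * Y ^ 5 * be ^ 14 -
    13572783000 * X * Y ^ 5 * al * be ^ 13 + 27145566000 * X * Y ^ 5 * al ^ 2 * be ^ 12 -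
    23267628000 * X * Y ^ 5 * al ^ 3 * be ^ 11 + 8531463600 * X * Y ^ 5 * al ^ 4 * be ^ 10 -
    1066432950 * X * Y ^ 5 * al ^ 5 * be ^ 9 - 145422675 * Y ^ 6 * be ^ 14

/-- Coefficient of `m^14 n^16` in the expansion. -/
def feC6_14 (X Y al be : R) : R :=
  feC6_14_0 X Y al be + feC6_14_1 X Y al be

/-- Auxiliary partial sum. -/
def feC6_15_0 (X Y al be : R) : R :=
  -155117520 * X ^ 6 * al ^ 15 + 1706292720 * X ^ 5 * Y * al ^ 10 * be ^ 5 - 11633814000 * X ^ 5 *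
    Y * al ^ 11 * be ^ 4 + 27145566000 * X ^ 5 * Y * al ^ 12 * be ^ 3 - 27145566000 * X ^ 5 * Y
    * al ^ 13 * be ^ 2 + 11633814000 * X ^ 5 * Y * al ^ 14 * be - 1706292720 * X ^ 5 * Y * al ^
    15 + 155117520 * X ^ 4 * Y ^ 2 * al ^ 5 * be ^ 10 - 3877938000 * X ^ 4 * Y ^ 2 * al ^ 6 * be
    ^ 9 + 34901442000 * X ^ 4 * Y ^ 2 * al ^ 7 * be ^ 8 - 151239582000 * X ^ 4 * Y ^ 2 * al ^ 8
    * be ^ 7 + 352892358000 * X ^ 4 * Y ^ 2 * al ^ 9 * be ^ 6 - 465817912560 * X ^ 4 * Y ^ 2 *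
    al ^ 10 * be ^ 5 + 352892358000 * X ^ 4 * Y ^ 2 * al ^ 11 * be ^ 4 - 151239582000 * X ^ 4 *
    Y ^ 2 * al ^ 12 * be ^ 3 + 34901442000 * X ^ 4 * Y ^ 2 * al ^ 13 * be ^ 2 - 3877938000 * X ^
    4 * Y ^ 2 * al ^ 14 * be + 155117520 * X ^ 4 * Y ^ 2 * al ^ 15 - 155117520 * X ^ 2 * Y ^ 4 *
    be ^ 15 + 3877938000 * X ^ 2 * Y ^ 4 * al * be ^ 14 - 34901442000 * X ^ 2 * Y ^ 4 * al ^ 2 *
    be ^ 13 + 151239582000 * X ^ 2 * Y ^ 4 * al ^ 3 * be ^ 12 - 352892358000 * X ^ 2 * Y ^ 4 *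
    al ^ 4 * be ^ 11 + 465817912560 * X ^ 2 * Y ^ 4 * al ^ 5 * be ^ 10

/-- Auxiliary partial sum. -/
def feC6_15_1 (X Y al be : R) : R :=
  -352892358000 * X ^ 2 * Y ^ 4 * al ^ 6 * be ^ 9 + 151239582000 * X ^ 2 * Y ^ 4 * al ^ 7 * be ^ 8
    - 34901442000 * X ^ 2 * Y ^ 4 * al ^ 8 * be ^ 7 + 3877938000 * X ^ 2 * Y ^ 4 * al ^ 9 * be ^
    6 - 155117520 * X ^ 2 * Y ^ 4 * al ^ 10 * be ^ 5 - 1706292720 * X * Y ^ 5 * be ^ 15 +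
    11633814000 * X * Y ^ 5 * al * be ^ 14 - 27145566000 * X * Y ^ 5 * al ^ 2 * be ^ 13 +
    27145566000 * X * Y ^ 5 * al ^ 3 * be ^ 12 - 11633814000 * X * Y ^ 5 * al ^ 4 * be ^ 11 +
    1706292720 * X * Y ^ 5 * al ^ 5 * be ^ 10 + 155117520 * Y ^ 6 * be ^ 15

/-- Coefficient of `m^15 n^15` in the expansion. -/
def feC6_15 (X Y al be : R) : R :=
  feC6_15_0 X Y al be + feC6_15_1 X Y al be

/-- Auxiliary partial sum. -/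
def feC6_16_0 (X Y al be : R) : R :=
  -145422675 * X ^ 6 * al ^ 16 + 2326762800 * X ^ 5 * Y * al ^ 11 * be ^ 5 - 13572783000 * X ^ 5 *
    Y * al ^ 12 * be ^ 4 + 27145566000 * X ^ 5 * Y * al ^ 13 * be ^ 3 - 23267628000 * X ^ 5 * Y
    * al ^ 14 * be ^ 2 + 8531463600 * X ^ 5 * Y * al ^ 15 * be - 1066432950 * X ^ 5 * Y * al ^
    16 + 387793800 * X ^ 4 * Y ^ 2 * al ^ 6 * be ^ 10 - 7755876000 * X ^ 4 * Y ^ 2 * al ^ 7 * be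
    ^ 9 + 56714843250 * X ^ 4 * Y ^ 2 * al ^ 8 * be ^ 8 - 201652776000 * X ^ 4 * Y ^ 2 * al ^ 9
    * be ^ 7 + 388181593800 * X ^ 4 * Y ^ 2 * al ^ 10 * be ^ 6 - 423470829600 * X ^ 4 * Y ^ 2 *
    al ^ 11 * be ^ 5 + 264669268500 * X ^ 4 * Y ^ 2 * al ^ 12 * be ^ 4 - 93070512000 * X ^ 4 * Y
    ^ 2 * al ^ 13 * be ^ 3 + 17450721000 * X ^ 4 * Y ^ 2 * al ^ 14 * be ^ 2 - 1551175200 * X ^ 4
    * Y ^ 2 * al ^ 15 * be + 48474225 * X ^ 4 * Y ^ 2 * al ^ 16 + 48474225 * X ^ 2 * Y ^ 4 * be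
    ^ 16 - 1551175200 * X ^ 2 * Y ^ 4 * al * be ^ 15 + 17450721000 * X ^ 2 * Y ^ 4 * al ^ 2 * be
    ^ 14 - 93070512000 * X ^ 2 * Y ^ 4 * al ^ 3 * be ^ 13 + 264669268500 * X ^ 2 * Y ^ 4 * al ^
    4 * be ^ 12 - 423470829600 * X ^ 2 * Y ^ 4 * al ^ 5 * be ^ 11

/-- Auxiliary partial sum. -/
def feC6_16_1 (X Y al be : R) : R :=
  388181593800 * X ^ 2 * Y ^ 4 * al ^ 6 * be ^ 10 - 201652776000 * X ^ 2 * Y ^ 4 * al ^ 7 * be ^ 9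
    + 56714843250 * X ^ 2 * Y ^ 4 * al ^ 8 * be ^ 8 - 7755876000 * X ^ 2 * Y ^ 4 * al ^ 9 * be ^
    7 + 387793800 * X ^ 2 * Y ^ 4 * al ^ 10 * be ^ 6 + 1066432950 * X * Y ^ 5 * be ^ 16 -
    8531463600 * X * Y ^ 5 * al * be ^ 15 + 23267628000 * X * Y ^ 5 * al ^ 2 * be ^ 14 -
    27145566000 * X * Y ^ 5 * al ^ 3 * be ^ 13 + 13572783000 * X * Y ^ 5 * al ^ 4 * be ^ 12 -
    2326762800 * X * Y ^ 5 * al ^ 5 * be ^ 11 - 145422675 * Y ^ 6 * be ^ 16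

/-- Coefficient of `m^16 n^14` in the expansion. -/
def feC6_16 (X Y al be : R) : R :=
  feC6_16_0 X Y al be + feC6_16_1 X Y al be

/-- Auxiliary partial sum. -/
def feC6_17_0 (X Y al be : R) : R :=
  -119759850 * X ^ 6 * al ^ 17 + 2714556600 * X ^ 5 * Y * al ^ 12 * be ^ 5 - 13572783000 * X ^ 5 *
    Y * al ^ 13 * be ^ 4 + 23267628000 * X ^ 5 * Y * al ^ 14 * be ^ 3 - 17062927200 * X ^ 5 * Y
    * al ^ 15 * be ^ 2 + 5332164750 * X ^ 5 * Y * al ^ 16 * be - 564582150 * X ^ 5 * Y * al ^ 17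
    + 775587600 * X ^ 4 * Y ^ 2 * al ^ 7 * be ^ 10 - 12603298500 * X ^ 4 * Y ^ 2 * al ^ 8 * be ^
    9 + 75619791000 * X ^ 4 * Y ^ 2 * al ^ 9 * be ^ 8 - 221818053600 * X ^ 4 * Y ^ 2 * al ^ 10 *
    be ^ 7 + 352892358000 * X ^ 4 * Y ^ 2 * al ^ 11 * be ^ 6 - 317603122200 * X ^ 4 * Y ^ 2 * al
    ^ 12 * be ^ 5 + 162873396000 * X ^ 4 * Y ^ 2 * al ^ 13 * be ^ 4 - 46535256000 * X ^ 4 * Y ^
    2 * al ^ 14 * be ^ 3 + 6980288400 * X ^ 4 * Y ^ 2 * al ^ 15 * be ^ 2 - 484742250 * X ^ 4 * Y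
    ^ 2 * al ^ 16 * be + 11405700 * X ^ 4 * Y ^ 2 * al ^ 17 - 11405700 * X ^ 2 * Y ^ 4 * be ^ 17
    + 484742250 * X ^ 2 * Y ^ 4 * al * be ^ 16 - 6980288400 * X ^ 2 * Y ^ 4 * al ^ 2 * be ^ 15 +
    46535256000 * X ^ 2 * Y ^ 4 * al ^ 3 * be ^ 14 - 162873396000 * X ^ 2 * Y ^ 4 * al ^ 4 * be
    ^ 13 + 317603122200 * X ^ 2 * Y ^ 4 * al ^ 5 * be ^ 12

/-- Auxiliary partial sum. -/
def feC6_17_1 (X Y al be : R) : R :=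
  -352892358000 * X ^ 2 * Y ^ 4 * al ^ 6 * be ^ 11 + 221818053600 * X ^ 2 * Y ^ 4 * al ^ 7 * be ^
    10 - 75619791000 * X ^ 2 * Y ^ 4 * al ^ 8 * be ^ 9 + 12603298500 * X ^ 2 * Y ^ 4 * al ^ 9 *
    be ^ 8 - 775587600 * X ^ 2 * Y ^ 4 * al ^ 10 * be ^ 7 - 564582150 * X * Y ^ 5 * be ^ 17 +
    5332164750 * X * Y ^ 5 * al * be ^ 16 - 17062927200 * X * Y ^ 5 * al ^ 2 * be ^ 15 +
    23267628000 * X * Y ^ 5 * al ^ 3 * be ^ 14 - 13572783000 * X * Y ^ 5 * al ^ 4 * be ^ 13 +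
    2714556600 * X * Y ^ 5 * al ^ 5 * be ^ 12 + 119759850 * Y ^ 6 * be ^ 17

/-- Coefficient of `m^17 n^13` in the expansion. -/
def feC6_17 (X Y al be : R) : R :=
  feC6_17_0 X Y al be + feC6_17_1 X Y al be

/-- Auxiliary partial sum. -/
def feC6_18_0 (X Y al be : R) : R :=
  -86493225 * X ^ 6 * al ^ 18 + 2714556600 * X ^ 5 * Y * al ^ 13 * be ^ 5 - 11633814000 * X ^ 5 *
    Y * al ^ 14 * be ^ 4 + 17062927200 * X ^ 5 * Y * al ^ 15 * be ^ 3 - 10664329500 * X ^ 5 * Y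
    * al ^ 16 * be ^ 2 + 2822910750 * X ^ 5 * Y * al ^ 17 * be - 250925400 * X ^ 5 * Y * al ^ 18
    + 1260329850 * X ^ 4 * Y ^ 2 * al ^ 8 * be ^ 10 - 16804398000 * X ^ 4 * Y ^ 2 * al ^ 9 * be
    ^ 9 + 83181770100 * X ^ 4 * Y ^ 2 * al ^ 10 * be ^ 8 - 201652776000 * X ^ 4 * Y ^ 2 * al ^
    11 * be ^ 7 + 264669268500 * X ^ 4 * Y ^ 2 * al ^ 12 * be ^ 6 - 195448075200 * X ^ 4 * Y ^ 2
    * al ^ 13 * be ^ 5 + 81436698000 * X ^ 4 * Y ^ 2 * al ^ 14 * be ^ 4 - 18614102400 * X ^ 4 *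
    Y ^ 2 * al ^ 15 * be ^ 3 + 2181340125 * X ^ 4 * Y ^ 2 * al ^ 16 * be ^ 2 - 114057000 * X ^ 4
    * Y ^ 2 * al ^ 17 * be + 1900950 * X ^ 4 * Y ^ 2 * al ^ 18 + 1900950 * X ^ 2 * Y ^ 4 * be ^
    18 - 114057000 * X ^ 2 * Y ^ 4 * al * be ^ 17 + 2181340125 * X ^ 2 * Y ^ 4 * al ^ 2 * be ^
    16 - 18614102400 * X ^ 2 * Y ^ 4 * al ^ 3 * be ^ 15 + 81436698000 * X ^ 2 * Y ^ 4 * al ^ 4 *
    be ^ 14 - 195448075200 * X ^ 2 * Y ^ 4 * al ^ 5 * be ^ 13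

/-- Auxiliary partial sum. -/
def feC6_18_1 (X Y al be : R) : R :=
  264669268500 * X ^ 2 * Y ^ 4 * al ^ 6 * be ^ 12 - 201652776000 * X ^ 2 * Y ^ 4 * al ^ 7 * be ^
    11 + 83181770100 * X ^ 2 * Y ^ 4 * al ^ 8 * be ^ 10 - 16804398000 * X ^ 2 * Y ^ 4 * al ^ 9 *
    be ^ 9 + 1260329850 * X ^ 2 * Y ^ 4 * al ^ 10 * be ^ 8 + 250925400 * X * Y ^ 5 * be ^ 18 -
    2822910750 * X * Y ^ 5 * al * be ^ 17 + 10664329500 * X * Y ^ 5 * al ^ 2 * be ^ 16 -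
    17062927200 * X * Y ^ 5 * al ^ 3 * be ^ 15 + 11633814000 * X * Y ^ 5 * al ^ 4 * be ^ 14 -
    2714556600 * X * Y ^ 5 * al ^ 5 * be ^ 13 - 86493225 * Y ^ 6 * be ^ 18

/-- Coefficient of `m^18 n^12` in the expansion. -/
def feC6_18 (X Y al be : R) : R :=
  feC6_18_0 X Y al be + feC6_18_1 X Y al be

/-- Auxiliary partial sum. -/
def feC6_19_0 (X Y al be : R) : R :=
  -54627300 * X ^ 6 * al ^ 19 + 2326762800 * X ^ 5 * Y * al ^ 14 * be ^ 5 - 8531463600 * X ^ 5 * Y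
    * al ^ 15 * be ^ 4 + 10664329500 * X ^ 5 * Y * al ^ 16 * be ^ 3 - 5645821500 * X ^ 5 * Y *
    al ^ 17 * be ^ 2 + 1254627000 * X ^ 5 * Y * al ^ 18 * be - 92446200 * X ^ 5 * Y * al ^ 19 +
    1680439800 * X ^ 4 * Y ^ 2 * al ^ 9 * be ^ 10 - 18484837800 * X ^ 4 * Y ^ 2 * al ^ 10 * be ^
    9 + 75619791000 * X ^ 4 * Y ^ 2 * al ^ 11 * be ^ 8 - 151239582000 * X ^ 4 * Y ^ 2 * al ^ 12
    * be ^ 7 + 162873396000 * X ^ 4 * Y ^ 2 * al ^ 13 * be ^ 6 - 97724037600 * X ^ 4 * Y ^ 2 *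
    al ^ 14 * be ^ 5 + 32574679200 * X ^ 4 * Y ^ 2 * al ^ 15 * be ^ 4 - 5816907000 * X ^ 4 * Y ^
    2 * al ^ 16 * be ^ 3 + 513256500 * X ^ 4 * Y ^ 2 * al ^ 17 * be ^ 2 - 19009500 * X ^ 4 * Y ^
    2 * al ^ 18 * be + 200100 * X ^ 4 * Y ^ 2 * al ^ 19 - 200100 * X ^ 2 * Y ^ 4 * be ^ 19 +
    19009500 * X ^ 2 * Y ^ 4 * al * be ^ 18 - 513256500 * X ^ 2 * Y ^ 4 * al ^ 2 * be ^ 17 +
    5816907000 * X ^ 2 * Y ^ 4 * al ^ 3 * be ^ 16 - 32574679200 * X ^ 2 * Y ^ 4 * al ^ 4 * be ^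
    15 + 97724037600 * X ^ 2 * Y ^ 4 * al ^ 5 * be ^ 14

/-- Auxiliary partial sum. -/
def feC6_19_1 (X Y al be : R) : R :=
  -162873396000 * X ^ 2 * Y ^ 4 * al ^ 6 * be ^ 13 + 151239582000 * X ^ 2 * Y ^ 4 * al ^ 7 * be ^
    12 - 75619791000 * X ^ 2 * Y ^ 4 * al ^ 8 * be ^ 11 + 18484837800 * X ^ 2 * Y ^ 4 * al ^ 9 *
    be ^ 10 - 1680439800 * X ^ 2 * Y ^ 4 * al ^ 10 * be ^ 9 - 92446200 * X * Y ^ 5 * be ^ 19 +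
    1254627000 * X * Y ^ 5 * al * be ^ 18 - 5645821500 * X * Y ^ 5 * al ^ 2 * be ^ 17 +
    10664329500 * X * Y ^ 5 * al ^ 3 * be ^ 16 - 8531463600 * X * Y ^ 5 * al ^ 4 * be ^ 15 +
    2326762800 * X * Y ^ 5 * al ^ 5 * be ^ 14 + 54627300 * Y ^ 6 * be ^ 19

/-- Coefficient of `m^19 n^11` in the expansion. -/
def feC6_19 (X Y al be : R) : R :=
  feC6_19_0 X Y al be + feC6_19_1 X Y al be

/-- Auxiliary partial sum. -/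
def feC6_20_0 (X Y al be : R) : R :=
  -30045015 * X ^ 6 * al ^ 20 + 1706292720 * X ^ 5 * Y * al ^ 15 * be ^ 5 - 5332164750 * X ^ 5 * Y
    * al ^ 16 * be ^ 4 + 5645821500 * X ^ 5 * Y * al ^ 17 * be ^ 3 - 2509254000 * X ^ 5 * Y * al
    ^ 18 * be ^ 2 + 462231000 * X ^ 5 * Y * al ^ 19 * be - 27733860 * X ^ 5 * Y * al ^ 20 +
    1848483780 * X ^ 4 * Y ^ 2 * al ^ 10 * be ^ 10 - 16804398000 * X ^ 4 * Y ^ 2 * al ^ 11 * be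
    ^ 9 + 56714843250 * X ^ 4 * Y ^ 2 * al ^ 12 * be ^ 8 - 93070512000 * X ^ 4 * Y ^ 2 * al ^ 13
    * be ^ 7 + 81436698000 * X ^ 4 * Y ^ 2 * al ^ 14 * be ^ 6 - 39089615040 * X ^ 4 * Y ^ 2 * al
    ^ 15 * be ^ 5 + 10179587250 * X ^ 4 * Y ^ 2 * al ^ 16 * be ^ 4 - 1368684000 * X ^ 4 * Y ^ 2
    * al ^ 17 * be ^ 3 + 85542750 * X ^ 4 * Y ^ 2 * al ^ 18 * be ^ 2 - 2001000 * X ^ 4 * Y ^ 2 *
    al ^ 19 * be + 10005 * X ^ 4 * Y ^ 2 * al ^ 20 + 10005 * X ^ 2 * Y ^ 4 * be ^ 20 - 2001000 *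
    X ^ 2 * Y ^ 4 * al * be ^ 19 + 85542750 * X ^ 2 * Y ^ 4 * al ^ 2 * be ^ 18 - 1368684000 * X
    ^ 2 * Y ^ 4 * al ^ 3 * be ^ 17 + 10179587250 * X ^ 2 * Y ^ 4 * al ^ 4 * be ^ 16 -
    39089615040 * X ^ 2 * Y ^ 4 * al ^ 5 * be ^ 15

/-- Auxiliary partial sum. -/
def feC6_20_1 (X Y al be : R) : R :=
  81436698000 * X ^ 2 * Y ^ 4 * al ^ 6 * be ^ 14 - 93070512000 * X ^ 2 * Y ^ 4 * al ^ 7 * be ^ 13
    + 56714843250 * X ^ 2 * Y ^ 4 * al ^ 8 * be ^ 12 - 16804398000 * X ^ 2 * Y ^ 4 * al ^ 9 * be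
    ^ 11 + 1848483780 * X ^ 2 * Y ^ 4 * al ^ 10 * be ^ 10 + 27733860 * X * Y ^ 5 * be ^ 20 -
    462231000 * X * Y ^ 5 * al * be ^ 19 + 2509254000 * X * Y ^ 5 * al ^ 2 * be ^ 18 -
    5645821500 * X * Y ^ 5 * al ^ 3 * be ^ 17 + 5332164750 * X * Y ^ 5 * al ^ 4 * be ^ 16 -
    1706292720 * X * Y ^ 5 * al ^ 5 * be ^ 15 - 30045015 * Y ^ 6 * be ^ 20

/-- Coefficient of `m^20 n^10` in the expansion. -/
def feC6_20 (X Y al be : R) : R :=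
  feC6_20_0 X Y al be + feC6_20_1 X Y al be

/-- Auxiliary partial sum. -/
def feC6_21_0 (X Y al be : R) : R :=
  -14307150 * X ^ 6 * al ^ 21 + 1066432950 * X ^ 5 * Y * al ^ 16 * be ^ 5 - 2822910750 * X ^ 5 * Y
    * al ^ 17 * be ^ 4 + 2509254000 * X ^ 5 * Y * al ^ 18 * be ^ 3 - 924462000 * X ^ 5 * Y * al
    ^ 19 * be ^ 2 + 138669300 * X ^ 5 * Y * al ^ 20 * be - 6603300 * X ^ 5 * Y * al ^ 21 +
    1680439800 * X ^ 4 * Y ^ 2 * al ^ 11 * be ^ 10 - 12603298500 * X ^ 4 * Y ^ 2 * al ^ 12 * be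
    ^ 9 + 34901442000 * X ^ 4 * Y ^ 2 * al ^ 13 * be ^ 8 - 46535256000 * X ^ 4 * Y ^ 2 * al ^ 14
    * be ^ 7 + 32574679200 * X ^ 4 * Y ^ 2 * al ^ 15 * be ^ 6 - 12215504700 * X ^ 4 * Y ^ 2 * al
    ^ 16 * be ^ 5 + 2395197000 * X ^ 4 * Y ^ 2 * al ^ 17 * be ^ 4 - 228114000 * X ^ 4 * Y ^ 2 *
    al ^ 18 * be ^ 3 + 9004500 * X ^ 4 * Y ^ 2 * al ^ 19 * be ^ 2 - 100050 * X ^ 4 * Y ^ 2 * al
    ^ 20 * be + 100050 * X ^ 2 * Y ^ 4 * al * be ^ 20 - 9004500 * X ^ 2 * Y ^ 4 * al ^ 2 * be ^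
    19 + 228114000 * X ^ 2 * Y ^ 4 * al ^ 3 * be ^ 18 - 2395197000 * X ^ 2 * Y ^ 4 * al ^ 4 * be
    ^ 17 + 12215504700 * X ^ 2 * Y ^ 4 * al ^ 5 * be ^ 16 - 32574679200 * X ^ 2 * Y ^ 4 * al ^ 6
    * be ^ 15 + 46535256000 * X ^ 2 * Y ^ 4 * al ^ 7 * be ^ 14

/-- Auxiliary partial sum. -/
def feC6_21_1 (X Y al be : R) : R :=
  -34901442000 * X ^ 2 * Y ^ 4 * al ^ 8 * be ^ 13 + 12603298500 * X ^ 2 * Y ^ 4 * al ^ 9 * be ^ 12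
    - 1680439800 * X ^ 2 * Y ^ 4 * al ^ 10 * be ^ 11 - 6603300 * X * Y ^ 5 * be ^ 21 + 138669300
    * X * Y ^ 5 * al * be ^ 20 - 924462000 * X * Y ^ 5 * al ^ 2 * be ^ 19 + 2509254000 * X * Y ^
    5 * al ^ 3 * be ^ 18 - 2822910750 * X * Y ^ 5 * al ^ 4 * be ^ 17 + 1066432950 * X * Y ^ 5 *
    al ^ 5 * be ^ 16 + 14307150 * Y ^ 6 * be ^ 21

/-- Coefficient of `m^21 n^9` in the expansion. -/
def feC6_21 (X Y al be : R) : R :=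
  feC6_21_0 X Y al be + feC6_21_1 X Y al be

/-- Auxiliary partial sum. -/
def feC6_22_0 (X Y al be : R) : R :=
  -5852925 * X ^ 6 * al ^ 22 + 564582150 * X ^ 5 * Y * al ^ 17 * be ^ 5 - 1254627000 * X ^ 5 * Y *
    al ^ 18 * be ^ 4 + 924462000 * X ^ 5 * Y * al ^ 19 * be ^ 3 - 277338600 * X ^ 5 * Y * al ^
    20 * be ^ 2 + 33016500 * X ^ 5 * Y * al ^ 21 * be - 1200600 * X ^ 5 * Y * al ^ 22 +
    1260329850 * X ^ 4 * Y ^ 2 * al ^ 12 * be ^ 10 - 7755876000 * X ^ 4 * Y ^ 2 * al ^ 13 * be ^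
    9 + 17450721000 * X ^ 4 * Y ^ 2 * al ^ 14 * be ^ 8 - 18614102400 * X ^ 4 * Y ^ 2 * al ^ 15 *
    be ^ 7 + 10179587250 * X ^ 4 * Y ^ 2 * al ^ 16 * be ^ 6 - 2874236400 * X ^ 4 * Y ^ 2 * al ^
    17 * be ^ 5 + 399199500 * X ^ 4 * Y ^ 2 * al ^ 18 * be ^ 4 - 24012000 * X ^ 4 * Y ^ 2 * al ^
    19 * be ^ 3 + 450225 * X ^ 4 * Y ^ 2 * al ^ 20 * be ^ 2 + 450225 * X ^ 2 * Y ^ 4 * al ^ 2 *
    be ^ 20 - 24012000 * X ^ 2 * Y ^ 4 * al ^ 3 * be ^ 19 + 399199500 * X ^ 2 * Y ^ 4 * al ^ 4 *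
    be ^ 18 - 2874236400 * X ^ 2 * Y ^ 4 * al ^ 5 * be ^ 17 + 10179587250 * X ^ 2 * Y ^ 4 * al ^
    6 * be ^ 16 - 18614102400 * X ^ 2 * Y ^ 4 * al ^ 7 * be ^ 15 + 17450721000 * X ^ 2 * Y ^ 4 *
    al ^ 8 * be ^ 14 - 7755876000 * X ^ 2 * Y ^ 4 * al ^ 9 * be ^ 13

/-- Auxiliary partial sum. -/
def feC6_22_1 (X Y al be : R) : R :=
  1260329850 * X ^ 2 * Y ^ 4 * al ^ 10 * be ^ 12 + 1200600 * X * Y ^ 5 * be ^ 22 - 33016500 * X *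
    Y ^ 5 * al * be ^ 21 + 277338600 * X * Y ^ 5 * al ^ 2 * be ^ 20 - 924462000 * X * Y ^ 5 * al
    ^ 3 * be ^ 19 + 1254627000 * X * Y ^ 5 * al ^ 4 * be ^ 18 - 564582150 * X * Y ^ 5 * al ^ 5 *
    be ^ 17 - 5852925 * Y ^ 6 * be ^ 22

/-- Coefficient of `m^22 n^8` in the expansion. -/
def feC6_22 (X Y al be : R) : R :=
  feC6_22_0 X Y al be + feC6_22_1 X Y al be

/-- Auxiliary partial sum. -/
def feC6_23_0 (X Y al be : R) : R :=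
  -2035800 * X ^ 6 * al ^ 23 + 250925400 * X ^ 5 * Y * al ^ 18 * be ^ 5 - 462231000 * X ^ 5 * Y *
    al ^ 19 * be ^ 4 + 277338600 * X ^ 5 * Y * al ^ 20 * be ^ 3 - 66033000 * X ^ 5 * Y * al ^ 21
    * be ^ 2 + 6003000 * X ^ 5 * Y * al ^ 22 * be - 156600 * X ^ 5 * Y * al ^ 23 + 775587600 * X
    ^ 4 * Y ^ 2 * al ^ 13 * be ^ 10 - 3877938000 * X ^ 4 * Y ^ 2 * al ^ 14 * be ^ 9 + 6980288400
    * X ^ 4 * Y ^ 2 * al ^ 15 * be ^ 8 - 5816907000 * X ^ 4 * Y ^ 2 * al ^ 16 * be ^ 7 +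
    2395197000 * X ^ 4 * Y ^ 2 * al ^ 17 * be ^ 6 - 479039400 * X ^ 4 * Y ^ 2 * al ^ 18 * be ^ 5
    + 42021000 * X ^ 4 * Y ^ 2 * al ^ 19 * be ^ 4 - 1200600 * X ^ 4 * Y ^ 2 * al ^ 20 * be ^ 3 +
    1200600 * X ^ 2 * Y ^ 4 * al ^ 3 * be ^ 20 - 42021000 * X ^ 2 * Y ^ 4 * al ^ 4 * be ^ 19 +
    479039400 * X ^ 2 * Y ^ 4 * al ^ 5 * be ^ 18 - 2395197000 * X ^ 2 * Y ^ 4 * al ^ 6 * be ^ 17
    + 5816907000 * X ^ 2 * Y ^ 4 * al ^ 7 * be ^ 16 - 6980288400 * X ^ 2 * Y ^ 4 * al ^ 8 * be ^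
    15 + 3877938000 * X ^ 2 * Y ^ 4 * al ^ 9 * be ^ 14 - 775587600 * X ^ 2 * Y ^ 4 * al ^ 10 *
    be ^ 13 - 156600 * X * Y ^ 5 * be ^ 23

/-- Auxiliary partial sum. -/
def feC6_23_1 (X Y al be : R) : R :=
  6003000 * X * Y ^ 5 * al * be ^ 22 - 66033000 * X * Y ^ 5 * al ^ 2 * be ^ 21 + 277338600 * X * Y
    ^ 5 * al ^ 3 * be ^ 20 - 462231000 * X * Y ^ 5 * al ^ 4 * be ^ 19 + 250925400 * X * Y ^ 5 *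
    al ^ 5 * be ^ 18 + 2035800 * Y ^ 6 * be ^ 23

/-- Coefficient of `m^23 n^7` in the expansion. -/
def feC6_23 (X Y al be : R) : R :=
  feC6_23_0 X Y al be + feC6_23_1 X Y al be

/-- Auxiliary partial sum. -/
def feC6_24_0 (X Y al be : R) : R :=
  -593775 * X ^ 6 * al ^ 24 + 92446200 * X ^ 5 * Y * al ^ 19 * be ^ 5 - 138669300 * X ^ 5 * Y * al
    ^ 20 * be ^ 4 + 66033000 * X ^ 5 * Y * al ^ 21 * be ^ 3 - 12006000 * X ^ 5 * Y * al ^ 22 *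
    be ^ 2 + 783000 * X ^ 5 * Y * al ^ 23 * be - 13050 * X ^ 5 * Y * al ^ 24 + 387793800 * X ^ 4
    * Y ^ 2 * al ^ 14 * be ^ 10 - 1551175200 * X ^ 4 * Y ^ 2 * al ^ 15 * be ^ 9 + 2181340125 * X
    ^ 4 * Y ^ 2 * al ^ 16 * be ^ 8 - 1368684000 * X ^ 4 * Y ^ 2 * al ^ 17 * be ^ 7 + 399199500 *
    X ^ 4 * Y ^ 2 * al ^ 18 * be ^ 6 - 50425200 * X ^ 4 * Y ^ 2 * al ^ 19 * be ^ 5 + 2101050 * X
    ^ 4 * Y ^ 2 * al ^ 20 * be ^ 4 + 2101050 * X ^ 2 * Y ^ 4 * al ^ 4 * be ^ 20 - 50425200 * X ^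
    2 * Y ^ 4 * al ^ 5 * be ^ 19 + 399199500 * X ^ 2 * Y ^ 4 * al ^ 6 * be ^ 18 - 1368684000 * X
    ^ 2 * Y ^ 4 * al ^ 7 * be ^ 17 + 2181340125 * X ^ 2 * Y ^ 4 * al ^ 8 * be ^ 16 - 1551175200
    * X ^ 2 * Y ^ 4 * al ^ 9 * be ^ 15 + 387793800 * X ^ 2 * Y ^ 4 * al ^ 10 * be ^ 14 + 13050 *
    X * Y ^ 5 * be ^ 24 - 783000 * X * Y ^ 5 * al * be ^ 23 + 12006000 * X * Y ^ 5 * al ^ 2 * be
    ^ 22

/-- Auxiliary partial sum. -/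
def feC6_24_1 (X Y al be : R) : R :=
  -66033000 * X * Y ^ 5 * al ^ 3 * be ^ 21 + 138669300 * X * Y ^ 5 * al ^ 4 * be ^ 20 - 92446200 *
    X * Y ^ 5 * al ^ 5 * be ^ 19 - 593775 * Y ^ 6 * be ^ 24

/-- Coefficient of `m^24 n^6` in the expansion. -/
def feC6_24 (X Y al be : R) : R :=
  feC6_24_0 X Y al be + feC6_24_1 X Y al be

/-- Auxiliary partial sum. -/
def feC6_25_0 (X Y al be : R) : R :=
  -142506 * X ^ 6 * al ^ 25 + 27733860 * X ^ 5 * Y * al ^ 20 * be ^ 5 - 33016500 * X ^ 5 * Y * al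
    ^ 21 * be ^ 4 + 12006000 * X ^ 5 * Y * al ^ 22 * be ^ 3 - 1566000 * X ^ 5 * Y * al ^ 23 * be
    ^ 2 + 65250 * X ^ 5 * Y * al ^ 24 * be - 522 * X ^ 5 * Y * al ^ 25 + 155117520 * X ^ 4 * Y ^
    2 * al ^ 15 * be ^ 10 - 484742250 * X ^ 4 * Y ^ 2 * al ^ 16 * be ^ 9 + 513256500 * X ^ 4 * Y
    ^ 2 * al ^ 17 * be ^ 8 - 228114000 * X ^ 4 * Y ^ 2 * al ^ 18 * be ^ 7 + 42021000 * X ^ 4 * Y
    ^ 2 * al ^ 19 * be ^ 6 - 2521260 * X ^ 4 * Y ^ 2 * al ^ 20 * be ^ 5 + 2521260 * X ^ 2 * Y ^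
    4 * al ^ 5 * be ^ 20 - 42021000 * X ^ 2 * Y ^ 4 * al ^ 6 * be ^ 19 + 228114000 * X ^ 2 * Y ^
    4 * al ^ 7 * be ^ 18 - 513256500 * X ^ 2 * Y ^ 4 * al ^ 8 * be ^ 17 + 484742250 * X ^ 2 * Y
    ^ 4 * al ^ 9 * be ^ 16 - 155117520 * X ^ 2 * Y ^ 4 * al ^ 10 * be ^ 15 - 522 * X * Y ^ 5 *
    be ^ 25 + 65250 * X * Y ^ 5 * al * be ^ 24 - 1566000 * X * Y ^ 5 * al ^ 2 * be ^ 23 +
    12006000 * X * Y ^ 5 * al ^ 3 * be ^ 22 - 33016500 * X * Y ^ 5 * al ^ 4 * be ^ 21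

/-- Auxiliary partial sum. -/
def feC6_25_1 (X Y al be : R) : R :=
  27733860 * X * Y ^ 5 * al ^ 5 * be ^ 20 + 142506 * Y ^ 6 * be ^ 25

/-- Coefficient of `m^25 n^5` in the expansion. -/
def feC6_25 (X Y al be : R) : R :=
  feC6_25_0 X Y al be + feC6_25_1 X Y al be

/-- Auxiliary partial sum. -/
def feC6_26_0 (X Y al be : R) : R :=
  -27405 * X ^ 6 * al ^ 26 + 6603300 * X ^ 5 * Y * al ^ 21 * be ^ 5 - 6003000 * X ^ 5 * Y * al ^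
    22 * be ^ 4 + 1566000 * X ^ 5 * Y * al ^ 23 * be ^ 3 - 130500 * X ^ 5 * Y * al ^ 24 * be ^ 2
    + 2610 * X ^ 5 * Y * al ^ 25 * be + 48474225 * X ^ 4 * Y ^ 2 * al ^ 16 * be ^ 10 - 114057000
    * X ^ 4 * Y ^ 2 * al ^ 17 * be ^ 9 + 85542750 * X ^ 4 * Y ^ 2 * al ^ 18 * be ^ 8 - 24012000
    * X ^ 4 * Y ^ 2 * al ^ 19 * be ^ 7 + 2101050 * X ^ 4 * Y ^ 2 * al ^ 20 * be ^ 6 + 2101050 *
    X ^ 2 * Y ^ 4 * al ^ 6 * be ^ 20 - 24012000 * X ^ 2 * Y ^ 4 * al ^ 7 * be ^ 19 + 85542750 *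
    X ^ 2 * Y ^ 4 * al ^ 8 * be ^ 18 - 114057000 * X ^ 2 * Y ^ 4 * al ^ 9 * be ^ 17 + 48474225 *
    X ^ 2 * Y ^ 4 * al ^ 10 * be ^ 16 - 2610 * X * Y ^ 5 * al * be ^ 25 + 130500 * X * Y ^ 5 *
    al ^ 2 * be ^ 24 - 1566000 * X * Y ^ 5 * al ^ 3 * be ^ 23 + 6003000 * X * Y ^ 5 * al ^ 4 *
    be ^ 22 - 6603300 * X * Y ^ 5 * al ^ 5 * be ^ 21 - 27405 * Y ^ 6 * be ^ 26

/-- Coefficient of `m^26 n^4` in the expansion. -/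
def feC6_26 (X Y al be : R) : R :=
  feC6_26_0 X Y al be

/-- Auxiliary partial sum. -/
def feC6_27_0 (X Y al be : R) : R :=
  -4060 * X ^ 6 * al ^ 27 + 1200600 * X ^ 5 * Y * al ^ 22 * be ^ 5 - 783000 * X ^ 5 * Y * al ^ 23
    * be ^ 4 + 130500 * X ^ 5 * Y * al ^ 24 * be ^ 3 - 5220 * X ^ 5 * Y * al ^ 25 * be ^ 2 +
    11405700 * X ^ 4 * Y ^ 2 * al ^ 17 * be ^ 10 - 19009500 * X ^ 4 * Y ^ 2 * al ^ 18 * be ^ 9 +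
    9004500 * X ^ 4 * Y ^ 2 * al ^ 19 * be ^ 8 - 1200600 * X ^ 4 * Y ^ 2 * al ^ 20 * be ^ 7 +
    1200600 * X ^ 2 * Y ^ 4 * al ^ 7 * be ^ 20 - 9004500 * X ^ 2 * Y ^ 4 * al ^ 8 * be ^ 19 +
    19009500 * X ^ 2 * Y ^ 4 * al ^ 9 * be ^ 18 - 11405700 * X ^ 2 * Y ^ 4 * al ^ 10 * be ^ 17 -
    5220 * X * Y ^ 5 * al ^ 2 * be ^ 25 + 130500 * X * Y ^ 5 * al ^ 3 * be ^ 24 - 783000 * X * Y
    ^ 5 * al ^ 4 * be ^ 23 + 1200600 * X * Y ^ 5 * al ^ 5 * be ^ 22 + 4060 * Y ^ 6 * be ^ 27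

/-- Coefficient of `m^27 n^3` in the expansion. -/
def feC6_27 (X Y al be : R) : R :=
  feC6_27_0 X Y al be

/-- Auxiliary partial sum. -/
def feC6_28_0 (X Y al be : R) : R :=
  -435 * X ^ 6 * al ^ 28 + 156600 * X ^ 5 * Y * al ^ 23 * be ^ 5 - 65250 * X ^ 5 * Y * al ^ 24 *
    be ^ 4 + 5220 * X ^ 5 * Y * al ^ 25 * be ^ 3 + 1900950 * X ^ 4 * Y ^ 2 * al ^ 18 * be ^ 10 -
    2001000 * X ^ 4 * Y ^ 2 * al ^ 19 * be ^ 9 + 450225 * X ^ 4 * Y ^ 2 * al ^ 20 * be ^ 8 +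
    450225 * X ^ 2 * Y ^ 4 * al ^ 8 * be ^ 20 - 2001000 * X ^ 2 * Y ^ 4 * al ^ 9 * be ^ 19 +
    1900950 * X ^ 2 * Y ^ 4 * al ^ 10 * be ^ 18 - 5220 * X * Y ^ 5 * al ^ 3 * be ^ 25 + 65250 *
    X * Y ^ 5 * al ^ 4 * be ^ 24 - 156600 * X * Y ^ 5 * al ^ 5 * be ^ 23 - 435 * Y ^ 6 * be ^ 28

/-- Coefficient of `m^28 n^2` in the expansion. -/
def feC6_28 (X Y al be : R) : R :=
  feC6_28_0 X Y al be

/-- Auxiliary partial sum. -/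
def feC6_29_0 (X Y al be : R) : R :=
  -30 * X ^ 6 * al ^ 29 + 13050 * X ^ 5 * Y * al ^ 24 * be ^ 5 - 2610 * X ^ 5 * Y * al ^ 25 * be ^
    4 + 200100 * X ^ 4 * Y ^ 2 * al ^ 19 * be ^ 10 - 100050 * X ^ 4 * Y ^ 2 * al ^ 20 * be ^ 9 +
    100050 * X ^ 2 * Y ^ 4 * al ^ 9 * be ^ 20 - 200100 * X ^ 2 * Y ^ 4 * al ^ 10 * be ^ 19 -
    2610 * X * Y ^ 5 * al ^ 4 * be ^ 25 + 13050 * X * Y ^ 5 * al ^ 5 * be ^ 24 + 30 * Y ^ 6 * be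
    ^ 29

/-- Coefficient of `m^29 n^1` in the expansion. -/
def feC6_29 (X Y al be : R) : R :=
  feC6_29_0 X Y al be

/-- Auxiliary partial sum. -/
def feC6_30_0 (X Y al be : R) : R :=
  -X ^ 6 * al ^ 30 + 522 * X ^ 5 * Y * al ^ 25 * be ^ 5 + 10005 * X ^ 4 * Y ^ 2 * al ^ 20 * be ^
    10 + 10005 * X ^ 2 * Y ^ 4 * al ^ 10 * be ^ 20 - 522 * X * Y ^ 5 * al ^ 5 * be ^ 25 - Y ^ 6
    * be ^ 30

/-- Coefficient of `m^30 n^0` in the expansion. -/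
def feC6_30 (X Y al be : R) : R :=
  feC6_30_0 X Y al be

/-- Auxiliary partial sum. -/
def fxC6_0 (X Y al be m n : R) : R :=
  feC6_0 X Y al be * (n ^ 30)
    + feC6_1 X Y al be * (m * n ^ 29)
    + feC6_2 X Y al be * (m ^ 2 * n ^ 28)
    + feC6_3 X Y al be * (m ^ 3 * n ^ 27)

/-- Auxiliary partial sum. -/
def fxC6_1 (X Y al be m n : R) : R :=
  feC6_4 X Y al be * (m ^ 4 * n ^ 26)
    + feC6_5 X Y al be * (m ^ 5 * n ^ 25)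
    + feC6_6 X Y al be * (m ^ 6 * n ^ 24)
    + feC6_7 X Y al be * (m ^ 7 * n ^ 23)

/-- Auxiliary partial sum. -/
def fxC6_2 (X Y al be m n : R) : R :=
  feC6_8 X Y al be * (m ^ 8 * n ^ 22)
    + feC6_9 X Y al be * (m ^ 9 * n ^ 21)
    + feC6_10 X Y al be * (m ^ 10 * n ^ 20)
    + feC6_11 X Y al be * (m ^ 11 * n ^ 19)

/-- Auxiliary partial sum. -/
def fxC6_3 (X Y al be m n : R) : R :=
  feC6_12 X Y al be * (m ^ 12 * n ^ 18)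
    + feC6_13 X Y al be * (m ^ 13 * n ^ 17)
    + feC6_14 X Y al be * (m ^ 14 * n ^ 16)
    + feC6_15 X Y al be * (m ^ 15 * n ^ 15)

/-- Auxiliary partial sum. -/
def fxC6_4 (X Y al be m n : R) : R :=
  feC6_16 X Y al be * (m ^ 16 * n ^ 14)
    + feC6_17 X Y al be * (m ^ 17 * n ^ 13)
    + feC6_18 X Y al be * (m ^ 18 * n ^ 12)
    + feC6_19 X Y al be * (m ^ 19 * n ^ 11)

/-- Auxiliary partial sum. -/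
def fxC6_5 (X Y al be m n : R) : R :=
  feC6_20 X Y al be * (m ^ 20 * n ^ 10)
    + feC6_21 X Y al be * (m ^ 21 * n ^ 9)
    + feC6_22 X Y al be * (m ^ 22 * n ^ 8)
    + feC6_23 X Y al be * (m ^ 23 * n ^ 7)

/-- Auxiliary partial sum. -/
def fxC6_6 (X Y al be m n : R) : R :=
  feC6_24 X Y al be * (m ^ 24 * n ^ 6)
    + feC6_25 X Y al be * (m ^ 25 * n ^ 5)
    + feC6_26 X Y al be * (m ^ 26 * n ^ 4)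
    + feC6_27 X Y al be * (m ^ 27 * n ^ 3)

/-- Auxiliary partial sum. -/
def fxC6_7 (X Y al be m n : R) : R :=
  feC6_28 X Y al be * (m ^ 28 * n ^ 2)
    + feC6_29 X Y al be * (m ^ 29 * n)
    + feC6_30 X Y al be * (m ^ 30)

end FamilyId

end Fermat.Agent.S52
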