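import Fermat.Agent.S52.FamC6Defs

set_option autoImplicit false

namespace Fermat.Agent.S52

section FamilyId

variable {R : Type*} [CommRing R]

set_option maxHeartbeats 0 in
set_option maxRecDepth 100000 in
theorem fexpC6 (X Y al be m n : R) :
    -X ^ 6 * (n + m * al) ^ 30 - 522 * X ^ 5 * Y * (n + m * al) ^ 25 * (n - m * be) ^ 5 + 10005 * X
      ^ 4 * Y ^ 2 * (n + m * al) ^ 20 * (n - m * be) ^ 10 + 10005 * X ^ 2 * Y ^ 4 * (n + m * al)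
      ^ 10 * (n - m * be) ^ 20 + 522 * X * Y ^ 5 * (n + m * al) ^ 5 * (n - m * be) ^ 25 - Y ^ 6
      * (n - m * be) ^ 30 =
      fxC6_0 X Y al be m n + fxC6_1 X Y al be m n + fxC6_2 X Y al be m n + fxC6_3 X Y al be m n + fxC6_4 X Y al be m n + fxC6_5 X Y al be m n + fxC6_6 X Y al be m n + fxC6_7 X Y al be m n := by
  simp only [fxC6_0, fxC6_1, fxC6_2, fxC6_3, fxC6_4, fxC6_5, fxC6_6, fxC6_7, feC6_0, feC6_1, feC6_2, feC6_3,
    feC6_4, feC6_5, feC6_6, feC6_7, feC6_8, feC6_9, feC6_10, feC6_11, feC6_12, feC6_13, feC6_14,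
    feC6_15, feC6_16, feC6_17, feC6_18, feC6_19, feC6_20, feC6_21, feC6_22, feC6_23, feC6_24,
    feC6_25, feC6_26, feC6_27, feC6_28, feC6_29, feC6_30, feC6_0_0, feC6_1_0, feC6_2_0,
    feC6_3_0, feC6_4_0, feC6_5_0, feC6_5_1, feC6_6_0, feC6_6_1, feC6_7_0, feC6_7_1, feC6_8_0,
    feC6_8_1, feC6_9_0, feC6_9_1, feC6_10_0, feC6_10_1, feC6_11_0, feC6_11_1, feC6_12_0,
    feC6_12_1, feC6_13_0, feC6_13_1, feC6_14_0, feC6_14_1, feC6_15_0, feC6_15_1, feC6_16_0,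
    feC6_16_1, feC6_17_0, feC6_17_1, feC6_18_0, feC6_18_1, feC6_19_0, feC6_19_1, feC6_20_0,
    feC6_20_1, feC6_21_0, feC6_21_1, feC6_22_0, feC6_22_1, feC6_23_0, feC6_23_1, feC6_24_0,
    feC6_24_1, feC6_25_0, feC6_25_1, feC6_26_0, feC6_27_0, feC6_28_0, feC6_29_0, feC6_30_0]
  ring

end FamilyId

end Fermat.Agent.S52
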