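import Fermat.Agent.S52.FamLemmas

set_option autoImplicit false

open Polynomial

namespace Fermat.Agent.S52

section FamilyPoly

variable {K : Type*} [CommRing K]

set_option maxHeartbeats 0 in
set_option maxRecDepth 100000 in
/-- explicit expansion of the family polynomial in the variable `n = X` (with `m = M` constant) -/
theorem famG_X_eq (c4 c6 M : K) :
    famG (C c4) (C c6) (C M) (X : K[X]) =
      C (famG_0 c4 c6) * X ^ 12 + C (famG_2 c4 c6 * M ^ 2) * X ^ 10 + C (famG_3 c4 c6 * M ^ 3) * X ^ 9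
        + C (famG_4 c4 c6 * M ^ 4) * X ^ 8 + C (famG_5 c4 c6 * M ^ 5) * X ^ 7 + C (famG_6 c4 c6
        * M ^ 6) * X ^ 6 + C (famG_7 c4 c6 * M ^ 7) * X ^ 5 + C (famG_8 c4 c6 * M ^ 8) * X ^ 4 +
        C (famG_9 c4 c6 * M ^ 9) * X ^ 3 + C (famG_10 c4 c6 * M ^ 10) * X ^ 2 + C (famG_11 c4 c6
        * M ^ 11) * X + C (famG_12 c4 c6 * M ^ 12) := by
  simp only [famG, famG_blk0, famG_blk1, famG_blk2, famG_0, famG_2, famG_3, famG_4, famG_5, famG_6, famG_7,
    famG_8, famG_9, famG_10, famG_11, famG_12,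
    map_add, map_sub, map_mul, map_neg, map_pow, map_ofNat, map_one]
  ring

set_option maxHeartbeats 0 in
set_option maxRecDepth 100000 in
theorem famG_X_natDegree_le (c4 c6 M : K) :
    (famG (C c4) (C c6) (C M) (X : K[X])).natDegree ≤ 12 := by
  rw [famG_X_eq]
  compute_degree

set_option maxHeartbeats 0 in
set_option maxRecDepth 100000 in
theorem famG_X_coeff (c4 c6 M : K) :
    (famG (C c4) (C c6) (C M) (X : K[X])).coeff 12 = 1 := by
  rw [famG_X_eq]
  simp only [coeff_add, coeff_C_mul, coeff_X_pow, coeff_X, coeff_C, famG_0]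
  norm_num

theorem famG_X_eval (c4 c6 M k : K) :
    (famG (C c4) (C c6) (C M) (X : K[X])).eval k = famG c4 c6 M k := by
  have := map_famG (evalRingHom k) (C c4) (C c6) (C M) (X : K[X])
  simpa using this

theorem famG_X_map {L : Type*} [CommRing L] (φ : K →+* L) (c4 c6 M : K) :
    (famG (C c4) (C c6) (C M) (X : K[X])).map φ = famG (C (φ c4)) (C (φ c6)) (C (φ M)) (X : L[X]) := by
  have := map_famG (mapRingHom φ) (C c4) (C c6) (C M) (X : K[X])
  simpa using this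

set_option maxHeartbeats 0 in
set_option maxRecDepth 100000 in
/-- explicit expansion of the family polynomial in the variable `n = X` (with `m = M` constant) -/
theorem famC4_X_eq (c4 c6 M : K) :
    famC4 (C c4) (C c6) (C M) (X : K[X]) =
      C (famC4_0 c4 c6) * X ^ 20 + C (famC4_1 c4 c6 * M) * X ^ 19 + C (famC4_2 c4 c6 * M ^ 2) * X ^ 18
        + C (famC4_3 c4 c6 * M ^ 3) * X ^ 17 + C (famC4_4 c4 c6 * M ^ 4) * X ^ 16 + C (famC4_5
        c4 c6 * M ^ 5) * X ^ 15 + C (famC4_6 c4 c6 * M ^ 6) * X ^ 14 + C (famC4_7 c4 c6 * M ^ 7)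
        * X ^ 13 + C (famC4_8 c4 c6 * M ^ 8) * X ^ 12 + C (famC4_9 c4 c6 * M ^ 9) * X ^ 11 + C
        (famC4_10 c4 c6 * M ^ 10) * X ^ 10 + C (famC4_11 c4 c6 * M ^ 11) * X ^ 9 + C (famC4_12
        c4 c6 * M ^ 12) * X ^ 8 + C (famC4_13 c4 c6 * M ^ 13) * X ^ 7 + C (famC4_14 c4 c6 * M ^
        14) * X ^ 6 + C (famC4_15 c4 c6 * M ^ 15) * X ^ 5 + C (famC4_16 c4 c6 * M ^ 16) * X ^ 4
        + C (famC4_17 c4 c6 * M ^ 17) * X ^ 3 + C (famC4_18 c4 c6 * M ^ 18) * X ^ 2 + C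
        (famC4_19 c4 c6 * M ^ 19) * X + C (famC4_20 c4 c6 * M ^ 20) := by
  simp only [famC4, famC4_blk0, famC4_blk1, famC4_blk2, famC4_blk3, famC4_blk4, famC4_blk5, famC4_0, famC4_1,
    famC4_2, famC4_3, famC4_4, famC4_5, famC4_6, famC4_7, famC4_8, famC4_9, famC4_10, famC4_11,
    famC4_12, famC4_13, famC4_14, famC4_15, famC4_16, famC4_17, famC4_18, famC4_19, famC4_20,
    map_add, map_sub, map_mul, map_neg, map_pow, map_ofNat, map_one]
  ring

set_option maxHeartbeats 0 in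
set_option maxRecDepth 100000 in
theorem famC4_X_natDegree_le (c4 c6 M : K) :
    (famC4 (C c4) (C c6) (C M) (X : K[X])).natDegree ≤ 20 := by
  rw [famC4_X_eq]
  compute_degree

set_option maxHeartbeats 0 in
set_option maxRecDepth 100000 in
theorem famC4_X_coeff (c4 c6 M : K) :
    (famC4 (C c4) (C c6) (C M) (X : K[X])).coeff 20 = c4 := by
  rw [famC4_X_eq]
  simp only [coeff_add, coeff_C_mul, coeff_X_pow, coeff_X, coeff_C, famC4_0]
  norm_num

theorem famC4_X_eval (c4 c6 M k : K) :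
    (famC4 (C c4) (C c6) (C M) (X : K[X])).eval k = famC4 c4 c6 M k := by
  have := map_famC4 (evalRingHom k) (C c4) (C c6) (C M) (X : K[X])
  simpa using this

theorem famC4_X_map {L : Type*} [CommRing L] (φ : K →+* L) (c4 c6 M : K) :
    (famC4 (C c4) (C c6) (C M) (X : K[X])).map φ = famC4 (C (φ c4)) (C (φ c6)) (C (φ M)) (X : L[X]) := by
  have := map_famC4 (mapRingHom φ) (C c4) (C c6) (C M) (X : K[X])
  simpa using this

set_option maxHeartbeats 0 in
set_option maxRecDepth 100000 in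
/-- explicit expansion of the family polynomial in the variable `n = X` (with `m = M` constant) -/
theorem famC6_X_eq (c4 c6 M : K) :
    famC6 (C c4) (C c6) (C M) (X : K[X]) =
      C (famC6_0 c4 c6) * X ^ 30 + C (famC6_1 c4 c6 * M) * X ^ 29 + C (famC6_2 c4 c6 * M ^ 2) * X ^ 28
        + C (famC6_3 c4 c6 * M ^ 3) * X ^ 27 + C (famC6_4 c4 c6 * M ^ 4) * X ^ 26 + C (famC6_5
        c4 c6 * M ^ 5) * X ^ 25 + C (famC6_6 c4 c6 * M ^ 6) * X ^ 24 + C (famC6_7 c4 c6 * M ^ 7)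
        * X ^ 23 + C (famC6_8 c4 c6 * M ^ 8) * X ^ 22 + C (famC6_9 c4 c6 * M ^ 9) * X ^ 21 + C
        (famC6_10 c4 c6 * M ^ 10) * X ^ 20 + C (famC6_11 c4 c6 * M ^ 11) * X ^ 19 + C (famC6_12
        c4 c6 * M ^ 12) * X ^ 18 + C (famC6_13 c4 c6 * M ^ 13) * X ^ 17 + C (famC6_14 c4 c6 * M
        ^ 14) * X ^ 16 + C (famC6_15 c4 c6 * M ^ 15) * X ^ 15 + C (famC6_16 c4 c6 * M ^ 16) * X
        ^ 14 + C (famC6_17 c4 c6 * M ^ 17) * X ^ 13 + C (famC6_18 c4 c6 * M ^ 18) * X ^ 12 + C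
        (famC6_19 c4 c6 * M ^ 19) * X ^ 11 + C (famC6_20 c4 c6 * M ^ 20) * X ^ 10 + C (famC6_21
        c4 c6 * M ^ 21) * X ^ 9 + C (famC6_22 c4 c6 * M ^ 22) * X ^ 8 + C (famC6_23 c4 c6 * M ^
        23) * X ^ 7 + C (famC6_24 c4 c6 * M ^ 24) * X ^ 6 + C (famC6_25 c4 c6 * M ^ 25) * X ^ 5
        + C (famC6_26 c4 c6 * M ^ 26) * X ^ 4 + C (famC6_27 c4 c6 * M ^ 27) * X ^ 3 + C
        (famC6_28 c4 c6 * M ^ 28) * X ^ 2 + C (famC6_29 c4 c6 * M ^ 29) * X + C (famC6_30 c4 c6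
        * M ^ 30) := by
  simp only [famC6, famC6_blk0, famC6_blk1, famC6_blk2, famC6_blk3, famC6_blk4, famC6_blk5, famC6_blk6,
    famC6_blk7, famC6_0, famC6_1, famC6_2, famC6_3, famC6_4, famC6_5, famC6_6, famC6_7, famC6_8,
    famC6_9, famC6_10, famC6_11, famC6_12, famC6_13, famC6_14, famC6_15, famC6_16, famC6_17,
    famC6_18, famC6_19, famC6_20, famC6_21, famC6_22, famC6_23, famC6_24, famC6_25, famC6_26,
    famC6_27, famC6_28, famC6_29, famC6_30,
    map_add, map_sub, map_mul, map_neg, map_pow, map_ofNat, map_one]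
  ring

set_option maxHeartbeats 0 in
set_option maxRecDepth 100000 in
theorem famC6_X_natDegree_le (c4 c6 M : K) :
    (famC6 (C c4) (C c6) (C M) (X : K[X])).natDegree ≤ 30 := by
  rw [famC6_X_eq]
  compute_degree

set_option maxHeartbeats 0 in
set_option maxRecDepth 100000 in
theorem famC6_X_coeff (c4 c6 M : K) :
    (famC6 (C c4) (C c6) (C M) (X : K[X])).coeff 30 = c6 := by
  rw [famC6_X_eq]
  simp only [coeff_add, coeff_C_mul, coeff_X_pow, coeff_X, coeff_C, famC6_0]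
  norm_num

theorem famC6_X_eval (c4 c6 M k : K) :
    (famC6 (C c4) (C c6) (C M) (X : K[X])).eval k = famC6 c4 c6 M k := by
  have := map_famC6 (evalRingHom k) (C c4) (C c6) (C M) (X : K[X])
  simpa using this

theorem famC6_X_map {L : Type*} [CommRing L] (φ : K →+* L) (c4 c6 M : K) :
    (famC6 (C c4) (C c6) (C M) (X : K[X])).map φ = famC6 (C (φ c4)) (C (φ c6)) (C (φ M)) (X : L[X]) := by
  have := map_famC6 (mapRingHom φ) (C c4) (C c6) (C M) (X : K[X])
  simpa using this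

theorem famG_X_monic (c4 c6 M : K) : (famG (C c4) (C c6) (C M) (X : K[X])).Monic :=
  monic_of_natDegree_le_of_coeff_eq_one 12 (famG_X_natDegree_le c4 c6 M) (famG_X_coeff c4 c6 M)

theorem famG_X_natDegree [Nontrivial K] (c4 c6 M : K) :
    (famG (C c4) (C c6) (C M) (X : K[X])).natDegree = 12 :=
  natDegree_eq_of_le_of_coeff_ne_zero (famG_X_natDegree_le c4 c6 M)
    (by rw [famG_X_coeff]; exact one_ne_zero)

end FamilyPoly

end Fermat.Agent.S52
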