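import Fermat.Agent.S52.FamG
import Fermat.Agent.S52.FamC4
import Fermat.Agent.S52.FamC6
import Fermat.Agent.S52.FamDisc
import Fermat.Agent.S52.FamLemmas
import Fermat.Agent.S52.FamPoly

/-!
# S52: the Rubin-Silverberg family attached to Klein's icosahedral forms (umbrella file)

`fam_f`, `fam_H`, `fam_T`, `fam_disc`, `klein_rel`, `klein_euler`, `fam*_zero_one`, `fam*_smul`,
`map_fam*`, `fam_congr`, and the one-variable polynomial lemmas `fam*_X_*`.
-/
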