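import Mathlib
import Fermat.Agent.S52.KleinDefs

/-!
# S52 (IV), route AUX, row AUX-1'-a: the linear factorisation of Klein's `T` and `Res(T, f) = 5^75`

`klein_kT_factor`: over an algebraically closed field of characteristic zero, `kT a b` is the
product of `a - z b` over the 30 roots `z` of `kT(X, 1)`, and the product of `kf z 1` over these
roots is `5 ^ 75` (the resultant of `kT(X,1)` and `kf(X,1)`, computed by two Euclid steps).
-/

set_option autoImplicit false

namespace Fermat.Agent.S52

open Polynomial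

section int

/-- `kT(X, 1)`. -/
noncomputable def h84_tau : ℤ[X] :=
  X ^ 30 + 522 * X ^ 25 - 10005 * X ^ 20 - 10005 * X ^ 10 - 522 * X ^ 5 + 1

/-- `kf(X, 1) / X`. -/
noncomputable def h84_q5 : ℤ[X] := X ^ 10 + 11 * X ^ 5 - 1

/-- The quotient of `kT(X,1)` by `h84_q5`. -/
noncomputable def h84_Q5 : ℤ[X] :=
  X ^ 20 + 511 * X ^ 15 - 15625 * X ^ 10 + 172386 * X ^ 5 - 1921876

/-- The remainder of `kT(X,1)` modulo `h84_q5`. -/
noncomputable def h84_R5 : ℤ[X] := C 21312500 * X ^ 5 + C (-1921875)

/-- The second Euclid cofactor. -/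
noncomputable def h84_P5 : ℤ[X] := C 21312500 * X ^ 5 + C 236359375

theorem h84_tau_eq : h84_tau = h84_R5 + h84_q5 * h84_Q5 := by
  simp only [h84_tau, h84_R5, h84_q5, h84_Q5, map_neg, C_ofNat]
  ring

theorem h84_q5_eq :
    C (21312500 ^ 2 : ℤ) * h84_q5 = C (5 ^ 15 : ℤ) + h84_R5 * h84_P5 := by
  simp only [h84_R5, h84_q5, h84_P5, map_neg, C_ofNat, map_pow]
  ring

theorem h84_natDegree_tau : h84_tau.natDegree = 30 := by
  unfold h84_tau
  compute_degree!

theorem h84_monic_tau : h84_tau.Monic := by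
  unfold h84_tau
  monicity!

theorem h84_natDegree_q5 : h84_q5.natDegree = 10 := by
  unfold h84_q5
  compute_degree!

theorem h84_monic_q5 : h84_q5.Monic := by
  unfold h84_q5
  monicity!

theorem h84_natDegree_Q5 : h84_Q5.natDegree = 20 := by
  unfold h84_Q5
  compute_degree!

theorem h84_natDegree_R5 : h84_R5.natDegree = 5 := by
  unfold h84_R5
  compute_degree!

theorem h84_coeff_R5 : h84_R5.coeff 5 = 21312500 := by
  unfold h84_R5
  simp

theorem h84_natDegree_P5 : h84_P5.natDegree = 5 := by
  unfold h84_P5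
  compute_degree!

/-- The second Euclid step: `Res(R5, q5) = 5 ^ 75`. -/
theorem h84_resultant_R5_q5 : resultant h84_R5 h84_q5 5 10 = 5 ^ 75 := by
  have h1 : resultant h84_R5 (C (21312500 ^ 2 : ℤ) * h84_q5) 5 10 =
      (21312500 ^ 2 : ℤ) ^ 5 * resultant h84_R5 h84_q5 5 10 :=
    resultant_C_mul_right _ _ _ _ _
  have h2 : resultant h84_R5 (C (5 ^ 15 : ℤ) + h84_R5 * h84_P5) 5 10 =
      resultant h84_R5 (C (5 ^ 15 : ℤ)) 5 10 :=
    resultant_add_mul_right _ _ _ _ _ (by rw [h84_natDegree_P5]) (by rw [h84_natDegree_R5])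
  rw [h84_q5_eq, h2, resultant_C_right, h84_coeff_R5] at h1
  have h3 : (21312500 : ℤ) ^ 10 * (5 ^ 15) ^ 5 =
      (21312500 : ℤ) ^ 10 * resultant h84_R5 h84_q5 5 10 := by
    rw [h1]; ring
  have h4 : (21312500 : ℤ) ^ 10 ≠ 0 := by norm_num
  have h5 := mul_left_cancel₀ h4 h3
  rw [← h5]
  norm_num

/-- `Res(kT(X,1), q5) = 5 ^ 75`. -/
theorem h84_resultant_tau_q5 : resultant h84_tau h84_q5 30 10 = 5 ^ 75 := by
  have h1 : resultant (h84_R5 + h84_q5 * h84_Q5) h84_q5 30 10 = resultant h84_R5 h84_q5 30 10 :=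
    resultant_add_mul_left _ _ _ _ _ (by rw [h84_natDegree_Q5]) (by rw [h84_natDegree_q5])
  have h2 : resultant h84_R5 h84_q5 (5 + 25) 10 =
      (-1) ^ (10 * 25) * h84_q5.coeff 10 ^ 25 * resultant h84_R5 h84_q5 5 10 :=
    resultant_add_left_deg _ _ _ _ _ (by rw [h84_natDegree_R5])
  have h3 : h84_q5.coeff 10 = 1 := by
    have := h84_monic_q5
    rw [Monic, leadingCoeff, h84_natDegree_q5] at this
    exact this
  rw [h84_tau_eq, h1]
  rw [show (30 : ℕ) = 5 + 25 from rfl, h2, h3, h84_resultant_R5_q5]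
  norm_num

end int

section field

variable (E : Type*) [Field E] [IsAlgClosed E]

/-- `kT(X,1)` over `E`. -/
noncomputable def h84_tauE : E[X] := h84_tau.map (Int.castRingHom E)

omit [IsAlgClosed E] in
theorem h84_monic_tauE : (h84_tauE E).Monic := h84_monic_tau.map _

omit [IsAlgClosed E] in
theorem h84_natDegree_tauE : (h84_tauE E).natDegree = 30 := by
  rw [h84_tauE, h84_monic_tau.natDegree_map, h84_natDegree_tau]

theorem h84_splits_tauE : (h84_tauE E).Splits := IsAlgClosed.splits _

theorem h84_card_roots_tauE : Multiset.card (h84_tauE E).roots = 30 := by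
  rw [← (h84_splits_tauE E).natDegree_eq_card_roots, h84_natDegree_tauE]

omit [IsAlgClosed E] in
theorem h84_eval_tauE (x : E) :
    (h84_tauE E).eval x =
      x ^ 30 + 522 * x ^ 25 - 10005 * x ^ 20 - 10005 * x ^ 10 - 522 * x ^ 5 + 1 := by
  simp [h84_tauE, h84_tau]

omit [IsAlgClosed E] in
theorem h84_eval_q5E (x : E) :
    (h84_q5.map (Int.castRingHom E)).eval x = x ^ 10 + 11 * x ^ 5 - 1 := by
  simp [h84_q5]

/-- The product of the roots of `kT(X,1)` is `1`. -/
theorem h84_prod_roots_tauE : (h84_tauE E).roots.prod = 1 := by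
  have h := (h84_splits_tauE E).coeff_zero_eq_prod_roots_of_monic (h84_monic_tauE E)
  rw [h84_natDegree_tauE] at h
  have h0 : (h84_tauE E).coeff 0 = 1 := by
    rw [coeff_zero_eq_eval_zero, h84_eval_tauE]
    simp
  rw [h0] at h
  have h1 : ((-1 : E)) ^ 30 = 1 := by norm_num
  rw [h1, one_mul] at h
  exact h.symm

/-- The product of `q5` over the roots of `kT(X,1)` is `5 ^ 75`. -/
theorem h84_prod_q5_roots :
    ((h84_tauE E).roots.map fun z => z ^ 10 + 11 * z ^ 5 - 1).prod = 5 ^ 75 := by
  have hdeg : (h84_q5.map (Int.castRingHom E)).natDegree ≤ 10 :=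
    natDegree_map_le.trans h84_natDegree_q5.le
  have h := resultant_eq_prod_eval (h84_tauE E) (h84_q5.map (Int.castRingHom E)) 10 hdeg
    (h84_splits_tauE E)
  rw [(h84_monic_tauE E).leadingCoeff, one_pow, one_mul, h84_natDegree_tauE] at h
  have h2 : resultant (h84_tauE E) (h84_q5.map (Int.castRingHom E)) 30 10 = 5 ^ 75 := by
    rw [h84_tauE, resultant_map_map, h84_resultant_tau_q5, map_pow, map_ofNat]
  rw [h2] at h
  rw [h]
  congr 1
  apply Multiset.map_congr rfl
  intro z _
  rw [h84_eval_q5E]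

/-- **Row AUX-1'-a.** -/
theorem klein_kT_factor (E : Type*) [Field E] [IsAlgClosed E] [CharZero E] :
    ∃ s : Multiset E, Multiset.card s = 30 ∧
      (∀ a b : E, kT a b = (s.map fun z => a - z * b).prod) ∧
      (s.map fun z => kf z 1).prod = 5 ^ 75 := by
  refine ⟨(h84_tauE E).roots, h84_card_roots_tauE E, ?_, ?_⟩
  · intro a b
    by_cases hb : b = 0
    · subst hb
      have h1 : ((h84_tauE E).roots.map fun z => a - z * 0) =
          Multiset.replicate 30 a := by
        rw [← h84_card_roots_tauE E, ← Multiset.map_const']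
        apply Multiset.map_congr rfl
        intro z _
        simp
      rw [h1, Multiset.prod_replicate]
      simp [kT]
    · have h1 := (h84_splits_tauE E).eval_eq_prod_roots_of_monic (h84_monic_tauE E) (a / b)
      rw [h84_eval_tauE] at h1
      have h2 : ((h84_tauE E).roots.map fun z => a - z * b) =
          (h84_tauE E).roots.map (fun z => b * (a / b - z)) := by
        apply Multiset.map_congr rfl
        intro z _
        field_simp
      rw [h2, Multiset.prod_map_mul, Multiset.map_const', Multiset.prod_replicate,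
        h84_card_roots_tauE, ← h1]
      simp only [kT]
      field_simp
      ring
  · have h1 : ((h84_tauE E).roots.map fun z => kf z 1) =
        (h84_tauE E).roots.map (fun z => z * (z ^ 10 + 11 * z ^ 5 - 1)) := by
      apply Multiset.map_congr rfl
      intro z _
      simp only [kf]
      ring
    rw [h1, Multiset.prod_map_mul, Multiset.map_id', h84_prod_roots_tauE, one_mul,
      h84_prod_q5_roots]

end field

end Fermat.Agent.S52
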