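import Fermat.Agent.S52.h16_NormObs
import Fermat.Agent.S52.FamBase
import Fermat.Agent.S52.FamG
import Fermat.Agent.S52.FamC4
import Fermat.Agent.S52.FamDisc
import Fermat.Agent.S52.FamLemmas
import Fermat.Agent.S52.h34_KleinBasic
import Fermat.Agent.S52.KTFactor

/-!
# S52 (IV), route AUX, step AUX-1': the norm obstruction for the Klein family

`Res_X(famC6 c4 c6 1 X, famG c4 c6 1 X) = 5 * (square)`, hence (by `h16_NormObs`) some monic
irreducible factor `g` of `famC6 c4 c6 1 X` over `ℚ` has `3` not a square in `ℚ[X]/(g)`.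
-/

set_option autoImplicit false

namespace Fermat.Agent.S52

open Polynomial

/-- `famC6 ^ 2 = kT(u') ^ 2` from `fam_H`, `fam_f`, `fam_disc` and `klein_rel`
(no need for `fam_T`). -/
theorem h16_famC6_sq {R : Type*} [CommRing R] (x y m n : R) :
    famC6 (-kH x y) (-kT x y) m n ^ 2
      = kT (n * x + m * kP1 x y) (n * y + m * kP2 x y) ^ 2 := by
  have h1 := klein_rel (n * x + m * kP1 x y) (n * y + m * kP2 x y)
  have h2 := fam_H x y m n
  have h3 := fam_f x y m n
  have h4 := fam_disc (-kH x y) (-kT x y) m n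
  have h5 := klein_rel x y
  have h2' : kH (n * x + m * kP1 x y) (n * y + m * kP2 x y)
      = -famC4 (-kH x y) (-kT x y) m n := by rw [← h2, neg_neg]
  rw [h2', h3] at h1
  linear_combination -h4 - h1 + famG (-kH x y) (-kT x y) m n ^ 5 * h5

/-- `fam_T` in the chart `n = 1`, over a field, when `kT x y ≠ 0`. -/
theorem h16_famT_chart {E : Type*} [Field E] [Infinite E] (h2 : (2 : E) ≠ 0) (x y : E)
    (h6 : kT x y ≠ 0) (m : E) :
    famC6 (-kH x y) (-kT x y) m 1 = -kT (1 * x + m * kP1 x y) (1 * y + m * kP2 x y) := by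
  set p : E[X] := famC6 (C (-kH x y)) (C (-kT x y)) X 1 with hp
  set r : E[X] := kT (1 * C x + X * C (kP1 x y)) (1 * C y + X * C (kP2 x y)) with hr
  have hpe : ∀ t : E, eval t p = famC6 (-kH x y) (-kT x y) t 1 := by
    intro t
    have := map_famC6 (evalRingHom t) (C (-kH x y)) (C (-kT x y)) X 1
    simpa [hp] using this
  have hre : ∀ t : E, eval t r = kT (1 * x + t * kP1 x y) (1 * y + t * kP2 x y) := by
    intro t
    simp [hr, kT]
    ring
  have hsq : p ^ 2 = r ^ 2 := by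
    apply Polynomial.funext
    intro t
    rw [eval_pow, eval_pow, hpe, hre, h16_famC6_sq]
  have hfac : (p - r) * (p + r) = 0 := by linear_combination hsq
  rcases mul_eq_zero.mp hfac with h | h
  · exfalso
    have h0 := congrArg (eval 0) h
    rw [eval_sub, hpe, hre, eval_zero, famC6_zero_one] at h0
    simp only [zero_mul, add_zero, one_mul] at h0
    apply h6
    have : (2 : E) * kT x y = 0 := by linear_combination -h0
    rcases mul_eq_zero.mp this with h' | h'
    · exact absurd h' h2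
    · exact h'
  · have h0 := congrArg (eval m) h
    rw [eval_add, hpe, hre, eval_zero] at h0
    linear_combination h0

/-- `fam_T` in the chart `m = 1`, over a field, when `kT x y ≠ 0` (derived without `fam_T`). -/
theorem h16_famT_one {E : Type*} [Field E] [Infinite E] (h2 : (2 : E) ≠ 0) (x y : E)
    (h6 : kT x y ≠ 0) (t : E) :
    famC6 (-kH x y) (-kT x y) 1 t = -kT (t * x + 1 * kP1 x y) (t * y + 1 * kP2 x y) := by
  have hne : ∀ t : E, t ≠ 0 →
      famC6 (-kH x y) (-kT x y) 1 t = -kT (t * x + 1 * kP1 x y) (t * y + 1 * kP2 x y) := by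
    intro t ht
    have h1 := famC6_smul (-kH x y) (-kT x y) t t⁻¹ 1
    rw [mul_inv_cancel₀ ht, mul_one] at h1
    rw [h1, h16_famT_chart h2 x y h6 t⁻¹]
    have h3 := h34_kT_smul t (1 * x + t⁻¹ * kP1 x y) (1 * y + t⁻¹ * kP2 x y)
    have e1 : t * (1 * x + t⁻¹ * kP1 x y) = t * x + 1 * kP1 x y := by field_simp
    have e2 : t * (1 * y + t⁻¹ * kP2 x y) = t * y + 1 * kP2 x y := by field_simp
    rw [e1, e2] at h3
    rw [h3]
    ring
  set p : E[X] := famC6 (C (-kH x y)) (C (-kT x y)) 1 X with hp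
  set r : E[X] := -kT (X * C x + 1 * C (kP1 x y)) (X * C y + 1 * C (kP2 x y)) with hr
  have hpe : ∀ t : E, eval t p = famC6 (-kH x y) (-kT x y) 1 t := by
    intro t
    have := map_famC6 (evalRingHom t) (C (-kH x y)) (C (-kT x y)) 1 X
    simpa [hp] using this
  have hre : ∀ t : E, eval t r = -kT (t * x + 1 * kP1 x y) (t * y + 1 * kP2 x y) := by
    intro t
    simp [hr, kT]
    ring
  have hpr : p = r := by
    apply Polynomial.eq_of_infinite_eval_eq
    apply Set.Infinite.mono (s := {t : E | t ≠ 0})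
    · intro t ht
      show eval t p = eval t r
      rw [hpe, hre]
      exact hne t ht
    · have : {t : E | t ≠ 0} = ({0} : Set E)ᶜ := by ext; simp
      rw [this]
      exact (Set.finite_singleton 0).infinite_compl
  rw [← hpe, ← hre, hpr]

theorem h16_kf_smul {R : Type*} [CommRing R] (l x y : R) :
    kf (l * x) (l * y) = l ^ 12 * kf x y := by
  unfold kf; ring

theorem h16_famG_natDegree_le {K : Type*} [Field K] (c4 c6 : K) :
    (famG (C c4) (C c6) 1 X).natDegree ≤ 12 := by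
  simp only [famG, famG_blk0, famG_blk1, famG_blk2, famG_0, famG_2, famG_3, famG_4, famG_5,
    famG_6, famG_7, famG_8, famG_9, famG_10, famG_11, famG_12]
  compute_degree

theorem h16_res_E_aux {E : Type*} [Field E] [IsAlgClosed E] [CharZero E]
    (s : Multiset E) (hs30 : Multiset.card s = 30)
    (hsT : ∀ a b : E, kT a b = (s.map fun z => a - z * b).prod)
    (hsf : (s.map fun z => kf z 1).prod = 5 ^ 75)
    (c4 c6 : E) (h6 : c6 ≠ 0) (x y : E) (hx : -kH x y = c4) (hy : -kT x y = c6)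
    (hkf : kf x y ≠ 0) :
    resultant (famC6 (C c4) (C c6) 1 X) (famG (C c4) (C c6) 1 X)
      (famC6 (C c4) (C c6) 1 X).natDegree 12
        = 5 * (5 ^ 37 * 12 ^ 180 * (kf x y ^ 5) ^ 33) ^ 2 := by
  classical
  have : Infinite E := Infinite.of_injective (Nat.cast : ℕ → E) Nat.cast_injective
  have hkT : kT x y ≠ 0 := by
    intro h0
    apply h6
    rw [← hy, h0, neg_zero]
  have hprod_a : (s.map fun z => x - z * y).prod = -c6 := by
    rw [← hy, neg_neg, hsT x y]
  have ha : ∀ z ∈ s, x - z * y ≠ 0 := by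
    intro z hz h0
    have : (s.map fun z => x - z * y).prod = 0 :=
      Multiset.prod_eq_zero (Multiset.mem_map.mpr ⟨z, hz, h0⟩)
    rw [hprod_a] at this
    exact h6 (neg_eq_zero.mp this)
  -- the roots of the family polynomial
  let ξ : E → E := fun z => -(kP1 x y - z * kP2 x y) / (x - z * y)
  have hG : famC6 (C c4) (C c6) 1 X = C c6 * (s.map fun z => X - C (ξ z)).prod := by
    apply Polynomial.funext
    intro t
    have e1 : eval t (famC6 (C c4) (C c6) 1 X) = famC6 c4 c6 1 t := by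
      have := map_famC6 (evalRingHom t) (C c4) (C c6) 1 X
      simpa using this
    rw [e1, eval_mul, eval_C, eval_multiset_prod, Multiset.map_map]
    have e2 : famC6 c4 c6 1 t = -kT (t * x + 1 * kP1 x y) (t * y + 1 * kP2 x y) := by
      rw [← hx, ← hy]
      exact h16_famT_one two_ne_zero x y hkT t
    rw [e2, hsT]
    have e3 : c6 = -(s.map fun z => x - z * y).prod := by rw [hprod_a, neg_neg]
    rw [e3, neg_mul, ← Multiset.prod_map_mul]
    congr 2
    apply Multiset.map_congr rfl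
    intro z hz
    have := ha z hz
    simp only [Function.comp, eval_sub, eval_X, eval_C, ξ]
    field_simp
    ring
  have hlc : (famC6 (C c4) (C c6) 1 X).leadingCoeff = c6 := by
    rw [hG, leadingCoeff_mul, leadingCoeff_C,
      (monic_multiset_prod_of_monic s (fun z => X - C (ξ z)) (fun z _ => monic_X_sub_C (ξ z))).leadingCoeff,
      mul_one]
  have hroots : (famC6 (C c4) (C c6) 1 X).roots = s.map ξ := by
    rw [hG, roots_C_mul _ h6]
    have : (s.map fun z => X - C (ξ z)) = (s.map ξ).map (fun a => X - C a) := by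
      rw [Multiset.map_map]; rfl
    rw [this, roots_multiset_prod_X_sub_C]
  rw [resultant_eq_prod_eval _ _ 12 (h16_famG_natDegree_le c4 c6) (IsAlgClosed.splits _), hlc,
    hroots, Multiset.map_map]
  have e4 : ∀ t : E, eval t (famG (C c4) (C c6) 1 X) = famG c4 c6 1 t := by
    intro t
    have := map_famG (evalRingHom t) (C c4) (C c6) 1 X
    simpa using this
  have hdet : x * kP2 x y - y * kP1 x y = -12 * kf x y := klein_euler x y
  have key : ∀ z ∈ s, famG c4 c6 1 (ξ z) * (x - z * y) ^ 12 * kf x y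
      = (-12 * kf x y) ^ 12 * kf z 1 := by
    intro z hz
    have haz := ha z hz
    have hf := fam_f x y 1 (ξ z)
    rw [hx, hy] at hf
    have h1 : ξ z * x + 1 * kP1 x y = (-12 * kf x y) / (x - z * y) * z := by
      simp only [ξ]; rw [← hdet]; field_simp; ring
    have h2 : ξ z * y + 1 * kP2 x y = (-12 * kf x y) / (x - z * y) * 1 := by
      simp only [ξ]; rw [← hdet]; field_simp; ring
    rw [h1, h2, h16_kf_smul] at hf
    have h3 : famG c4 c6 1 (ξ z) * kf x y = ((-12 * kf x y) / (x - z * y)) ^ 12 * kf z 1 := by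
      rw [hf]; ring
    calc famG c4 c6 1 (ξ z) * (x - z * y) ^ 12 * kf x y
        = (famG c4 c6 1 (ξ z) * kf x y) * (x - z * y) ^ 12 := by ring
      _ = ((-12 * kf x y) / (x - z * y)) ^ 12 * kf z 1 * (x - z * y) ^ 12 := by rw [h3]
      _ = (-12 * kf x y) ^ 12 * kf z 1 := by field_simp
  have hprod : (s.map fun z => famG c4 c6 1 (ξ z) * (x - z * y) ^ 12 * kf x y).prod
      = (s.map fun z => (-12 * kf x y) ^ 12 * kf z 1).prod :=
    congrArg Multiset.prod (Multiset.map_congr rfl key)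
  rw [Multiset.prod_map_mul, Multiset.prod_map_mul, Multiset.prod_map_pow, hprod_a,
    Multiset.prod_map_mul, hsf] at hprod
  simp only [Multiset.map_const', Multiset.prod_replicate, hs30] at hprod
  have hP : (s.map ((fun t => eval t (famG (C c4) (C c6) 1 X)) ∘ ξ)).prod
      = (s.map fun z => famG c4 c6 1 (ξ z)).prod := by
    refine congrArg Multiset.prod (Multiset.map_congr rfl ?_)
    intro z _
    exact e4 (ξ z)
  rw [hP]
  apply mul_right_cancel₀ (pow_ne_zero 30 hkf)
  calc c6 ^ 12 * (s.map fun z => famG c4 c6 1 (ξ z)).prod * kf x y ^ 30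
      = (s.map fun z => famG c4 c6 1 (ξ z)).prod * (-c6) ^ 12 * kf x y ^ 30 := by ring
    _ = ((-12 * kf x y) ^ 12) ^ 30 * 5 ^ 75 := hprod
    _ = 5 * (5 ^ 37 * 12 ^ 180 * (kf x y ^ 5) ^ 33) ^ 2 * kf x y ^ 30 := by ring

theorem h16_res_E {E : Type*} [Field E] [IsAlgClosed E] [CharZero E]
    (s : Multiset E) (hs30 : Multiset.card s = 30)
    (hsT : ∀ a b : E, kT a b = (s.map fun z => a - z * b).prod)
    (hsf : (s.map fun z => kf z 1).prod = 5 ^ 75)
    (c4 c6 : E) (h6 : c6 ≠ 0) (x y : E) (hx : -kH x y = c4) (hy : -kT x y = c6)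
    (hkf : kf x y ≠ 0) :
    ∃ K0 : ℚ, K0 ≠ 0 ∧ resultant (famC6 (C c4) (C c6) 1 X) (famG (C c4) (C c6) 1 X)
      (famC6 (C c4) (C c6) 1 X).natDegree 12
        = 5 * ((K0 : E) * (kf x y ^ 5) ^ 33) ^ 2          := by
  refine ⟨5 ^ 37 * 12 ^ 180,
    mul_ne_zero (pow_ne_zero _ (by norm_num)) (pow_ne_zero _ (by norm_num)), ?_⟩
  rw [h16_res_E_aux s hs30 hsT hsf c4 c6 h6 x y hx hy hkf]
  push_cast
  rfl


/-- the case `c6 = 0`: `X` divides the family polynomial -/
theorem h16_X_dvd_famC6 (c4 : ℚ) : (X : ℚ[X]) ∣ famC6 (C c4) (C 0) 1 X := by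
  rw [X_dvd_iff, coeff_zero_eq_eval_zero]
  have := map_famC6 (evalRingHom (0 : ℚ)) (C c4) (C 0) 1 X
  simp only [coe_evalRingHom, eval_C, eval_one, eval_X] at this
  rw [this]
  simp [famC6, famC6_blk0, famC6_blk1, famC6_blk2, famC6_blk3, famC6_blk4, famC6_blk5,
    famC6_blk6, famC6_blk7, famC6_30]

theorem h16_three_not_sq_adjoinRoot_X : ¬ IsSquare (3 : AdjoinRoot (X : ℚ[X])) := by
  rintro ⟨r, hr⟩
  let φ : AdjoinRoot (X : ℚ[X]) →+* ℚ := AdjoinRoot.lift (RingHom.id ℚ) 0 (by simp)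
  have h := congrArg φ hr
  rw [map_mul, map_ofNat] at h
  exact h16_three_not_sq_rat (φ r) (by rw [pow_two, ← h]; ring)

/-- **AUX-1'.** For every integral `(c4, c6)` with `c4^3 ≠ c6^2`, some monic irreducible factor
`g` of `famC6 c4 c6 1 X` over `ℚ` has `3` not a square in `ℚ[X]/(g)`. -/
theorem h16_exists_nonsquare_factor (c4 c6 : ℤ) (hΔ : c4 ^ 3 - c6 ^ 2 ≠ 0) :
    ∃ g : ℚ[X], g.Monic ∧ Irreducible g ∧ g ∣ famC6 (C (c4 : ℚ)) (C (c6 : ℚ)) 1 X ∧
      ¬ IsSquare (3 : AdjoinRoot g) := by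
  have hK := klein_kT_factor (AlgebraicClosure ℚ)
  by_cases h6 : c6 = 0
  · subst h6
    refine ⟨X, monic_X, irreducible_X, ?_, h16_three_not_sq_adjoinRoot_X⟩
    simpa using h16_X_dvd_famC6 (c4 : ℚ)
  · obtain ⟨s, hs30, hsT, hsf⟩ := hK
    have hΔQ : ((c4 : ℚ)) ^ 3 - (c6 : ℚ) ^ 2 ≠ 0 := by exact_mod_cast hΔ
    have h6Q : (c6 : ℚ) ≠ 0 := by exact_mod_cast h6
    set ι := algebraMap ℚ (AlgebraicClosure ℚ) with hι
    have hinj : Function.Injective ι := ι.injective
    have hΔE : (ι c4) ^ 3 - (ι c6) ^ 2 ≠ 0 := by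
      rw [← map_pow, ← map_pow, ← map_sub]
      exact fun h => hΔQ (hinj (by rw [h, map_zero]))
    have h6E : ι c6 ≠ 0 := fun h => h6Q (hinj (by rw [h, map_zero]))
    have h2 : (2 : AlgebraicClosure ℚ) ≠ 0 := two_ne_zero
    have h3 : (3 : AlgebraicClosure ℚ) ≠ 0 := three_ne_zero
    have h5 : (5 : AlgebraicClosure ℚ) ≠ 0 := by norm_num
    obtain ⟨x, y, hx, hy⟩ := klein_exists_u h2 h3 h5 (ι c4) (ι c6) hΔE
    have hrel := klein_rel x y
    have hkf5 : kf x y ^ 5 = ι (((c6 : ℚ) ^ 2 - (c4 : ℚ) ^ 3) / 1728) := by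
      have e1 : kH x y = -ι c4 := by rw [← hx, neg_neg]
      have e2 : kT x y = -ι c6 := by rw [← hy, neg_neg]
      rw [e1, e2] at hrel
      rw [map_div₀, map_sub, map_pow, map_pow, map_ofNat]
      field_simp
      linear_combination -hrel
    have hkf : kf x y ≠ 0 := by
      intro h0
      rw [h0, zero_pow (by norm_num)] at hkf5
      have : ((c6 : ℚ) ^ 2 - (c4 : ℚ) ^ 3) / 1728 = 0 := hinj (by rw [← hkf5, map_zero])
      apply hΔQ
      have h1728 : (1728 : ℚ) ≠ 0 := by norm_num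
      rcases div_eq_zero_iff.mp this with h | h
      · linarith
      · exact absurd h h1728
    obtain ⟨K0, hK0, hres⟩ := h16_res_E s hs30 hsT hsf (ι c4) (ι c6) h6E x y hx hy hkf
    have hGmap : (famC6 (C (c4 : ℚ)) (C (c6 : ℚ)) 1 X).map ι = famC6 (C (ι c4)) (C (ι c6)) 1 X := by
      have := map_famC6 (mapRingHom ι) (C (c4 : ℚ)) (C (c6 : ℚ)) 1 X
      simp only [coe_mapRingHom, Polynomial.map_C, Polynomial.map_one, Polynomial.map_X] at this
      exact this
    have hG2map : (famG (C (c4 : ℚ)) (C (c6 : ℚ)) 1 X).map ι = famG (C (ι c4)) (C (ι c6)) 1 X := by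
      have := map_famG (mapRingHom ι) (C (c4 : ℚ)) (C (c6 : ℚ)) 1 X
      simp only [coe_mapRingHom, Polynomial.map_C, Polynomial.map_one, Polynomial.map_X] at this
      exact this
    have hd : ((c6 : ℚ) ^ 2 - (c4 : ℚ) ^ 3) / 1728 ≠ 0 := by
      apply div_ne_zero _ (by norm_num)
      intro h
      apply hΔQ
      linarith
    have hs0ne : K0 * (((c6 : ℚ) ^ 2 - (c4 : ℚ) ^ 3) / 1728) ^ 33 ≠ 0 :=
      mul_ne_zero hK0 (pow_ne_zero 33 hd)
    have hresQ : resultant (famC6 (C (c4 : ℚ)) (C (c6 : ℚ)) 1 X) (famG (C (c4 : ℚ)) (C (c6 : ℚ)) 1 X)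
        (famC6 (C (c4 : ℚ)) (C (c6 : ℚ)) 1 X).natDegree 12
        = 5 * (K0 * (((c6 : ℚ) ^ 2 - (c4 : ℚ) ^ 3) / 1728) ^ 33) ^ 2 := by
      apply hinj
      rw [← resultant_map_map, hGmap, hG2map]
      have hdeg : (famC6 (C (c4 : ℚ)) (C (c6 : ℚ)) 1 X).natDegree
          = (famC6 (C (ι c4)) (C (ι c6)) 1 X).natDegree := by
        rw [← hGmap, natDegree_map]
      rw [hdeg, hres, hkf5]
      simp only [map_mul, map_pow, map_ofNat, eq_ratCast]
    have hG0 : famC6 (C (c4 : ℚ)) (C (c6 : ℚ)) 1 X ≠ 0 := by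
      intro h0
      rw [h0] at hresQ
      simp only [natDegree_zero, resultant_zero_left_deg, coeff_zero] at hresQ
      rw [zero_pow (by norm_num)] at hresQ
      have : (K0 * (((c6 : ℚ) ^ 2 - (c4 : ℚ) ^ 3) / 1728) ^ 33) ^ 2 = 0 := by linarith
      exact hs0ne (pow_eq_zero_iff (by norm_num) |>.mp this)
    exact h16_exists_factor_three_not_sq _ _ hG0 12 (by decide) (h16_famG_natDegree_le _ _)
      _ hs0ne hresQ

end Fermat.Agent.S52
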