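import Mathlib
import Fermat.Agent.S14.NS

/-!
# S52, block (IV): an auxiliary prime from the landed `S14/NS.lean`

For a number field `F` in which `3` is not a square and finitely many nonzero integers of `F`,
there is a prime `q`, as large as we like, such that `3` is not a square modulo `q`, together
with a ring homomorphism `𝓞 F → ZMod q` that does not kill the given integers.
(Chebotarev for the quadratic extension `F(√3)/F`, restricted to primes of degree one.)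
-/

set_option linter.style.haveILetI false

namespace Fermat.Agent.S52

open NumberField Polynomial

section AdjoinRootSqrt

variable (F : Type*) [Field F]

/-- `X ^ 2 - 3` is irreducible when `3` is not a square. -/
theorem h26_irreducible (h3 : ¬ IsSquare (3 : F)) : Irreducible (X ^ 2 - C (3 : F)) := by
  apply X_pow_sub_C_irreducible_of_prime Nat.prime_two
  intro b hb
  exact h3 ⟨b, by rw [← hb, sq]⟩

theorem h26_monic : (X ^ 2 - C (3 : F)).Monic := monic_X_pow_sub_C _ (by norm_num)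

theorem h26_natDegree : (X ^ 2 - C (3 : F)).natDegree = 2 := natDegree_X_pow_sub_C

theorem h26_root_sq : (AdjoinRoot.root (X ^ 2 - C (3 : F))) ^ 2 = 3 := by
  have h := AdjoinRoot.eval₂_root (X ^ 2 - C (3 : F))
  simp only [eval₂_sub, eval₂_pow, eval₂_X, eval₂_C] at h
  rw [sub_eq_zero] at h
  rw [h]
  exact map_ofNat _ 3

/-- Every element of `F[X]/(X^2-3)` is `c + d θ`. -/
theorem h26_exists_repr (y : AdjoinRoot (X ^ 2 - C (3 : F))) :
    ∃ c d : F, y = AdjoinRoot.of _ c + AdjoinRoot.of _ d * AdjoinRoot.root _ := by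
  obtain ⟨p, rfl⟩ := AdjoinRoot.mk_surjective y
  have hmod : AdjoinRoot.mk (X ^ 2 - C (3 : F)) p =
      AdjoinRoot.mk (X ^ 2 - C (3 : F)) (p %ₘ (X ^ 2 - C (3 : F))) := by
    rw [AdjoinRoot.mk_eq_mk]
    exact ⟨p /ₘ (X ^ 2 - C (3 : F)), by
      have := modByMonic_add_div p (X ^ 2 - C (3 : F))
      linear_combination -this⟩
  have hne1 : (X ^ 2 - C (3 : F)) ≠ 1 := by
    intro h
    have := congrArg natDegree h
    rw [h26_natDegree] at this
    simp at this
  have hdeg : (p %ₘ (X ^ 2 - C (3 : F))).natDegree < 2 := by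
    have := natDegree_modByMonic_lt p (h26_monic F) hne1
    rwa [h26_natDegree] at this
  have hle : (p %ₘ (X ^ 2 - C (3 : F))).degree ≤ 1 := by
    have h1 : (p %ₘ (X ^ 2 - C (3 : F))).natDegree ≤ 1 := by omega
    exact_mod_cast degree_le_of_natDegree_le h1
  have hr := eq_X_add_C_of_degree_le_one hle
  refine ⟨(p %ₘ (X ^ 2 - C (3 : F))).coeff 0, (p %ₘ (X ^ 2 - C (3 : F))).coeff 1, ?_⟩
  rw [hmod]
  conv_lhs => rw [hr]
  simp [AdjoinRoot.mk_C, AdjoinRoot.mk_X, add_comm]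

/-- The conjugation `θ ↦ -θ`. -/
noncomputable def h26_conj : AdjoinRoot (X ^ 2 - C (3 : F)) →ₐ[F] AdjoinRoot (X ^ 2 - C (3 : F)) :=
  AdjoinRoot.liftAlgHom (X ^ 2 - C (3 : F)) (Algebra.ofId F _) (-AdjoinRoot.root _) (by
    simp only [eval₂_sub, eval₂_pow, eval₂_X, eval₂_C, neg_sq, h26_root_sq]
    rw [sub_eq_zero]
    exact (map_ofNat _ 3).symm)

theorem h26_conj_root : h26_conj F (AdjoinRoot.root _) = -AdjoinRoot.root _ := by
  simp [h26_conj]

end AdjoinRootSqrt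

section Main

variable (F : Type*) [Field F] [NumberField F]

open IsDedekindDomain in
/-- Only finitely many primes of `𝓞 F` contain a given nonzero element. -/
theorem h26_finite_primes (x : 𝓞 F) (hx : x ≠ 0) :
    {P : Ideal (𝓞 F) | P.IsPrime ∧ x ∈ P}.Finite := by
  have hI : Ideal.span {x} ≠ (0 : Ideal (𝓞 F)) := by
    rw [Ne, Ideal.zero_eq_bot, Ideal.span_singleton_eq_bot]
    exact hx
  refine ((Ideal.finite_factors hI).image HeightOneSpectrum.asIdeal).subset ?_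
  rintro P ⟨hP, hxP⟩
  have hP0 : P ≠ ⊥ := by
    rintro rfl
    exact hx (by simpa using hxP)
  refine ⟨⟨P, hP, hP0⟩, ?_, rfl⟩
  show P ∣ Ideal.span {x}
  rw [Ideal.dvd_iff_le, Ideal.span_singleton_le_iff_mem]
  exact hxP

omit [NumberField F] in
/-- `6 y ∈ 𝓞 F + 𝓞 F · θ` for every integral `y` of `F(√3)`. -/
theorem h26_six_mul (h3 : ¬ IsSquare (3 : F)) (y : AdjoinRoot (X ^ 2 - C (3 : F)))
    (hy : IsIntegral ℤ y) :
    ∃ c d : F, IsIntegral ℤ c ∧ IsIntegral ℤ d ∧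
      6 * y = 3 * AdjoinRoot.of _ c + AdjoinRoot.of _ d * AdjoinRoot.root _ := by
  obtain ⟨c, d, rfl⟩ := h26_exists_repr F y
  set θ := AdjoinRoot.root (X ^ 2 - C (3 : F)) with hθ
  set ι := AdjoinRoot.of (X ^ 2 - C (3 : F)) with hι
  have hθ2 : θ ^ 2 = 3 := h26_root_sq F
  have e2 : ι 2 = 2 := map_ofNat ι 2
  have e6 : ι 6 = 6 := map_ofNat ι 6
  have hθint : IsIntegral ℤ θ := by
    refine IsIntegral.of_pow (n := 2) (by norm_num) ?_
    rw [hθ2]
    simpa using (isIntegral_algebraMap :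
      IsIntegral ℤ (algebraMap ℤ (AdjoinRoot (X ^ 2 - C (3 : F))) 3))
  have hτ : h26_conj F (ι c + ι d * θ) = ι c - ι d * θ := by
    rw [map_add, map_mul, h26_conj_root]
    have h1 : ∀ r : F, h26_conj F (ι r) = ι r := fun r => (h26_conj F).commutes r
    rw [h1, h1]
    ring
  have hτint : IsIntegral ℤ (ι c - ι d * θ) := by
    rw [← hτ]
    exact map_isIntegral_int (h26_conj F) hy
  have h2c : IsIntegral ℤ (ι (2 * c)) := by
    have := hy.add hτint
    convert this using 1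
    rw [map_mul, e2]
    ring
  have h6d : IsIntegral ℤ (ι (6 * d)) := by
    have := (hy.sub hτint).mul hθint
    convert this using 1
    rw [map_mul, e6]
    linear_combination (-(2 : AdjoinRoot (X ^ 2 - C (3 : F))) * ι d) * hθ2
  have : Fact (Irreducible (X ^ 2 - C (3 : F))) := ⟨h26_irreducible F h3⟩
  have hinj : Function.Injective (algebraMap F (AdjoinRoot (X ^ 2 - C (3 : F)))) :=
    AdjoinRoot.coe_injective' (f := X ^ 2 - C (3 : F))
  refine ⟨2 * c, 6 * d, (isIntegral_algebraMap_iff hinj).mp h2c,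
    (isIntegral_algebraMap_iff hinj).mp h6d, ?_⟩
  rw [map_mul, map_mul, e2, e6]
  ring

/-- **Auxiliary prime.** If `3` is not a square in the number field `F`, then for every finite
set `s` of nonzero integers of `F` and every bound `B` there are a prime `q > B` modulo which `3`
is not a square and a ring homomorphism `𝓞 F → ZMod q` not vanishing on `s`. -/
theorem h26_exists_residue_hom (h3 : ¬ IsSquare (3 : F)) (s : Finset (𝓞 F))
    (hs : ∀ x ∈ s, x ≠ 0) (B : ℕ) :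
    ∃ (q : ℕ) (φ : 𝓞 F →+* ZMod q), q.Prime ∧ B < q ∧ ¬ IsSquare (3 : ZMod q) ∧
      ∀ x ∈ s, φ x ≠ 0 := by
  classical
  haveI : Fact (Irreducible (X ^ 2 - C (3 : F))) := ⟨h26_irreducible F h3⟩
  set F₂ := AdjoinRoot (X ^ 2 - C (3 : F)) with hF₂
  haveI : CharZero F₂ := charZero_of_injective_algebraMap (algebraMap F F₂).injective
  haveI : Module.Finite F F₂ := (AdjoinRoot.powerBasis (h26_monic F).ne_zero).finite
  haveI : NumberField F₂ :=
    { to_charZero := inferInstance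
      to_finiteDimensional := Module.Finite.trans F F₂ }
  have hdeg : Module.finrank F F₂ = 2 := by
    rw [(AdjoinRoot.powerBasis (h26_monic F).ne_zero).finrank, AdjoinRoot.powerBasis_dim,
      h26_natDegree]
  haveI : Algebra.IsQuadraticExtension F F₂ := { finrank_eq_two' := hdeg }
  haveI : IsGalois F F₂ := inferInstance
  -- the bad set
  set N : 𝓞 F := ((6 * B.factorial : ℕ) : 𝓞 F) with hN
  have hN0 : N ≠ 0 := by
    rw [hN, Nat.cast_ne_zero]
    exact Nat.mul_ne_zero (by norm_num) (Nat.factorial_ne_zero B)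
  set S : Set (Ideal (𝓞 F)) := ⋃ x ∈ insert N s, {P : Ideal (𝓞 F) | P.IsPrime ∧ x ∈ P} with hS
  have hSfin : S.Finite := by
    rw [hS]
    refine Set.Finite.biUnion (Finset.finite_toSet _) ?_
    intro x hx
    refine h26_finite_primes F x ?_
    rcases Finset.mem_insert.mp hx with rfl | hx
    · exact hN0
    · exact hs x hx
  obtain ⟨P, hP, hP0, hPS, hq, hunr, hns⟩ :=
    Fermat.Agent.S14.exists_nonsplit_prime Nat.prime_two hdeg S hSfin
  have hnotmem : ∀ x ∈ insert N s, x ∉ P := by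
    intro x hx hxP
    apply hPS
    rw [hS]
    exact Set.mem_biUnion hx ⟨hP, hxP⟩
  haveI hPmax : P.IsMaximal := hP.isMaximal hP0
  set q := Ideal.absNorm P with hqdef
  -- the residue field is `ZMod q`
  haveI : Finite (𝓞 F ⧸ P) := by
    apply Nat.finite_of_card_ne_zero
    rw [← Submodule.cardQuot_apply, ← Ideal.absNorm_apply]
    exact hq.ne_zero
  letI : Fintype (𝓞 F ⧸ P) := Fintype.ofFinite _
  have hcard : Fintype.card (𝓞 F ⧸ P) = q := by
    rw [← Nat.card_eq_fintype_card, ← Submodule.cardQuot_apply, ← Ideal.absNorm_apply]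
  let e : ZMod q ≃+* 𝓞 F ⧸ P := ZMod.ringEquivOfPrime (𝓞 F ⧸ P) hq hcard
  let φ : 𝓞 F →+* ZMod q := (e.symm : 𝓞 F ⧸ P →+* ZMod q).comp (Ideal.Quotient.mk P)
  have hφ0 : ∀ x : 𝓞 F, φ x = 0 ↔ x ∈ P := by
    intro x
    show e.symm (Ideal.Quotient.mk P x) = 0 ↔ x ∈ P
    rw [map_eq_zero_iff _ e.symm.injective, Ideal.Quotient.eq_zero_iff_mem]
  have hφsurj : Function.Surjective φ := by
    intro r
    obtain ⟨x, hx⟩ := Ideal.Quotient.mk_surjective (e r)
    exact ⟨x, by show e.symm (Ideal.Quotient.mk P x) = r; rw [hx, e.symm_apply_apply]⟩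
  have hqP : ((q : ℕ) : 𝓞 F) ∈ P := Ideal.absNorm_mem P
  have hBq : B < q := by
    by_contra hle
    rw [not_lt] at hle
    have hdvd : q ∣ 6 * B.factorial :=
      Dvd.dvd.mul_left (Nat.dvd_factorial hq.pos hle) 6
    obtain ⟨k, hk⟩ := hdvd
    apply hnotmem N (Finset.mem_insert_self _ _)
    rw [hN, hk, Nat.cast_mul]
    exact P.mul_mem_right _ hqP
  have h6 : (6 : 𝓞 F) ∉ P := by
    intro h
    apply hnotmem N (Finset.mem_insert_self _ _)
    rw [hN, Nat.cast_mul]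
    exact P.mul_mem_right _ (by simpa using h)
  refine ⟨q, φ, hq, hBq, ?_, fun x hx h0 =>
    hnotmem x (Finset.mem_insert_of_mem hx) ((hφ0 x).mp h0)⟩
  rintro ⟨r, hr⟩
  obtain ⟨a, rfl⟩ := hφsurj r
  have haP : a * a - 3 ∈ P := by
    rw [← hφ0, map_sub, map_mul, ← hr, map_ofNat φ 3, sub_self]
  -- then `P` would split completely
  apply hns
  intro Q hQ hQP
  refine ⟨hunr Q hQ hQP, ?_⟩
  haveI := hQ
  haveI := hQP
  have hQ0 : Q ≠ ⊥ := Fermat.Agent.S14.h84_ne_bot_of_liesOver F F₂ P hP0 Q hQP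
  haveI hQmax : Q.IsMaximal := hQ.isMaximal hQ0
  have hunder : ∀ x : 𝓞 F, algebraMap (𝓞 F) (𝓞 F₂) x ∈ Q ↔ x ∈ P := by
    intro x
    rw [hQP.over]
    rfl
  -- the integer `θ`
  have hθint : IsIntegral ℤ (AdjoinRoot.root (X ^ 2 - C (3 : F))) := by
    refine IsIntegral.of_pow (n := 2) (by norm_num) ?_
    rw [h26_root_sq F]
    simpa using (isIntegral_algebraMap : IsIntegral ℤ (algebraMap ℤ F₂ 3))
  set Θ : 𝓞 F₂ := ⟨AdjoinRoot.root (X ^ 2 - C (3 : F)), hθint⟩ with hΘ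
  have hΘ2 : Θ * Θ = 3 := by
    apply RingOfIntegers.ext
    show AdjoinRoot.root (X ^ 2 - C (3 : F)) * AdjoinRoot.root (X ^ 2 - C (3 : F)) = 3
    rw [← sq, h26_root_sq F]
  have e3 : algebraMap (𝓞 F) (𝓞 F₂) 3 = 3 := map_ofNat _ 3
  have e6 : algebraMap (𝓞 F) (𝓞 F₂) 6 = 6 := map_ofNat _ 6
  obtain ⟨a', ha'⟩ : ∃ a' : 𝓞 F, Θ - algebraMap (𝓞 F) (𝓞 F₂) a' ∈ Q := by
    have hprod : (Θ - algebraMap (𝓞 F) (𝓞 F₂) a) * (Θ + algebraMap (𝓞 F) (𝓞 F₂) a) ∈ Q := by
      have : (Θ - algebraMap (𝓞 F) (𝓞 F₂) a) * (Θ + algebraMap (𝓞 F) (𝓞 F₂) a) =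
          -algebraMap (𝓞 F) (𝓞 F₂) (a * a - 3) := by
        rw [map_sub, map_mul, e3]
        linear_combination hΘ2
      rw [this]
      exact Q.neg_mem ((hunder _).mpr haP)
    rcases hQ.mem_or_mem hprod with h | h
    · exact ⟨a, h⟩
    · exact ⟨-a, by rw [map_neg, sub_neg_eq_add]; exact h⟩
  obtain ⟨u, i, hi, hu⟩ := hPmax.exists_inv h6
  have hsurj : ∀ Y : 𝓞 F₂, ∃ z : 𝓞 F, Y - algebraMap (𝓞 F) (𝓞 F₂) z ∈ Q := by
    intro Y
    obtain ⟨c, d, hc, hd, hcd⟩ := h26_six_mul F h3 (Y : F₂) Y.2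
    set c2 : 𝓞 F := ⟨c, hc⟩ with hc2
    set d6 : 𝓞 F := ⟨d, hd⟩ with hd6
    have hY : 6 * Y = 3 * algebraMap (𝓞 F) (𝓞 F₂) c2 + algebraMap (𝓞 F) (𝓞 F₂) d6 * Θ := by
      apply RingOfIntegers.ext
      exact hcd
    refine ⟨u * (3 * c2 + d6 * a'), ?_⟩
    have h6Q : (6 : 𝓞 F₂) ∉ Q := by
      intro h
      apply h6
      rw [← hunder, e6]
      exact h
    have hmem : (6 : 𝓞 F₂) * (Y - algebraMap (𝓞 F) (𝓞 F₂) (u * (3 * c2 + d6 * a'))) ∈ Q := by
      have : (6 : 𝓞 F₂) * (Y - algebraMap (𝓞 F) (𝓞 F₂) (u * (3 * c2 + d6 * a'))) =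
          algebraMap (𝓞 F) (𝓞 F₂) d6 * (Θ - algebraMap (𝓞 F) (𝓞 F₂) a') +
            algebraMap (𝓞 F) (𝓞 F₂) (i * (3 * c2 + d6 * a')) := by
        have hu' : algebraMap (𝓞 F) (𝓞 F₂) u * 6 + algebraMap (𝓞 F) (𝓞 F₂) i = 1 := by
          rw [← e6, ← map_mul, ← map_add, hu, map_one]
        simp only [map_mul, map_add, e3]
        linear_combination hY -
          (3 * algebraMap (𝓞 F) (𝓞 F₂) c2 +
            algebraMap (𝓞 F) (𝓞 F₂) d6 * algebraMap (𝓞 F) (𝓞 F₂) a') * hu'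
      rw [this]
      exact Q.add_mem (Q.mul_mem_left _ ha') ((hunder _).mpr (P.mul_mem_right _ hi))
    exact (hQ.mem_or_mem hmem).resolve_left h6Q
  rw [Ideal.inertiaDeg_eq_of_isMaximal P Q]
  letI : Field (𝓞 F ⧸ P) := Ideal.Quotient.field P
  letI : Field (𝓞 F₂ ⧸ Q) := Ideal.Quotient.field Q
  rw [finrank_eq_one_iff']
  refine ⟨1, one_ne_zero, fun w => ?_⟩
  obtain ⟨Y, rfl⟩ := Ideal.Quotient.mk_surjective w
  obtain ⟨z, hz⟩ := hsurj Y
  refine ⟨Ideal.Quotient.mk P z, ?_⟩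
  rw [Algebra.smul_def, mul_one, Ideal.Quotient.algebraMap_mk_of_liesOver, eq_comm,
    Ideal.Quotient.eq]
  exact hz

end Main

end Fermat.Agent.S52
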