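import Mathlib
import Fermat.Agent.S52.KleinDefs
import Fermat.Agent.S52.FamLemmas
import Fermat.Agent.S52.Semistable
import Fermat.Agent.S52.h26_AuxPrime

/-!
# S52, block (IV), route AUX (core): a member of the family without rational `3`-torsion data

`h26_irr_of_factor` / `h26_irr_of_field`: for integers `c4, c6` with `c4 ^ 3 - c6 ^ 2 ≠ 0` and
`M ≥ 2` there are coprime
integers `m ≡ 0`, `n ≡ 1` modulo `M` such that the `3`-division quartic of the member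
`(famC4 c4 c6 m n, famC6 c4 c6 m n)` of the family has no rational root.

The member is chosen so that, for an auxiliary prime `q` modulo which `3` is not a square,
`q ∣ famC6` and `q ∤ famC4`; then the quartic is `(z ^ 2 - 243 c) ^ 2 - 3 (162 c) ^ 2` modulo `q`,
which has no root.
-/

namespace Fermat.Agent.S52

open NumberField Polynomial

/-- Lifting a point of the projective line over `ZMod q` to a pair of coprime integers with
prescribed residues modulo `M`. -/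
theorem h26_lift (q : ℕ) [Fact q.Prime] (M : ℤ) (hM : 2 ≤ M) (hMq : M < q) (m1 n1 : ZMod q)
    (h : m1 ≠ 0 ∨ n1 ≠ 0) :
    ∃ m n : ℤ, M ∣ m ∧ M ∣ n - 1 ∧ IsCoprime m n ∧
      ∃ μ : ZMod q, (m : ZMod q) = μ * m1 ∧ (n : ZMod q) = μ * n1 := by
  have hq : Nat.Prime q := Fact.out
  have hqZ : Prime (q : ℤ) := Nat.prime_iff_prime_int.mp hq
  have hndvd : ¬ (q : ℤ) ∣ M := by
    intro hd
    have := Int.le_of_dvd (by omega) hd
    omega
  have hcop : IsCoprime M (q : ℤ) := by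
    rw [isCoprime_comm]
    exact (Prime.coprime_iff_not_dvd hqZ).mpr hndvd
  obtain ⟨u, v, huv⟩ := hcop
  have hq0 : ((q : ℤ) : ZMod q) = 0 := by
    simp
  have huM : ((u : ℤ) : ZMod q) * ((M : ℤ) : ZMod q) = 1 := by
    have h1 : ((u * M + v * (q : ℤ) : ℤ) : ZMod q) = 1 := by
      rw [huv]; simp
    push_cast at h1
    simpa using h1
  by_cases hn1 : n1 = 0
  · have hm1 : m1 ≠ 0 := by
      rcases h with h | h
      · exact h
      · exact absurd hn1 h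
    refine ⟨M, v * q, dvd_rfl, ?_, ?_, ((M : ℤ) : ZMod q) / m1, ?_, ?_⟩
    · refine ⟨-u, ?_⟩
      linarith
    · exact ⟨u, 1, by linarith⟩
    · field_simp
    · rw [hn1]
      push_cast
      simp
  · obtain ⟨t, ht⟩ := ZMod.intCast_surjective (m1 / n1)
    refine ⟨u * M * t, 1, ⟨u * t, by ring⟩, by simp, isCoprime_one_right, n1⁻¹, ?_, ?_⟩
    · push_cast
      rw [huM, ht]
      field_simp
    · push_cast
      field_simp

/-- `162` is invertible modulo a prime `q ≥ 7`. -/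
theorem h26_162_ne_zero (q : ℕ) [Fact q.Prime] (hq7 : 7 ≤ q) : (162 : ZMod q) ≠ 0 := by
  have hq : Nat.Prime q := Fact.out
  intro h0
  have h1 : ((162 : ℕ) : ZMod q) = 0 := by exact_mod_cast h0
  rw [ZMod.natCast_eq_zero_iff] at h1
  have h2 : q ∣ 2 * 3 ^ 4 := by norm_num; exact h1
  rcases (Nat.Prime.dvd_mul hq).mp h2 with h | h
  · have := Nat.le_of_dvd (by norm_num) h
    omega
  · have := Nat.le_of_dvd (by norm_num) (hq.dvd_of_dvd_pow h)
    omega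

/-- The certificate: if `q ∣ C6`, `q ∤ C4` and `3` is not a square modulo `q`, then the
`3`-division quartic has no rational root. -/
theorem h26_no_root (q : ℕ) [Fact q.Prime] (hq7 : 7 ≤ q) (h3 : ¬ IsSquare (3 : ZMod q))
    (C4 C6 : ℤ) (h6 : ((C6 : ℤ) : ZMod q) = 0) (h4 : ((C4 : ℤ) : ZMod q) ≠ 0) (z : ℚ) :
    z ^ 4 - 486 * (C4 : ℚ) * z ^ 2 - 5832 * (C6 : ℚ) * z - 19683 * (C4 : ℚ) ^ 2 ≠ 0 := by
  intro hz
  -- the root is an integer
  obtain ⟨k, hk⟩ : ∃ k : ℤ, (k : ℚ) = z := by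
    have hmonic : (Polynomial.X ^ 4 - Polynomial.C (486 * C4) * Polynomial.X ^ 2
        - Polynomial.C (5832 * C6) * Polynomial.X - Polynomial.C (19683 * C4 ^ 2) :
          Polynomial ℤ).Monic := by
      monicity!
    have hroot : Polynomial.aeval z (Polynomial.X ^ 4 - Polynomial.C (486 * C4) * Polynomial.X ^ 2
        - Polynomial.C (5832 * C6) * Polynomial.X - Polynomial.C (19683 * C4 ^ 2) :
          Polynomial ℤ) = 0 := by
      simp only [map_sub, map_mul, map_pow, Polynomial.aeval_X, Polynomial.aeval_C]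
      simp only [eq_intCast]
      push_cast
      linarith
    obtain ⟨k, hk⟩ := isInteger_of_is_root_of_monic hmonic hroot
    exact ⟨k, by simpa using hk⟩
  subst hk
  have hZ : k ^ 4 - 486 * C4 * k ^ 2 - 5832 * C6 * k - 19683 * C4 ^ 2 = 0 := by
    exact_mod_cast hz
  have hq : ((k ^ 4 - 486 * C4 * k ^ 2 - 5832 * C6 * k - 19683 * C4 ^ 2 : ℤ) : ZMod q) = 0 := by
    rw [hZ]; simp
  push_cast at hq
  rw [h6] at hq
  have h162 := h26_162_ne_zero q hq7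
  apply h3
  refine ⟨((k : ZMod q) ^ 2 - 243 * (C4 : ZMod q)) / (162 * (C4 : ZMod q)), ?_⟩
  field_simp
  linear_combination (-1 : ZMod q) * hq

/-- Route AUX, from a number field without `√3` carrying a point of the curve `famC6 = 0`. -/
theorem h26_irr_of_field (c4 c6 : ℤ) (hΔ : c4 ^ 3 - c6 ^ 2 ≠ 0) (M : ℤ) (hM : 2 ≤ M)
    (F : Type) [Field F] [NumberField F] (a b : 𝓞 F) (ha : a ≠ 0)
    (hab : famC6 ((c4 : ℤ) : 𝓞 F) ((c6 : ℤ) : 𝓞 F) a b = 0) (h3F : ¬ IsSquare (3 : F)) :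
    ∃ m n : ℤ, M ∣ m ∧ M ∣ n - 1 ∧ IsCoprime m n ∧ ∀ z : ℚ,
      z ^ 4 - 486 * ((famC4 c4 c6 m n : ℤ) : ℚ) * z ^ 2 - 5832 * ((famC6 c4 c6 m n : ℤ) : ℚ) * z
        - 19683 * ((famC4 c4 c6 m n : ℤ) : ℚ) ^ 2 ≠ 0 := by
  obtain ⟨q, φ, hq, hBq, h3q, hφ⟩ :=
    h26_exists_residue_hom F h3F {a} (by simpa using ha)
      (max M.natAbs (max 7 (c4 ^ 3 - c6 ^ 2).natAbs))
  have : Fact q.Prime := ⟨hq⟩
  have hq7 : 7 ≤ q := by
    have : 7 ≤ max M.natAbs (max 7 (c4 ^ 3 - c6 ^ 2).natAbs) :=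
      le_trans (le_max_left _ _) (le_max_right _ _)
    omega
  have hMq : M < q := by
    have h1 : M.natAbs ≤ max M.natAbs (max 7 (c4 ^ 3 - c6 ^ 2).natAbs) := le_max_left _ _
    have h2 : (M.natAbs : ℤ) = M := Int.natAbs_of_nonneg (by omega)
    omega
  have hΔq : ((c4 : ℤ) : ZMod q) ^ 3 - ((c6 : ℤ) : ZMod q) ^ 2 ≠ 0 := by
    intro h0
    have h1 : ((c4 ^ 3 - c6 ^ 2 : ℤ) : ZMod q) = 0 := by
      push_cast; exact h0
    rw [ZMod.intCast_zmod_eq_zero_iff_dvd] at h1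
    have h2 : q ∣ (c4 ^ 3 - c6 ^ 2).natAbs := Int.natCast_dvd.mp h1
    have h3 := Nat.le_of_dvd (Int.natAbs_pos.mpr hΔ) h2
    have h4 : (c4 ^ 3 - c6 ^ 2).natAbs ≤ max M.natAbs (max 7 (c4 ^ 3 - c6 ^ 2).natAbs) :=
      le_trans (le_max_right _ _) (le_max_right _ _)
    omega
  have hφa : φ a ≠ 0 := hφ a (by simp)
  -- the point modulo `q`
  have hφint : ∀ k : ℤ, φ ((k : ℤ) : 𝓞 F) = ((k : ℤ) : ZMod q) := fun k => map_intCast φ k
  have hC6 : famC6 ((c4 : ℤ) : ZMod q) ((c6 : ℤ) : ZMod q) (φ a) (φ b) = 0 := by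
    have := congrArg φ hab
    rw [map_famC6, map_zero, hφint, hφint] at this
    exact this
  obtain ⟨m, n, hMm, hMn, hcop, μ, hm, hn⟩ := h26_lift q M hM hMq (φ a) (φ b) (Or.inl hφa)
  refine ⟨m, n, hMm, hMn, hcop, ?_⟩
  -- the member modulo `q`
  have hcast4 : ((famC4 c4 c6 m n : ℤ) : ZMod q)
      = famC4 ((c4 : ℤ) : ZMod q) ((c6 : ℤ) : ZMod q) ((m : ℤ) : ZMod q) ((n : ℤ) : ZMod q) := by
    have := map_famC4 (Int.castRingHom (ZMod q)) c4 c6 m n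
    simpa using this
  have hcast6 : ((famC6 c4 c6 m n : ℤ) : ZMod q)
      = famC6 ((c4 : ℤ) : ZMod q) ((c6 : ℤ) : ZMod q) ((m : ℤ) : ZMod q) ((n : ℤ) : ZMod q) := by
    have := map_famC6 (Int.castRingHom (ZMod q)) c4 c6 m n
    simpa using this
  have h6 : ((famC6 c4 c6 m n : ℤ) : ZMod q) = 0 := by
    rw [hcast6, hm, hn, famC6_smul, hC6, mul_zero]
  have hmn : ((m : ℤ) : ZMod q) ≠ 0 ∨ ((n : ℤ) : ZMod q) ≠ 0 := by
    by_contra hcon
    rw [not_or, not_not, not_not] at hcon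
    obtain ⟨hm0, hn0⟩ := hcon
    rw [ZMod.intCast_zmod_eq_zero_iff_dvd] at hm0 hn0
    obtain ⟨u, v, huv⟩ := hcop
    have h1 : (q : ℤ) ∣ 1 := by
      rw [← huv]
      exact dvd_add (Dvd.dvd.mul_left hm0 u) (Dvd.dvd.mul_left hn0 v)
    have h2 := Int.le_of_dvd one_pos h1
    have : (7 : ℤ) ≤ q := by exact_mod_cast hq7
    omega
  have h4 : ((famC4 c4 c6 m n : ℤ) : ZMod q) ≠ 0 := by
    rw [hcast4]
    by_cases hbad : famC4 ((c4 : ℤ) : ZMod q) ((c6 : ℤ) : ZMod q) ((m : ℤ) : ZMod q)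
        ((n : ℤ) : ZMod q) ^ 3
        - famC6 ((c4 : ℤ) : ZMod q) ((c6 : ℤ) : ZMod q) ((m : ℤ) : ZMod q) ((n : ℤ) : ZMod q) ^ 2
          = 0
    · exact klein_semistable q hq7 _ _ _ _ hΔq hmn hbad
    · intro h0
      apply hbad
      rw [h0, ← hcast6, h6]
      ring
  exact h26_no_root q hq7 h3q _ _ h6 h4

/-- From an irreducible factor of the family polynomial to a number field with a point. -/
theorem h26_field_of_factor (c4 c6 : ℤ) (g : ℚ[X]) (hirr : Irreducible g)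
    (hdvd : g ∣ famC6 (C (c4 : ℚ)) (C (c6 : ℚ)) 1 X) (h3 : ¬ IsSquare (3 : AdjoinRoot g)) :
    ∃ (F : Type) (_ : Field F) (_ : NumberField F) (a b : 𝓞 F),
      a ≠ 0 ∧ famC6 (c4 : 𝓞 F) (c6 : 𝓞 F) a b = 0 ∧ ¬ IsSquare (3 : F) := by
  have : Fact (Irreducible g) := ⟨hirr⟩
  have : Module.Finite ℚ (AdjoinRoot g) := (AdjoinRoot.powerBasis hirr.ne_zero).finite
  have : CharZero (AdjoinRoot g) := charZero_of_injective_algebraMap (algebraMap ℚ (AdjoinRoot g)).injective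
  have : NumberField (AdjoinRoot g) := ⟨⟩
  -- the root
  have hroot : famC6 ((c4 : ℤ) : AdjoinRoot g) ((c6 : ℤ) : AdjoinRoot g) 1 (AdjoinRoot.root g)
      = 0 := by
    have h0 : AdjoinRoot.mk g (famC6 (C (c4 : ℚ)) (C (c6 : ℚ)) 1 X) = 0 :=
      AdjoinRoot.mk_eq_zero.mpr hdvd
    rw [map_famC6] at h0
    simpa using h0
  obtain ⟨x, y, hy, hxy⟩ := IsFractionRing.div_surjective (A := 𝓞 (AdjoinRoot g)) (AdjoinRoot.root g)
  have hy0 : y ≠ 0 := nonZeroDivisors.ne_zero hy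
  have hy0' : algebraMap (𝓞 (AdjoinRoot g)) (AdjoinRoot g) y ≠ 0 := by
    simpa using hy0
  refine ⟨AdjoinRoot g, inferInstance, inferInstance, y, x, hy0, ?_, h3⟩
  apply FaithfulSMul.algebraMap_injective (𝓞 (AdjoinRoot g)) (AdjoinRoot g)
  rw [map_famC6, map_zero, map_intCast, map_intCast]
  have hx : algebraMap (𝓞 (AdjoinRoot g)) (AdjoinRoot g) x
      = algebraMap (𝓞 (AdjoinRoot g)) (AdjoinRoot g) y * AdjoinRoot.root g := by
    rw [← hxy]; field_simp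
  have key := famC6_smul ((c4 : ℤ) : AdjoinRoot g) ((c6 : ℤ) : AdjoinRoot g)
    (algebraMap (𝓞 (AdjoinRoot g)) (AdjoinRoot g) y) 1 (AdjoinRoot.root g)
  rw [mul_one, hroot, mul_zero] at key
  rw [hx]
  exact key

/-- Route AUX from an irreducible factor `g` of `famC6 c4 c6 1 X` with `√3 ∉ ℚ[X]/(g)`. -/
theorem h26_irr_of_factor (c4 c6 : ℤ) (hΔ : c4 ^ 3 - c6 ^ 2 ≠ 0) (M : ℤ) (hM : 2 ≤ M)
    (g : ℚ[X]) (hirr : Irreducible g) (hdvd : g ∣ famC6 (C (c4 : ℚ)) (C (c6 : ℚ)) 1 X)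
    (h3 : ¬ IsSquare (3 : AdjoinRoot g)) :
    ∃ m n : ℤ, M ∣ m ∧ M ∣ n - 1 ∧ IsCoprime m n ∧ ∀ z : ℚ,
      z ^ 4 - 486 * ((famC4 c4 c6 m n : ℤ) : ℚ) * z ^ 2 - 5832 * ((famC6 c4 c6 m n : ℤ) : ℚ) * z
        - 19683 * ((famC4 c4 c6 m n : ℤ) : ℚ) ^ 2 ≠ 0 := by
  obtain ⟨F, _, _, a, b, ha, hab, h3F⟩ := h26_field_of_factor c4 c6 g hirr hdvd h3
  exact h26_irr_of_field c4 c6 hΔ M hM F a b ha hab h3F

end Fermat.Agent.S52
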