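import Mathlib
import Fermat.Agent.S52.h26_IrrAuxCore
import Fermat.Agent.S52.h16_ResKlein

/-!
# S52, block (IV), route AUX: `irr_exists_aux`

For integers `c4, c6` with `c4 ^ 3 - c6 ^ 2 ≠ 0` and `M ≥ 2` there are coprime integers `m ≡ 0`,
`n ≡ 1` modulo `M` such that the `3`-division quartic of the member
`(famC4 c4 c6 m n, famC6 c4 c6 m n)` of the family has no rational root.
-/

namespace Fermat.Agent.S52

open Polynomial

/-- **Route AUX for block (IV)**: a member of the family, congruent to the given curve modulo `M`,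
whose `3`-division quartic has no rational root. -/
theorem irr_exists_aux (c4 c6 : ℤ) (hΔ : c4 ^ 3 - c6 ^ 2 ≠ 0) (M : ℤ) (hM : 2 ≤ M) :
    ∃ m n : ℤ, M ∣ m ∧ M ∣ n - 1 ∧ IsCoprime m n ∧ ∀ z : ℚ,
      z ^ 4 - 486 * ((famC4 c4 c6 m n : ℤ) : ℚ) * z ^ 2 - 5832 * ((famC6 c4 c6 m n : ℤ) : ℚ) * z
        - 19683 * ((famC4 c4 c6 m n : ℤ) : ℚ) ^ 2 ≠ 0 := by
  obtain ⟨g, -, hirr, hdvd, h3⟩ := h16_exists_nonsquare_factor c4 c6 hΔ
  exact h26_irr_of_factor c4 c6 hΔ M hM g hirr hdvd h3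

end Fermat.Agent.S52
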