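import Fermat.Agent.S52.KleinTorsDefs

/-!
# S52 block (II): relations and difference identities in `ℤ[φ, ζ][x, y]` (helper50; generated, cofactors computed by exact arithmetic)
-/

set_option autoImplicit false

namespace Fermat.Agent.S52

section KleinGen

variable {R : Type*} [CommRing R]

theorem kl_zeta2 (φ ζ : R) (hz : ζ ^ 2 + φ * ζ + 1 = 0) : ζ ^ 2 = -φ * ζ - 1 := by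
  linear_combination hz

theorem kl_zeta3 (φ ζ : R) (h1 : φ ^ 2 = φ + 1) (hz : ζ ^ 2 + φ * ζ + 1 = 0) :
    ζ ^ 3 = φ * ζ + φ := by
  linear_combination
    (ζ) * h1
    + ((-φ + ζ)) * hz

theorem kl_zeta4 (φ ζ : R) (h1 : φ ^ 2 = φ + 1) (hz : ζ ^ 2 + φ * ζ + 1 = 0) :
    ζ ^ 4 = -ζ - φ := by
  linear_combination
    ((-φ * ζ - ζ - 1)) * h1
    + ((φ ^ 2 - φ * ζ + ζ ^ 2 - 1)) * hz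

theorem kl_zeta5 (φ ζ : R) (h1 : φ ^ 2 = φ + 1) (hz : ζ ^ 2 + φ * ζ + 1 = 0) :
    ζ ^ 5 = 1 := by
  linear_combination
    ((φ ^ 2 * ζ + φ * ζ + φ - ζ + 1)) * h1
    + ((-φ ^ 3 + φ ^ 2 * ζ - φ * ζ ^ 2 + 2 * φ + ζ ^ 3 - ζ)) * hz

theorem kl_b_eq (φ ζ : R) (h1 : φ ^ 2 = φ + 1) (hz : ζ ^ 2 + φ * ζ + 1 = 0) :
    ζ ^ 2 - ζ ^ 3 = -2 * φ * ζ - φ - 1 := by
  linear_combination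
    ((-ζ)) * h1
    + ((φ - ζ + 1)) * hz

/-- `b² = -(φ + 2)` for `b = -2φζ - φ - 1`. -/
theorem kl_b_sq (φ ζ : R) (h1 : φ ^ 2 = φ + 1) (hz : ζ ^ 2 + φ * ζ + 1 = 0) :
    (-2 * φ * ζ - φ - 1) ^ 2 = -(φ + 2) := by
  linear_combination
    ((-4 * φ * ζ - 3)) * h1
    + (4 * φ ^ 2) * hz

theorem kl_phi2_pow5 (φ : R) (h1 : φ ^ 2 = φ + 1) : (φ + 2) ^ 5 = -kQ10 φ := by
  simp only [kQ10]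
  linear_combination
    ((φ ^ 3 + 11 * φ ^ 2 + 52 * φ + 143)) * h1

theorem kl_phi2_pow7 (φ : R) (h1 : φ ^ 2 = φ + 1) : (φ + 2) ^ 7 = 3625 * φ + 2250 := by
  linear_combination
    ((φ ^ 5 + 15 * φ ^ 4 + 100 * φ ^ 3 + 395 * φ ^ 2 + 1055 * φ + 2122)) * h1

/-- `b¹⁰ = kQ10`. -/
theorem kl_b_pow10 (φ ζ : R) (h1 : φ ^ 2 = φ + 1) (hz : ζ ^ 2 + φ * ζ + 1 = 0) :
    (-2 * φ * ζ - φ - 1) ^ 10 = kQ10 φ := by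
  have hb := kl_b_sq φ ζ h1 hz
  have h5 := kl_phi2_pow5 φ h1
  have e : (-2 * φ * ζ - φ - 1) ^ 10 = ((-2 * φ * ζ - φ - 1) ^ 2) ^ 5 := by ring
  rw [e, hb]
  linear_combination -h5

/-- `b¹⁵ = kQ15`. -/
theorem kl_b_pow15 (φ ζ : R) (h1 : φ ^ 2 = φ + 1) (hz : ζ ^ 2 + φ * ζ + 1 = 0) :
    (-2 * φ * ζ - φ - 1) ^ 15 = kQ15 φ ζ := by
  have hb := kl_b_sq φ ζ h1 hz
  have h7 := kl_phi2_pow7 φ h1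
  have e : (-2 * φ * ζ - φ - 1) ^ 15 =
      ((-2 * φ * ζ - φ - 1) ^ 2) ^ 7 * (-2 * φ * ζ - φ - 1) := by ring
  rw [e, hb]
  simp only [kQ15]
  linear_combination (2 * φ * ζ + φ + 1) * h7

theorem kl_phi2_inv (φ : R) (h1 : φ ^ 2 = φ + 1) : (φ + 2) * (3 - φ) = 5 := by
  linear_combination
    ((-1)) * h1

theorem kl_S_kX (φ ζ x y : R) (h1 : φ ^ 2 = φ + 1) (hz : ζ ^ 2 + φ * ζ + 1 = 0) :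
    kX (ζ ^ 3 * x) (ζ ^ 2 * y) = kXS φ ζ x y := by
  have h5 : ζ ^ 5 = 1 := kl_zeta5 φ ζ h1 hz
  have e2 : ζ ^ 2 = -φ * ζ - 1 := kl_zeta2 φ ζ hz
  have e3 : ζ ^ 3 = φ * ζ + φ := kl_zeta3 φ ζ h1 hz
  have e4 : ζ ^ 4 = -ζ - φ := kl_zeta4 φ ζ h1 hz
  simp only [kX, kXS]
  linear_combination
    ((3 * ζ ^ 25 + 3 * ζ ^ 20 + 3 * ζ ^ 15 + 3 * ζ ^ 10 + 3 * ζ ^ 5 + 3) * x ^ 10
      + (-36 * ζ ^ 24 - 36 * ζ ^ 19 - 36 * ζ ^ 14 - 36 * ζ ^ 9 - 36 * ζ ^ 4) * x ^ 9 * y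
      + (72 * ζ ^ 23 + 72 * ζ ^ 18 + 72 * ζ ^ 13 + 72 * ζ ^ 8 + 72 * ζ ^ 3) * x ^ 8 * y ^ 2
      + (-108 * ζ ^ 22 - 108 * ζ ^ 17 - 108 * ζ ^ 12 - 108 * ζ ^ 7 - 108 * ζ ^ 2) * x ^ 7 * y ^ 3
      + (180 * ζ ^ 21 + 180 * ζ ^ 16 + 180 * ζ ^ 11 + 180 * ζ ^ 6 + 180 * ζ) * x ^ 6 * y ^ 4
      + (-90 * ζ ^ 20 - 90 * ζ ^ 15 - 90 * ζ ^ 10 - 90 * ζ ^ 5 - 90) * x ^ 5 * y ^ 5
      + (72 * ζ ^ 19 + 72 * ζ ^ 14 + 72 * ζ ^ 9 + 72 * ζ ^ 4) * x ^ 4 * y ^ 6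
      + (36 * ζ ^ 18 + 36 * ζ ^ 13 + 36 * ζ ^ 8 + 36 * ζ ^ 3) * x ^ 3 * y ^ 7
      + (36 * ζ ^ 17 + 36 * ζ ^ 12 + 36 * ζ ^ 7 + 36 * ζ ^ 2) * x ^ 2 * y ^ 8
      + (3 * ζ ^ 15 + 3 * ζ ^ 10 + 3 * ζ ^ 5 + 3) * y ^ 10) * h5
    + ((-108) * x ^ 7 * y ^ 3 + 36 * x ^ 2 * y ^ 8) * e2
    + (72 * x ^ 8 * y ^ 2 + 36 * x ^ 3 * y ^ 7) * e3
    + ((-36) * x ^ 9 * y + 72 * x ^ 4 * y ^ 6) * e4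

theorem kl_S_kY (φ ζ x y : R) (h1 : φ ^ 2 = φ + 1) (hz : ζ ^ 2 + φ * ζ + 1 = 0) :
    kY (ζ ^ 3 * x) (ζ ^ 2 * y) = kYS φ ζ x y := by
  have h5 : ζ ^ 5 = 1 := kl_zeta5 φ ζ h1 hz
  have e2 : ζ ^ 2 = -φ * ζ - 1 := kl_zeta2 φ ζ hz
  have e3 : ζ ^ 3 = φ * ζ + φ := kl_zeta3 φ ζ h1 hz
  have e4 : ζ ^ 4 = -ζ - φ := kl_zeta4 φ ζ h1 hz
  simp only [kY, kYS]
  linear_combination
    ((108 * ζ ^ 39 + 108 * ζ ^ 34 + 108 * ζ ^ 29 + 108 * ζ ^ 24 + 108 * ζ ^ 19 + 108 * ζ ^ 14 + 108 * ζ ^ 9 + 108 * ζ ^ 4) * x ^ 14 * y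
      + (-432 * ζ ^ 38 - 432 * ζ ^ 33 - 432 * ζ ^ 28 - 432 * ζ ^ 23 - 432 * ζ ^ 18 - 432 * ζ ^ 13 - 432 * ζ ^ 8 - 432 * ζ ^ 3) * x ^ 13 * y ^ 2
      + (972 * ζ ^ 37 + 972 * ζ ^ 32 + 972 * ζ ^ 27 + 972 * ζ ^ 22 + 972 * ζ ^ 17 + 972 * ζ ^ 12 + 972 * ζ ^ 7 + 972 * ζ ^ 2) * x ^ 12 * y ^ 3
      + (-1620 * ζ ^ 36 - 1620 * ζ ^ 31 - 1620 * ζ ^ 26 - 1620 * ζ ^ 21 - 1620 * ζ ^ 16 - 1620 * ζ ^ 11 - 1620 * ζ ^ 6 - 1620 * ζ) * x ^ 11 * y ^ 4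
      + (2700 * ζ ^ 35 + 2700 * ζ ^ 30 + 2700 * ζ ^ 25 + 2700 * ζ ^ 20 + 2700 * ζ ^ 15 + 2700 * ζ ^ 10 + 2700 * ζ ^ 5 + 2700) * x ^ 10 * y ^ 5
      + (-3132 * ζ ^ 34 - 3132 * ζ ^ 29 - 3132 * ζ ^ 24 - 3132 * ζ ^ 19 - 3132 * ζ ^ 14 - 3132 * ζ ^ 9 - 3132 * ζ ^ 4) * x ^ 9 * y ^ 6
      + (2268 * ζ ^ 33 + 2268 * ζ ^ 28 + 2268 * ζ ^ 23 + 2268 * ζ ^ 18 + 2268 * ζ ^ 13 + 2268 * ζ ^ 8 + 2268 * ζ ^ 3) * x ^ 8 * y ^ 7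
      + (-648 * ζ ^ 32 - 648 * ζ ^ 27 - 648 * ζ ^ 22 - 648 * ζ ^ 17 - 648 * ζ ^ 12 - 648 * ζ ^ 7 - 648 * ζ ^ 2) * x ^ 7 * y ^ 8
      + (540 * ζ ^ 31 + 540 * ζ ^ 26 + 540 * ζ ^ 21 + 540 * ζ ^ 16 + 540 * ζ ^ 11 + 540 * ζ ^ 6 + 540 * ζ) * x ^ 6 * y ^ 9
      + (432 * ζ ^ 29 + 432 * ζ ^ 24 + 432 * ζ ^ 19 + 432 * ζ ^ 14 + 432 * ζ ^ 9 + 432 * ζ ^ 4) * x ^ 4 * y ^ 11
      + (-108 * ζ ^ 28 - 108 * ζ ^ 23 - 108 * ζ ^ 18 - 108 * ζ ^ 13 - 108 * ζ ^ 8 - 108 * ζ ^ 3) * x ^ 3 * y ^ 12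
      + (108 * ζ ^ 27 + 108 * ζ ^ 22 + 108 * ζ ^ 17 + 108 * ζ ^ 12 + 108 * ζ ^ 7 + 108 * ζ ^ 2) * x ^ 2 * y ^ 13) * h5
    + (972 * x ^ 12 * y ^ 3 + (-648) * x ^ 7 * y ^ 8 + 108 * x ^ 2 * y ^ 13) * e2
    + ((-432) * x ^ 13 * y ^ 2 + 2268 * x ^ 8 * y ^ 7 + (-108) * x ^ 3 * y ^ 12) * e3
    + (108 * x ^ 14 * y + (-3132) * x ^ 9 * y ^ 6 + 432 * x ^ 4 * y ^ 11) * e4

/-- `x(R(u)) - x(R(T₀ u))` divides `f²`. -/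
theorem kl_diff1 (φ x y : R) (h1 : φ ^ 2 = φ + 1) :
    (kQ10 φ * kX x y - kNX φ x y) * kD1 φ x y = 36 * kQ10 φ * kf x y ^ 2 := by
  simp only [kX, kNX, kD1, kQ10, kf]
  linear_combination
    ((-2700) * x ^ 22 * y ^ 2 + (-3600) * x ^ 21 * y ^ 3 + 2700 * x ^ 20 * y ^ 4
      + 2700 * x ^ 19 * y ^ 5 + (-61200) * x ^ 17 * y ^ 7 + (-81900) * x ^ 16 * y ^ 8
      + 55800 * x ^ 15 * y ^ 9 + 55800 * x ^ 14 * y ^ 10 + (-351000) * x ^ 12 * y ^ 12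
      + (-461700) * x ^ 11 * y ^ 13 + 284400 * x ^ 10 * y ^ 14 + 284400 * x ^ 9 * y ^ 15
      + (-47700) * x ^ 7 * y ^ 17 + 42300 * x ^ 6 * y ^ 18 + (-26100) * x ^ 5 * y ^ 19
      + (-26100) * x ^ 4 * y ^ 20 + 7200 * x ^ 2 * y ^ 22) * h1

/-- `x(2 R(u)) - x(R(T₀ u))` divides `f²`. -/
theorem kl_diff2 (φ x y : R) (h1 : φ ^ 2 = φ + 1) :
    (kQ10 φ * kX y (-x) - kNX φ x y) * kD2 φ x y = 36 * kQ10 φ * kf x y ^ 2 := by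
  simp only [kX, kNX, kD2, kQ10, kf]
  linear_combination
    ((-2700) * x ^ 22 * y ^ 2 + 3600 * x ^ 20 * y ^ 4 + (-3600) * x ^ 19 * y ^ 5
      + 2700 * x ^ 18 * y ^ 6 + (-61200) * x ^ 17 * y ^ 7 + 81900 * x ^ 15 * y ^ 9
      + (-81900) * x ^ 14 * y ^ 10 + 55800 * x ^ 13 * y ^ 11 + (-351000) * x ^ 12 * y ^ 12
      + 461700 * x ^ 10 * y ^ 14 + (-461700) * x ^ 9 * y ^ 15 + 284400 * x ^ 8 * y ^ 16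
      + (-47700) * x ^ 7 * y ^ 17 + (-42300) * x ^ 5 * y ^ 19 + 42300 * x ^ 4 * y ^ 20
      + (-26100) * x ^ 3 * y ^ 21 + 7200 * x ^ 2 * y ^ 22) * h1

end KleinGen

end Fermat.Agent.S52
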