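import Fermat.Agent.S52.KleinTorsDefs

/-!
# S52 block (II): identities for `N = [[1, φ], [φ, -1]]` (small) (helper50; generated, cofactors computed by exact arithmetic)
-/

set_option autoImplicit false

namespace Fermat.Agent.S52

section KleinGen

variable {R : Type*} [CommRing R]

theorem kl_N_kf (φ x y : R) (h1 : φ ^ 2 = φ + 1) :
    kf (x + φ * y) (φ * x - y) = (φ + 2) ^ 6 * kf x y := by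
  simp only [kf]
  linear_combination
    ((-φ ^ 9 - φ ^ 8 - 2 * φ ^ 7 - 3 * φ ^ 6 - 5 * φ ^ 5 + 3 * φ ^ 4 - 2 * φ ^ 3 + φ ^ 2 - φ) * x ^ 12
      + (-φ ^ 10 - φ ^ 9 + 9 * φ ^ 8 + 8 * φ ^ 7 + 17 * φ ^ 6 + 91 * φ ^ 5 + 107 * φ ^ 4 + 120 * φ ^ 3 + 167 * φ ^ 2 + 127 * φ + 65) * x ^ 11 * y
      + (11 * φ ^ 9 + 11 * φ ^ 8 - 33 * φ ^ 7 + 143 * φ ^ 6 + 110 * φ ^ 5 - 143 * φ ^ 4 - 33 * φ ^ 3 - 11 * φ ^ 2 + 11 * φ) * x ^ 10 * y ^ 2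
      + (-55 * φ ^ 8 + 165 * φ ^ 7 + 275 * φ ^ 6 - 550 * φ ^ 5 - 275 * φ ^ 4 + 165 * φ ^ 3 + 55 * φ ^ 2) * x ^ 9 * y ^ 3
      + (165 * φ ^ 8 + 330 * φ ^ 7 - 825 * φ ^ 6 - 825 * φ ^ 5 + 825 * φ ^ 4 + 330 * φ ^ 3 - 165 * φ ^ 2) * x ^ 8 * y ^ 4
      + (66 * φ ^ 9 + 66 * φ ^ 8 - 858 * φ ^ 7 - 1122 * φ ^ 6 + 1320 * φ ^ 5 + 1122 * φ ^ 4 - 858 * φ ^ 3 - 66 * φ ^ 2 + 66 * φ) * x ^ 7 * y ^ 5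
      + (11 * φ ^ 10 + 11 * φ ^ 9 - 374 * φ ^ 8 - 363 * φ ^ 7 + 1738 * φ ^ 6 + 2299 * φ ^ 5 - 374 * φ ^ 4 + 869 * φ ^ 3 + 2310 * φ ^ 2 + 1419 * φ + 693) * x ^ 6 * y ^ 6
      + (-66 * φ ^ 9 - 66 * φ ^ 8 + 858 * φ ^ 7 + 1122 * φ ^ 6 - 1320 * φ ^ 5 - 1122 * φ ^ 4 + 858 * φ ^ 3 + 66 * φ ^ 2 - 66 * φ) * x ^ 5 * y ^ 7
      + (165 * φ ^ 8 + 330 * φ ^ 7 - 825 * φ ^ 6 - 825 * φ ^ 5 + 825 * φ ^ 4 + 330 * φ ^ 3 - 165 * φ ^ 2) * x ^ 4 * y ^ 8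
      + (55 * φ ^ 8 - 165 * φ ^ 7 - 275 * φ ^ 6 + 550 * φ ^ 5 + 275 * φ ^ 4 - 165 * φ ^ 3 - 55 * φ ^ 2) * x ^ 3 * y ^ 9
      + (11 * φ ^ 9 + 11 * φ ^ 8 - 33 * φ ^ 7 + 143 * φ ^ 6 + 110 * φ ^ 5 - 143 * φ ^ 4 - 33 * φ ^ 3 - 11 * φ ^ 2 + 11 * φ) * x ^ 2 * y ^ 10
      + (φ ^ 10 + φ ^ 9 - 9 * φ ^ 8 - 8 * φ ^ 7 - 17 * φ ^ 6 - 91 * φ ^ 5 - 107 * φ ^ 4 - 120 * φ ^ 3 - 167 * φ ^ 2 - 127 * φ - 65) * x * y ^ 11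
      + (-φ ^ 9 - φ ^ 8 - 2 * φ ^ 7 - 3 * φ ^ 6 - 5 * φ ^ 5 + 3 * φ ^ 4 - 2 * φ ^ 3 + φ ^ 2 - φ) * y ^ 12) * h1

theorem kl_N_kX (φ x y : R) (h1 : φ ^ 2 = φ + 1) :
    kX (x + φ * y) (φ * x - y) = kNX φ x y := by
  simp only [kX, kNX]
  linear_combination
    ((3 * φ ^ 8 + 3 * φ ^ 7 + 42 * φ ^ 6 + 81 * φ ^ 5 + 195 * φ ^ 4 + 186 * φ ^ 3 + 561 * φ ^ 2 + 639 * φ + 1272) * x ^ 10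
      + (42 * φ ^ 7 + 150 * φ ^ 6 + 192 * φ ^ 5 - 360 * φ ^ 4 + 480 * φ ^ 3 - 186 * φ ^ 2 + 150 * φ - 36) * x ^ 9 * y
      + (36 * φ ^ 8 + 144 * φ ^ 7 + 171 * φ ^ 6 - 1341 * φ ^ 5 + 810 * φ ^ 4 + 207 * φ ^ 3 - 207 * φ ^ 2 + 72 * φ - 72) * x ^ 8 * y ^ 2
      + (36 * φ ^ 8 + 36 * φ ^ 7 - 1584 * φ ^ 6 + 1116 * φ ^ 5 + 2520 * φ ^ 4 - 828 * φ ^ 3 - 288 * φ ^ 2 + 252 * φ - 108) * x ^ 7 * y ^ 3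
      + (72 * φ ^ 8 - 630 * φ ^ 7 + 1422 * φ ^ 6 + 3780 * φ ^ 5 - 1080 * φ ^ 4 - 3276 * φ ^ 3 + 1170 * φ ^ 2 - 126 * φ - 180) * x ^ 6 * y ^ 4
      + (-90 * φ ^ 8 + 558 * φ ^ 7 + 1206 * φ ^ 6 - 2700 * φ ^ 5 - 7470 * φ ^ 4 - 2250 * φ ^ 3 - 3744 * φ ^ 2 - 10458 * φ - 14940) * x ^ 5 * y ^ 5
      + (180 * φ ^ 8 - 126 * φ ^ 7 - 1170 * φ ^ 6 - 3276 * φ ^ 5 + 1080 * φ ^ 4 + 3780 * φ ^ 3 - 1422 * φ ^ 2 - 630 * φ - 72) * x ^ 4 * y ^ 6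
      + (-108 * φ ^ 8 - 252 * φ ^ 7 - 288 * φ ^ 6 + 828 * φ ^ 5 + 2520 * φ ^ 4 - 1116 * φ ^ 3 - 1584 * φ ^ 2 - 36 * φ + 36) * x ^ 3 * y ^ 7
      + (72 * φ ^ 8 + 72 * φ ^ 7 + 207 * φ ^ 6 + 207 * φ ^ 5 - 810 * φ ^ 4 - 1341 * φ ^ 3 - 171 * φ ^ 2 + 144 * φ - 36) * x ^ 2 * y ^ 8
      + (-36 * φ ^ 8 - 150 * φ ^ 7 - 186 * φ ^ 6 - 480 * φ ^ 5 - 360 * φ ^ 4 - 192 * φ ^ 3 + 150 * φ ^ 2 - 42 * φ) * x * y ^ 9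
      + (3 * φ ^ 8 + 39 * φ ^ 7 + 114 * φ ^ 6 + 261 * φ ^ 5 + 555 * φ ^ 4 + 906 * φ ^ 3 + 1533 * φ ^ 2 + 2403 * φ + 3972) * y ^ 10) * h1

theorem kl_N_kY (φ x y : R) (h1 : φ ^ 2 = φ + 1) :
    kY (x + φ * y) (φ * x - y) = kNY φ x y := by
  simp only [kY, kNY]
  linear_combination
    ((108 * φ ^ 11 + 540 * φ ^ 9 + 540 * φ ^ 8 + 1620 * φ ^ 7 + 1512 * φ ^ 6 + 5400 * φ ^ 5 + 3780 * φ ^ 4 + 11880 * φ ^ 3 + 14040 * φ ^ 2 + 26892 * φ + 40500) * x ^ 15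
      + (216 * φ ^ 12 - 108 * φ ^ 11 + 432 * φ ^ 10 + 1620 * φ ^ 9 + 540 * φ ^ 8 - 2376 * φ ^ 7 + 11448 * φ ^ 6 - 13932 * φ ^ 5 + 8640 * φ ^ 4 - 4320 * φ ^ 3 + 2484 * φ ^ 2 - 972 * φ + 108) * x ^ 14 * y
      + (108 * φ ^ 13 - 216 * φ ^ 12 - 324 * φ ^ 11 + 3348 * φ ^ 10 + 540 * φ ^ 9 - 16848 * φ ^ 8 + 41796 * φ ^ 7 - 51516 * φ ^ 6 + 4212 * φ ^ 5 + 14580 * φ ^ 4 - 4428 * φ ^ 3 + 756 * φ ^ 2 - 1836 * φ + 432) * x ^ 13 * y ^ 2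
      + (-108 * φ ^ 13 + 216 * φ ^ 12 + 3996 * φ ^ 11 + 3348 * φ ^ 10 - 36720 * φ ^ 9 + 84888 * φ ^ 8 - 82296 * φ ^ 7 - 72576 * φ ^ 6 + 127332 * φ ^ 5 - 3240 * φ ^ 4 - 29592 * φ ^ 3 + 4644 * φ ^ 2 - 1836 * φ + 972) * x ^ 12 * y ^ 3
      + (432 * φ ^ 13 + 1728 * φ ^ 12 - 324 * φ ^ 11 - 42660 * φ ^ 10 + 99360 * φ ^ 9 - 85212 * φ ^ 8 - 224208 * φ ^ 7 + 300024 * φ ^ 6 + 140940 * φ ^ 5 - 235980 * φ ^ 4 + 19548 * φ ^ 3 + 14472 * φ ^ 2 - 3456 * φ + 1620) * x ^ 11 * y ^ 4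
      + (-1512 * φ ^ 12 - 22248 * φ ^ 11 + 94500 * φ ^ 10 - 69660 * φ ^ 9 - 290520 * φ ^ 8 + 463752 * φ ^ 7 + 526068 * φ ^ 6 - 526500 * φ ^ 5 - 1620 * φ ^ 4 + 423360 * φ ^ 3 + 307152 * φ ^ 2 + 576828 * φ + 907200) * x ^ 10 * y ^ 5
      + (540 * φ ^ 13 - 3996 * φ ^ 12 + 54648 * φ ^ 11 - 79812 * φ ^ 10 - 263520 * φ ^ 9 + 480600 * φ ^ 8 + 717336 * φ ^ 7 - 942408 * φ ^ 6 - 577908 * φ ^ 5 + 593460 * φ ^ 4 + 16740 * φ ^ 3 - 66744 * φ ^ 2 + 7992 * φ + 3132) * x ^ 9 * y ^ 6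
      + (-648 * φ ^ 13 + 12636 * φ ^ 12 - 64476 * φ ^ 11 - 127008 * φ ^ 10 + 417960 * φ ^ 9 + 643788 * φ ^ 8 - 1078596 * φ ^ 7 - 977184 * φ ^ 6 + 941868 * φ ^ 5 + 317520 * φ ^ 4 - 256932 * φ ^ 3 - 4536 * φ ^ 2 + 20736 * φ + 2268) * x ^ 8 * y ^ 7
      + (2268 * φ ^ 13 - 20736 * φ ^ 12 - 4536 * φ ^ 11 + 256932 * φ ^ 10 + 317520 * φ ^ 9 - 941868 * φ ^ 8 - 977184 * φ ^ 7 + 1078596 * φ ^ 6 + 643788 * φ ^ 5 - 417960 * φ ^ 4 - 127008 * φ ^ 3 + 64476 * φ ^ 2 + 12636 * φ + 648) * x ^ 7 * y ^ 8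
      + (-3132 * φ ^ 13 + 7992 * φ ^ 12 + 66744 * φ ^ 11 + 16740 * φ ^ 10 - 593460 * φ ^ 9 - 577908 * φ ^ 8 + 942408 * φ ^ 7 + 717336 * φ ^ 6 - 480600 * φ ^ 5 - 263520 * φ ^ 4 + 79812 * φ ^ 3 + 54648 * φ ^ 2 + 3996 * φ + 540) * x ^ 6 * y ^ 9
      + (2700 * φ ^ 13 + 3672 * φ ^ 12 - 16848 * φ ^ 11 - 166860 * φ ^ 10 - 69120 * φ ^ 9 + 715500 * φ ^ 8 + 647568 * φ ^ 7 - 153252 * φ ^ 6 + 141480 * φ ^ 5 + 812160 * φ ^ 4 + 1269000 * φ ^ 3 + 1939248 * φ ^ 2 + 3089988 * φ + 5008500) * x ^ 5 * y ^ 10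
      + (-1620 * φ ^ 13 - 3456 * φ ^ 12 - 14472 * φ ^ 11 + 19548 * φ ^ 10 + 235980 * φ ^ 9 + 140940 * φ ^ 8 - 300024 * φ ^ 7 - 224208 * φ ^ 6 + 85212 * φ ^ 5 + 99360 * φ ^ 4 + 42660 * φ ^ 3 - 324 * φ ^ 2 - 1728 * φ + 432) * x ^ 4 * y ^ 11
      + (972 * φ ^ 13 + 1836 * φ ^ 12 + 4644 * φ ^ 11 + 29592 * φ ^ 10 - 3240 * φ ^ 9 - 127332 * φ ^ 8 - 72576 * φ ^ 7 + 82296 * φ ^ 6 + 84888 * φ ^ 5 + 36720 * φ ^ 4 + 3348 * φ ^ 3 - 3996 * φ ^ 2 + 216 * φ + 108) * x ^ 3 * y ^ 12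
      + (-432 * φ ^ 13 - 1836 * φ ^ 12 - 756 * φ ^ 11 - 4428 * φ ^ 10 - 14580 * φ ^ 9 + 4212 * φ ^ 8 + 51516 * φ ^ 7 + 41796 * φ ^ 6 + 16848 * φ ^ 5 + 540 * φ ^ 4 - 3348 * φ ^ 3 - 324 * φ ^ 2 + 216 * φ + 108) * x ^ 2 * y ^ 13
      + (108 * φ ^ 13 + 972 * φ ^ 12 + 2484 * φ ^ 11 + 4320 * φ ^ 10 + 8640 * φ ^ 9 + 13932 * φ ^ 8 + 11448 * φ ^ 7 + 2376 * φ ^ 6 + 540 * φ ^ 5 - 1620 * φ ^ 4 + 432 * φ ^ 3 + 108 * φ ^ 2 + 216 * φ) * x * y ^ 14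
      + (-108 * φ ^ 12 - 540 * φ ^ 11 - 1620 * φ ^ 10 - 3780 * φ ^ 9 - 8100 * φ ^ 8 - 15012 * φ ^ 7 - 25380 * φ ^ 6 - 41040 * φ ^ 5 - 66960 * φ ^ 4 - 108000 * φ ^ 3 - 175392 * φ ^ 2 - 283500 * φ - 459000) * y ^ 15) * h1

theorem kl_N_kP1 (φ x y : R) (h1 : φ ^ 2 = φ + 1) :
    kP1 (x + φ * y) (φ * x - y) = -(φ + 2) ^ 5 * (kP1 x y + φ * kP2 x y) := by
  simp only [kP1, kP2]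
  linear_combination
    ((-11 * φ ^ 8 - 11 * φ ^ 7 - 22 * φ ^ 6 - 33 * φ ^ 5 - 55 * φ ^ 4 - 21 * φ ^ 3 - 66 * φ ^ 2 - 47 * φ - 33) * x ^ 11
      + (-11 * φ ^ 9 - 11 * φ ^ 8 + 88 * φ ^ 7 + 77 * φ ^ 6 + 165 * φ ^ 5 + 627 * φ ^ 4 + 682 * φ ^ 3 + 539 * φ ^ 2 + 341 * φ) * x ^ 10 * y
      + (110 * φ ^ 8 + 110 * φ ^ 7 - 275 * φ ^ 6 + 825 * φ ^ 5 + 550 * φ ^ 4 - 605 * φ ^ 3 - 55 * φ ^ 2) * x ^ 9 * y ^ 2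
      + (-495 * φ ^ 7 + 825 * φ ^ 6 + 1650 * φ ^ 5 - 2475 * φ ^ 4 - 825 * φ ^ 3 + 660 * φ ^ 2) * x ^ 8 * y ^ 3
      + (990 * φ ^ 7 + 2310 * φ ^ 6 - 3300 * φ ^ 5 - 3300 * φ ^ 4 + 3300 * φ ^ 3 + 330 * φ ^ 2 - 330 * φ) * x ^ 7 * y ^ 4
      + (396 * φ ^ 8 + 396 * φ ^ 7 - 4158 * φ ^ 6 - 6072 * φ ^ 5 + 2970 * φ ^ 4 + 198 * φ ^ 3 - 6072 * φ ^ 2 - 3234 * φ - 2046) * x ^ 6 * y ^ 5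
      + (66 * φ ^ 9 + 66 * φ ^ 8 - 1848 * φ ^ 7 - 1782 * φ ^ 6 + 6270 * φ ^ 5 + 7656 * φ ^ 4 + 66 * φ ^ 3 + 2772 * φ ^ 2 + 2508 * φ) * x ^ 5 * y ^ 6
      + (-330 * φ ^ 8 - 330 * φ ^ 7 + 3300 * φ ^ 6 + 3300 * φ ^ 5 - 3300 * φ ^ 4 - 2310 * φ ^ 3 + 990 * φ ^ 2) * x ^ 4 * y ^ 7
      + (660 * φ ^ 7 + 825 * φ ^ 6 - 2475 * φ ^ 5 - 1650 * φ ^ 4 + 825 * φ ^ 3 + 495 * φ ^ 2) * x ^ 3 * y ^ 8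
      + (55 * φ ^ 7 - 605 * φ ^ 6 - 550 * φ ^ 5 + 825 * φ ^ 4 + 275 * φ ^ 3 + 110 * φ ^ 2 - 110 * φ) * x ^ 2 * y ^ 9
      + (11 * φ ^ 8 + 11 * φ ^ 7 + 22 * φ ^ 6 + 363 * φ ^ 5 + 385 * φ ^ 4 + 341 * φ ^ 3 + 616 * φ ^ 2 + 517 * φ + 363) * x * y ^ 10
      + (φ ^ 9 + φ ^ 8 + 2 * φ ^ 7 + 3 * φ ^ 6 + 5 * φ ^ 5 - 57 * φ ^ 4 - 42 * φ ^ 3 - 59 * φ ^ 2 - 21 * φ) * y ^ 11) * h1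

theorem kl_N_kP2 (φ x y : R) (h1 : φ ^ 2 = φ + 1) :
    kP2 (x + φ * y) (φ * x - y) = -(φ + 2) ^ 5 * (φ * kP1 x y - kP2 x y) := by
  simp only [kP1, kP2]
  linear_combination
    ((φ ^ 9 + φ ^ 8 + 2 * φ ^ 7 + 3 * φ ^ 6 + 5 * φ ^ 5 - 57 * φ ^ 4 - 42 * φ ^ 3 - 59 * φ ^ 2 - 21 * φ) * x ^ 11
      + (-11 * φ ^ 8 - 11 * φ ^ 7 - 22 * φ ^ 6 - 363 * φ ^ 5 - 385 * φ ^ 4 - 341 * φ ^ 3 - 616 * φ ^ 2 - 517 * φ - 363) * x ^ 10 * y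
      + (55 * φ ^ 7 - 605 * φ ^ 6 - 550 * φ ^ 5 + 825 * φ ^ 4 + 275 * φ ^ 3 + 110 * φ ^ 2 - 110 * φ) * x ^ 9 * y ^ 2
      + (-660 * φ ^ 7 - 825 * φ ^ 6 + 2475 * φ ^ 5 + 1650 * φ ^ 4 - 825 * φ ^ 3 - 495 * φ ^ 2) * x ^ 8 * y ^ 3
      + (-330 * φ ^ 8 - 330 * φ ^ 7 + 3300 * φ ^ 6 + 3300 * φ ^ 5 - 3300 * φ ^ 4 - 2310 * φ ^ 3 + 990 * φ ^ 2) * x ^ 7 * y ^ 4
      + (-66 * φ ^ 9 - 66 * φ ^ 8 + 1848 * φ ^ 7 + 1782 * φ ^ 6 - 6270 * φ ^ 5 - 7656 * φ ^ 4 - 66 * φ ^ 3 - 2772 * φ ^ 2 - 2508 * φ) * x ^ 6 * y ^ 5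
      + (396 * φ ^ 8 + 396 * φ ^ 7 - 4158 * φ ^ 6 - 6072 * φ ^ 5 + 2970 * φ ^ 4 + 198 * φ ^ 3 - 6072 * φ ^ 2 - 3234 * φ - 2046) * x ^ 5 * y ^ 6
      + (-990 * φ ^ 7 - 2310 * φ ^ 6 + 3300 * φ ^ 5 + 3300 * φ ^ 4 - 3300 * φ ^ 3 - 330 * φ ^ 2 + 330 * φ) * x ^ 4 * y ^ 7
      + (-495 * φ ^ 7 + 825 * φ ^ 6 + 1650 * φ ^ 5 - 2475 * φ ^ 4 - 825 * φ ^ 3 + 660 * φ ^ 2) * x ^ 3 * y ^ 8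
      + (-110 * φ ^ 8 - 110 * φ ^ 7 + 275 * φ ^ 6 - 825 * φ ^ 5 - 550 * φ ^ 4 + 605 * φ ^ 3 + 55 * φ ^ 2) * x ^ 2 * y ^ 9
      + (-11 * φ ^ 9 - 11 * φ ^ 8 + 88 * φ ^ 7 + 77 * φ ^ 6 + 165 * φ ^ 5 + 627 * φ ^ 4 + 682 * φ ^ 3 + 539 * φ ^ 2 + 341 * φ) * x * y ^ 10
      + (11 * φ ^ 8 + 11 * φ ^ 7 + 22 * φ ^ 6 + 33 * φ ^ 5 + 55 * φ ^ 4 + 21 * φ ^ 3 + 66 * φ ^ 2 + 47 * φ + 33) * y ^ 11) * h1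

end KleinGen

end Fermat.Agent.S52
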