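import Fermat.Agent.S52.KleinTorsDefs

/-!
# S52 block (II): integer identities for the 5-torsion section (helper50)
-/

set_option autoImplicit false

namespace Fermat.Agent.S52

section KleinTorsId

variable {R : Type*} [CommRing R]

theorem kl_syzygy (x y : R) : kT x y ^ 2 = 1728 * kf x y ^ 5 - kH x y ^ 3 := by
  simp only [kT, kf, kH]; ring

/-- `R(u)` lies on `E_u`. -/
theorem kl_R_eqn (x y : R) :
    kY x y ^ 2 = kX x y ^ 3 + 27 * kH x y * kX x y + 54 * kT x y := by
  simp only [kY, kX, kH, kT]; ring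

/-- Duplication: `x(2 R(u)) = kX (J u)`. -/
theorem kl_dbl_X (x y : R) :
    kX y (-x) * (4 * kY x y ^ 2) = kX x y ^ 4 - 2 * (27 * kH x y) * kX x y ^ 2
      - 8 * (54 * kT x y) * kX x y + (27 * kH x y) ^ 2 := by
  simp only [kY, kX, kH, kT]; ring

/-- Duplication: `y(2 R(u)) = kY (J u)`. -/
theorem kl_dbl_Y (x y : R) :
    kY y (-x) * (2 * kY x y) =
      -((3 * kX x y ^ 2 + 27 * kH x y) * (kX y (-x) - kX x y) + 2 * kY x y ^ 2) := by
  simp only [kY, kX, kH, kT]; ring

theorem kl_kf_smul (c x y : R) : kf (c * x) (c * y) = c ^ 12 * kf x y := by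
  simp only [kf]; ring

theorem kl_kH_smul (c x y : R) : kH (c * x) (c * y) = c ^ 20 * kH x y := by
  simp only [kH]; ring

theorem kl_kT_smul (c x y : R) : kT (c * x) (c * y) = c ^ 30 * kT x y := by
  simp only [kT]; ring

theorem kl_kX_smul (c x y : R) : kX (c * x) (c * y) = c ^ 10 * kX x y := by
  simp only [kX]; ring

theorem kl_kY_smul (c x y : R) : kY (c * x) (c * y) = c ^ 15 * kY x y := by
  simp only [kY]; ring

theorem kl_kP1_smul (c x y : R) : kP1 (c * x) (c * y) = c ^ 11 * kP1 x y := by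
  simp only [kP1]; ring

theorem kl_kP2_smul (c x y : R) : kP2 (c * x) (c * y) = c ^ 11 * kP2 x y := by
  simp only [kP2]; ring

theorem kl_kf_J (x y : R) : kf y (-x) = kf x y := by
  simp only [kf]; ring

theorem kl_kH_J (x y : R) : kH y (-x) = kH x y := by
  simp only [kH]; ring

theorem kl_kT_J (x y : R) : kT y (-x) = kT x y := by
  simp only [kT]; ring

theorem kl_kX_neg (x y : R) : kX (-x) (-y) = kX x y := by
  simp only [kX]; ring

theorem kl_kY_neg (x y : R) : kY (-x) (-y) = -kY x y := by
  simp only [kY]; ring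

/-- The discriminant of `E_u` in terms of `f`. -/
theorem kl_disc (x y : R) :
    4 * (27 * kH x y) ^ 3 + 27 * (54 * kT x y) ^ 2 = 136048896 * kf x y ^ 5 := by
  linear_combination 78732 * kl_syzygy x y

section map

variable {S : Type*} [CommRing S] (σ : R →+* S)

theorem kl_map_kf (x y : R) : σ (kf x y) = kf (σ x) (σ y) := by
  simp only [kf, map_add, map_sub, map_mul, map_pow, map_ofNat]

theorem kl_map_kH (x y : R) : σ (kH x y) = kH (σ x) (σ y) := by
  simp only [kH, map_add, map_sub, map_neg, map_mul, map_pow, map_ofNat]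

theorem kl_map_kT (x y : R) : σ (kT x y) = kT (σ x) (σ y) := by
  simp only [kT, map_add, map_sub, map_neg, map_mul, map_pow, map_ofNat]

theorem kl_map_kX (x y : R) : σ (kX x y) = kX (σ x) (σ y) := by
  simp only [kX, map_add, map_sub, map_neg, map_mul, map_pow, map_ofNat]

theorem kl_map_kY (x y : R) : σ (kY x y) = kY (σ x) (σ y) := by
  simp only [kY, map_add, map_sub, map_neg, map_mul, map_pow, map_ofNat]

theorem kl_map_kP1 (x y : R) : σ (kP1 x y) = kP1 (σ x) (σ y) := by
  simp only [kP1, map_add, map_sub, map_neg, map_mul, map_pow, map_ofNat]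

theorem kl_map_kP2 (x y : R) : σ (kP2 x y) = kP2 (σ x) (σ y) := by
  simp only [kP2, map_add, map_sub, map_neg, map_mul, map_pow, map_ofNat]

end map

end KleinTorsId

end Fermat.Agent.S52
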