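import Fermat.Agent.S52.KleinActDefs
import Fermat.Agent.S52.KleinTorsId
import Fermat.Agent.S52.KleinNId1
import Fermat.Agent.S52.KleinNIdH
import Fermat.Agent.S52.KleinNIdT
import Fermat.Agent.S52.KleinChordId
import Fermat.Agent.S52.FamBase

/-!
# S52 block (II), row ACT: the icosahedral action on `K × K` (field level)
-/

set_option autoImplicit false

namespace Fermat.Agent.S52

section act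

variable {K : Type*} [Field K] (ζ : K)

theorem kl_phi_sq (hζ : ζ ^ 4 + ζ ^ 3 + ζ ^ 2 + ζ + 1 = 0) : kphi ζ ^ 2 = kphi ζ + 1 := by
  unfold kphi
  linear_combination (-1 + 2 * ζ - ζ ^ 3 + ζ ^ 4) * hζ

theorem kl_zeta_quad (hζ : ζ ^ 4 + ζ ^ 3 + ζ ^ 2 + ζ + 1 = 0) : ζ ^ 2 + kphi ζ * ζ + 1 = 0 := by
  unfold kphi
  linear_combination (1 - ζ) * hζ

theorem kl_zeta_pow5 (hζ : ζ ^ 4 + ζ ^ 3 + ζ ^ 2 + ζ + 1 = 0) : ζ ^ 5 = 1 := by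
  linear_combination (ζ - 1) * hζ

theorem kl_kb_eq (hζ : ζ ^ 4 + ζ ^ 3 + ζ ^ 2 + ζ + 1 = 0) :
    kb ζ = -2 * kphi ζ * ζ - kphi ζ - 1 := by
  unfold kb
  exact kl_b_eq (kphi ζ) ζ (kl_phi_sq ζ hζ) (kl_zeta_quad ζ hζ)

theorem kl_kb_sq (hζ : ζ ^ 4 + ζ ^ 3 + ζ ^ 2 + ζ + 1 = 0) : kb ζ ^ 2 = -(kphi ζ + 2) := by
  rw [kl_kb_eq ζ hζ]
  exact kl_b_sq (kphi ζ) ζ (kl_phi_sq ζ hζ) (kl_zeta_quad ζ hζ)

theorem kl_kb_ne (hζ : ζ ^ 4 + ζ ^ 3 + ζ ^ 2 + ζ + 1 = 0) (h5 : (5 : K) ≠ 0) : kb ζ ≠ 0 := by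
  intro hb
  have h1 := kl_kb_sq ζ hζ
  have h2 := kl_phi2_inv (kphi ζ) (kl_phi_sq ζ hζ)
  rw [hb] at h1
  apply h5
  linear_combination (3 - kphi ζ) * h1 - h2

theorem kl_kb_pow10 (hζ : ζ ^ 4 + ζ ^ 3 + ζ ^ 2 + ζ + 1 = 0) : kb ζ ^ 10 = kQ10 (kphi ζ) := by
  rw [kl_kb_eq ζ hζ]
  exact kl_b_pow10 (kphi ζ) ζ (kl_phi_sq ζ hζ) (kl_zeta_quad ζ hζ)

theorem kl_kb_pow15 (hζ : ζ ^ 4 + ζ ^ 3 + ζ ^ 2 + ζ + 1 = 0) :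
    kb ζ ^ 15 = kQ15 (kphi ζ) ζ := by
  rw [kl_kb_eq ζ hζ]
  exact kl_b_pow15 (kphi ζ) ζ (kl_phi_sq ζ hζ) (kl_zeta_quad ζ hζ)

theorem kl_kQ10_ne (hζ : ζ ^ 4 + ζ ^ 3 + ζ ^ 2 + ζ + 1 = 0) (h5 : (5 : K) ≠ 0) :
    kQ10 (kphi ζ) ≠ 0 := by
  rw [← kl_kb_pow10 ζ hζ]
  exact pow_ne_zero _ (kl_kb_ne ζ hζ h5)

theorem kl_kQ15_ne (hζ : ζ ^ 4 + ζ ^ 3 + ζ ^ 2 + ζ + 1 = 0) (h5 : (5 : K) ≠ 0) :
    kQ15 (kphi ζ) ζ ≠ 0 := by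
  rw [← kl_kb_pow15 ζ hζ]
  exact pow_ne_zero _ (kl_kb_ne ζ hζ h5)

/-- `ζ` is a primitive 5th root of unity. -/
theorem kl_zeta_pow_inj (hζ : ζ ^ 4 + ζ ^ 3 + ζ ^ 2 + ζ + 1 = 0) (h5 : (5 : K) ≠ 0) {i j : ℕ}
    (hi : i < 5) (hj : j < 5) (h : ζ ^ i = ζ ^ j) : i = j := by
  have hne : ζ ≠ 1 := by
    intro h1
    rw [h1] at hζ
    apply h5
    linear_combination hζ
  have : Fact (Nat.Prime 5) := ⟨by norm_num⟩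
  have hord : orderOf ζ = 5 := orderOf_eq_prime (kl_zeta_pow5 ζ hζ) hne
  refine pow_injOn_Iio_orderOf (x := ζ) ?_ ?_ h
  · rw [hord]; exact hi
  · rw [hord]; exact hj

theorem kl_S_pow5_fst (hζ : ζ ^ 4 + ζ ^ 3 + ζ ^ 2 + ζ + 1 = 0) (x : K) :
    (ζ ^ 3 * x) ^ 5 = x ^ 5 := by
  have h5 := kl_zeta_pow5 ζ hζ
  have e : (ζ ^ 3 * x) ^ 5 = (ζ ^ 5) ^ 3 * x ^ 5 := by ring
  rw [e, h5, one_pow, one_mul]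

theorem kl_S_pow5_snd (hζ : ζ ^ 4 + ζ ^ 3 + ζ ^ 2 + ζ + 1 = 0) (y : K) :
    (ζ ^ 2 * y) ^ 5 = y ^ 5 := by
  have h5 := kl_zeta_pow5 ζ hζ
  have e : (ζ ^ 2 * y) ^ 5 = (ζ ^ 5) ^ 2 * y ^ 5 := by ring
  rw [e, h5, one_pow, one_mul]

theorem kl_kH_S (hζ : ζ ^ 4 + ζ ^ 3 + ζ ^ 2 + ζ + 1 = 0) (u : K × K) :
    kH (kS ζ u).1 (kS ζ u).2 = kH u.1 u.2 := by
  simp only [kS]
  rw [kH_eq_kh, kH_eq_kh u.1 u.2, kl_S_pow5_fst ζ hζ, kl_S_pow5_snd ζ hζ]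

theorem kl_kT_S (hζ : ζ ^ 4 + ζ ^ 3 + ζ ^ 2 + ζ + 1 = 0) (u : K × K) :
    kT (kS ζ u).1 (kS ζ u).2 = kT u.1 u.2 := by
  simp only [kS]
  rw [kT_eq_kt, kT_eq_kt u.1 u.2, kl_S_pow5_fst ζ hζ, kl_S_pow5_snd ζ hζ]

theorem kl_T0_eq (u : K × K) :
    kT0 ζ u = ((kb ζ)⁻¹ * (u.1 + kphi ζ * u.2), (kb ζ)⁻¹ * (kphi ζ * u.1 - u.2)) := by
  simp only [kT0, div_eq_inv_mul]

theorem kl_kH_T0 (hζ : ζ ^ 4 + ζ ^ 3 + ζ ^ 2 + ζ + 1 = 0) (h5 : (5 : K) ≠ 0) (u : K × K) :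
    kH (kT0 ζ u).1 (kT0 ζ u).2 = kH u.1 u.2 := by
  have hb := kl_kb_ne ζ hζ h5
  have hb2 := kl_kb_sq ζ hζ
  rw [kl_T0_eq]
  simp only []
  rw [kl_kH_smul, kl_N_kH (kphi ζ) u.1 u.2 (kl_phi_sq ζ hζ)]
  have e : (kphi ζ + 2) ^ 10 = kb ζ ^ 20 := by
    have : kphi ζ + 2 = -(kb ζ ^ 2) := by rw [hb2]; ring
    rw [this]; ring
  rw [e, inv_pow, ← mul_assoc, inv_mul_cancel₀ (pow_ne_zero _ hb), one_mul]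

theorem kl_kT_T0 (hζ : ζ ^ 4 + ζ ^ 3 + ζ ^ 2 + ζ + 1 = 0) (h5 : (5 : K) ≠ 0) (u : K × K) :
    kT (kT0 ζ u).1 (kT0 ζ u).2 = kT u.1 u.2 := by
  have hb := kl_kb_ne ζ hζ h5
  have hb2 := kl_kb_sq ζ hζ
  rw [kl_T0_eq]
  simp only []
  rw [kl_kT_smul, kl_N_kT (kphi ζ) u.1 u.2 (kl_phi_sq ζ hζ)]
  have e : -(kphi ζ + 2) ^ 15 = kb ζ ^ 30 := by
    have : kphi ζ + 2 = -(kb ζ ^ 2) := by rw [hb2]; ring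
    rw [this]; ring
  rw [e, inv_pow, ← mul_assoc, inv_mul_cancel₀ (pow_ne_zero _ hb), one_mul]

/-- `x(R(T₀ u)) = kNX / b¹⁰`. -/
theorem kl_kX_T0 (hζ : ζ ^ 4 + ζ ^ 3 + ζ ^ 2 + ζ + 1 = 0) (h5 : (5 : K) ≠ 0) (u : K × K) :
    kX (kT0 ζ u).1 (kT0 ζ u).2 = kNX (kphi ζ) u.1 u.2 / kQ10 (kphi ζ) := by
  rw [kl_T0_eq]
  simp only []
  rw [kl_kX_smul, kl_N_kX (kphi ζ) u.1 u.2 (kl_phi_sq ζ hζ), inv_pow, kl_kb_pow10 ζ hζ,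
    div_eq_inv_mul]

/-- `y(R(T₀ u)) = kNY / b¹⁵`. -/
theorem kl_kY_T0 (hζ : ζ ^ 4 + ζ ^ 3 + ζ ^ 2 + ζ + 1 = 0) (h5 : (5 : K) ≠ 0) (u : K × K) :
    kY (kT0 ζ u).1 (kT0 ζ u).2 = kNY (kphi ζ) u.1 u.2 / kQ15 (kphi ζ) ζ := by
  rw [kl_T0_eq]
  simp only []
  rw [kl_kY_smul, kl_N_kY (kphi ζ) u.1 u.2 (kl_phi_sq ζ hζ), inv_pow, kl_kb_pow15 ζ hζ,
    div_eq_inv_mul]

/-- `x(R(S u)) = kXS`. -/
theorem kl_kX_S (hζ : ζ ^ 4 + ζ ^ 3 + ζ ^ 2 + ζ + 1 = 0) (u : K × K) :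
    kX (kS ζ u).1 (kS ζ u).2 = kXS (kphi ζ) ζ u.1 u.2 :=
  kl_S_kX (kphi ζ) ζ u.1 u.2 (kl_phi_sq ζ hζ) (kl_zeta_quad ζ hζ)

/-- `y(R(S u)) = kYS`. -/
theorem kl_kY_S (hζ : ζ ^ 4 + ζ ^ 3 + ζ ^ 2 + ζ + 1 = 0) (u : K × K) :
    kY (kS ζ u).1 (kS ζ u).2 = kYS (kphi ζ) ζ u.1 u.2 :=
  kl_S_kY (kphi ζ) ζ u.1 u.2 (kl_phi_sq ζ hζ) (kl_zeta_quad ζ hζ)

/-- `kNX` only involves `x¹⁰, x⁵y⁵, y¹⁰`, so it is `S`-invariant. -/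
theorem kl_kNX_S (hζ : ζ ^ 4 + ζ ^ 3 + ζ ^ 2 + ζ + 1 = 0) (φ : K) (u : K × K) :
    kNX φ (kS ζ u).1 (kS ζ u).2 = kNX φ u.1 u.2 := by
  have key : ∀ X Y : K, kNX φ X Y = (1875 * φ + 1275) * (X ^ 5) ^ 2
      + (-24750 * φ - 14850) * X ^ 5 * Y ^ 5 + (6375 * φ + 3975) * (Y ^ 5) ^ 2 := by
    intro X Y
    simp only [kNX]
    ring
  simp only [kS]
  rw [key, key u.1 u.2, kl_S_pow5_fst ζ hζ, kl_S_pow5_snd ζ hζ]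

theorem kl_kNY_S (hζ : ζ ^ 4 + ζ ^ 3 + ζ ^ 2 + ζ + 1 = 0) (φ : K) (u : K × K) :
    kNY φ (kS ζ u).1 (kS ζ u).2 = kNY φ u.1 u.2 := by
  have key : ∀ X Y : K, kNY φ X Y = (67500 * φ + 40500) * (X ^ 5) ^ 3
      + (1485000 * φ + 904500) * (X ^ 5) ^ 2 * Y ^ 5
      + (8100000 * φ + 5008500) * X ^ 5 * (Y ^ 5) ^ 2 + (-742500 * φ - 459000) * (Y ^ 5) ^ 3 := by
    intro X Y
    simp only [kNY]
    ring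
  simp only [kS]
  rw [key, key u.1 u.2, kl_S_pow5_fst ζ hζ, kl_S_pow5_snd ζ hζ]

theorem kl_T0_T0 (hζ : ζ ^ 4 + ζ ^ 3 + ζ ^ 2 + ζ + 1 = 0) (h5 : (5 : K) ≠ 0) (u : K × K) :
    kT0 ζ (kT0 ζ u) = -u := by
  have hb := kl_kb_ne ζ hζ h5
  have hb2 := kl_kb_sq ζ hζ
  have h1 := kl_phi_sq ζ hζ
  apply Prod.ext
  · simp only [kT0, Prod.fst_neg]
    field_simp
    linear_combination u.1 * hb2 + u.1 * h1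
  · simp only [kT0, Prod.snd_neg]
    field_simp
    linear_combination u.2 * hb2 + u.2 * h1

theorem kl_S_smul (c : K) (u : K × K) : kS ζ (c • u) = c • kS ζ u := by
  apply Prod.ext
  · simp only [kS, Prod.smul_fst, smul_eq_mul]
    ring
  · simp only [kS, Prod.smul_snd, smul_eq_mul]
    ring

theorem kl_T0_smul (c : K) (u : K × K) : kT0 ζ (c • u) = c • kT0 ζ u := by
  apply Prod.ext
  · simp only [kT0, Prod.smul_fst, Prod.smul_snd, smul_eq_mul]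
    ring
  · simp only [kT0, Prod.smul_fst, Prod.smul_snd, smul_eq_mul]
    ring

theorem kl_fam_smul (c : K) (hc : c ^ 10 = 1) (m n : K) (u : K × K) :
    kfam m n (c • u) = c • kfam m n u := by
  have h11 : c ^ 11 = c := by
    have e : c ^ 11 = c ^ 10 * c := by ring
    rw [e, hc, one_mul]
  apply Prod.ext
  · simp only [kfam, Prod.smul_fst, Prod.smul_snd, smul_eq_mul]
    rw [kl_kP1_smul, h11]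
    ring
  · simp only [kfam, Prod.smul_fst, Prod.smul_snd, smul_eq_mul]
    rw [kl_kP2_smul, h11]
    ring

theorem kl_fam_S (hζ : ζ ^ 4 + ζ ^ 3 + ζ ^ 2 + ζ + 1 = 0) (m n : K) (u : K × K) :
    kfam m n (kS ζ u) = kS ζ (kfam m n u) := by
  apply Prod.ext
  · simp only [kfam, kS]
    rw [kP1_eq_kal, kP1_eq_kal u.1 u.2, kl_S_pow5_fst ζ hζ, kl_S_pow5_snd ζ hζ]
    ring
  · simp only [kfam, kS]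
    rw [kP2_eq_kbe, kP2_eq_kbe u.1 u.2, kl_S_pow5_fst ζ hζ, kl_S_pow5_snd ζ hζ]
    ring

theorem kl_fam_T0 (hζ : ζ ^ 4 + ζ ^ 3 + ζ ^ 2 + ζ + 1 = 0) (h5 : (5 : K) ≠ 0) (m n : K)
    (u : K × K) : kfam m n (kT0 ζ u) = kT0 ζ (kfam m n u) := by
  have hb := kl_kb_ne ζ hζ h5
  have h1 := kl_phi_sq ζ hζ
  have h10 : (kphi ζ + 2) ^ 5 = -(kb ζ ^ 10) := by
    rw [kl_kb_pow10 ζ hζ]
    exact kl_phi2_pow5 (kphi ζ) h1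
  have e11 : ((kb ζ)⁻¹) ^ 11 * (kb ζ ^ 10) = (kb ζ)⁻¹ := by
    have e : ((kb ζ)⁻¹) ^ 11 * (kb ζ ^ 10) = (kb ζ)⁻¹ * ((kb ζ)⁻¹ * kb ζ) ^ 10 := by ring
    rw [e, inv_mul_cancel₀ hb, one_pow, mul_one]
  have hP1 : kP1 (kT0 ζ u).1 (kT0 ζ u).2
      = (kb ζ)⁻¹ * (kP1 u.1 u.2 + kphi ζ * kP2 u.1 u.2) := by
    rw [kl_T0_eq]
    simp only []
    rw [kl_kP1_smul, kl_N_kP1 (kphi ζ) u.1 u.2 h1, h10]
    linear_combination (kP1 u.1 u.2 + kphi ζ * kP2 u.1 u.2) * e11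
  have hP2 : kP2 (kT0 ζ u).1 (kT0 ζ u).2
      = (kb ζ)⁻¹ * (kphi ζ * kP1 u.1 u.2 - kP2 u.1 u.2) := by
    rw [kl_T0_eq]
    simp only []
    rw [kl_kP2_smul, kl_N_kP2 (kphi ζ) u.1 u.2 h1, h10]
    linear_combination (kphi ζ * kP1 u.1 u.2 - kP2 u.1 u.2) * e11
  apply Prod.ext
  · show n * (kT0 ζ u).1 + m * kP1 (kT0 ζ u).1 (kT0 ζ u).2 = (kT0 ζ (kfam m n u)).1
    rw [hP1]
    simp only [kT0, kfam]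
    ring
  · show n * (kT0 ζ u).2 + m * kP2 (kT0 ζ u).1 (kT0 ζ u).2 = (kT0 ζ (kfam m n u)).2
    rw [hP2]
    simp only [kT0, kfam]
    ring

theorem kl_act_smul (c : K) (w : List Bool) (u : K × K) :
    kact ζ w (c • u) = c • kact ζ w u := by
  induction w with
  | nil => rfl
  | cons a w ih =>
    cases a
    · show kT0 ζ (kact ζ w (c • u)) = c • kT0 ζ (kact ζ w u)
      rw [ih, kl_T0_smul]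
    · show kS ζ (kact ζ w (c • u)) = c • kS ζ (kact ζ w u)
      rw [ih, kl_S_smul]

theorem kl_fam_act (hζ : ζ ^ 4 + ζ ^ 3 + ζ ^ 2 + ζ + 1 = 0) (h5 : (5 : K) ≠ 0) (m n : K)
    (w : List Bool) (u : K × K) : kfam m n (kact ζ w u) = kact ζ w (kfam m n u) := by
  induction w with
  | nil => rfl
  | cons a w ih =>
    cases a
    · show kfam m n (kT0 ζ (kact ζ w u)) = kT0 ζ (kact ζ w (kfam m n u))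
      rw [kl_fam_T0 ζ hζ h5, ih]
    · show kfam m n (kS ζ (kact ζ w u)) = kS ζ (kact ζ w (kfam m n u))
      rw [kl_fam_S ζ hζ, ih]

end act

end Fermat.Agent.S52
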