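import Mathlib

/-!
# S52 block (I): Frobenius characteristic equation on points -- shared definitions (helper5)

`F` a finite field (`2, 3 ≠ 0`), `E : y² = x³ + A x + B` over `F`, `K = RatFunc F`,
`Ω` an algebraically closed field over `K`, `y ∈ Ω` with `y² = x³ + A x + B` (`x = X ∈ K`).
The generic point is `P₀ = (x, y)`; the odd points are `O` and the `(u, w y)` with `u, w ∈ K`;
the height of an odd point is the degree of the rational function `u`.
-/

set_option autoImplicit false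

namespace Fermat.Agent.S52

open WeierstrassCurve WeierstrassCurve.Affine

/-- The short Weierstrass curve `y² = x³ + A x + B`. -/
def h5_sw {R : Type*} [CommRing R] (A B : R) : WeierstrassCurve R := ⟨0, 0, 0, A, B⟩

section sw

variable {R : Type*} [CommRing R] (A B : R)

@[simp] lemma h5_sw_a₁ : (h5_sw A B).a₁ = 0 := rfl
@[simp] lemma h5_sw_a₂ : (h5_sw A B).a₂ = 0 := rfl
@[simp] lemma h5_sw_a₃ : (h5_sw A B).a₃ = 0 := rfl
@[simp] lemma h5_sw_a₄ : (h5_sw A B).a₄ = A := rfl
@[simp] lemma h5_sw_a₆ : (h5_sw A B).a₆ = B := rfl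

lemma h5_sw_map {S : Type*} [CommRing S] (f : R →+* S) :
    (h5_sw A B).map f = h5_sw (f A) (f B) := by
  ext <;> simp [h5_sw]

lemma h5_sw_equation_iff (X Y : R) :
    (h5_sw A B).toAffine.Equation X Y ↔ Y ^ 2 = X ^ 3 + A * X + B := by
  rw [Affine.equation_iff]; simp

lemma h5_sw_Δ : (h5_sw A B).Δ = -16 * (4 * A ^ 3 + 27 * B ^ 2) := by
  simp only [WeierstrassCurve.Δ, WeierstrassCurve.b₂, WeierstrassCurve.b₄, WeierstrassCurve.b₆,
    WeierstrassCurve.b₈, h5_sw_a₁, h5_sw_a₂, h5_sw_a₃, h5_sw_a₄, h5_sw_a₆]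
  ring

end sw

section field

variable {F : Type*} [Field F] (A B : F)

lemma h5_sw_negY (X Y : F) : (h5_sw A B).toAffine.negY X Y = -Y := by
  simp [Affine.negY]

/-- Over a field with `2 ≠ 0` and `4A³ + 27B² ≠ 0`, every solution of the equation is a
nonsingular point. -/
lemma h5_sw_nonsingular (h2 : (2 : F) ≠ 0) (hΔ : 4 * A ^ 3 + 27 * B ^ 2 ≠ 0) {X Y : F}
    (h : Y ^ 2 = X ^ 3 + A * X + B) : (h5_sw A B).toAffine.Nonsingular X Y := by
  have hE : (h5_sw A B).toAffine.Equation X Y := (h5_sw_equation_iff A B X Y).2 h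
  refine (Affine.equation_iff_nonsingular_of_Δ_ne_zero ?_).1 hE
  rw [h5_sw_Δ]
  have h16 : (16 : F) ≠ 0 := by
    have : (16 : F) = 2 ^ 4 := by norm_num
    rw [this]; exact pow_ne_zero _ h2
  exact mul_ne_zero (neg_ne_zero.2 h16) hΔ

/-- Degree of a rational function: `max (deg num) (deg denom)`. -/
noncomputable def h5_deg (u : RatFunc F) : ℕ := max u.num.natDegree u.denom.natDegree

/-- The cubic `x³ + A x + B` as an element of `K = F(x)`. -/
noncomputable def h5_fK : RatFunc F :=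
  RatFunc.X ^ 3 + RatFunc.C A * RatFunc.X + RatFunc.C B

end field

section generic

variable {F : Type*} [Field F] (A B : F)
variable (Ω : Type*) [Field Ω] [Algebra F Ω] [Algebra (RatFunc F) Ω]

/-- The points of `E` over `Ω`. -/
abbrev h5_Pt : Type _ := ((h5_sw A B).toAffine⁄Ω).Point

variable {Ω}

/-- The odd points (with respect to `y`): `O` and the points `(u, w y)` with `u, w ∈ K`. -/
def h5_IsOdd (y : Ω) (P : h5_Pt A B Ω) : Prop :=
  P = 0 ∨ ∃ (u w : RatFunc F) (h : ((h5_sw A B).toAffine⁄Ω).Nonsingular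
      (algebraMap (RatFunc F) Ω u) (algebraMap (RatFunc F) Ω w * y)),
    P = Affine.Point.some _ _ h

/-- The `x`-coordinate of a point as a rational function (`0` if it is not in `K`). -/
noncomputable def h5_xK (P : h5_Pt A B Ω) : RatFunc F :=
  match P with
  | .zero => 0
  | .some X _ _ =>
      open Classical in
      if h : ∃ u : RatFunc F, algebraMap (RatFunc F) Ω u = X then h.choose else 0

/-- The height of a point: the degree of its `x`-coordinate. -/
noncomputable def h5_ht (P : h5_Pt A B Ω) : ℕ := h5_deg (h5_xK A B P)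

lemma h5_xK_zero : h5_xK A B (0 : h5_Pt A B Ω) = 0 := rfl

lemma h5_xK_some {u : RatFunc F} {Y : Ω}
    (h : ((h5_sw A B).toAffine⁄Ω).Nonsingular (algebraMap (RatFunc F) Ω u) Y) :
    h5_xK A B (Affine.Point.some _ _ h : h5_Pt A B Ω) = u := by
  have hex : ∃ u' : RatFunc F, algebraMap (RatFunc F) Ω u' = algebraMap (RatFunc F) Ω u :=
    ⟨u, rfl⟩
  simp only [h5_xK]
  rw [dif_pos hex]
  exact (algebraMap (RatFunc F) Ω).injective hex.choose_spec

lemma h5_ht_zero : h5_ht A B (0 : h5_Pt A B Ω) = 0 := by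
  simp [h5_ht, h5_xK_zero, h5_deg]

lemma h5_ht_some {u : RatFunc F} {Y : Ω}
    (h : ((h5_sw A B).toAffine⁄Ω).Nonsingular (algebraMap (RatFunc F) Ω u) Y) :
    h5_ht A B (Affine.Point.some _ _ h : h5_Pt A B Ω) = h5_deg u := by
  rw [h5_ht, h5_xK_some]

end generic

section frob

variable {F : Type*} [Field F] [Fintype F] (A B : F)
variable (Ω : Type*) [Field Ω] [DecidableEq Ω] [Algebra F Ω]

/-- The Frobenius endomorphism of `E(Ω)` (raising coordinates to the power `#F`). -/
noncomputable def h5_frob : h5_Pt A B Ω →+ h5_Pt A B Ω :=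
  Affine.Point.map (W' := (h5_sw A B).toAffine) (FiniteField.frobeniusAlgHom F Ω)

variable {Ω}

/-- `ψ = φ² - a φ + q`. -/
noncomputable def h5_psi (a : ℤ) (P : h5_Pt A B Ω) : h5_Pt A B Ω :=
  h5_frob A B Ω (h5_frob A B Ω P) - a • h5_frob A B Ω P + (Fintype.card F : ℤ) • P

/-- `φ - n`. -/
noncomputable def h5_fn (n : ℤ) (P : h5_Pt A B Ω) : h5_Pt A B Ω :=
  h5_frob A B Ω P - n • P

lemma h5_frob_some {X Y : Ω} (h : ((h5_sw A B).toAffine⁄Ω).Nonsingular X Y) :
    ∃ h', h5_frob A B Ω (Affine.Point.some X Y h) =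
      Affine.Point.some (X ^ Fintype.card F) (Y ^ Fintype.card F) h' :=
  ⟨_, rfl⟩

/-- Frobenius commutes with the maps on points induced by `F`-algebra homomorphisms. -/
lemma h5_frob_map {Ω' : Type*} [Field Ω'] [DecidableEq Ω'] [Algebra F Ω'] (j : Ω →ₐ[F] Ω')
    (P : h5_Pt A B Ω) :
    Affine.Point.map (W' := (h5_sw A B).toAffine) j (h5_frob A B Ω P) =
      h5_frob A B Ω' (Affine.Point.map (W' := (h5_sw A B).toAffine) j P) := by
  rcases P with _ | ⟨X, Y, h⟩
  · rfl
  · simp only [h5_frob, Affine.Point.map_some, FiniteField.coe_frobeniusAlgHom]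
    congr 1 <;> simp

/-- The trace of Frobenius `q + 1 - #E(F)`. -/
noncomputable def h5_trace : ℤ :=
  (Fintype.card F : ℤ) + 1 - (Nat.card (h5_sw A B).toAffine.Point : ℤ)

end frob

end Fermat.Agent.S52
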