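import Fermat.Agent.S52.KleinTorsDefs
import Fermat.Agent.S52.h5_ManinDefs

/-!
# S52 block (II): the icosahedral action, the level structure -- definitions only (helper50)

`K` a field, `ζ ∈ K` with `ζ⁴ + ζ³ + ζ² + ζ + 1 = 0`.  `S = diag(ζ³, ζ²)`,
`T₀ = (1/b) [[1, φ], [φ, -1]]` (`φ = -ζ - ζ⁴`, `b = ζ² - ζ³`) generate the binary icosahedral
group; they preserve `kH`, `kT`.  For `u` in the fibre `kFib A B` (`E_u = h5_sw A B`) the points
`P(u) = -R(T₀ u)`, `R(u)` form a basis of `E_u[5]`; `klam` is the corresponding level structure.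
-/

set_option autoImplicit false

namespace Fermat.Agent.S52

open WeierstrassCurve WeierstrassCurve.Affine

section act

variable {K : Type*} [Field K]

/-- `φ = -ζ - ζ⁴` (a root of `φ² = φ + 1`). -/
def kphi (ζ : K) : K := -ζ - ζ ^ 4

/-- `b = ζ² - ζ³` (`b² = -(φ + 2)`). -/
def kb (ζ : K) : K := ζ ^ 2 - ζ ^ 3

/-- `S = diag(ζ³, ζ²)`. -/
def kS (ζ : K) (u : K × K) : K × K := (ζ ^ 3 * u.1, ζ ^ 2 * u.2)

/-- `T₀ = (1/b) [[1, φ], [φ, -1]]`. -/
noncomputable def kT0 (ζ : K) (u : K × K) : K × K :=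
  ((u.1 + kphi ζ * u.2) / kb ζ, (kphi ζ * u.1 - u.2) / kb ζ)

/-- `J (x, y) = (y, -x)`. -/
def kJ (u : K × K) : K × K := (u.2, -u.1)

/-- The family: `u ↦ n u + m Φ(u)`, `Φ = (kP1, kP2)`. -/
def kfam (m n : K) (u : K × K) : K × K :=
  (n * u.1 + m * kP1 u.1 u.2, n * u.2 + m * kP2 u.1 u.2)

/-- Coordinatewise `q`-th power. -/
def kfrobU (q : ℕ) (u : K × K) : K × K := (u.1 ^ q, u.2 ^ q)

/-- The action of a word in `S` (`true`) and `T₀` (`false`). -/
noncomputable def kact (ζ : K) : List Bool → K × K → K × K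
  | [], u => u
  | true :: w, u => kS ζ (kact ζ w u)
  | false :: w, u => kT0 ζ (kact ζ w u)

end act

section vec

/-- `S` on row vectors. -/
def kvS (v : ZMod 5 × ZMod 5) : ZMod 5 × ZMod 5 := (v.1 - v.2, v.2)

/-- `T₀` on row vectors. -/
def kvT (v : ZMod 5 × ZMod 5) : ZMod 5 × ZMod 5 := (-v.2, v.1)

/-- A word on row vectors. -/
def kvact : List Bool → ZMod 5 × ZMod 5 → ZMod 5 × ZMod 5
  | [], v => v
  | true :: w, v => kvact w (kvS v)
  | false :: w, v => kvact w (kvT v)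

end vec

section pts

variable {F : Type*} [Field F] {K : Type*} [Field K] [DecidableEq K] [Algebra F K] (A B : F)

/-- The fibre of `u ↦ (27 H(u), 54 T(u))` over `(A, B)`: the `u` with `E_u = h5_sw A B`. -/
def kFib : Set (K × K) :=
  {u | 27 * kH u.1 u.2 = algebraMap F K A ∧ 54 * kT u.1 u.2 = algebraMap F K B}

open Classical in
/-- The point `(X, Y)` of `h5_sw A B` over `K` (`0` if `(X, Y)` is not a nonsingular point). -/
noncomputable def kpt (X Y : K) : h5_Pt A B K :=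
  if h : ((h5_sw A B).toAffine⁄K).Nonsingular X Y then Affine.Point.some X Y h else 0

/-- The integral 5-torsion section. -/
noncomputable def kR (u : K × K) : h5_Pt A B K := kpt A B (kX u.1 u.2) (kY u.1 u.2)

/-- The level structure: `(a, b) ↦ a • P(u) + b • R(u)`, `P(u) = -R(T₀ u)`. -/
noncomputable def klam (ζ : K) (u : K × K) (v : ZMod 5 × ZMod 5) : h5_Pt A B K :=
  (v.1.val : ℤ) • (-kR A B (kT0 ζ u)) + (v.2.val : ℤ) • kR A B u

end pts

end Fermat.Agent.S52
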