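import Fermat.Agent.S52.KleinPts
import Fermat.Agent.S52.KleinChordX
import Fermat.Agent.S52.KleinChordY

/-!
# S52 block (II), row CHORD: `R(S u) = R(u) + R(T₀ u)` and independence of `R(u)`, `R(T₀ u)`
-/

set_option autoImplicit false

namespace Fermat.Agent.S52

open WeierstrassCurve WeierstrassCurve.Affine

section aux

/-- A nonzero numeral of `F` stays nonzero in an extension field `K`. -/
theorem h77_ofNat_ne {F : Type*} [Field F] {K : Type*} [Field K] [Algebra F K] (n : ℕ)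
    [n.AtLeastTwo] (h : (OfNat.ofNat n : F) ≠ 0) : (OfNat.ofNat n : K) ≠ 0 := by
  rw [← map_ofNat (algebraMap F K) n]
  exact (map_ne_zero _).2 h

/-- The cleared chord identities, divided by `b³⁰ = q³ = r²` and by `b²⁵ = q r`. -/
theorem h77_chord_div {K : Type*} [Field K] (X Y N M q r XS YS : K) (hq : q ≠ 0) (hr : r ≠ 0)
    (hqr : q ^ 3 = r ^ 2)
    (cX : XS * (q * X - N) ^ 2 * q = (r * Y - M) ^ 2 - (q * X + N) * (q * X - N) ^ 2)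
    (cY : YS * (q * X - N) * r = -((r * Y - M) * (XS - X) * q + Y * (q * X - N) * r)) :
    XS * (X - N / q) ^ 2 = (Y - M / r) ^ 2 - (X + N / q) * (X - N / q) ^ 2 ∧
      YS * (X - N / q) = -((Y - M / r) * (XS - X) + Y * (X - N / q)) := by
  have e1 : X - N / q = (q * X - N) / q := by field_simp
  have e2 : Y - M / r = (r * Y - M) / r := by field_simp
  have e3 : X + N / q = (q * X + N) / q := by field_simp
  rw [e1, e2, e3]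
  constructor
  · have hq3 : q ^ 3 ≠ 0 := pow_ne_zero 3 hq
    have e4 : ((r * Y - M) / r) ^ 2 = (r * Y - M) ^ 2 / q ^ 3 := by rw [div_pow, hqr]
    rw [e4]
    have e5 : XS * ((q * X - N) / q) ^ 2 = XS * (q * X - N) ^ 2 * q / q ^ 3 := by
      field_simp
    have e6 : (q * X + N) / q * ((q * X - N) / q) ^ 2
        = (q * X + N) * (q * X - N) ^ 2 / q ^ 3 := by
      field_simp
    rw [e5, e6, ← sub_div, cX]
  · have hqr0 : q * r ≠ 0 := mul_ne_zero hq hr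
    have e5 : YS * ((q * X - N) / q) = YS * (q * X - N) * r / (q * r) := by
      field_simp
    have e6 : -((r * Y - M) / r * (XS - X) + Y * ((q * X - N) / q))
        = -((r * Y - M) * (XS - X) * q + Y * (q * X - N) * r) / (q * r) := by
      field_simp
    rw [e5, e6, cY]

/-- Two elements of exact order 5 in an abelian group, the first not a multiple of the
second, are independent modulo 5. -/
theorem h77_indep5 {G : Type*} [AddCommGroup G] {Q R : G} (hR5 : (5 : ℤ) • R = 0)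
    (hQ5 : (5 : ℤ) • Q = 0) (hR0 : R ≠ 0) (hQ0 : Q ≠ 0) (n1 : Q ≠ R) (n2 : Q ≠ -R)
    (n3 : Q ≠ R + R) (n4 : Q ≠ -(R + R)) (a b : ℤ) (h : a • Q + b • R = 0) :
    (5 : ℤ) ∣ a ∧ (5 : ℤ) ∣ b := by
  have hp5 : Prime (5 : ℤ) := Int.prime_iff_natAbs_prime.2 (by norm_num)
  have hcop : ∀ c : ℤ, ¬ (5 : ℤ) ∣ c → ∃ s t : ℤ, s * c + t * 5 = 1 := by
    intro c hc
    have h1 : IsCoprime (5 : ℤ) c := (Prime.coprime_iff_not_dvd hp5).2 hc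
    obtain ⟨s, t, hst⟩ := h1.symm
    exact ⟨s, t, hst⟩
  have key : ∀ P : G, (5 : ℤ) • P = 0 → P ≠ 0 → ∀ c : ℤ, c • P = 0 → (5 : ℤ) ∣ c := by
    intro P hP5 hP0 c hc
    by_contra hnd
    obtain ⟨s, t, hst⟩ := hcop c hnd
    apply hP0
    calc P = (s * c + t * 5) • P := by rw [hst, one_zsmul]
      _ = s • (c • P) + t • ((5 : ℤ) • P) := by rw [add_zsmul, mul_smul, mul_smul]
      _ = 0 := by rw [hc, hP5, smul_zero, smul_zero, add_zero]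
  have ha : (5 : ℤ) ∣ a := by
    by_contra hnd
    obtain ⟨s, t, hst⟩ := hcop a hnd
    have h' : a • Q = -(b • R) := eq_neg_of_add_eq_zero_left h
    have hQ : Q = (-(s * b)) • R := by
      calc Q = (s * a + t * 5) • Q := by rw [hst, one_zsmul]
        _ = s • (a • Q) + t • ((5 : ℤ) • Q) := by rw [add_zsmul, mul_smul, mul_smul]
        _ = (-(s * b)) • R := by
          rw [h', hQ5, smul_zero, add_zero, neg_smul, mul_smul, smul_neg]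
    have hmod : (-(s * b)) • R = ((-(s * b)) % 5) • R := by
      conv_lhs => rw [← Int.emod_add_mul_ediv (-(s * b)) 5]
      rw [add_zsmul, mul_comm (5 : ℤ), mul_smul, hR5, smul_zero, add_zero]
    have hlt : (-(s * b)) % 5 < 5 := Int.emod_lt_of_pos _ (by norm_num)
    have hge : 0 ≤ (-(s * b)) % 5 := Int.emod_nonneg _ (by norm_num)
    rw [hmod] at hQ
    generalize (-(s * b)) % 5 = r at hQ hlt hge
    interval_cases r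
    · exact hQ0 (by rw [hQ, zero_zsmul])
    · exact n1 (by rw [hQ, one_zsmul])
    · exact n3 (by rw [hQ, two_zsmul])
    · apply n4
      rw [hQ]
      have e : (3 : ℤ) • R + (R + R) = 0 := by
        have e' : (3 : ℤ) • R + (R + R) = (5 : ℤ) • R := by abel
        rw [e', hR5]
      exact eq_neg_of_add_eq_zero_left e
    · apply n2
      rw [hQ]
      have e : (4 : ℤ) • R + R = 0 := by
        have e' : (4 : ℤ) • R + R = (5 : ℤ) • R := by abel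
        rw [e', hR5]
      exact eq_neg_of_add_eq_zero_left e
  refine ⟨ha, ?_⟩
  obtain ⟨k, rfl⟩ := ha
  apply key R hR5 hR0 b
  rw [mul_comm, mul_smul, hQ5, smul_zero, zero_add] at h
  exact h

end aux

section chord

variable {F : Type*} [Field F] {K : Type*} [Field K] [DecidableEq K] [Algebra F K] {A B : F}

omit [DecidableEq K] in
/-- `R(u)` satisfies the equation of `h5_sw A B` for `u` in the fibre. -/
theorem h77_fib_eqn {u : K × K} (hu : u ∈ kFib A B) :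
    kY u.1 u.2 ^ 2 = kX u.1 u.2 ^ 3 + algebraMap F K A * kX u.1 u.2 + algebraMap F K B := by
  rw [← hu.1, ← hu.2]
  exact kl_R_eqn u.1 u.2

/-- The `x`-coordinates of `R(u)` and `R(T₀ u)` differ. -/
theorem kl_X_T0_ne (h2 : (2 : F) ≠ 0) (h3 : (3 : F) ≠ 0) (h5 : (5 : F) ≠ 0)
    (hΔ : 4 * A ^ 3 + 27 * B ^ 2 ≠ 0) (ζ : K) (hζ : ζ ^ 4 + ζ ^ 3 + ζ ^ 2 + ζ + 1 = 0)
    {u : K × K} (hu : u ∈ kFib A B) :
    kX (kT0 ζ u).1 (kT0 ζ u).2 ≠ kX u.1 u.2 := by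
  have h2K : (2 : K) ≠ 0 := h77_ofNat_ne 2 h2
  have h3K : (3 : K) ≠ 0 := h77_ofNat_ne 3 h3
  have h5K : (5 : K) ≠ 0 := h77_ofNat_ne 5 h5
  have hq := kl_kQ10_ne ζ hζ h5K
  have hf := kl_fib_kf_ne hΔ hu
  intro e
  rw [kl_kX_T0 ζ hζ h5K u, div_eq_iff hq] at e
  have hd := kl_diff1 (kphi ζ) u.1 u.2 (kl_phi_sq ζ hζ)
  have h0 : kQ10 (kphi ζ) * kX u.1 u.2 - kNX (kphi ζ) u.1 u.2 = 0 := by
    rw [e]; ring
  rw [h0, zero_mul] at hd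
  have h36 : (36 : K) ≠ 0 := by
    have e36 : (36 : K) = 2 ^ 2 * 3 ^ 2 := by norm_num
    rw [e36]
    exact mul_ne_zero (pow_ne_zero 2 h2K) (pow_ne_zero 2 h3K)
  exact mul_ne_zero (mul_ne_zero h36 hq) (pow_ne_zero 2 hf) hd.symm

/-- The `x`-coordinates of `2 R(u) = R(J u)` and `R(T₀ u)` differ. -/
theorem kl_X_T0_ne_J (h2 : (2 : F) ≠ 0) (h3 : (3 : F) ≠ 0) (h5 : (5 : F) ≠ 0)
    (hΔ : 4 * A ^ 3 + 27 * B ^ 2 ≠ 0) (ζ : K) (hζ : ζ ^ 4 + ζ ^ 3 + ζ ^ 2 + ζ + 1 = 0)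
    {u : K × K} (hu : u ∈ kFib A B) :
    kX (kT0 ζ u).1 (kT0 ζ u).2 ≠ kX (kJ u).1 (kJ u).2 := by
  have h2K : (2 : K) ≠ 0 := h77_ofNat_ne 2 h2
  have h3K : (3 : K) ≠ 0 := h77_ofNat_ne 3 h3
  have h5K : (5 : K) ≠ 0 := h77_ofNat_ne 5 h5
  have hq := kl_kQ10_ne ζ hζ h5K
  have hf := kl_fib_kf_ne hΔ hu
  show kX (kT0 ζ u).1 (kT0 ζ u).2 ≠ kX u.2 (-u.1)
  intro e
  rw [kl_kX_T0 ζ hζ h5K u, div_eq_iff hq] at e
  have hd := kl_diff2 (kphi ζ) u.1 u.2 (kl_phi_sq ζ hζ)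
  have h0 : kQ10 (kphi ζ) * kX u.2 (-u.1) - kNX (kphi ζ) u.1 u.2 = 0 := by
    rw [e]; ring
  rw [h0, zero_mul] at hd
  have h36 : (36 : K) ≠ 0 := by
    have e36 : (36 : K) = 2 ^ 2 * 3 ^ 2 := by norm_num
    rw [e36]
    exact mul_ne_zero (pow_ne_zero 2 h2K) (pow_ne_zero 2 h3K)
  exact mul_ne_zero (mul_ne_zero h36 hq) (pow_ne_zero 2 hf) hd.symm

/-- The chord: `R(S u) = R(u) + R(T₀ u)`. -/
theorem kl_R_chord (h2 : (2 : F) ≠ 0) (h3 : (3 : F) ≠ 0) (h5 : (5 : F) ≠ 0)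
    (hΔ : 4 * A ^ 3 + 27 * B ^ 2 ≠ 0) (ζ : K) (hζ : ζ ^ 4 + ζ ^ 3 + ζ ^ 2 + ζ + 1 = 0)
    {u : K × K} (hu : u ∈ kFib A B) :
    kR A B (kS ζ u) = kR A B u + kR A B (kT0 ζ u) := by
  have h5K : (5 : K) ≠ 0 := h77_ofNat_ne 5 h5
  have hq10 := kl_kQ10_ne ζ hζ h5K
  have hq15 := kl_kQ15_ne ζ hζ h5K
  have h1 := kl_phi_sq ζ hζ
  have hz := kl_zeta_quad ζ hζ
  have hq : kQ10 (kphi ζ) ^ 3 = kQ15 (kphi ζ) ζ ^ 2 := by
    rw [← kl_kb_pow10 ζ hζ, ← kl_kb_pow15 ζ hζ]; ring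
  have hT := kl_fib_T0 h5 ζ hζ hu
  have e1 := h77_fib_eqn hu
  have e2 := h77_fib_eqn hT
  have hx := (kl_X_T0_ne h2 h3 h5 hΔ ζ hζ hu).symm
  obtain ⟨cX, cY⟩ := h77_chord_div (kX u.1 u.2) (kY u.1 u.2) (kNX (kphi ζ) u.1 u.2)
    (kNY (kphi ζ) u.1 u.2) (kQ10 (kphi ζ)) (kQ15 (kphi ζ) ζ) (kXS (kphi ζ) ζ u.1 u.2)
    (kYS (kphi ζ) ζ u.1 u.2) hq10 hq15 hq (kl_chord_X (kphi ζ) ζ u.1 u.2 h1 hz)
    (kl_chord_Y (kphi ζ) ζ u.1 u.2 h1 hz)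
  rw [← kl_kX_T0 ζ hζ h5K u, ← kl_kY_T0 ζ hζ h5K u, ← kl_kX_S ζ hζ u] at cX
  rw [← kl_kX_T0 ζ hζ h5K u, ← kl_kY_T0 ζ hζ h5K u, ← kl_kX_S ζ hζ u, ← kl_kY_S ζ hζ u] at cY
  simp only [kR, kl_kpt_eq]
  exact (h5_pt_add_of_X_ne h2 hΔ e1 e2 hx cX cY).symm

/-- `R ∘ T₀` is `S`-invariant. -/
theorem kl_R_T0_S (h5 : (5 : F) ≠ 0) (ζ : K) (hζ : ζ ^ 4 + ζ ^ 3 + ζ ^ 2 + ζ + 1 = 0)
    (u : K × K) : kR A B (kT0 ζ (kS ζ u)) = kR A B (kT0 ζ u) := by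
  have h5K : (5 : K) ≠ 0 := h77_ofNat_ne 5 h5
  unfold kR
  rw [kl_kX_T0 ζ hζ h5K (kS ζ u), kl_kY_T0 ζ hζ h5K (kS ζ u), kl_kNX_S ζ hζ, kl_kNY_S ζ hζ,
    ← kl_kX_T0 ζ hζ h5K u, ← kl_kY_T0 ζ hζ h5K u]

/-- `R(T₀ u)` is none of `± R(u)`, `± 2 R(u)`. -/
theorem kl_R_T0_ne (h2 : (2 : F) ≠ 0) (h3 : (3 : F) ≠ 0) (h5 : (5 : F) ≠ 0)
    (hΔ : 4 * A ^ 3 + 27 * B ^ 2 ≠ 0) (ζ : K) (hζ : ζ ^ 4 + ζ ^ 3 + ζ ^ 2 + ζ + 1 = 0)
    {u : K × K} (hu : u ∈ kFib A B) :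
    kR A B (kT0 ζ u) ≠ kR A B u ∧ kR A B (kT0 ζ u) ≠ -kR A B u ∧
      kR A B (kT0 ζ u) ≠ kR A B (kJ u) ∧ kR A B (kT0 ζ u) ≠ -kR A B (kJ u) := by
  have hT := kl_fib_T0 h5 ζ hζ hu
  have hJ : kJ u ∈ kFib A B := kl_fib_J hu
  have e1 := h77_fib_eqn hu
  have e2 := h77_fib_eqn hT
  have e3 := h77_fib_eqn hJ
  have e1' : (-kY u.1 u.2) ^ 2 =
      kX u.1 u.2 ^ 3 + algebraMap F K A * kX u.1 u.2 + algebraMap F K B := by
    rw [neg_sq]; exact e1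
  have e3' : (-kY (kJ u).1 (kJ u).2) ^ 2 = kX (kJ u).1 (kJ u).2 ^ 3 +
      algebraMap F K A * kX (kJ u).1 (kJ u).2 + algebraMap F K B := by
    rw [neg_sq]; exact e3
  have n1 := kl_X_T0_ne h2 h3 h5 hΔ ζ hζ hu
  have n2 := kl_X_T0_ne_J h2 h3 h5 hΔ ζ hζ hu
  refine ⟨?_, ?_, ?_, ?_⟩
  · intro e
    simp only [kR, kl_kpt_eq] at e
    exact n1 (h5_pt_inj h2 hΔ e2 e1 e).1
  · intro e
    simp only [kR, kl_kpt_eq] at e
    rw [h5_pt_neg h2 hΔ e1] at e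
    exact n1 (h5_pt_inj h2 hΔ e2 e1' e).1
  · intro e
    simp only [kR, kl_kpt_eq] at e
    exact n2 (h5_pt_inj h2 hΔ e2 e3 e).1
  · intro e
    simp only [kR, kl_kpt_eq] at e
    rw [h5_pt_neg h2 hΔ e3] at e
    exact n2 (h5_pt_inj h2 hΔ e2 e3' e).1

/-- `R(T₀ u)`, `R(u)` are independent in `E_u[5]`. -/
theorem kl_indep (h2 : (2 : F) ≠ 0) (h3 : (3 : F) ≠ 0) (h5 : (5 : F) ≠ 0)
    (hΔ : 4 * A ^ 3 + 27 * B ^ 2 ≠ 0) (ζ : K) (hζ : ζ ^ 4 + ζ ^ 3 + ζ ^ 2 + ζ + 1 = 0)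
    {u : K × K} (hu : u ∈ kFib A B) (a b : ℤ)
    (h : a • kR A B (kT0 ζ u) + b • kR A B u = 0) : (5 : ℤ) ∣ a ∧ (5 : ℤ) ∣ b := by
  have hT := kl_fib_T0 h5 ζ hζ hu
  have hR5 := kl_R_five h2 hΔ hu
  have hQ5 := kl_R_five h2 hΔ hT
  have hR0 := kl_R_ne_zero h2 hΔ hu
  have hQ0 := kl_R_ne_zero h2 hΔ hT
  have hdbl := kl_R_dbl h2 hΔ hu
  obtain ⟨n1, n2, n3, n4⟩ := kl_R_T0_ne h2 h3 h5 hΔ ζ hζ hu
  rw [← hdbl] at n3 n4
  exact h77_indep5 hR5 hQ5 hR0 hQ0 n1 n2 n3 n4 a b h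

end chord

end Fermat.Agent.S52
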