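import Fermat.Agent.S52.h5_SwAddW

/-!
# S52 block (II) glue (helper5): points of `y² = x³ + A x + B` from coordinates

`h5_pt A B x y : h5_Pt A B Ω` is the affine point `(x, y)` (and `0` if `(x, y)` is not on the
curve).  Addition, doubling, negation, injectivity and Frobenius are stated in *cleared*
form, so that every entry of an addition table of explicitly given points is one polynomial
identity plus one call.
-/

set_option autoImplicit false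

namespace Fermat.Agent.S52

open WeierstrassCurve WeierstrassCurve.Affine

section pt

variable {F : Type*} [Field F] (A B : F) {Ω : Type*} [Field Ω] [DecidableEq Ω] [Algebra F Ω]

open Classical in
/-- The affine point `(x, y)` of `y² = x³ + A x + B` over `Ω` (`0` if not on the curve). -/
noncomputable def h5_pt (x y : Ω) : h5_Pt A B Ω :=
  if h : ((h5_sw A B).toAffine⁄Ω).Nonsingular x y then Affine.Point.some x y h else 0

variable {A B}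

omit [DecidableEq Ω] in
lemma h5_pt_eq_some {x y : Ω} (h : ((h5_sw A B).toAffine⁄Ω).Nonsingular x y) :
    h5_pt A B x y = Affine.Point.some x y h := by
  rw [h5_pt, dif_pos h]

/-- Every point is `0` or an `h5_pt`. -/
lemma h5_pt_cases (P : h5_Pt A B Ω) :
    P = 0 ∨ ∃ x y : Ω, y ^ 2 = x ^ 3 + algebraMap F Ω A * x + algebraMap F Ω B ∧
      P = h5_pt A B x y := by
  rcases P with _ | ⟨x, y, h⟩
  · exact Or.inl rfl
  · exact Or.inr ⟨x, y, (h5_bc_equation_iff A B x y).1 h.1, (h5_pt_eq_some h).symm⟩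

variable (h2 : (2 : F) ≠ 0) (hΔ : 4 * A ^ 3 + 27 * B ^ 2 ≠ 0)
include h2 hΔ

lemma h5_pt_nonsingular {x y : Ω}
    (h : y ^ 2 = x ^ 3 + algebraMap F Ω A * x + algebraMap F Ω B) :
    ((h5_sw A B).toAffine⁄Ω).Nonsingular x y :=
  h5_bc_nonsingular A B h2 hΔ h

lemma h5_pt_ne_zero {x y : Ω}
    (h : y ^ 2 = x ^ 3 + algebraMap F Ω A * x + algebraMap F Ω B) :
    h5_pt A B x y ≠ 0 := by
  rw [h5_pt_eq_some (h5_pt_nonsingular h2 hΔ h)]
  exact Affine.Point.some_ne_zero _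

lemma h5_pt_inj {x y x' y' : Ω}
    (h : y ^ 2 = x ^ 3 + algebraMap F Ω A * x + algebraMap F Ω B)
    (h' : y' ^ 2 = x' ^ 3 + algebraMap F Ω A * x' + algebraMap F Ω B)
    (e : h5_pt A B x y = h5_pt A B x' y') : x = x' ∧ y = y' := by
  rw [h5_pt_eq_some (h5_pt_nonsingular h2 hΔ h),
    h5_pt_eq_some (h5_pt_nonsingular h2 hΔ h')] at e
  simpa using e

lemma h5_pt_neg {x y : Ω}
    (h : y ^ 2 = x ^ 3 + algebraMap F Ω A * x + algebraMap F Ω B) :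
    -h5_pt A B x y = h5_pt A B x (-y) := by
  rw [h5_pt_eq_some (h5_pt_nonsingular h2 hΔ h)]
  obtain ⟨h', e⟩ := h5_bc_neg_some A B (h5_pt_nonsingular h2 hΔ h)
  rw [e, h5_pt_eq_some h']

/-- Chord: the sum of two points with distinct `x`-coordinates, in cleared form. -/
lemma h5_pt_add_of_X_ne {x₁ y₁ x₂ y₂ x₃ y₃ : Ω}
    (h₁ : y₁ ^ 2 = x₁ ^ 3 + algebraMap F Ω A * x₁ + algebraMap F Ω B)
    (h₂ : y₂ ^ 2 = x₂ ^ 3 + algebraMap F Ω A * x₂ + algebraMap F Ω B) (hx : x₁ ≠ x₂)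
    (hX : x₃ * (x₁ - x₂) ^ 2 = (y₁ - y₂) ^ 2 - (x₁ + x₂) * (x₁ - x₂) ^ 2)
    (hY : y₃ * (x₁ - x₂) = -((y₁ - y₂) * (x₃ - x₁) + y₁ * (x₁ - x₂))) :
    h5_pt A B x₁ y₁ + h5_pt A B x₂ y₂ = h5_pt A B x₃ y₃ := by
  have n₁ := h5_pt_nonsingular h2 hΔ h₁
  have n₂ := h5_pt_nonsingular h2 hΔ h₂
  obtain ⟨X₃, Y₃, X₄, Y₄, n₃, n₄, e₃, -, -, -, eX, eY, -, -⟩ :=
    h5_bc_add_sub_of_X_ne A B n₁ n₂ hx
  have hd : x₁ - x₂ ≠ 0 := sub_ne_zero.2 hx
  have e1 : X₃ = x₃ := by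
    have : X₃ * (x₁ - x₂) ^ 2 = x₃ * (x₁ - x₂) ^ 2 := by rw [eX, hX]
    exact mul_right_cancel₀ (pow_ne_zero 2 hd) this
  have e2 : Y₃ = y₃ := by
    have : Y₃ * (x₁ - x₂) = y₃ * (x₁ - x₂) := by rw [eY, hY, e1]
    exact mul_right_cancel₀ hd this
  subst e1 e2
  rw [h5_pt_eq_some n₁, h5_pt_eq_some n₂, e₃, h5_pt_eq_some n₃]

/-- Chord: the difference of two points with distinct `x`-coordinates, in cleared form. -/
lemma h5_pt_sub_of_X_ne {x₁ y₁ x₂ y₂ x₄ y₄ : Ω}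
    (h₁ : y₁ ^ 2 = x₁ ^ 3 + algebraMap F Ω A * x₁ + algebraMap F Ω B)
    (h₂ : y₂ ^ 2 = x₂ ^ 3 + algebraMap F Ω A * x₂ + algebraMap F Ω B) (hx : x₁ ≠ x₂)
    (hX : x₄ * (x₁ - x₂) ^ 2 = (y₁ + y₂) ^ 2 - (x₁ + x₂) * (x₁ - x₂) ^ 2)
    (hY : y₄ * (x₁ - x₂) = -((y₁ + y₂) * (x₄ - x₁) + y₁ * (x₁ - x₂))) :
    h5_pt A B x₁ y₁ - h5_pt A B x₂ y₂ = h5_pt A B x₄ y₄ := by
  have n₁ := h5_pt_nonsingular h2 hΔ h₁
  have n₂ := h5_pt_nonsingular h2 hΔ h₂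
  obtain ⟨X₃, Y₃, X₄, Y₄, n₃, n₄, -, e₄, -, -, -, -, eX, eY⟩ :=
    h5_bc_add_sub_of_X_ne A B n₁ n₂ hx
  have hd : x₁ - x₂ ≠ 0 := sub_ne_zero.2 hx
  have e1 : X₄ = x₄ := by
    have : X₄ * (x₁ - x₂) ^ 2 = x₄ * (x₁ - x₂) ^ 2 := by rw [eX, hX]
    exact mul_right_cancel₀ (pow_ne_zero 2 hd) this
  have e2 : Y₄ = y₄ := by
    have : Y₄ * (x₁ - x₂) = y₄ * (x₁ - x₂) := by rw [eY, hY, e1]
    exact mul_right_cancel₀ hd this
  subst e1 e2
  rw [h5_pt_eq_some n₁, h5_pt_eq_some n₂, e₄, h5_pt_eq_some n₄]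

/-- Tangent: the double of a point with `y ≠ 0`, in cleared form. -/
lemma h5_pt_add_self {x y x₅ y₅ : Ω}
    (h : y ^ 2 = x ^ 3 + algebraMap F Ω A * x + algebraMap F Ω B) (hy : y ≠ 0)
    (hX : x₅ * (4 * y ^ 2) = x ^ 4 - 2 * algebraMap F Ω A * x ^ 2 - 8 * algebraMap F Ω B * x +
      algebraMap F Ω A ^ 2)
    (hY : y₅ * (2 * y) = -((3 * x ^ 2 + algebraMap F Ω A) * (x₅ - x) + 2 * y ^ 2)) :
    h5_pt A B x y + h5_pt A B x y = h5_pt A B x₅ y₅ := by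
  have n := h5_pt_nonsingular h2 hΔ h
  have h2' : (2 : Ω) ≠ 0 := by
    have : (2 : Ω) = algebraMap F Ω 2 := (map_ofNat (algebraMap F Ω) 2).symm
    rw [this]
    exact (map_ne_zero _).2 h2
  obtain ⟨X₅, Y₅, n₅, e₅, eX, eY⟩ := h5_bc_add_self_of_Y_ne A B n hy h2'
  have e1 : X₅ = x₅ := by
    have : X₅ * (4 * y ^ 2) = x₅ * (4 * y ^ 2) := by rw [eX, hX]
    refine mul_right_cancel₀ ?_ this
    have h4 : (4 : Ω) = 2 * 2 := by norm_num
    rw [h4]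
    exact mul_ne_zero (mul_ne_zero h2' h2') (pow_ne_zero 2 hy)
  have e2 : Y₅ = y₅ := by
    have : Y₅ * (2 * y) = y₅ * (2 * y) := by rw [eY, hY, e1]
    exact mul_right_cancel₀ (mul_ne_zero h2' hy) this
  subst e1 e2
  rw [h5_pt_eq_some n, e₅, h5_pt_eq_some n₅]

/-- Two points with the same `x` and opposite `y` add up to zero. -/
lemma h5_pt_add_neg {x y : Ω}
    (h : y ^ 2 = x ^ 3 + algebraMap F Ω A * x + algebraMap F Ω B) :
    h5_pt A B x y + h5_pt A B x (-y) = 0 := by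
  rw [← h5_pt_neg h2 hΔ h, add_neg_cancel]

omit h2 hΔ

end pt

section frob

variable {F : Type*} [Field F] [Fintype F] {A B : F}
variable {Ω : Type*} [Field Ω] [DecidableEq Ω] [Algebra F Ω]

/-- Frobenius on coordinates. -/
lemma h5_frob_pt (h2 : (2 : F) ≠ 0) (hΔ : 4 * A ^ 3 + 27 * B ^ 2 ≠ 0) {x y : Ω}
    (h : y ^ 2 = x ^ 3 + algebraMap F Ω A * x + algebraMap F Ω B) :
    h5_frob A B Ω (h5_pt A B x y) =
      h5_pt A B (x ^ Fintype.card F) (y ^ Fintype.card F) := by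
  have n := h5_pt_nonsingular h2 hΔ h
  rw [h5_pt_eq_some n]
  obtain ⟨h', e⟩ := h5_frob_some A B n
  rw [e, h5_pt_eq_some h']

end frob

end Fermat.Agent.S52
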