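import Fermat.Agent.S52.KleinAct
import Fermat.Agent.S52.h5_PtMk

/-!
# S52 block (II), row PTS: the 5-torsion point `R(u)` on `E_u` (duplication, order 5)
-/

set_option autoImplicit false

namespace Fermat.Agent.S52

open WeierstrassCurve WeierstrassCurve.Affine

section pts

variable {F : Type*} [Field F] {K : Type*} [Field K] [DecidableEq K] [Algebra F K] {A B : F}

/-- `kpt` is helper5's `h5_pt` (use the `h5_pt_*` lemmas of `h5_PtMk`). -/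
theorem kl_kpt_eq (X Y : K) : kpt A B X Y = h5_pt A B X Y := rfl

theorem kl_kpt_some {X Y : K} (h : ((h5_sw A B).toAffine⁄K).Nonsingular X Y) :
    kpt A B X Y = Affine.Point.some X Y h := by
  rw [kpt, dif_pos h]

private lemma h47_kpt_not {X Y : K} (h : ¬ ((h5_sw A B).toAffine⁄K).Nonsingular X Y) :
    kpt A B X Y = 0 := by
  rw [kpt, dif_neg h]

theorem kl_kpt_neg (X Y : K) : kpt A B X (-Y) = -kpt A B X Y := by
  by_cases h : ((h5_sw A B).toAffine⁄K).Nonsingular X Y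
  · obtain ⟨h', e⟩ := h5_bc_neg_some A B h
    rw [kl_kpt_some h, kl_kpt_some h', e]
  · have h' : ¬ ((h5_sw A B).toAffine⁄K).Nonsingular X (-Y) := by
      intro hn
      obtain ⟨h'', -⟩ := h5_bc_neg_some A B hn
      rw [neg_neg] at h''
      exact h h''
    rw [h47_kpt_not h, h47_kpt_not h', neg_zero]

private lemma h47_mem_kFib {u : K × K} :
    u ∈ kFib A B ↔
      27 * kH u.1 u.2 = algebraMap F K A ∧ 54 * kT u.1 u.2 = algebraMap F K B := Iff.rfl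

private lemma h47_disc_map {u : K × K} (hu : u ∈ kFib A B) :
    algebraMap F K (4 * A ^ 3 + 27 * B ^ 2) = 136048896 * kf u.1 u.2 ^ 5 := by
  obtain ⟨hH, hT⟩ := h47_mem_kFib.1 hu
  rw [map_add, map_mul, map_mul, map_pow, map_pow, map_ofNat, map_ofNat, ← hH, ← hT]
  exact kl_disc u.1 u.2

theorem kl_fib_kf_ne (hΔ : 4 * A ^ 3 + 27 * B ^ 2 ≠ 0) {u : K × K} (hu : u ∈ kFib A B) :
    kf u.1 u.2 ≠ 0 := by
  intro h0
  have h := h47_disc_map hu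
  rw [h0] at h
  have h' : algebraMap F K (4 * A ^ 3 + 27 * B ^ 2) = 0 := by
    rw [h]; ring
  exact hΔ ((map_eq_zero _).1 h')

theorem kl_fib_ne_zero (hΔ : 4 * A ^ 3 + 27 * B ^ 2 ≠ 0) {u : K × K} (hu : u ∈ kFib A B) :
    u ≠ 0 := by
  intro h0
  apply kl_fib_kf_ne hΔ hu
  rw [h0]
  simp [kf]

private lemma h47_R_eqn {u : K × K} (hu : u ∈ kFib A B) :
    kY u.1 u.2 ^ 2 = kX u.1 u.2 ^ 3 + algebraMap F K A * kX u.1 u.2 + algebraMap F K B := by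
  obtain ⟨hH, hT⟩ := h47_mem_kFib.1 hu
  rw [← hH, ← hT]
  exact kl_R_eqn u.1 u.2

/-- `R(u)` is a nonsingular point of `E_u = h5_sw A B`. -/
theorem kl_R_nonsingular (h2 : (2 : F) ≠ 0) (hΔ : 4 * A ^ 3 + 27 * B ^ 2 ≠ 0) {u : K × K}
    (hu : u ∈ kFib A B) :
    ((h5_sw A B).toAffine⁄K).Nonsingular (kX u.1 u.2) (kY u.1 u.2) :=
  h5_bc_nonsingular A B h2 hΔ (h47_R_eqn hu)

theorem kl_R_ne_zero (h2 : (2 : F) ≠ 0) (hΔ : 4 * A ^ 3 + 27 * B ^ 2 ≠ 0) {u : K × K}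
    (hu : u ∈ kFib A B) : kR A B u ≠ 0 := by
  rw [kR, kl_kpt_some (kl_R_nonsingular h2 hΔ hu)]
  exact Affine.Point.some_ne_zero _

theorem kl_fib_J {u : K × K} (hu : u ∈ kFib A B) : kJ u ∈ kFib A B := by
  obtain ⟨hH, hT⟩ := h47_mem_kFib.1 hu
  refine h47_mem_kFib.2 ⟨?_, ?_⟩
  · show 27 * kH u.2 (-u.1) = _
    rw [kl_kH_J, hH]
  · show 54 * kT u.2 (-u.1) = _
    rw [kl_kT_J, hT]

theorem kl_fib_smul (c : K) (hc : c ^ 10 = 1) {u : K × K} (hu : u ∈ kFib A B) :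
    c • u ∈ kFib A B := by
  obtain ⟨hH, hT⟩ := h47_mem_kFib.1 hu
  have h20 : c ^ 20 = 1 := by
    have : c ^ 20 = (c ^ 10) ^ 2 := by ring
    rw [this, hc, one_pow]
  have h30 : c ^ 30 = 1 := by
    have : c ^ 30 = (c ^ 10) ^ 3 := by ring
    rw [this, hc, one_pow]
  refine h47_mem_kFib.2 ⟨?_, ?_⟩
  · show 27 * kH (c * u.1) (c * u.2) = _
    rw [kl_kH_smul, h20, one_mul, hH]
  · show 54 * kT (c * u.1) (c * u.2) = _
    rw [kl_kT_smul, h30, one_mul, hT]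

theorem kl_fib_neg {u : K × K} (hu : u ∈ kFib A B) : -u ∈ kFib A B := by
  have h := kl_fib_smul (A := A) (B := B) (-1 : K) (by norm_num) hu
  have e : (-1 : K) • u = -u := by simp
  rwa [e] at h

theorem kl_fib_S (ζ : K) (hζ : ζ ^ 4 + ζ ^ 3 + ζ ^ 2 + ζ + 1 = 0) {u : K × K}
    (hu : u ∈ kFib A B) : kS ζ u ∈ kFib A B := by
  obtain ⟨hH, hT⟩ := h47_mem_kFib.1 hu
  refine h47_mem_kFib.2 ⟨?_, ?_⟩
  · rw [kl_kH_S ζ hζ, hH]
  · rw [kl_kT_S ζ hζ, hT]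

private lemma h47_five_ne (h5 : (5 : F) ≠ 0) : (5 : K) ≠ 0 := by
  have : (5 : K) = algebraMap F K 5 := (map_ofNat (algebraMap F K) 5).symm
  rw [this]
  exact (map_ne_zero _).2 h5

theorem kl_fib_T0 (h5 : (5 : F) ≠ 0) (ζ : K) (hζ : ζ ^ 4 + ζ ^ 3 + ζ ^ 2 + ζ + 1 = 0)
    {u : K × K} (hu : u ∈ kFib A B) : kT0 ζ u ∈ kFib A B := by
  obtain ⟨hH, hT⟩ := h47_mem_kFib.1 hu
  have h5' : (5 : K) ≠ 0 := h47_five_ne h5
  refine h47_mem_kFib.2 ⟨?_, ?_⟩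
  · rw [kl_kH_T0 ζ hζ h5', hH]
  · rw [kl_kT_T0 ζ hζ h5', hT]

theorem kl_fib_act (h5 : (5 : F) ≠ 0) (ζ : K) (hζ : ζ ^ 4 + ζ ^ 3 + ζ ^ 2 + ζ + 1 = 0)
    {u : K × K} (hu : u ∈ kFib A B) (w : List Bool) : kact ζ w u ∈ kFib A B := by
  induction w with
  | nil => exact hu
  | cons c w ih =>
    cases c
    · exact kl_fib_T0 h5 ζ hζ ih
    · exact kl_fib_S ζ hζ ih

/-- `y(R(u)) ≠ 0` on the fibre (the point `R(u)` is not a 2-torsion point). -/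
private lemma h47_kY_ne (hΔ : 4 * A ^ 3 + 27 * B ^ 2 ≠ 0) {u : K × K}
    (hu : u ∈ kFib A B) : kY u.1 u.2 ≠ 0 := by
  intro hY
  obtain ⟨hH, hT⟩ := h47_mem_kFib.1 hu
  have e1 := h47_R_eqn hu
  have e2 := kl_dbl_X u.1 u.2
  rw [hH, hT, hY] at e2
  rw [hY] at e1
  set x := kX u.1 u.2 with hx
  set a := algebraMap F K A with ha
  set b := algebraMap F K B with hb
  -- e1 : 0 = x^3 + a x + b ; e2 : 0 = x^4 - 2 a x^2 - 8 b x + a^2
  have h3 : (3 * x ^ 2 + a) ^ 2 = 0 := by linear_combination (-1 : K) * e2 - 8 * x * e1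
  have h4 : a = -3 * x ^ 2 := by
    have := pow_eq_zero_iff (n := 2) (by norm_num) |>.1 h3
    linear_combination this
  have h5 : b = 2 * x ^ 3 := by linear_combination (-1 : K) * e1 - x * h4
  have h6 : algebraMap F K (4 * A ^ 3 + 27 * B ^ 2) = 0 := by
    rw [map_add, map_mul, map_mul, map_pow, map_pow, map_ofNat, map_ofNat, ← ha, ← hb, h4, h5]
    ring
  exact hΔ ((map_eq_zero _).1 h6)

/-- `2 R(u) = R(J u)`. -/
theorem kl_R_dbl (h2 : (2 : F) ≠ 0) (hΔ : 4 * A ^ 3 + 27 * B ^ 2 ≠ 0) {u : K × K}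
    (hu : u ∈ kFib A B) : kR A B u + kR A B u = kR A B (kJ u) := by
  obtain ⟨hH, hT⟩ := h47_mem_kFib.1 hu
  have hX := kl_dbl_X u.1 u.2
  have hY := kl_dbl_Y u.1 u.2
  rw [hH, hT] at hX
  rw [hH] at hY
  exact h5_pt_add_self h2 hΔ (h47_R_eqn hu) (h47_kY_ne hΔ hu) hX hY

theorem kl_R_neg (u : K × K) : kR A B (-u) = -kR A B u := by
  show kpt A B (kX (-u.1) (-u.2)) (kY (-u.1) (-u.2)) = -kpt A B (kX u.1 u.2) (kY u.1 u.2)
  rw [kl_kX_neg, kl_kY_neg, kl_kpt_neg]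

private lemma h47_J_J (u : K × K) : kJ (kJ u) = -u := by
  ext <;> simp [kJ]

/-- `R(u)` has order 5. -/
theorem kl_R_five (h2 : (2 : F) ≠ 0) (hΔ : 4 * A ^ 3 + 27 * B ^ 2 ≠ 0) {u : K × K}
    (hu : u ∈ kFib A B) : (5 : ℤ) • kR A B u = 0 := by
  have e1 := kl_R_dbl h2 hΔ hu
  have e2 := kl_R_dbl h2 hΔ (kl_fib_J hu)
  rw [h47_J_J, kl_R_neg, ← e1] at e2
  -- e2 : (R + R) + (R + R) = -R
  have e3 : kR A B u + kR A B u + (kR A B u + kR A B u) + kR A B u = 0 := by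
    rw [e2, neg_add_cancel]
  rw [← e3]
  have : (5 : ℤ) = 1 + 1 + 1 + 1 + 1 := by norm_num
  rw [this]
  simp only [add_smul, one_smul]
  abel

theorem kl_R_smul (c : K) (hc : c ^ 5 = 1) (u : K × K) : kR A B (c • u) = kR A B u := by
  have h10 : c ^ 10 = 1 := by
    have : c ^ 10 = (c ^ 5) ^ 2 := by ring
    rw [this, hc, one_pow]
  have h15 : c ^ 15 = 1 := by
    have : c ^ 15 = (c ^ 5) ^ 3 := by ring
    rw [this, hc, one_pow]
  show kpt A B (kX (c * u.1) (c * u.2)) (kY (c * u.1) (c * u.2)) =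
    kpt A B (kX u.1 u.2) (kY u.1 u.2)
  rw [kl_kX_smul, kl_kY_smul, h10, h15, one_mul, one_mul]

end pts

end Fermat.Agent.S52
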