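import Fermat.Agent.S52.KleinDefs

/-!
# S52 block (II): the integral 5-torsion section of the Klein family -- definitions (helper50)

`E_u : y² = x³ + 27 H(u) x + 54 T(u)` (`c₄ = -H`, `c₆ = -T`).  `R(u) = (kX u, kY u)` is a point of
order 5 with INTEGER coefficients; `2 R(u) = R(J u)`, `J (x, y) = (y, -x)`.
Parameters: `φ` with `φ² = φ + 1` and `ζ` with `ζ² + φ ζ + 1 = 0` (so `ζ⁵ = 1`, `φ = -ζ - ζ⁴`).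
`N = [[1, φ], [φ, -1]]`, `b = ζ² - ζ³ = -2φζ - φ - 1`, `b² = -(φ + 2)`, `T₀ = N / b`,
`S = diag(ζ³, ζ²)`.  `kNX`, `kNY` are `kX ∘ N`, `kY ∘ N`; `kXS`, `kYS` are `kX ∘ S`, `kY ∘ S`
(reduced); `kQ10 = b¹⁰`, `kQ15 = b¹⁵`.
-/

set_option autoImplicit false

namespace Fermat.Agent.S52

section KleinTorsDefs

variable {R : Type*} [CommRing R]

/-- `x`-coordinate of the integral 5-torsion section `R(u)`. -/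
def kX (x y : R) : R :=
  3 * y ^ 10 + 36 * x ^ 2 * y ^ 8 + 36 * x ^ 3 * y ^ 7 + 72 * x ^ 4 * y ^ 6 - 90 * x ^ 5 * y ^ 5
    + 180 * x ^ 6 * y ^ 4 - 108 * x ^ 7 * y ^ 3 + 72 * x ^ 8 * y ^ 2 - 36 * x ^ 9 * y + 3 * x ^ 10

/-- `y`-coordinate of the integral 5-torsion section `R(u)`. -/
def kY (x y : R) : R :=
  108 * x ^ 2 * y ^ 13 - 108 * x ^ 3 * y ^ 12 + 432 * x ^ 4 * y ^ 11 + 540 * x ^ 6 * y ^ 9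
    - 648 * x ^ 7 * y ^ 8 + 2268 * x ^ 8 * y ^ 7 - 3132 * x ^ 9 * y ^ 6 + 2700 * x ^ 10 * y ^ 5
    - 1620 * x ^ 11 * y ^ 4 + 972 * x ^ 12 * y ^ 3 - 432 * x ^ 13 * y ^ 2 + 108 * x ^ 14 * y

/-- `kX (x + φ y) (φ x - y)` reduced modulo `φ² = φ + 1`. -/
def kNX (φ x y : R) : R :=
  (1875 * φ + 1275) * x ^ 10 + (-24750 * φ - 14850) * x ^ 5 * y ^ 5 + (6375 * φ + 3975) * y ^ 10

/-- `kY (x + φ y) (φ x - y)` reduced modulo `φ² = φ + 1`. -/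
def kNY (φ x y : R) : R :=
  (67500 * φ + 40500) * x ^ 15 + (1485000 * φ + 904500) * x ^ 10 * y ^ 5
      + (8100000 * φ + 5008500) * x ^ 5 * y ^ 10 + (-742500 * φ - 459000) * y ^ 15

/-- `kX (ζ³ x) (ζ² y)` reduced modulo `φ² = φ + 1`, `ζ² + φ ζ + 1 = 0`. -/
def kXS (φ ζ x y : R) : R :=
  3 * x ^ 10 + (36 * φ + 36 * ζ) * x ^ 9 * y + (72 * φ * ζ + 72 * φ) * x ^ 8 * y ^ 2
      + (108 * φ * ζ + 108) * x ^ 7 * y ^ 3 + 180 * ζ * x ^ 6 * y ^ 4 + (-90) * x ^ 5 * y ^ 5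
      + (-72 * φ - 72 * ζ) * x ^ 4 * y ^ 6 + (36 * φ * ζ + 36 * φ) * x ^ 3 * y ^ 7
      + (-36 * φ * ζ - 36) * x ^ 2 * y ^ 8 + 3 * y ^ 10

/-- `kY (ζ³ x) (ζ² y)` reduced modulo `φ² = φ + 1`, `ζ² + φ ζ + 1 = 0`. -/
def kYS (φ ζ x y : R) : R :=
  (-108 * φ - 108 * ζ) * x ^ 14 * y + (-432 * φ * ζ - 432 * φ) * x ^ 13 * y ^ 2
      + (-972 * φ * ζ - 972) * x ^ 12 * y ^ 3 + (-1620 * ζ) * x ^ 11 * y ^ 4 + 2700 * x ^ 10 * y ^ 5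
      + (3132 * φ + 3132 * ζ) * x ^ 9 * y ^ 6 + (2268 * φ * ζ + 2268 * φ) * x ^ 8 * y ^ 7
      + (648 * φ * ζ + 648) * x ^ 7 * y ^ 8 + 540 * ζ * x ^ 6 * y ^ 9
      + (-432 * φ - 432 * ζ) * x ^ 4 * y ^ 11 + (-108 * φ * ζ - 108 * φ) * x ^ 3 * y ^ 12
      + (-108 * φ * ζ - 108) * x ^ 2 * y ^ 13

/-- Cofactor: `(b¹⁰ kX - kNX) * kD1 = 36 b¹⁰ f²`. -/
def kD1 (φ x y : R) : R :=
  (φ + 2) * x ^ 12 * y ^ 2 + (5 * φ + 5) * x ^ 11 * y ^ 3 + (10 * φ + 5) * x ^ 10 * y ^ 4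
      + (10 * φ + 5) * x ^ 9 * y ^ 5 + (-14 * φ + 7) * x ^ 7 * y ^ 7 + (-10 * φ + 15) * x ^ 6 * y ^ 8
      + (5 * φ - 10) * x ^ 5 * y ^ 9 + (5 * φ - 10) * x ^ 4 * y ^ 10 + (-φ + 3) * x ^ 2 * y ^ 12

/-- Cofactor: `(b¹⁰ kX∘J - kNX) * kD2 = 36 b¹⁰ f²`. -/
def kD2 (φ x y : R) : R :=
  (φ + 2) * x ^ 12 * y ^ 2 + (-5 * φ - 5) * x ^ 10 * y ^ 4 + (5 * φ + 5) * x ^ 9 * y ^ 5
      + (10 * φ + 5) * x ^ 8 * y ^ 6 + (-14 * φ + 7) * x ^ 7 * y ^ 7 + (10 * φ - 15) * x ^ 5 * y ^ 9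
      + (-10 * φ + 15) * x ^ 4 * y ^ 10 + (5 * φ - 10) * x ^ 3 * y ^ 11 + (-φ + 3) * x ^ 2 * y ^ 12

/-- `b¹⁰` as a polynomial in `φ`. -/
def kQ10 (φ : R) : R := -(25 * (11 * φ + 7))

/-- `b¹⁵` as a polynomial in `φ`, `ζ`. -/
def kQ15 (φ ζ : R) : R := (2 * φ * ζ + φ + 1) * (3625 * φ + 2250)

end KleinTorsDefs

end Fermat.Agent.S52
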