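import Fermat.Agent.S52.KleinActDefs

/-!
# S52 block (II): 120 words for the binary icosahedral group (helper50)

`kvact w` is the action of the word `w` on row vectors of `(ZMod 5)²` (coordinates with respect to
`(P(u), R(u))`); the 120 words below act by pairwise distinct matrices, i.e. they represent all of
`SL₂(𝔽₅)`.
-/

set_option autoImplicit false

namespace Fermat.Agent.S52

/-- 120 words in `S` (`true`), `T₀` (`false`) representing the binary icosahedral group. -/
def kwords : List (List Bool) :=
  [[],
   [true],
   [false],
   [true, true],
   [true, false],
   [false, true],
   [false, false],
   [true, true, true],
   [true, true, false],
   [true, false, true],
   [true, false, false],
   [false, true, true],
   [false, true, false],
   [false, false, false],
   [true, true, true, true],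
   [true, true, true, false],
   [true, true, false, true],
   [true, true, false, false],
   [true, false, true, true],
   [true, false, true, false],
   [true, false, false, false],
   [false, true, true, true],
   [false, true, true, false],
   [false, true, false, true],
   [false, true, false, false],
   [true, true, true, true, false],
   [true, true, true, false, true],
   [true, true, true, false, false],
   [true, true, false, true, true],
   [true, true, false, true, false],
   [true, true, false, false, false],
   [true, false, true, true, true],
   [true, false, true, true, false],
   [true, false, true, false, false],
   [false, true, true, true, true],
   [false, true, true, true, false],
   [false, true, true, false, true],
   [false, true, true, false, false],
   [false, true, false, true, true],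
   [false, true, false, false, false],
   [true, true, true, true, false, true],
   [true, true, true, true, false, false],
   [true, true, true, false, true, true],
   [true, true, true, false, true, false],
   [true, true, true, false, false, false],
   [true, true, false, true, true, true],
   [true, true, false, true, true, false],
   [true, true, false, true, false, false],
   [true, false, true, true, true, true],
   [true, false, true, true, true, false],
   [true, false, true, true, false, true],
   [true, false, true, true, false, false],
   [false, true, true, true, false, true],
   [false, true, true, true, false, false],
   [false, true, true, false, true, true],
   [false, true, true, false, true, false],
   [false, true, true, false, false, false],
   [false, true, false, true, true, true],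
   [false, true, false, true, true, false],
   [true, true, true, true, false, true, true],
   [true, true, true, true, false, true, false],
   [true, true, true, false, true, true, true],
   [true, true, true, false, true, true, false],
   [true, true, true, false, true, false, false],
   [true, true, false, true, true, true, true],
   [true, true, false, true, true, true, false],
   [true, true, false, true, true, false, true],
   [true, true, false, true, true, false, false],
   [true, false, true, true, true, false, true],
   [true, false, true, true, true, false, false],
   [true, false, true, true, false, true, true],
   [true, false, true, true, false, false, false],
   [false, true, true, true, false, true, true],
   [false, true, true, true, false, true, false],
   [false, true, true, false, true, true, true],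
   [false, true, true, false, true, true, false],
   [false, true, true, false, true, false, false],
   [false, true, false, true, true, true, true],
   [false, true, false, true, true, true, false],
   [true, true, true, true, false, true, true, false],
   [true, true, true, false, true, true, true, false],
   [true, true, true, false, true, true, false, true],
   [true, true, true, false, true, true, false, false],
   [true, true, false, true, true, true, false, true],
   [true, true, false, true, true, true, false, false],
   [true, true, false, true, true, false, true, true],
   [true, true, false, true, true, false, false, false],
   [true, false, true, true, true, false, true, true],
   [true, false, true, true, true, false, true, false],
   [true, false, true, true, false, true, true, true],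
   [true, false, true, true, false, true, true, false],
   [false, true, true, true, false, true, true, false],
   [false, true, true, false, true, true, true, false],
   [false, true, true, false, true, true, false, false],
   [true, true, true, true, false, true, true, false, true],
   [true, true, true, false, true, true, true, false, true],
   [true, true, true, false, true, true, true, false, false],
   [true, true, true, false, true, true, false, true, true],
   [true, true, true, false, true, true, false, false, false],
   [true, true, false, true, true, true, false, true, true],
   [true, true, false, true, true, true, false, true, false],
   [true, true, false, true, true, false, true, true, true],
   [true, true, false, true, true, false, true, true, false],
   [true, false, true, true, true, false, true, true, false],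
   [true, false, true, true, false, true, true, true, false],
   [false, true, true, true, false, true, true, false, true],
   [false, true, true, false, true, true, true, false, true],
   [false, true, true, false, true, true, true, false, false],
   [false, true, true, false, true, true, false, false, false],
   [true, true, true, true, false, true, true, false, true, true],
   [true, true, true, false, true, true, true, false, true, true],
   [true, true, true, false, true, true, true, false, true, false],
   [true, true, true, false, true, true, false, true, true, true],
   [true, true, true, false, true, true, false, true, true, false],
   [true, true, false, true, true, true, false, true, true, false],
   [true, true, false, true, true, false, true, true, true, false],
   [false, true, true, true, false, true, true, false, true, true],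
   [false, true, true, false, true, true, true, false, true, true],
   [true, true, true, true, false, true, true, false, true, true, true],
   [true, true, true, true, false, true, true, false, true, true, false]]

theorem kl_words_length : kwords.length = 120 := by
  decide

set_option maxRecDepth 100000 in
theorem kl_words_nodup :
    (kwords.map (fun w => (kvact w (1, 0), kvact w (0, 1)))).Nodup := by
  decide +kernel

/-- The word `S³ T₀ S² T₀ S³` (`= T₀` for the root `ζ²`). -/
theorem kl_word2 : kvact [true, true, true, false, true, true, false, true, true, true] (0, 1)
    = (3, 0) := by
  decide

/-- The word `S² T₀ S³ T₀ S²` (`= T₀` for the root `ζ³`). -/
theorem kl_word3 : kvact [true, true, false, true, true, true, false, true, true] (0, 1)
    = (2, 0) := by
  decide

end Fermat.Agent.S52
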