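import Mathlib

set_option autoImplicit false

namespace Fermat.Agent.S52

open Polynomial

/-- Rational numbers of the form `a ^ 2 - 3 * b ^ 2` (norms from `ℚ(√3)`). -/
def h16_IsNorm3 (z : ℚ) : Prop := ∃ a b : ℚ, z = a ^ 2 - 3 * b ^ 2

theorem h16_IsNorm3_mul {z w : ℚ} (hz : h16_IsNorm3 z) (hw : h16_IsNorm3 w) :
    h16_IsNorm3 (z * w) := by
  obtain ⟨a, b, rfl⟩ := hz
  obtain ⟨c, d, rfl⟩ := hw
  exact ⟨a * c + 3 * b * d, a * d + b * c, by ring⟩

theorem h16_IsNorm3_sq (c : ℚ) : h16_IsNorm3 (c ^ 2) := ⟨c, 0, by ring⟩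

theorem h16_IsNorm3_pow_even (c : ℚ) {n : ℕ} (hn : Even n) : h16_IsNorm3 (c ^ n) := by
  obtain ⟨k, rfl⟩ := hn
  exact ⟨c ^ k, 0, by ring⟩

theorem h16_zmod5_aux : ∀ a b : ZMod 5, a ^ 2 - 3 * b ^ 2 = 0 → a = 0 ∧ b = 0 := by decide

/-- Integer descent: `A^2 - 3 B^2 = 5 S^2` forces `S = 0`. -/
theorem h16_descent_int : ∀ (N : ℕ) (A B S : ℤ), S.natAbs ≤ N →
    A ^ 2 - 3 * B ^ 2 = 5 * S ^ 2 → S = 0 := by
  intro N
  induction N with
  | zero =>
    intro A B S hS _
    simpa using hS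
  | succ N ih =>
    intro A B S hS h
    by_contra hS0
    have hmod : ((A : ZMod 5)) ^ 2 - 3 * (B : ZMod 5) ^ 2 = 0 := by
      have := congrArg (Int.cast : ℤ → ZMod 5) h
      push_cast at this
      rw [this]
      have h5 : (5 : ZMod 5) = 0 := by decide
      rw [h5, zero_mul]
    obtain ⟨hA, hB⟩ := h16_zmod5_aux _ _ hmod
    obtain ⟨A', rfl⟩ := (ZMod.intCast_zmod_eq_zero_iff_dvd A 5).mp hA
    obtain ⟨B', rfl⟩ := (ZMod.intCast_zmod_eq_zero_iff_dvd B 5).mp hB
    push_cast at h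
    have h1 : S ^ 2 = 5 * (A' ^ 2 - 3 * B' ^ 2) := by linarith
    have h5S : (5 : ℤ) ∣ S := by
      have h5 : Prime (5 : ℤ) := by
        rw [Int.prime_iff_natAbs_prime]; norm_num
      exact h5.dvd_of_dvd_pow (Dvd.intro _ h1.symm)
    obtain ⟨S', rfl⟩ := h5S
    have h2 : A' ^ 2 - 3 * B' ^ 2 = 5 * S' ^ 2 := by linarith
    have hS' : S' ≠ 0 := by
      rintro rfl
      exact hS0 (by simp)
    have hlt : S'.natAbs ≤ N := by
      have : (5 * S').natAbs = 5 * S'.natAbs := by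
        rw [Int.natAbs_mul]; rfl
      have hpos : 0 < S'.natAbs := Int.natAbs_pos.mpr hS'
      omega
    exact hS' (ih A' B' S' hlt h2)

/-- `5 s^2` (`s ≠ 0`) is not of the form `a^2 - 3 b^2` over `ℚ`. -/
theorem h16_not_IsNorm3_five_mul_sq (s : ℚ) (hs : s ≠ 0) : ¬ h16_IsNorm3 (5 * s ^ 2) := by
  rintro ⟨a, b, h⟩
  have key := h16_descent_int _ (a.num * b.den * s.den) (b.num * a.den * s.den)
    (s.num * a.den * b.den) le_rfl ?_
  · have h0 : s.num = 0 := by
      have ha : (a.den : ℤ) ≠ 0 := by exact_mod_cast a.den_ne_zero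
      have hb : (b.den : ℤ) ≠ 0 := by exact_mod_cast b.den_ne_zero
      rcases mul_eq_zero.mp key with h | h
      · rcases mul_eq_zero.mp h with h | h
        · exact h
        · exact absurd h ha
      · exact absurd h hb
    exact hs (Rat.zero_of_num_zero h0)
  · have ha : (a.den : ℚ) ≠ 0 := by exact_mod_cast a.den_ne_zero
    have hb : (b.den : ℚ) ≠ 0 := by exact_mod_cast b.den_ne_zero
    have hsd : (s.den : ℚ) ≠ 0 := by exact_mod_cast s.den_ne_zero
    have hq : ((a.num * b.den * s.den : ℤ) : ℚ) ^ 2 - 3 * ((b.num * a.den * s.den : ℤ) : ℚ) ^ 2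
        = 5 * ((s.num * a.den * b.den : ℤ) : ℚ) ^ 2 := by
      push_cast
      have ea : (a.num : ℚ) = a * a.den := by
        rw [Rat.mul_den_eq_num]
      have eb : (b.num : ℚ) = b * b.den := by
        rw [Rat.mul_den_eq_num]
      have es : (s.num : ℚ) = s * s.den := by
        rw [Rat.mul_den_eq_num]
      rw [ea, eb, es]
      have : (a * a.den * b.den * s.den) ^ 2 - 3 * (b * b.den * a.den * s.den) ^ 2
          = (a ^ 2 - 3 * b ^ 2) * ((a.den : ℚ) * b.den * s.den) ^ 2 := by ring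
      rw [this, ← h]
      ring
    exact_mod_cast hq

theorem h16_three_not_sq_rat : ∀ q : ℚ, q ^ 2 ≠ (3 : ℚ) + 0 * q := by
  intro q hq
  have h3 : IsSquare ((3 : ℕ) : ℚ) := ⟨q, by push_cast; linarith⟩
  rw [Rat.isSquare_natCast_iff] at h3
  obtain ⟨k, hk⟩ := h3
  have hk3 : k ≤ 3 := by nlinarith
  interval_cases k <;> omega

theorem h16_norm_isNorm3 {F : Type*} [Field F] [Algebra ℚ F] [FiniteDimensional ℚ F]
    (r : F) (hr : r * r = 3) (x : F) : h16_IsNorm3 (Algebra.norm ℚ x) := by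
  have : Fact (∀ q : ℚ, q ^ 2 ≠ (3 : ℚ) + 0 * q) := ⟨h16_three_not_sq_rat⟩
  let φ : QuadraticAlgebra ℚ 3 0 →ₐ[ℚ] F :=
    QuadraticAlgebra.lift ⟨r, by rw [hr]; simp [Algebra.smul_def]⟩
  let : Algebra (QuadraticAlgebra ℚ 3 0) F := φ.toRingHom.toAlgebra
  have : IsScalarTower ℚ (QuadraticAlgebra ℚ 3 0) F :=
    IsScalarTower.of_algebraMap_eq (fun q => (φ.commutes q).symm)
  have h := Algebra.norm_norm (R := ℚ) (S := QuadraticAlgebra ℚ 3 0) (a := x)
  rw [← h]
  have h2 : ∀ y : QuadraticAlgebra ℚ 3 0, Algebra.norm ℚ y = QuadraticAlgebra.norm y := by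
    intro y
    rw [Algebra.norm_apply, ← QuadraticAlgebra.det_toLinearMap_eq_norm]
    rfl
  rw [h2, QuadraticAlgebra.norm_def]
  exact ⟨(Algebra.norm (QuadraticAlgebra ℚ 3 0) x).re, (Algebra.norm (QuadraticAlgebra ℚ 3 0) x).im,
    by ring⟩

theorem h16_resultant_eq_norm (g G2 : ℚ[X]) (hg : g.Monic) [Fact (Irreducible g)] (n : ℕ)
    (hn : G2.natDegree ≤ n) :
    resultant g G2 g.natDegree n = Algebra.norm ℚ (aeval (AdjoinRoot.root g) G2) := by
  classical
  have hirr : Irreducible g := Fact.out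
  apply (algebraMap ℚ (AlgebraicClosure ℚ)).injective
  have hg0 : g ≠ 0 := hg.ne_zero
  have hgen : (AdjoinRoot.powerBasis hg0).gen = AdjoinRoot.root g := AdjoinRoot.powerBasis_gen hg0
  have hmin : minpoly ℚ (AdjoinRoot.powerBasis hg0).gen = g :=
    AdjoinRoot.minpoly_powerBasis_gen_of_monic hg hg0
  have hroots : (minpoly ℚ (AdjoinRoot.powerBasis hg0).gen).aroots (AlgebraicClosure ℚ)
      = (g.map (algebraMap ℚ (AlgebraicClosure ℚ))).roots := by
    rw [hmin]
  have : FiniteDimensional ℚ (AdjoinRoot g) := (AdjoinRoot.powerBasis hg0).finite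
  rw [Algebra.norm_eq_prod_embeddings ℚ (AlgebraicClosure ℚ)]
  rw [← resultant_map_map]
  have hdeg : g.natDegree = (g.map (algebraMap ℚ (AlgebraicClosure ℚ))).natDegree :=
    (natDegree_map _).symm
  rw [hdeg, resultant_eq_prod_eval _ _ n (natDegree_map_le.trans hn) (IsAlgClosed.splits _)]
  rw [(hg.map _).leadingCoeff, one_pow, one_mul]
  have key := Fintype.prod_equiv (AdjoinRoot.powerBasis hg0).liftEquiv'
    (fun σ => σ (aeval (AdjoinRoot.root g) G2))
    (fun α => aeval (α : AlgebraicClosure ℚ) G2) (by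
      intro σ
      simp only [PowerBasis.liftEquiv'_apply_coe]
      rw [hgen, aeval_algHom_apply])
  refine Eq.trans ?_ (Eq.trans key.symm ?_)
  · rw [Finset.prod_mem_multiset _ _ (fun α => aeval (α : AlgebraicClosure ℚ) G2) (fun _ => rfl),
      Finset.prod_eq_multiset_prod, Multiset.toFinset_val, Multiset.dedup_eq_self.mpr]
    · refine Eq.trans ?_ (congrArg (fun s => (Multiset.map (fun x => aeval x G2) s).prod)
        hroots.symm)
      refine congrArg Multiset.prod (Multiset.map_congr rfl ?_)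
      intro x _
      rw [eval_map_algebraMap]
    · exact (congrArg Multiset.Nodup hroots).mpr (nodup_roots hirr.separable.map)
  · exact Finset.prod_congr (by
      ext a
      exact ⟨fun _ => Finset.mem_univ _, fun _ => Finset.mem_univ _⟩) (fun _ _ => rfl)

theorem h16_norm_obstruction_aux (G2 : ℚ[X]) (n : ℕ) (hn : Even n) (hG2 : G2.natDegree ≤ n) :
    ∀ (d : ℕ) (G : ℚ[X]), G.natDegree ≤ d → G ≠ 0 →
      (∀ g : ℚ[X], g.Monic → Irreducible g → g ∣ G → IsSquare (3 : AdjoinRoot g)) →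
      h16_IsNorm3 (resultant G G2 G.natDegree n) := by
  intro d
  induction d with
  | zero =>
    intro G hd hG0 _
    obtain ⟨c, rfl⟩ := natDegree_eq_zero.mp (Nat.le_zero.mp hd)
    rw [natDegree_C, resultant_C_zero_left]
    exact h16_IsNorm3_pow_even c hn
  | succ d ih =>
    intro G hd hG0 hsq
    by_cases hu : IsUnit G
    · obtain ⟨c, hc, rfl⟩ := Polynomial.isUnit_iff.mp hu
      rw [natDegree_C, resultant_C_zero_left]
      exact h16_IsNorm3_pow_even c hn
    · obtain ⟨g, hgm, hgi, G', rfl⟩ := Polynomial.exists_monic_irreducible_factor G hu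
      have hG'0 : G' ≠ 0 := right_ne_zero_of_mul hG0
      have hdeg : (g * G').natDegree = g.natDegree + G'.natDegree :=
        natDegree_mul hgm.ne_zero hG'0
      have hgpos : 0 < g.natDegree := hgi.natDegree_pos
      rw [hdeg, resultant_mul_left g G' G2 n hG2]
      refine h16_IsNorm3_mul ?_ (ih G' (by omega) hG'0
        (fun g' hm hi hdvd => hsq g' hm hi (hdvd.mul_left g)))
      have : Fact (Irreducible g) := ⟨hgi⟩
      rw [h16_resultant_eq_norm g G2 hgm n hG2]
      obtain ⟨r, hr⟩ := hsq g hgm hgi (dvd_mul_right g G')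
      have : FiniteDimensional ℚ (AdjoinRoot g) := (AdjoinRoot.powerBasis hgm.ne_zero).finite
      exact h16_norm_isNorm3 r hr.symm _

/-- **Norm obstruction.** If `Res(G, G2) = 5 * s^2` with `s ≠ 0` (formal degree `n` even for
`G2`), then some monic irreducible factor `g` of `G` has `3` not a square in `ℚ[X]/(g)`. -/
theorem h16_exists_factor_three_not_sq (G G2 : ℚ[X]) (hG : G ≠ 0) (n : ℕ) (hn : Even n)
    (hG2 : G2.natDegree ≤ n) (s : ℚ) (hs : s ≠ 0)
    (hres : resultant G G2 G.natDegree n = 5 * s ^ 2) :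
    ∃ g : ℚ[X], g.Monic ∧ Irreducible g ∧ g ∣ G ∧ ¬ IsSquare (3 : AdjoinRoot g) := by
  by_contra hcon
  push Not at hcon
  have := h16_norm_obstruction_aux G2 n hn hG2 G.natDegree G le_rfl hG hcon
  rw [hres] at this
  exact h16_not_IsNorm3_five_mul_sq s hs this

end Fermat.Agent.S52
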