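import Fermat.Agent.S52.h5_FrobW

/-
helper48, project S52, consumer of block (I) for block (II): two integral models whose reductions
at a good prime `ℓ ≥ 5` carry Frobenius-compatible injections of one and the same group of
exponent `5` have congruent traces of Frobenius modulo `5`.
-/

set_option autoImplicit false

namespace Fermat.Agent.S52

open WeierstrassCurve WeierstrassCurve.Affine

/-- In an additive group killed by `5`, an integer multiple of a nonzero element vanishes only
when the integer is divisible by `5`. -/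
theorem h48_five_dvd_of_zsmul {G : Type*} [AddCommGroup G] (hG : ∀ g : G, (5 : ℤ) • g = 0)
    {h : G} (hh : h ≠ 0) {n : ℤ} (hn : n • h = 0) : (5 : ℤ) ∣ n := by
  by_contra hdvd
  have hcop : IsCoprime n (5 : ℤ) := by
    have h5 : Prime (5 : ℤ) := by norm_num
    exact ((Prime.coprime_iff_not_dvd h5).mpr hdvd).symm
  obtain ⟨a, b, hab⟩ := hcop
  apply hh
  have : (a * n + b * 5) • h = 0 := by
    rw [add_smul, mul_smul, mul_smul, hn, hG h, smul_zero, smul_zero, add_zero]
  rw [hab, one_smul] at this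
  exact this

/-- Abstract form: `φ, φ'` injective endomorphisms of two additive groups satisfying quadratic
relations with the same constant term, intertwined through injections of a group killed by `5`. -/
theorem h48_congr_abstract {E E' G : Type*} [AddCommGroup E] [AddCommGroup E'] [AddCommGroup G]
    (φ : E →+ E) (φ' : E' →+ E') (hφ' : Function.Injective φ') (a a' q : ℤ)
    (hE : ∀ P : E, φ (φ P) - a • φ P + q • P = 0)
    (hE' : ∀ P : E', φ' (φ' P) - a' • φ' P + q • P = 0)
    (hG : ∀ g : G, (5 : ℤ) • g = 0) (hG0 : ∃ g : G, g ≠ 0)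
    (ι : G →+ E) (ι' : G →+ E') (hι : Function.Injective ι) (hι' : Function.Injective ι')
    (M : G → G) (hM : ∀ g, φ (ι g) = ι (M g)) (hM' : ∀ g, φ' (ι' g) = ι' (M g)) :
    (5 : ℤ) ∣ a' - a := by
  obtain ⟨g, hg⟩ := hG0
  have h1 : M (M g) - a • M g + q • g = 0 := by
    apply hι
    have := hE (ι g)
    rw [hM, hM] at this
    rw [map_zero, map_add, map_sub, map_zsmul, map_zsmul]
    exact this
  have h2 : M (M g) - a' • M g + q • g = 0 := by
    apply hι'
    have := hE' (ι' g)
    rw [hM', hM'] at this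
    rw [map_zero, map_add, map_sub, map_zsmul, map_zsmul]
    exact this
  have h3 : (a' - a) • M g = 0 := by
    rw [sub_smul]
    have : a' • M g - a • M g = (M (M g) - a • M g + q • g) - (M (M g) - a' • M g + q • g) := by
      abel
    rw [this, h1, h2, sub_zero]
  have hMg : M g ≠ 0 := by
    intro h0
    have h4 : φ' (ι' g) = 0 := by rw [hM', h0, map_zero]
    have h5 : ι' g = 0 := hφ' (by rw [h4, map_zero])
    exact hg (hι' (by rw [h5, map_zero]))
  exact h48_five_dvd_of_zsmul hG hMg h3

/-- Block (II) consumer: Frobenius-compatible injections of a group killed by `5` into the points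
of the two reductions (over any field extension `Ω` of `ZMod ℓ`) force
`a_ℓ(W') ≡ a_ℓ(W) (mod 5)`. -/
theorem h48_ap_congr (W W' : WeierstrassCurve ℤ) (ℓ : ℕ) [Fact ℓ.Prime] (hℓ : 5 ≤ ℓ)
    (hgood : W.IsGoodPrimeFor ℓ) (hgood' : W'.IsGoodPrimeFor ℓ)
    {Ω : Type*} [Field Ω] [DecidableEq Ω] [Algebra (ZMod ℓ) Ω]
    {G : Type*} [AddCommGroup G] (hG : ∀ g : G, (5 : ℤ) • g = 0) (hG0 : ∃ g : G, g ≠ 0)
    (ι : G →+ ((W.reductionMod ℓ).toAffine⁄Ω).Point)
    (ι' : G →+ ((W'.reductionMod ℓ).toAffine⁄Ω).Point)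
    (hι : Function.Injective ι) (hι' : Function.Injective ι') (M : G → G)
    (hM : ∀ g, Affine.Point.map (W' := (W.reductionMod ℓ).toAffine)
      (FiniteField.frobeniusAlgHom (ZMod ℓ) Ω) (ι g) = ι (M g))
    (hM' : ∀ g, Affine.Point.map (W' := (W'.reductionMod ℓ).toAffine)
      (FiniteField.frobeniusAlgHom (ZMod ℓ) Ω) (ι' g) = ι' (M g)) :
    (5 : ℤ) ∣ W'.apOfModel ℓ - W.apOfModel ℓ :=
  h48_congr_abstract
    (Affine.Point.map (W' := (W.reductionMod ℓ).toAffine) (FiniteField.frobeniusAlgHom (ZMod ℓ) Ω))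
    (Affine.Point.map (W' := (W'.reductionMod ℓ).toAffine) (FiniteField.frobeniusAlgHom (ZMod ℓ) Ω))
    (Affine.Point.map_injective (W' := (W'.reductionMod ℓ).toAffine) _)
    (W.apOfModel ℓ) (W'.apOfModel ℓ) (ℓ : ℤ)
    (fun P => h5_frob_charpoly_int W ℓ hℓ hgood P)
    (fun P => h5_frob_charpoly_int W' ℓ hℓ hgood' P)
    hG hG0 ι ι' hι hι' M hM hM'

end Fermat.Agent.S52
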