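import Fermat.Agent.S52.h48_Congr

/-
helper48, project S52: the block-(II) consumer in SHORT WEIERSTRASS form.  For a prime `ℓ ≥ 5`
the reduction of an integral model `W` is a change of variables (over `ZMod ℓ`) away from
`y² = x³ - 27 c₄ x - 54 c₆`; Frobenius-compatible injections of a group killed by `5` into the
points of these short models (over any extension `Ω` of `ZMod ℓ`) give the congruence of traces.
-/

set_option autoImplicit false

namespace Fermat.Agent.S52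

open WeierstrassCurve WeierstrassCurve.Affine

/-- `a_ℓ` of an integral model is the `h5_trace` of any short form of its reduction. -/
theorem h48_apOfModel_eq_trace (W : WeierstrassCurve ℤ) (ℓ : ℕ) [Fact ℓ.Prime] (A B : ZMod ℓ)
    (C : VariableChange (ZMod ℓ)) (hC : C • W.reductionMod ℓ = h5_sw A B) :
    W.apOfModel ℓ = h5_trace A B := by
  classical
  have hcard : Nat.card (W.reductionMod ℓ).toAffine.Point =
      Nat.card (h5_sw A B).toAffine.Point := by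
    rw [← hC]
    exact (Nat.card_congr (S51.vc_addEquiv (W.reductionMod ℓ) C).toEquiv).symm
  unfold WeierstrassCurve.apOfModel WeierstrassCurve.traceOfFrobenius WeierstrassCurve.card
    h5_trace
  rw [hcard, Nat.card_eq_fintype_card]

/-- For `2, 3 ≠ 0` the curve is a change of variables away from `y² = x³ - 27 c₄ x - 54 c₆`. -/
theorem h48_exists_short_c4c6 {F : Type*} [Field F] (h2 : (2 : F) ≠ 0) (h3 : (3 : F) ≠ 0)
    (W : WeierstrassCurve F) :
    ∃ C : VariableChange F, C • W = h5_sw (-27 * W.c₄) (-54 * W.c₆) := by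
  have h6 : (6 : F) ≠ 0 := by
    have : (6 : F) = 2 * 3 := by norm_num
    rw [this]
    exact mul_ne_zero h2 h3
  have h12 : (12 : F) ≠ 0 := by
    have : (12 : F) = 2 ^ 2 * 3 := by norm_num
    rw [this]
    exact mul_ne_zero (pow_ne_zero _ h2) h3
  let C : VariableChange F :=
    ⟨(Units.mk0 6 h6)⁻¹, -(W.b₂ / 12), -(W.a₁ / 2), -((W.a₃ + -(W.b₂ / 12) * W.a₁) / 2)⟩
  refine ⟨C, ?_⟩
  have hu : ((C.u⁻¹ : Fˣ) : F) = 6 := by simp [C]
  ext
  · simp only [variableChange_a₁, h5_sw_a₁, hu]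
    simp only [C]
    field_simp
    ring
  · simp only [variableChange_a₂, h5_sw_a₂, hu]
    simp only [C, WeierstrassCurve.b₂]
    field_simp
    ring
  · simp only [variableChange_a₃, h5_sw_a₃, hu]
    simp only [C]
    field_simp
    ring
  · simp only [variableChange_a₄, h5_sw_a₄, hu, WeierstrassCurve.c₄, WeierstrassCurve.b₂,
      WeierstrassCurve.b₄]
    simp only [C, WeierstrassCurve.b₂]
    field_simp
    ring
  · simp only [variableChange_a₆, h5_sw_a₆, hu, WeierstrassCurve.c₆, WeierstrassCurve.b₂,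
      WeierstrassCurve.b₄, WeierstrassCurve.b₆]
    simp only [C, WeierstrassCurve.b₂]
    field_simp
    ring

section consumer

variable (W W' : WeierstrassCurve ℤ) (ℓ : ℕ) [Fact ℓ.Prime]
variable {Ω : Type*} [Field Ω] [DecidableEq Ω] [Algebra (ZMod ℓ) Ω]
variable {G : Type*} [AddCommGroup G]

/-- Block (II) consumer for arbitrary short forms of the two reductions. -/
theorem h48_ap_congr_sw_of (h2 : (2 : ZMod ℓ) ≠ 0) (A B A' B' : ZMod ℓ)
    (hΔ : 4 * A ^ 3 + 27 * B ^ 2 ≠ 0) (hΔ' : 4 * A' ^ 3 + 27 * B' ^ 2 ≠ 0)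
    (C C' : VariableChange (ZMod ℓ)) (hC : C • W.reductionMod ℓ = h5_sw A B)
    (hC' : C' • W'.reductionMod ℓ = h5_sw A' B')
    (hG : ∀ g : G, (5 : ℤ) • g = 0) (hG0 : ∃ g : G, g ≠ 0)
    (ι : G →+ h5_Pt A B Ω) (ι' : G →+ h5_Pt A' B' Ω)
    (hι : Function.Injective ι) (hι' : Function.Injective ι') (M : G → G)
    (hM : ∀ g, h5_frob A B Ω (ι g) = ι (M g)) (hM' : ∀ g, h5_frob A' B' Ω (ι' g) = ι' (M g)) :
    (5 : ℤ) ∣ W'.apOfModel ℓ - W.apOfModel ℓ := by
  rw [h48_apOfModel_eq_trace W ℓ A B C hC, h48_apOfModel_eq_trace W' ℓ A' B' C' hC']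
  refine h48_congr_abstract (h5_frob A B Ω) (h5_frob A' B' Ω)
    (Affine.Point.map_injective (W' := (h5_sw A' B').toAffine) _)
    (h5_trace A B) (h5_trace A' B') (Fintype.card (ZMod ℓ) : ℤ)
    (fun P => h5_frob_charpoly A B h2 hΔ P) (fun P => h5_frob_charpoly A' B' h2 hΔ' P)
    hG hG0 ι ι' hι hι' M hM hM'

/-- Block (II) consumer for the models `y² = x³ - 27 c₄ x - 54 c₆` of the reductions at a good
prime `ℓ ≥ 5` of both curves. -/
theorem h48_ap_congr_sw (hℓ : 5 ≤ ℓ) (hgood : W.IsGoodPrimeFor ℓ) (hgood' : W'.IsGoodPrimeFor ℓ)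
    (hG : ∀ g : G, (5 : ℤ) • g = 0) (hG0 : ∃ g : G, g ≠ 0)
    (ι : G →+ h5_Pt (-27 * ((W.c₄ : ℤ) : ZMod ℓ)) (-54 * ((W.c₆ : ℤ) : ZMod ℓ)) Ω)
    (ι' : G →+ h5_Pt (-27 * ((W'.c₄ : ℤ) : ZMod ℓ)) (-54 * ((W'.c₆ : ℤ) : ZMod ℓ)) Ω)
    (hι : Function.Injective ι) (hι' : Function.Injective ι') (M : G → G)
    (hM : ∀ g, h5_frob _ _ Ω (ι g) = ι (M g)) (hM' : ∀ g, h5_frob _ _ Ω (ι' g) = ι' (M g)) :
    (5 : ℤ) ∣ W'.apOfModel ℓ - W.apOfModel ℓ := by
  have hp : ℓ.Prime := Fact.out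
  have h2 : (2 : ZMod ℓ) ≠ 0 := by
    intro h
    have h' : ((2 : ℕ) : ZMod ℓ) = 0 := by exact_mod_cast h
    rw [ZMod.natCast_eq_zero_iff] at h'
    have := Nat.le_of_dvd (by norm_num) h'
    omega
  have h3 : (3 : ZMod ℓ) ≠ 0 := by
    intro h
    have h' : ((3 : ℕ) : ZMod ℓ) = 0 := by exact_mod_cast h
    rw [ZMod.natCast_eq_zero_iff] at h'
    have := Nat.le_of_dvd (by norm_num) h'
    omega
  have key : ∀ V : WeierstrassCurve ℤ, V.IsGoodPrimeFor ℓ →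
      (∃ C : VariableChange (ZMod ℓ), C • V.reductionMod ℓ =
        h5_sw (-27 * ((V.c₄ : ℤ) : ZMod ℓ)) (-54 * ((V.c₆ : ℤ) : ZMod ℓ))) ∧
      4 * (-27 * ((V.c₄ : ℤ) : ZMod ℓ)) ^ 3 + 27 * (-54 * ((V.c₆ : ℤ) : ZMod ℓ)) ^ 2 ≠ 0 := by
    intro V hV
    obtain ⟨C, hC⟩ := h48_exists_short_c4c6 h2 h3 (V.reductionMod ℓ)
    have e4 : (V.reductionMod ℓ).c₄ = ((V.c₄ : ℤ) : ZMod ℓ) := by
      unfold WeierstrassCurve.reductionMod
      rw [map_c₄]
      rfl
    have e6 : (V.reductionMod ℓ).c₆ = ((V.c₆ : ℤ) : ZMod ℓ) := by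
      unfold WeierstrassCurve.reductionMod
      rw [map_c₆]
      rfl
    rw [e4, e6] at hC
    refine ⟨⟨C, hC⟩, ?_⟩
    intro h0
    have hΔ : (V.reductionMod ℓ).Δ ≠ 0 := by
      unfold WeierstrassCurve.reductionMod
      rw [map_Δ]
      intro h
      exact hV ((ZMod.intCast_zmod_eq_zero_iff_dvd _ _).mp h)
    have h1 : (C • V.reductionMod ℓ).Δ = 0 := by rw [hC, h5_sw_Δ, h0, mul_zero]
    rw [variableChange_Δ] at h1
    rcases mul_eq_zero.mp h1 with h4 | h4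
    · exact (pow_ne_zero 12 (Units.ne_zero _)) h4
    · exact hΔ h4
  obtain ⟨⟨C, hC⟩, hΔ⟩ := key W hgood
  obtain ⟨⟨C', hC'⟩, hΔ'⟩ := key W' hgood'
  exact h48_ap_congr_sw_of W W' ℓ h2 _ _ _ _ hΔ hΔ' C C' hC hC' hG hG0 ι ι' hι hι' M hM hM'

end consumer

end Fermat.Agent.S52
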