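import Fermat.Agent.S52.h5_SwAddW

/-!
# S52 block (I), row X0: 2-divisibility of points over algebraically closed fields
-/

set_option autoImplicit false

namespace Fermat.Agent.S52

open WeierstrassCurve WeierstrassCurve.Affine

variable {F : Type*} [Field F] (A B : F)

/-- Over an algebraically closed field every point of `y² = x³ + A x + B` is a double. -/
theorem h5_exists_half (h2 : (2 : F) ≠ 0) (hΔ : 4 * A ^ 3 + 27 * B ^ 2 ≠ 0)
    {L : Type*} [Field L] [DecidableEq L] [IsAlgClosed L] [Algebra F L] (Q : h5_Pt A B L) :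
    ∃ Q' : h5_Pt A B L, Q' + Q' = Q := by
  have h2L : (2 : L) ≠ 0 := by
    have : (2 : L) = algebraMap F L 2 := (map_ofNat (algebraMap F L) 2).symm
    rw [this]
    exact (map_ne_zero _).2 h2
  have hΔL : 4 * (algebraMap F L A) ^ 3 + 27 * (algebraMap F L B) ^ 2 ≠ 0 := by
    have : (4 * (algebraMap F L A) ^ 3 + 27 * (algebraMap F L B) ^ 2 : L) =
        algebraMap F L (4 * A ^ 3 + 27 * B ^ 2) := by
      simp only [map_add, map_mul, map_pow, map_ofNat]
    rw [this]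
    exact (map_ne_zero _).2 hΔ
  rcases Q with _ | ⟨x₀, y₀, h₀⟩
  · exact ⟨0, add_zero 0⟩
  have hE₀ : y₀ ^ 2 = x₀ ^ 3 + algebraMap F L A * x₀ + algebraMap F L B :=
    (h5_bc_equation_iff A B x₀ y₀).mp h₀.1
  set a : L := algebraMap F L A with ha
  set b : L := algebraMap F L B with hb
  -- a root of the quartic `T⁴ - 2 a T² - 8 b T + a² - 4 x₀ (T³ + a T + b)`
  obtain ⟨x', hx'⟩ : ∃ x' : L,
      x' ^ 4 - 2 * a * x' ^ 2 - 8 * b * x' + a ^ 2 - 4 * x₀ * (x' ^ 3 + a * x' + b) = 0 := by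
    let g : Polynomial L := Polynomial.X ^ 4 - Polynomial.C (2 * a) * Polynomial.X ^ 2 -
      Polynomial.C (8 * b) * Polynomial.X + Polynomial.C (a ^ 2) -
      Polynomial.C (4 * x₀) * (Polynomial.X ^ 3 + Polynomial.C a * Polynomial.X + Polynomial.C b)
    have hnat : g.natDegree = 4 := by
      simp only [g]
      compute_degree!
    have hdeg : g.degree ≠ 0 := by
      intro h0
      have := Polynomial.natDegree_eq_of_degree_eq_some h0
      rw [hnat] at this
      norm_num at this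
    obtain ⟨x', hx'⟩ := IsAlgClosed.exists_root g hdeg
    refine ⟨x', ?_⟩
    simpa [g, Polynomial.IsRoot.def] using hx'
  have hf : x' ^ 3 + a * x' + b ≠ 0 := by
    intro hf0
    have hu2 : (3 * x' ^ 2 + a) ^ 2 = 0 := by
      linear_combination hx' + (8 * x' + 4 * x₀) * hf0
    have hu : 3 * x' ^ 2 + a = 0 := by
      exact pow_eq_zero_iff (two_ne_zero) |>.mp hu2
    apply hΔL
    linear_combination (9 * (3 * b - 2 * a * x')) * hf0 +
      (4 * a ^ 2 - 3 * x' * (3 * b - 2 * a * x')) * hu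
  obtain ⟨y', hy'⟩ := IsAlgClosed.exists_pow_nat_eq (x' ^ 3 + a * x' + b) (n := 2) two_pos
  have hy'0 : y' ≠ 0 := by
    intro h
    rw [h] at hy'
    exact hf (by rw [← hy']; ring)
  have hns : ((h5_sw A B).toAffine⁄L).Nonsingular x' y' := h5_bc_nonsingular A B h2 hΔ hy'
  obtain ⟨X₅, Y₅, h₅, hadd, hX₅, -⟩ := h5_W_add_self_of_Y_ne ((h5_sw A B).toAffine⁄L)
    (by simp [h5_sw]) (by simp [h5_sw]) (by simp [h5_sw]) hns hy'0 h2L
  have hX₅' : X₅ * (4 * y' ^ 2) = x' ^ 4 - 2 * a * x' ^ 2 - 8 * b * x' + a ^ 2 := hX₅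
  have hXeq : X₅ = x₀ := by
    have h4 : (4 : L) * y' ^ 2 ≠ 0 := by
      have : (4 : L) = 2 * 2 := by norm_num
      rw [this]
      exact mul_ne_zero (mul_ne_zero h2L h2L) (pow_ne_zero 2 hy'0)
    apply mul_right_cancel₀ h4
    rw [hX₅', hy']
    linear_combination hx'
  subst hXeq
  have hE₅ : Y₅ ^ 2 = X₅ ^ 3 + a * X₅ + b := (h5_bc_equation_iff A B X₅ Y₅).mp h₅.1
  have hYsq : Y₅ ^ 2 = y₀ ^ 2 := by rw [hE₅, hE₀]
  rcases sq_eq_sq_iff_eq_or_eq_neg.mp hYsq with hY | hY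
  · subst hY
    exact ⟨Affine.Point.some x' y' hns, hadd⟩
  · refine ⟨-Affine.Point.some x' y' hns, ?_⟩
    rw [← neg_add, hadd, Affine.Point.neg_some]
    have hneg : ((h5_sw A B).toAffine⁄L).negY X₅ Y₅ = y₀ := by
      rw [h5_W_negY _ (by simp [h5_sw]) (by simp [h5_sw]), hY, neg_neg]
    simp only [hneg]

end Fermat.Agent.S52
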