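import Fermat.Agent.S52.h48_Transfer
import Fermat.Agent.S52.h5_Half

/-
helper48, project S52 block (I), row X: the Frobenius characteristic equation for every point of
`h5_sw A B` over every field over `F`, from the statement for the generic point
(`2 • ψ P₀ = 0`, row T) via `h48_transfer` and halving (`h5_exists_half`).
-/

set_option autoImplicit false

namespace Fermat.Agent.S52

open WeierstrassCurve WeierstrassCurve.Affine

section X

variable {F : Type*} [Field F] [Fintype F] (A B : F)

/-- Row X with row T (`h5_two_psi_gen` at `Ω = AlgebraicClosure (RatFunc F)`) as a hypothesis. -/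
theorem h48_frob_charpoly_of_two_gen (h2 : (2 : F) ≠ 0) (hΔ : 4 * A ^ 3 + 27 * B ^ 2 ≠ 0) (a : ℤ)
    (hgen : ∀ [DecidableEq (AlgebraicClosure (RatFunc F))] (y : AlgebraicClosure (RatFunc F))
      (_ : y ^ 2 = algebraMap (RatFunc F) (AlgebraicClosure (RatFunc F)) (h5_fK A B))
      (h : ((h5_sw A B).toAffine⁄(AlgebraicClosure (RatFunc F))).Nonsingular
        (algebraMap (RatFunc F) (AlgebraicClosure (RatFunc F)) RatFunc.X) y),
      (2 : ℤ) • h5_psi A B a
        (Affine.Point.some _ _ h : h5_Pt A B (AlgebraicClosure (RatFunc F))) = 0)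
    {Ω' : Type*} [Field Ω'] [DecidableEq Ω'] [Algebra F Ω'] (Q : h5_Pt A B Ω') :
    h5_psi A B a Q = 0 := by
  classical
  obtain ⟨R, hR⟩ := h5_exists_half A B h2 hΔ
    (Affine.Point.map (W' := (h5_sw A B).toAffine)
      (IsScalarTower.toAlgHom F Ω' (AlgebraicClosure Ω')) Q)
  have h2R : (2 : ℕ) • h5_psi A B a R = 0 :=
    h48_transfer A B h2 hΔ a 2
      (fun y hy h => by
        have h0 := hgen y hy h
        rw [← natCast_zsmul]
        exact_mod_cast h0) R
  have h1 : h5_psi A B a (Affine.Point.map (W' := (h5_sw A B).toAffine)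
      (IsScalarTower.toAlgHom F Ω' (AlgebraicClosure Ω')) Q) = 0 := by
    rw [← hR, h48_psi_add, ← two_nsmul]
    exact h2R
  have h3 : Affine.Point.map (W' := (h5_sw A B).toAffine)
      (IsScalarTower.toAlgHom F Ω' (AlgebraicClosure Ω')) (h5_psi A B a Q) = 0 := by
    rw [h48_psi_map]
    exact h1
  exact (map_eq_zero_iff _ (Affine.Point.map_injective _)).mp h3

/-- Row X with the statement `ψ P₀ = 0` for the generic point as a hypothesis. -/
theorem h48_frob_charpoly_of_gen (h2 : (2 : F) ≠ 0) (hΔ : 4 * A ^ 3 + 27 * B ^ 2 ≠ 0) (a : ℤ)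
    (hgen : ∀ [DecidableEq (AlgebraicClosure (RatFunc F))] (y : AlgebraicClosure (RatFunc F))
      (_ : y ^ 2 = algebraMap (RatFunc F) (AlgebraicClosure (RatFunc F)) (h5_fK A B))
      (h : ((h5_sw A B).toAffine⁄(AlgebraicClosure (RatFunc F))).Nonsingular
        (algebraMap (RatFunc F) (AlgebraicClosure (RatFunc F)) RatFunc.X) y),
      h5_psi A B a
        (Affine.Point.some _ _ h : h5_Pt A B (AlgebraicClosure (RatFunc F))) = 0)
    {Ω' : Type*} [Field Ω'] [DecidableEq Ω'] [Algebra F Ω'] (Q : h5_Pt A B Ω') :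
    h5_psi A B a Q = 0 := by
  have h1 := h48_transfer A B h2 hΔ a 1
    (fun y hy h => by rw [one_smul]; exact hgen y hy h) Q
  rwa [one_smul] at h1

end X

end Fermat.Agent.S52
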