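import Fermat.Agent.S52.h5_ManinDefs

/-
helper48, project S52 block (I), row X (transfer): from the generic point to all points.
* `h48_specialize`: every affine point over an algebraically closed field with `x`-coordinate
  transcendental over `F` is, up to sign, the image of the generic point `P₀ = (x, y)` under an
  `F`-algebra homomorphism;
* `h48_transfer`: if `m • ψ P₀ = 0` for the generic point over `AlgebraicClosure (RatFunc F)`,
  then `m • ψ Q = 0` for every point `Q` of `h5_sw A B` over every field over `F`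
  (`ψ = h5_psi A B a`, any integer `a`).
-/

set_option autoImplicit false

namespace Fermat.Agent.S52

open WeierstrassCurve WeierstrassCurve.Affine

section basics

variable {F : Type*} [Field F] (A B : F)

/-- Equation of a point of the base change of `h5_sw A B`. -/
theorem h48_equation_bc {Ω : Type*} [Field Ω] [Algebra F Ω] {X Y : Ω}
    (h : ((h5_sw A B).toAffine⁄Ω).Equation X Y) :
    Y ^ 2 = X ^ 3 + algebraMap F Ω A * X + algebraMap F Ω B := by
  have h' : ((h5_sw A B).map (algebraMap F Ω)).toAffine.Equation X Y := h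
  rw [h5_sw_map, h5_sw_equation_iff] at h'
  exact h'

/-- Every solution of the equation over an extension is a nonsingular point. -/
theorem h48_nonsingular_bc (h2 : (2 : F) ≠ 0) (hΔ : 4 * A ^ 3 + 27 * B ^ 2 ≠ 0)
    {Ω : Type*} [Field Ω] [Algebra F Ω] {X Y : Ω}
    (hE : Y ^ 2 = X ^ 3 + algebraMap F Ω A * X + algebraMap F Ω B) :
    ((h5_sw A B).toAffine⁄Ω).Nonsingular X Y := by
  change ((h5_sw A B).map (algebraMap F Ω)).toAffine.Nonsingular X Y
  rw [h5_sw_map]
  refine h5_sw_nonsingular _ _ ?_ ?_ hE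
  · rw [← map_ofNat (algebraMap F Ω) 2]
    exact (map_ne_zero _).mpr h2
  · have : 4 * (algebraMap F Ω A) ^ 3 + 27 * (algebraMap F Ω B) ^ 2 =
        algebraMap F Ω (4 * A ^ 3 + 27 * B ^ 2) := by
      simp only [map_add, map_mul, map_pow, map_ofNat]
    rw [this]
    exact (map_ne_zero _).mpr hΔ

theorem h48_negY_bc {Ω : Type*} [Field Ω] [Algebra F Ω] (X Y : Ω) :
    ((h5_sw A B).toAffine⁄Ω).negY X Y = -Y := by
  change ((h5_sw A B).map (algebraMap F Ω)).toAffine.negY X Y = -Y
  rw [h5_sw_map, h5_sw_negY]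

end basics

section psi

variable {F : Type*} [Field F] [Fintype F] (A B : F)
variable {Ω : Type*} [Field Ω] [DecidableEq Ω] [Algebra F Ω]

theorem h48_psi_add (a : ℤ) (P Q : h5_Pt A B Ω) :
    h5_psi A B a (P + Q) = h5_psi A B a P + h5_psi A B a Q := by
  unfold h5_psi
  simp only [map_add, smul_add]
  abel

theorem h48_psi_zero (a : ℤ) : h5_psi A B a (0 : h5_Pt A B Ω) = 0 := by
  unfold h5_psi
  simp only [map_zero, smul_zero, sub_zero, add_zero]

theorem h48_psi_neg (a : ℤ) (P : h5_Pt A B Ω) :
    h5_psi A B a (-P) = -h5_psi A B a P := by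
  unfold h5_psi
  simp only [map_neg, smul_neg]
  abel

theorem h48_psi_sub (a : ℤ) (P Q : h5_Pt A B Ω) :
    h5_psi A B a (P - Q) = h5_psi A B a P - h5_psi A B a Q := by
  rw [sub_eq_add_neg, h48_psi_add, h48_psi_neg, ← sub_eq_add_neg]

theorem h48_psi_map {Ω' : Type*} [Field Ω'] [DecidableEq Ω'] [Algebra F Ω'] (j : Ω →ₐ[F] Ω')
    (a : ℤ) (P : h5_Pt A B Ω) :
    Affine.Point.map (W' := (h5_sw A B).toAffine) j (h5_psi A B a P) =
      h5_psi A B a (Affine.Point.map (W' := (h5_sw A B).toAffine) j P) := by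
  unfold h5_psi
  rw [map_add, map_sub, map_zsmul, map_zsmul, h5_frob_map, h5_frob_map]

end psi

/-- Extension of an `F`-algebra homomorphism `F(x) → Ω'` to an algebraic extension of `F(x)`,
when `Ω'` is algebraically closed. -/
theorem h48_exists_ext {F : Type*} [Field F] {Ω : Type*} [Field Ω] [Algebra F Ω]
    [Algebra (RatFunc F) Ω] [IsScalarTower F (RatFunc F) Ω] [Algebra.IsAlgebraic (RatFunc F) Ω]
    {Ω' : Type*} [Field Ω'] [IsAlgClosed Ω'] [Algebra F Ω'] (σ₀ : RatFunc F →ₐ[F] Ω') :
    ∃ j : Ω →ₐ[F] Ω', ∀ u : RatFunc F, j (algebraMap (RatFunc F) Ω u) = σ₀ u := by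
  let _ : Algebra (RatFunc F) Ω' := σ₀.toRingHom.toAlgebra
  have _ : IsScalarTower F (RatFunc F) Ω' :=
    IsScalarTower.of_algebraMap_eq (fun c => (σ₀.commutes c).symm)
  let j₀ : Ω →ₐ[RatFunc F] Ω' := IsAlgClosed.lift
  refine ⟨j₀.restrictScalars F, fun u => ?_⟩
  change j₀ (algebraMap (RatFunc F) Ω u) = σ₀ u
  rw [j₀.commutes]
  rfl

/-- An `F`-algebra homomorphism `F(x) → Ω'` sending `x` to a transcendental element. -/
theorem h48_exists_ratFunc_hom {F : Type*} [Field F] {Ω' : Type*} [Field Ω'] [Algebra F Ω']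
    {s : Ω'} (hs : Transcendental F s) :
    ∃ σ₀ : RatFunc F →ₐ[F] Ω', σ₀ RatFunc.X = s := by
  have hinj : Function.Injective (Polynomial.aeval s : Polynomial F →ₐ[F] Ω') :=
    transcendental_iff_injective.mp hs
  have hφ : nonZeroDivisors (Polynomial F) ≤
      Submonoid.comap (Polynomial.aeval s : Polynomial F →ₐ[F] Ω') (nonZeroDivisors Ω') := by
    intro p hp
    rw [Submonoid.mem_comap]
    have hp0 : p ≠ 0 := nonZeroDivisors.ne_zero hp
    exact mem_nonZeroDivisors_of_ne_zero
      (fun h0 => hp0 (hinj (by rw [h0, map_zero])))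
  refine ⟨RatFunc.liftAlgHom (Polynomial.aeval s) hφ, ?_⟩
  rw [RatFunc.liftAlgHom_apply, RatFunc.num_X, RatFunc.denom_X, Polynomial.aeval_X, map_one,
    div_one]

section spec

variable {F : Type*} [Field F] (A B : F)
variable {Ω : Type*} [Field Ω] [DecidableEq Ω] [Algebra F Ω] [Algebra (RatFunc F) Ω]
  [IsScalarTower F (RatFunc F) Ω]

/-- **Specialisation of the generic point**: every affine point over an algebraically closed
field whose `x`-coordinate is transcendental over `F` is, up to sign, the image of the generic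
point under an `F`-algebra homomorphism. -/
theorem h48_specialize [Algebra.IsAlgebraic (RatFunc F) Ω] (y : Ω)
    (hy : y ^ 2 = algebraMap (RatFunc F) Ω (h5_fK A B))
    (h : ((h5_sw A B).toAffine⁄Ω).Nonsingular (algebraMap (RatFunc F) Ω RatFunc.X) y)
    {Ω'' : Type*} [Field Ω''] [DecidableEq Ω''] [IsAlgClosed Ω''] [Algebra F Ω''] {s t : Ω''}
    (hS : ((h5_sw A B).toAffine⁄Ω'').Nonsingular s t) (hs : Transcendental F s) :
    ∃ j : Ω →ₐ[F] Ω'',
      Affine.Point.map (W' := (h5_sw A B).toAffine) j (Affine.Point.some _ _ h) =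
          Affine.Point.some s t hS ∨
        Affine.Point.map (W' := (h5_sw A B).toAffine) j (Affine.Point.some _ _ h) =
          -Affine.Point.some s t hS := by
  obtain ⟨σ₀, hσ₀⟩ := h48_exists_ratFunc_hom hs
  obtain ⟨j, hj⟩ := h48_exists_ext (Ω := Ω) σ₀
  refine ⟨j, ?_⟩
  have hjX : j (algebraMap (RatFunc F) Ω RatFunc.X) = s := by rw [hj, hσ₀]
  have hf : σ₀ (h5_fK A B) = s ^ 3 + algebraMap F Ω'' A * s + algebraMap F Ω'' B := by
    unfold h5_fK
    rw [map_add, map_add, map_mul, map_pow, hσ₀, ← RatFunc.algebraMap_eq_C, σ₀.commutes,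
      σ₀.commutes]
  have hjy : j y ^ 2 = t ^ 2 := by
    rw [← map_pow, hy, hj, hf, h48_equation_bc A B hS.1]
  have hcases : j y = t ∨ j y = -t := by
    have h1 : (j y - t) * (j y + t) = 0 := by linear_combination hjy
    rcases mul_eq_zero.mp h1 with h0 | h0
    · exact Or.inl (sub_eq_zero.mp h0)
    · exact Or.inr (eq_neg_of_add_eq_zero_left h0)
  rw [Affine.Point.map_some]
  rcases hcases with h0 | h0
  · left
    rw [Affine.Point.some.injEq]
    exact ⟨hjX, h0⟩
  · right
    rw [Affine.Point.neg_some, Affine.Point.some.injEq]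
    refine ⟨hjX, ?_⟩
    rw [h48_negY_bc]
    exact h0

end spec

section range

variable {F : Type*} [Field F] (A B : F)
variable {Ω : Type*} [Field Ω] [DecidableEq Ω] [Algebra F Ω]

/-- An affine point with `x`-coordinate algebraic over `F` comes from the relative algebraic
closure of `F`. -/
theorem h48_mem_range_of_algebraic {s t : Ω} (hS : ((h5_sw A B).toAffine⁄Ω).Nonsingular s t)
    (hs : IsAlgebraic F s) :
    (Affine.Point.some s t hS : h5_Pt A B Ω) ∈
      (Affine.Point.map (W' := (h5_sw A B).toAffine) (algebraicClosure F Ω).val).range := by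
  have hsM : s ∈ algebraicClosure F Ω := mem_algebraicClosure_iff.mpr hs
  have htM : t ∈ algebraicClosure F Ω := by
    rw [mem_algebraicClosure_iff]
    refine IsAlgebraic.of_pow (n := 2) two_pos ?_
    rw [h48_equation_bc A B hS.1, ← mem_algebraicClosure_iff]
    exact add_mem (add_mem (pow_mem hsM 3)
      (mul_mem ((algebraicClosure F Ω).algebraMap_mem A) hsM))
      ((algebraicClosure F Ω).algebraMap_mem B)
  have h' : ((h5_sw A B).toAffine⁄(algebraicClosure F Ω)).Nonsingular
      (⟨s, hsM⟩ : algebraicClosure F Ω) ⟨t, htM⟩ :=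
    (Affine.baseChange_nonsingular (h5_sw A B).toAffine
      (f := (algebraicClosure F Ω).val) (algebraicClosure F Ω).val.injective ⟨s, hsM⟩ ⟨t, htM⟩).mp hS
  exact ⟨Affine.Point.some _ _ h', rfl⟩

/-- The `x`-coordinate of an affine point coming from the relative algebraic closure is
algebraic. -/
theorem h48_algebraic_of_mem_range {s t : Ω} (hS : ((h5_sw A B).toAffine⁄Ω).Nonsingular s t)
    (hmem : (Affine.Point.some s t hS : h5_Pt A B Ω) ∈
      (Affine.Point.map (W' := (h5_sw A B).toAffine) (algebraicClosure F Ω).val).range) :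
    IsAlgebraic F s := by
  obtain ⟨T, hT⟩ := hmem
  rcases T with _ | ⟨x, y, h⟩
  · exact absurd hT.symm (Affine.Point.some_ne_zero hS)
  · rw [Affine.Point.map_some, Affine.Point.some.injEq] at hT
    rw [← hT.1]
    exact mem_algebraicClosure_iff.mp x.2

end range


section transfer

variable {F : Type*} [Field F] [Fintype F] (A B : F)

/-- **Transfer.** If `m • ψ P₀ = 0` for the generic point over `AlgebraicClosure (RatFunc F)`,
then `m • ψ Q = 0` for every point `Q` over every field over `F`. -/
theorem h48_transfer (h2 : (2 : F) ≠ 0) (hΔ : 4 * A ^ 3 + 27 * B ^ 2 ≠ 0) (a : ℤ) (m : ℕ)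
    (hgen : ∀ [DecidableEq (AlgebraicClosure (RatFunc F))] (y : AlgebraicClosure (RatFunc F))
      (_ : y ^ 2 = algebraMap (RatFunc F) (AlgebraicClosure (RatFunc F)) (h5_fK A B))
      (h : ((h5_sw A B).toAffine⁄(AlgebraicClosure (RatFunc F))).Nonsingular
        (algebraMap (RatFunc F) (AlgebraicClosure (RatFunc F)) RatFunc.X) y),
      m • h5_psi A B a
        (Affine.Point.some _ _ h : h5_Pt A B (AlgebraicClosure (RatFunc F))) = 0)
    {Ω' : Type*} [Field Ω'] [DecidableEq Ω'] [Algebra F Ω'] (Q : h5_Pt A B Ω') :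
    m • h5_psi A B a Q = 0 := by
  classical
  have halg : Algebra.IsAlgebraic (RatFunc F) (AlgebraicClosure (RatFunc F)) :=
    AlgebraicClosure.isAlgebraic (RatFunc F)
  -- the generic point over `F`
  obtain ⟨y, hy⟩ := IsAlgClosed.exists_pow_nat_eq
    (algebraMap (RatFunc F) (AlgebraicClosure (RatFunc F)) (h5_fK A B)) (n := 2) two_pos
  have hP0 : ((h5_sw A B).toAffine⁄(AlgebraicClosure (RatFunc F))).Nonsingular
      (algebraMap (RatFunc F) (AlgebraicClosure (RatFunc F)) RatFunc.X) y := by
    apply h48_nonsingular_bc A B h2 hΔ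
    rw [hy]
    unfold h5_fK
    rw [map_add, map_add, map_mul, map_pow, ← RatFunc.algebraMap_eq_C,
      ← IsScalarTower.algebraMap_apply, ← IsScalarTower.algebraMap_apply]
  have hgen' := hgen y hy hP0
  -- points over `Ω'' = AlgebraicClosure (RatFunc Ω')` with transcendental `x`-coordinate
  have hK : ∀ {s t : AlgebraicClosure (RatFunc Ω')}
      (hS : ((h5_sw A B).toAffine⁄(AlgebraicClosure (RatFunc Ω'))).Nonsingular s t),
      Transcendental F s →
      m • h5_psi A B a (Affine.Point.some s t hS : h5_Pt A B (AlgebraicClosure (RatFunc Ω'))) = 0 := by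
    intro s t hS hs
    obtain ⟨j, hj⟩ := h48_specialize A B y hy hP0 hS hs
    have h1 : Affine.Point.map (W' := (h5_sw A B).toAffine) j
        (m • h5_psi A B a (Affine.Point.some _ _ hP0)) = 0 := by rw [hgen', map_zero]
    rw [map_nsmul, h48_psi_map] at h1
    rcases hj with hj | hj
    · rw [hj] at h1
      exact h1
    · rw [hj, h48_psi_neg, smul_neg, neg_eq_zero] at h1
      exact h1
  -- points not coming from the relative algebraic closure of `F`
  have hR : ∀ T : h5_Pt A B (AlgebraicClosure (RatFunc Ω')),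
      T ∉ (Affine.Point.map (W' := (h5_sw A B).toAffine)
        (algebraicClosure F (AlgebraicClosure (RatFunc Ω'))).val).range →
      m • h5_psi A B a T = 0 := by
    intro T hT
    rcases T with _ | ⟨s, t, hS⟩
    · exact absurd (zero_mem _) hT
    · apply hK hS
      intro hs
      exact hT (h48_mem_range_of_algebraic A B hS hs)
  -- the generic point over `Ω'`
  have hXtr : Transcendental F
      (algebraMap (RatFunc Ω') (AlgebraicClosure (RatFunc Ω')) RatFunc.X) := by
    have h1 : Transcendental Ω'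
        (algebraMap (RatFunc Ω') (AlgebraicClosure (RatFunc Ω')) RatFunc.X) :=
      (transcendental_algebraMap_iff
        (algebraMap (RatFunc Ω') (AlgebraicClosure (RatFunc Ω'))).injective).mpr
        RatFunc.transcendental_X
    exact Transcendental.of_tower_top F h1
  obtain ⟨y'', hy''⟩ := IsAlgClosed.exists_pow_nat_eq
    ((algebraMap (RatFunc Ω') (AlgebraicClosure (RatFunc Ω')) RatFunc.X) ^ 3 +
      algebraMap F (AlgebraicClosure (RatFunc Ω')) A *
        (algebraMap (RatFunc Ω') (AlgebraicClosure (RatFunc Ω')) RatFunc.X) +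
      algebraMap F (AlgebraicClosure (RatFunc Ω')) B) (n := 2) two_pos
  have hP'' : ((h5_sw A B).toAffine⁄(AlgebraicClosure (RatFunc Ω'))).Nonsingular
      (algebraMap (RatFunc Ω') (AlgebraicClosure (RatFunc Ω')) RatFunc.X) y'' :=
    h48_nonsingular_bc A B h2 hΔ hy''
  have hP''R : (Affine.Point.some _ _ hP'' : h5_Pt A B (AlgebraicClosure (RatFunc Ω'))) ∉
      (Affine.Point.map (W' := (h5_sw A B).toAffine)
        (algebraicClosure F (AlgebraicClosure (RatFunc Ω'))).val).range :=
    fun hmem => hXtr (h48_algebraic_of_mem_range A B hP'' hmem)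
  -- the image of `Q`
  have hQ'' : m • h5_psi A B a (Affine.Point.map (W' := (h5_sw A B).toAffine)
      (IsScalarTower.toAlgHom F Ω' (AlgebraicClosure (RatFunc Ω'))) Q) = 0 := by
    by_cases hQR : Affine.Point.map (W' := (h5_sw A B).toAffine)
        (IsScalarTower.toAlgHom F Ω' (AlgebraicClosure (RatFunc Ω'))) Q ∈
        (Affine.Point.map (W' := (h5_sw A B).toAffine)
          (algebraicClosure F (AlgebraicClosure (RatFunc Ω'))).val).range
    · have hS : (Affine.Point.some _ _ hP'' : h5_Pt A B (AlgebraicClosure (RatFunc Ω'))) +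
          Affine.Point.map (W' := (h5_sw A B).toAffine)
            (IsScalarTower.toAlgHom F Ω' (AlgebraicClosure (RatFunc Ω'))) Q ∉
          (Affine.Point.map (W' := (h5_sw A B).toAffine)
            (algebraicClosure F (AlgebraicClosure (RatFunc Ω'))).val).range := by
        intro hmem
        apply hP''R
        have := sub_mem hmem hQR
        rwa [add_sub_cancel_right] at this
      have h1 := hR _ hS
      have h3 := hR _ hP''R
      rw [h48_psi_add, smul_add, h3, zero_add] at h1
      exact h1
    · exact hR _ hQR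
  have h4 : Affine.Point.map (W' := (h5_sw A B).toAffine)
      (IsScalarTower.toAlgHom F Ω' (AlgebraicClosure (RatFunc Ω'))) (m • h5_psi A B a Q) = 0 := by
    rw [map_nsmul, h48_psi_map]
    exact hQ''
  exact (map_eq_zero_iff _ (Affine.Point.map_injective _)).mp h4

end transfer

end Fermat.Agent.S52
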