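import Mathlib

/-!
# S52, block (I), row R2 (COMPOSE): degree of a composition of rational functions

For coprime `n d : k[X]` with `M = max n.natDegree d.natDegree` and coprime `U V : k[X]`
the homogenised values `h50_hom n M U V = ∑_{i ≤ M} n_i U^i V^(M-i)` and `h50_hom d M U V`
are coprime and the maximum of their degrees is `M * max U.natDegree V.natDegree`.

Corollary (`h50_height_comp`): for every `ξ : RatFunc k`,
the height of `n(ξ) / d(ξ)` is `max n.natDegree d.natDegree` times the height of `ξ`.
-/

set_option autoImplicit false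

namespace Fermat.Agent.S52

open Polynomial

variable {k : Type*} [Field k]

/-- Homogenisation of `p` in degree `M`, evaluated at `(U, V)`:
`∑_{i ≤ M} p_i U^i V^(M-i)`. -/
noncomputable def h50_hom (p : k[X]) (M : ℕ) (U V : k[X]) : k[X] :=
  ∑ i ∈ Finset.range (M + 1), C (p.coeff i) * U ^ i * V ^ (M - i)

lemma h50_hom_natDegree_le (p : k[X]) (M : ℕ) {U V : k[X]} {m : ℕ}
    (hU : U.natDegree ≤ m) (hV : V.natDegree ≤ m) :
    (h50_hom p M U V).natDegree ≤ M * m := by
  unfold h50_hom
  refine natDegree_sum_le_of_forall_le _ _ fun i hi => ?_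
  have hi' : i ≤ M := Nat.lt_succ_iff.mp (Finset.mem_range.mp hi)
  have h1 : (C (p.coeff i) * U ^ i).natDegree ≤ i * m :=
    (natDegree_C_mul_le _ _).trans (natDegree_pow_le_of_le i hU)
  have h2 : (V ^ (M - i)).natDegree ≤ (M - i) * m := natDegree_pow_le_of_le _ hV
  have h3 := natDegree_mul_le_of_le h1 h2
  calc _ ≤ i * m + (M - i) * m := h3
    _ = M * m := by rw [← Nat.add_mul, Nat.add_sub_cancel' hi']

lemma h50_hom_coeff (p : k[X]) (M : ℕ) {U V : k[X]} {m : ℕ}
    (hU : U.natDegree ≤ m) (hV : V.natDegree ≤ m) :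
    (h50_hom p M U V).coeff (M * m) =
      ∑ i ∈ Finset.range (M + 1), p.coeff i * U.coeff m ^ i * V.coeff m ^ (M - i) := by
  unfold h50_hom
  rw [finsetSum_coeff]
  refine Finset.sum_congr rfl fun i hi => ?_
  have hi' : i ≤ M := Nat.lt_succ_iff.mp (Finset.mem_range.mp hi)
  have e : M * m = i * m + (M - i) * m := by rw [← Nat.add_mul, Nat.add_sub_cancel' hi']
  have h1 : (U ^ i).natDegree ≤ i * m := natDegree_pow_le_of_le i hU
  have h2 : (V ^ (M - i)).natDegree ≤ (M - i) * m := natDegree_pow_le_of_le _ hV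
  rw [mul_assoc, coeff_C_mul, e, coeff_mul_add_eq_of_natDegree_le h1 h2,
    coeff_pow_of_natDegree_le hU, coeff_pow_of_natDegree_le hV, mul_assoc]

/-- The last term split off: `hom p M U V = p_M U^M + V * (…)`. -/
lemma h50_hom_eq_top_add (p : k[X]) (M : ℕ) (U V : k[X]) :
    ∃ s : k[X], h50_hom p M U V = C (p.coeff M) * U ^ M + V * s := by
  refine ⟨∑ i ∈ Finset.range M, C (p.coeff i) * U ^ i * V ^ (M - i - 1), ?_⟩
  unfold h50_hom
  rw [Finset.sum_range_succ, Nat.sub_self, pow_zero, mul_one, add_comm, Finset.mul_sum]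
  congr 1
  refine Finset.sum_congr rfl fun i hi => ?_
  have hi' : i < M := Finset.mem_range.mp hi
  have : M - i = (M - i - 1) + 1 := by omega
  rw [this, pow_succ, Nat.add_sub_cancel]
  ring

/-- In the fraction field: `hom p M U V = V^M * p(U/V)`. -/
lemma h50_algebraMap_hom (p : k[X]) {M : ℕ} (hM : p.natDegree ≤ M) (U : k[X]) {V : k[X]}
    (hV : V ≠ 0) :
    algebraMap k[X] (RatFunc k) (h50_hom p M U V) =
      algebraMap k[X] (RatFunc k) V ^ M *
        aeval (algebraMap k[X] (RatFunc k) U / algebraMap k[X] (RatFunc k) V) p := by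
  have hV' : algebraMap k[X] (RatFunc k) V ≠ 0 := RatFunc.algebraMap_ne_zero hV
  rw [aeval_def, eval₂_eq_sum_range' _ (Nat.lt_succ_of_le hM), Finset.mul_sum]
  unfold h50_hom
  rw [map_sum]
  refine Finset.sum_congr rfl fun i hi => ?_
  have hi' : i ≤ M := Nat.lt_succ_iff.mp (Finset.mem_range.mp hi)
  have hpow : algebraMap k[X] (RatFunc k) V ^ M =
      algebraMap k[X] (RatFunc k) V ^ (M - i) * algebraMap k[X] (RatFunc k) V ^ i := by
    rw [← pow_add, Nat.sub_add_cancel hi']
  have hC : algebraMap k[X] (RatFunc k) (C (p.coeff i)) =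
      algebraMap k (RatFunc k) (p.coeff i) := by
    rw [← algebraMap_eq, ← IsScalarTower.algebraMap_apply]
  rw [map_mul, map_mul, map_pow, map_pow, div_pow, hpow, hC]
  field_simp

private lemma h50_isCoprime_of_isUnit_left {x : k[X]} (h : IsUnit x) (y : k[X]) :
    IsCoprime x y := by
  obtain ⟨u, rfl⟩ := h
  exact ⟨((u⁻¹ : k[X]ˣ) : k[X]), 0, by simp⟩

/-- Bézout's identity, homogenised: a combination of the two homogenised values is a power
of `V`. -/
lemma h50_bezout {n d : k[X]} (hnd : IsCoprime n d) {M : ℕ} (hn : n.natDegree ≤ M)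
    (hd : d.natDegree ≤ M) (U : k[X]) {V : k[X]} (hV : V ≠ 0) :
    ∃ (K : ℕ) (a b : k[X]), a * h50_hom n M U V + b * h50_hom d M U V = V ^ K := by
  obtain ⟨a, b, hab⟩ := hnd
  refine ⟨max a.natDegree b.natDegree + M, h50_hom a (max a.natDegree b.natDegree) U V,
    h50_hom b (max a.natDegree b.natDegree) U V, ?_⟩
  apply RatFunc.algebraMap_injective k
  rw [map_add, map_mul, map_mul, h50_algebraMap_hom a (le_max_left _ _) U hV,
    h50_algebraMap_hom b (le_max_right _ _) U hV, h50_algebraMap_hom n hn U hV,
    h50_algebraMap_hom d hd U hV, map_pow, pow_add]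
  have := congrArg (aeval (algebraMap k[X] (RatFunc k) U / algebraMap k[X] (RatFunc k) V)) hab
  simp only [map_add, map_mul, map_one] at this
  linear_combination (algebraMap k[X] (RatFunc k) V ^ (max a.natDegree b.natDegree) *
    algebraMap k[X] (RatFunc k) V ^ M) * this

/-- For coprime `p q` and `M = max p.natDegree q.natDegree`, one of the coefficients of index
`M` is nonzero. -/
lemma h50_top_coeff_ne {p q : k[X]} (h : IsCoprime p q) {M : ℕ}
    (hM : M = max p.natDegree q.natDegree) : p.coeff M ≠ 0 ∨ q.coeff M ≠ 0 := by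
  by_contra hcon
  rw [not_or, not_not, not_not] at hcon
  obtain ⟨hp, hq⟩ := hcon
  have key : p = 0 ∧ q = 0 := by
    rcases max_choice p.natDegree q.natDegree with hm | hm
    · rw [hm] at hM
      have hp0 : p = 0 := by
        rw [hM] at hp
        exact leadingCoeff_eq_zero.mp hp
      have hM0 : M = 0 := by rw [hM, hp0, natDegree_zero]
      have hq' : q.natDegree ≤ 0 := by
        have := le_max_right p.natDegree q.natDegree
        rw [hm, ← hM, hM0] at this
        exact this
      refine ⟨hp0, ?_⟩
      rw [eq_C_of_natDegree_le_zero hq', ← hM0, hq, C_0]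
    · rw [hm] at hM
      have hq0 : q = 0 := by
        rw [hM] at hq
        exact leadingCoeff_eq_zero.mp hq
      have hM0 : M = 0 := by rw [hM, hq0, natDegree_zero]
      have hp' : p.natDegree ≤ 0 := by
        have := le_max_left p.natDegree q.natDegree
        rw [hm, ← hM, hM0] at this
        exact this
      refine ⟨?_, hq0⟩
      rw [eq_C_of_natDegree_le_zero hp', ← hM0, hp, C_0]
  rw [key.1, key.2] at h
  exact not_isCoprime_zero_zero h

lemma h50_isCoprime_hom_right_of_coeff_ne {p : k[X]} {M : ℕ} (hp : p.coeff M ≠ 0) {U V : k[X]}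
    (hUV : IsCoprime U V) : IsCoprime (h50_hom p M U V) V := by
  obtain ⟨s, hs⟩ := h50_hom_eq_top_add p M U V
  rw [hs]
  refine IsCoprime.add_mul_left_left ?_ s
  exact (isCoprime_mul_unit_left_left (isUnit_C.mpr (IsUnit.mk0 _ hp)) _ _).mpr hUV.pow_left

private lemma h50_isCoprime_hom_aux {n d : k[X]} (hnd : IsCoprime n d) {M : ℕ}
    (hn : n.natDegree ≤ M) (hd : d.natDegree ≤ M) (hnM : n.coeff M ≠ 0) {U V : k[X]}
    (hUV : IsCoprime U V) : IsCoprime (h50_hom n M U V) (h50_hom d M U V) := by
  by_cases hV : V = 0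
  · subst hV
    obtain ⟨s, hs⟩ := h50_hom_eq_top_add n M U 0
    have hU : IsUnit U := isCoprime_zero_right.mp hUV
    have : IsUnit (h50_hom n M U 0) := by
      rw [hs, zero_mul, add_zero]
      exact (isUnit_C.mpr (IsUnit.mk0 _ hnM)).mul (hU.pow M)
    exact h50_isCoprime_of_isUnit_left this _
  · obtain ⟨K, a, b, hab⟩ := h50_bezout hnd hn hd U hV
    have h1 : IsCoprime (h50_hom n M U V) (V ^ K) :=
      (h50_isCoprime_hom_right_of_coeff_ne hnM hUV).pow_right
    rw [← hab] at h1
    have e : a * h50_hom n M U V + b * h50_hom d M U V =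
        b * h50_hom d M U V + h50_hom n M U V * a := by ring
    rw [e] at h1
    exact h1.of_add_mul_left_right.of_mul_right_right

/-- **Composition lemma, coprimality**: the homogenised values of a coprime pair at a coprime
pair are coprime. -/
theorem h50_isCoprime_hom {n d : k[X]} (hnd : IsCoprime n d) {M : ℕ}
    (hM : M = max n.natDegree d.natDegree) {U V : k[X]} (hUV : IsCoprime U V) :
    IsCoprime (h50_hom n M U V) (h50_hom d M U V) := by
  have hn : n.natDegree ≤ M := hM ▸ le_max_left _ _
  have hd : d.natDegree ≤ M := hM ▸ le_max_right _ _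
  rcases h50_top_coeff_ne hnd hM with h | h
  · exact h50_isCoprime_hom_aux hnd hn hd h hUV
  · exact (h50_isCoprime_hom_aux hnd.symm hd hn h hUV).symm

lemma h50_hom_C_C (p : k[X]) (M : ℕ) (α β : k) :
    h50_hom p M (C α) (C β) =
      C (∑ i ∈ Finset.range (M + 1), p.coeff i * α ^ i * β ^ (M - i)) := by
  unfold h50_hom
  rw [map_sum]
  refine Finset.sum_congr rfl fun i _ => ?_
  rw [map_mul, map_mul, map_pow, map_pow]

/-- **Composition lemma, degree**: the maximum of the degrees of the homogenised values is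
`M * max (deg U) (deg V)`. -/
theorem h50_max_natDegree_hom {n d : k[X]} (hnd : IsCoprime n d) {M : ℕ}
    (hM : M = max n.natDegree d.natDegree) {U V : k[X]} (hUV : IsCoprime U V) :
    max (h50_hom n M U V).natDegree (h50_hom d M U V).natDegree =
      M * max U.natDegree V.natDegree := by
  have hU : U.natDegree ≤ max U.natDegree V.natDegree := le_max_left _ _
  have hV : V.natDegree ≤ max U.natDegree V.natDegree := le_max_right _ _
  apply le_antisymm
  · exact max_le (h50_hom_natDegree_le n M hU hV) (h50_hom_natDegree_le d M hU hV)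
  · -- the coefficients of index `M * m`
    have hc : IsCoprime (C (U.coeff (max U.natDegree V.natDegree)))
        (C (V.coeff (max U.natDegree V.natDegree))) := by
      rcases h50_top_coeff_ne hUV rfl with h | h
      · exact h50_isCoprime_of_isUnit_left (isUnit_C.mpr (IsUnit.mk0 _ h)) _
      · exact (h50_isCoprime_of_isUnit_left (isUnit_C.mpr (IsUnit.mk0 _ h)) _).symm
    have hcop := h50_isCoprime_hom hnd hM hc
    rw [h50_hom_C_C, h50_hom_C_C, ← h50_hom_coeff n M hU hV, ← h50_hom_coeff d M hU hV] at hcop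
    have hne : (h50_hom n M U V).coeff (M * max U.natDegree V.natDegree) ≠ 0 ∨
        (h50_hom d M U V).coeff (M * max U.natDegree V.natDegree) ≠ 0 := by
      by_contra hcon
      rw [not_or, not_not, not_not] at hcon
      rw [hcon.1, hcon.2, C_0] at hcop
      exact not_isCoprime_zero_zero hcop
    rcases hne with h | h
    · exact le_max_of_le_left (le_natDegree_of_ne_zero h)
    · exact le_max_of_le_right (le_natDegree_of_ne_zero h)

/-! ### Rational functions -/

private lemma h50_natDegree_eq_of_dvd_of_dvd {p q : k[X]} (h1 : p ∣ q) (h2 : q ∣ p) :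
    p.natDegree = q.natDegree := by
  by_cases hq : q = 0
  · subst hq
    rw [zero_dvd_iff.mp h2]
  · have hp : p ≠ 0 := fun h => hq (by rw [h] at h1; exact zero_dvd_iff.mp h1)
    exact le_antisymm (natDegree_le_of_dvd h1 hq) (natDegree_le_of_dvd h2 hp)

/-- Numerator and denominator degrees of a quotient of coprime polynomials. -/
theorem h50_natDegree_num_denom_div {a b : k[X]} (h : IsCoprime a b) :
    (algebraMap k[X] (RatFunc k) a / algebraMap k[X] (RatFunc k) b).num.natDegree =
        a.natDegree ∧
      (algebraMap k[X] (RatFunc k) a / algebraMap k[X] (RatFunc k) b).denom.natDegree =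
        b.natDegree := by
  by_cases hb : b = 0
  · subst hb
    have ha : IsUnit a := isCoprime_zero_right.mp h
    simp [natDegree_eq_zero_of_isUnit ha]
  · set r := algebraMap k[X] (RatFunc k) a / algebraMap k[X] (RatFunc k) b with hr
    have hb' : algebraMap k[X] (RatFunc k) b ≠ 0 := RatFunc.algebraMap_ne_zero hb
    have hd' : algebraMap k[X] (RatFunc k) r.denom ≠ 0 :=
      RatFunc.algebraMap_ne_zero r.denom_ne_zero
    have key : r.num * b = a * r.denom := by
      apply RatFunc.algebraMap_injective k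
      have h1 := RatFunc.num_div_denom r
      rw [hr] at h1 ⊢
      rw [div_eq_div_iff hd' hb'] at h1
      rw [map_mul, map_mul]
      exact h1
    have hcop := RatFunc.isCoprime_num_denom r
    have d1 : r.num ∣ a := hcop.dvd_of_dvd_mul_right (Dvd.intro b key)
    have d2 : a ∣ r.num := h.dvd_of_dvd_mul_right (Dvd.intro r.denom key.symm)
    have d3 : r.denom ∣ b := hcop.symm.dvd_of_dvd_mul_left (Dvd.intro_left a key.symm)
    have d4 : b ∣ r.denom := h.symm.dvd_of_dvd_mul_left (Dvd.intro_left r.num key)
    exact ⟨h50_natDegree_eq_of_dvd_of_dvd d1 d2, h50_natDegree_eq_of_dvd_of_dvd d3 d4⟩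

/-- **Height of a composition**: for coprime `n d : k[X]` and any `ξ : RatFunc k`,
the height (max of the degrees of numerator and denominator) of `n(ξ) / d(ξ)` is
`max (deg n) (deg d)` times the height of `ξ`. -/
theorem h50_height_comp {n d : k[X]} (hnd : IsCoprime n d) (ξ : RatFunc k) :
    max (aeval ξ n / aeval ξ d).num.natDegree (aeval ξ n / aeval ξ d).denom.natDegree =
      max n.natDegree d.natDegree * max ξ.num.natDegree ξ.denom.natDegree := by
  have hV : ξ.denom ≠ 0 := ξ.denom_ne_zero
  have hV' : algebraMap k[X] (RatFunc k) ξ.denom ≠ 0 := RatFunc.algebraMap_ne_zero hV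
  have hUV := RatFunc.isCoprime_num_denom ξ
  have hξ := RatFunc.num_div_denom ξ
  have hn := h50_algebraMap_hom n (le_max_left n.natDegree d.natDegree) ξ.num hV
  have hd := h50_algebraMap_hom d (le_max_right n.natDegree d.natDegree) ξ.num hV
  rw [hξ] at hn hd
  have e : aeval ξ n / aeval ξ d =
      algebraMap k[X] (RatFunc k) (h50_hom n (max n.natDegree d.natDegree) ξ.num ξ.denom) /
        algebraMap k[X] (RatFunc k) (h50_hom d (max n.natDegree d.natDegree) ξ.num ξ.denom) := by
    rw [hn, hd, mul_div_mul_left _ _ (pow_ne_zero _ hV')]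
  rw [e]
  obtain ⟨h1, h2⟩ := h50_natDegree_num_denom_div (h50_isCoprime_hom hnd rfl hUV)
  rw [h1, h2]
  exact h50_max_natDegree_hom hnd rfl hUV

/-- **Degree is multiplicative under substitution** (`h5_deg_algHom` of row D1, stated with
the height unfolded): for an `F`-algebra endomorphism `σ` of `RatFunc k`,
`height (σ v) = height v * height (σ X)`. -/
theorem h50_deg_algHom (σ : RatFunc k →ₐ[k] RatFunc k) (v : RatFunc k) :
    max (σ v).num.natDegree (σ v).denom.natDegree =
      max v.num.natDegree v.denom.natDegree *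
        max (σ RatFunc.X).num.natDegree (σ RatFunc.X).denom.natDegree := by
  have hσ : ∀ p : k[X], σ (algebraMap k[X] (RatFunc k) p) = aeval (σ RatFunc.X) p := by
    intro p
    rw [← RatFunc.aeval_X_left_eq_algebraMap, ← aeval_algHom_apply]
  have hv : σ v = aeval (σ RatFunc.X) v.num / aeval (σ RatFunc.X) v.denom := by
    conv_lhs => rw [← RatFunc.num_div_denom v]
    rw [map_div₀, hσ, hσ]
  rw [hv]
  exact h50_height_comp (RatFunc.isCoprime_num_denom v) (σ RatFunc.X)

end Fermat.Agent.S52
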