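import Fermat.Agent.S52.KleinDefs
import Fermat.Agent.S52.FamLemmas

/-!
# S52: degree bounds and top coefficients of the one-variable family polynomials

For any commutative ring `R` and `c4 c6 M : R`:
`famC4 (C c4) (C c6) (C M) X : R[X]` has `natDegree ≤ 20` and `coeff 20 = c4`,
`famC6 (C c4) (C c6) (C M) X : R[X]` has `natDegree ≤ 30` and `coeff 30 = c6`.
-/

set_option autoImplicit false

open Polynomial

namespace Fermat.Agent.S52

section

variable {R : Type*} [CommRing R]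

theorem h58_famC4_X_natDegree_le (c4 c6 M : R) :
    (famC4 (C c4) (C c6) (C M) (X : R[X])).natDegree ≤ 20 := by
  unfold famC4 famC4_blk0 famC4_blk1 famC4_blk2 famC4_blk3 famC4_blk4 famC4_blk5
    famC4_0 famC4_1 famC4_2 famC4_3 famC4_4 famC4_5 famC4_6 famC4_7 famC4_8 famC4_9 famC4_10
    famC4_11 famC4_12 famC4_13 famC4_14 famC4_15 famC4_16 famC4_17 famC4_18 famC4_19 famC4_20
  compute_degree

theorem h58_famC6_X_natDegree_le (c4 c6 M : R) :
    (famC6 (C c4) (C c6) (C M) (X : R[X])).natDegree ≤ 30 := by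
  unfold famC6 famC6_blk0 famC6_blk1 famC6_blk2 famC6_blk3 famC6_blk4 famC6_blk5 famC6_blk6
    famC6_blk7
    famC6_0 famC6_1 famC6_2 famC6_3 famC6_4 famC6_5 famC6_6 famC6_7 famC6_8 famC6_9 famC6_10
    famC6_11 famC6_12 famC6_13 famC6_14 famC6_15 famC6_16 famC6_17 famC6_18 famC6_19 famC6_20
    famC6_21 famC6_22 famC6_23 famC6_24 famC6_25 famC6_26 famC6_27 famC6_28 famC6_29 famC6_30
  compute_degree

/-- The part of `famC4 (C c4) (C c6) (C M) X` of degree `< 20`. -/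
theorem h58_famC4_X_split (c4 c6 M : R) :
    ∃ r : R[X], r.natDegree ≤ 19 ∧
      famC4 (C c4) (C c6) (C M) (X : R[X]) = C c4 * X ^ 20 + r := by
  refine ⟨famC4_1 (C c4) (C c6) * (C M * X ^ 19)
      + famC4_2 (C c4) (C c6) * (C M ^ 2 * X ^ 18)
      + famC4_3 (C c4) (C c6) * (C M ^ 3 * X ^ 17)
      + famC4_blk1 (C c4) (C c6) (C M) X + famC4_blk2 (C c4) (C c6) (C M) X
      + famC4_blk3 (C c4) (C c6) (C M) X + famC4_blk4 (C c4) (C c6) (C M) X
      + famC4_blk5 (C c4) (C c6) (C M) X, ?_, ?_⟩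
  · unfold famC4_blk1 famC4_blk2 famC4_blk3 famC4_blk4 famC4_blk5
      famC4_1 famC4_2 famC4_3 famC4_4 famC4_5 famC4_6 famC4_7 famC4_8 famC4_9 famC4_10
      famC4_11 famC4_12 famC4_13 famC4_14 famC4_15 famC4_16 famC4_17 famC4_18 famC4_19 famC4_20
    compute_degree
  · unfold famC4 famC4_blk0 famC4_0
    ring

/-- The part of `famC6 (C c4) (C c6) (C M) X` of degree `< 30`. -/
theorem h58_famC6_X_split (c4 c6 M : R) :
    ∃ r : R[X], r.natDegree ≤ 29 ∧
      famC6 (C c4) (C c6) (C M) (X : R[X]) = C c6 * X ^ 30 + r := by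
  refine ⟨famC6_1 (C c4) (C c6) * (C M * X ^ 29)
      + famC6_2 (C c4) (C c6) * (C M ^ 2 * X ^ 28)
      + famC6_3 (C c4) (C c6) * (C M ^ 3 * X ^ 27)
      + famC6_blk1 (C c4) (C c6) (C M) X + famC6_blk2 (C c4) (C c6) (C M) X
      + famC6_blk3 (C c4) (C c6) (C M) X + famC6_blk4 (C c4) (C c6) (C M) X
      + famC6_blk5 (C c4) (C c6) (C M) X + famC6_blk6 (C c4) (C c6) (C M) X
      + famC6_blk7 (C c4) (C c6) (C M) X, ?_, ?_⟩
  · unfold famC6_blk1 famC6_blk2 famC6_blk3 famC6_blk4 famC6_blk5 famC6_blk6 famC6_blk7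
      famC6_1 famC6_2 famC6_3 famC6_4 famC6_5 famC6_6 famC6_7 famC6_8 famC6_9 famC6_10
      famC6_11 famC6_12 famC6_13 famC6_14 famC6_15 famC6_16 famC6_17 famC6_18 famC6_19 famC6_20
      famC6_21 famC6_22 famC6_23 famC6_24 famC6_25 famC6_26 famC6_27 famC6_28 famC6_29 famC6_30
    compute_degree
  · unfold famC6 famC6_blk0 famC6_0
    ring

theorem h58_famC4_X_coeff (c4 c6 M : R) :
    (famC4 (C c4) (C c6) (C M) (X : R[X])).coeff 20 = c4 := by
  obtain ⟨r, hr, h⟩ := h58_famC4_X_split c4 c6 M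
  rw [h, coeff_add, coeff_C_mul_X_pow, if_pos rfl,
    coeff_eq_zero_of_natDegree_lt (lt_of_le_of_lt hr (by norm_num)), add_zero]

theorem h58_famC6_X_coeff (c4 c6 M : R) :
    (famC6 (C c4) (C c6) (C M) (X : R[X])).coeff 30 = c6 := by
  obtain ⟨r, hr, h⟩ := h58_famC6_X_split c4 c6 M
  rw [h, coeff_add, coeff_C_mul_X_pow, if_pos rfl,
    coeff_eq_zero_of_natDegree_lt (lt_of_le_of_lt hr (by norm_num)), add_zero]

end

section MapEval

variable {R S : Type*} [CommRing R] [CommRing S]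

theorem h58_famC4_X_map (φ : R →+* S) (c4 c6 M : R) :
    (famC4 (C c4) (C c6) (C M) (X : R[X])).map φ = famC4 (C (φ c4)) (C (φ c6)) (C (φ M)) X := by
  have := map_famC4 (mapRingHom φ) (C c4) (C c6) (C M) (X : R[X])
  simpa using this

theorem h58_famC6_X_map (φ : R →+* S) (c4 c6 M : R) :
    (famC6 (C c4) (C c6) (C M) (X : R[X])).map φ = famC6 (C (φ c4)) (C (φ c6)) (C (φ M)) X := by
  have := map_famC6 (mapRingHom φ) (C c4) (C c6) (C M) (X : R[X])
  simpa using this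

theorem h58_famG_X_map (φ : R →+* S) (c4 c6 M : R) :
    (famG (C c4) (C c6) (C M) (X : R[X])).map φ = famG (C (φ c4)) (C (φ c6)) (C (φ M)) X := by
  have := map_famG (mapRingHom φ) (C c4) (C c6) (C M) (X : R[X])
  simpa using this

theorem h58_famC4_X_eval (c4 c6 M k : R) :
    (famC4 (C c4) (C c6) (C M) (X : R[X])).eval k = famC4 c4 c6 M k := by
  have := map_famC4 (evalRingHom k) (C c4) (C c6) (C M) (X : R[X])
  simpa using this

theorem h58_famC6_X_eval (c4 c6 M k : R) :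
    (famC6 (C c4) (C c6) (C M) (X : R[X])).eval k = famC6 c4 c6 M k := by
  have := map_famC6 (evalRingHom k) (C c4) (C c6) (C M) (X : R[X])
  simpa using this

theorem h58_famG_X_eval (c4 c6 M k : R) :
    (famG (C c4) (C c6) (C M) (X : R[X])).eval k = famG c4 c6 M k := by
  have := map_famG (evalRingHom k) (C c4) (C c6) (C M) (X : R[X])
  simpa using this

end MapEval

end Fermat.Agent.S52
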