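import Fermat.Agent.S52.h7_HITQuartic
import Fermat.Agent.S52.NoPoly
import Fermat.Agent.S52.h58_FamPolyX

/-!
# S52 (IV), route HIT: existence of a member of the Klein family with no rational root of the
3-division quartic (`irr_exists` of the S52 skeleton), from `h7_irr_of_polys` and `fam_nopoly`.
-/

set_option autoImplicit false

open Polynomial

namespace Fermat.Agent.S52

theorem h58_irr_exists_hit (c4 c6 : ℤ) (hΔ : c4 ^ 3 - c6 ^ 2 ≠ 0) (M : ℤ) (hM : 2 ≤ M) :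
    ∃ m n : ℤ, M ∣ m ∧ M ∣ n - 1 ∧ IsCoprime m n ∧
      ∀ z : ℚ, z ^ 4 - 486 * ((famC4 c4 c6 m n : ℤ) : ℚ) * z ^ 2
        - 5832 * ((famC6 c4 c6 m n : ℤ) : ℚ) * z
        - 19683 * ((famC4 c4 c6 m n : ℤ) : ℚ) ^ 2 ≠ 0 := by
  have hΔ' : ((c4 : ℤ) : ℚ) ^ 3 - ((c6 : ℤ) : ℚ) ^ 2 ≠ 0 := by
    exact_mod_cast hΔ
  have hM' : ((M : ℤ) : ℚ) ≠ 0 := by
    have : M ≠ 0 := by omega
    exact_mod_cast this
  obtain ⟨k, hk, hz⟩ := h7_irr_of_polys (famC4 (C c4) (C c6) (C M) X) (famC6 (C c4) (C c6) (C M) X)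
    c4 c6 hΔ (h58_famC4_X_natDegree_le c4 c6 M) (h58_famC6_X_natDegree_le c4 c6 M)
    (h58_famC4_X_coeff c4 c6 M) (h58_famC6_X_coeff c4 c6 M)
    (by
      intro Z
      rw [h58_famC4_X_map, h58_famC6_X_map]
      exact fam_nopoly (c4 : ℚ) (c6 : ℚ) (M : ℚ) hΔ' hM' Z) M hM
  refine ⟨M, k, dvd_refl M, hk, ?_, ?_⟩
  · obtain ⟨t, ht⟩ := hk
    exact ⟨-t, 1, by rw [show k = M * t + 1 by omega]; ring⟩
  · intro z
    have := hz z
    rwa [h58_famC4_X_eval, h58_famC6_X_eval] at this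

end Fermat.Agent.S52
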