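import Mathlib

/-!
# S52 (IV), route HIT: pure algebra behind `fam_nopoly`

If `a^3 - b^2 = D * g^5` in `K[X]` with `g` squarefree of degree `12`, coprime to `a`, and
`deg a ≤ 20`, then the quartic `Z^4 - 486 a Z^2 - 5832 b Z - 19683 a^2` has no root `Z ∈ K[X]`.
-/

set_option autoImplicit false

open Polynomial

namespace Fermat.Agent.S52

section Core

variable {K : Type*} [Field K]

/-- A prime `π` with `π ^ 5 ∣ P ^ 3` satisfies `π ^ 2 ∣ P`. -/
theorem h58_sq_dvd_of_pow5_dvd_cube {π P : K[X]} (hπ : Prime π) (h : π ^ 5 ∣ P ^ 3) :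
    π ^ 2 ∣ P := by
  have h1 : π ∣ P := hπ.dvd_of_dvd_pow ((dvd_pow_self π (by norm_num)).trans h)
  obtain ⟨P', rfl⟩ := h1
  have h2 : π ^ 3 * π ^ 2 ∣ π ^ 3 * P' ^ 3 := by
    have : π ^ 3 * π ^ 2 = π ^ 5 := by ring
    rw [this]
    have : π ^ 3 * P' ^ 3 = (π * P') ^ 3 := by ring
    rw [this]
    exact h
  have h3 : π ^ 2 ∣ P' ^ 3 := (mul_dvd_mul_iff_left (pow_ne_zero 3 hπ.ne_zero)).mp h2
  have h4 : π ∣ P' := hπ.dvd_of_dvd_pow ((dvd_pow_self π (by norm_num)).trans h3)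
  obtain ⟨P'', rfl⟩ := h4
  exact ⟨P'', by ring⟩

/-- A prime `π` with `π ^ 6 ∣ g ^ 5` satisfies `π ^ 2 ∣ g`. -/
theorem h58_sq_dvd_of_pow6_dvd_pow5 {π g : K[X]} (hπ : Prime π) (h : π ^ 6 ∣ g ^ 5) :
    π ^ 2 ∣ g := by
  have h1 : π ∣ g := hπ.dvd_of_dvd_pow ((dvd_pow_self π (by norm_num)).trans h)
  obtain ⟨g', rfl⟩ := h1
  have h2 : π ^ 5 * π ∣ π ^ 5 * g' ^ 5 := by
    have : π ^ 5 * π = π ^ 6 := by ring
    rw [this]
    have : π ^ 5 * g' ^ 5 = (π * g') ^ 5 := by ring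
    rw [this]
    exact h
  have h3 : π ∣ g' ^ 5 := (mul_dvd_mul_iff_left (pow_ne_zero 5 hπ.ne_zero)).mp h2
  have h4 : π ∣ g' := hπ.dvd_of_dvd_pow h3
  obtain ⟨g'', rfl⟩ := h4
  exact ⟨g'', by ring⟩

/-- The pure algebra core of `fam_nopoly`. -/
theorem h58_nopoly_core [CharZero K] (a b g Z : K[X]) (D : K) (hD : D ≠ 0)
    (hdisc : a ^ 3 - b ^ 2 = C D * g ^ 5) (hg : g.natDegree = 12) (ha : a.natDegree ≤ 20)
    (hcop : IsCoprime a g) (hsq : Squarefree g) :
    Z ^ 4 - 486 * a * Z ^ 2 - 5832 * b * Z - 19683 * a ^ 2 ≠ 0 := by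
  intro h
  have hg0 : g ≠ 0 := by
    intro h0
    rw [h0] at hg
    simp at hg
  have hgu : ¬ IsUnit g := by
    intro hu
    have := natDegree_eq_zero_of_isUnit hu
    omega
  have ha0 : a ≠ 0 := by
    intro h0
    rw [h0] at hcop
    exact hgu (isCoprime_zero_left.mp hcop)
  set P : K[X] := Z ^ 2 - 81 * a with hP
  set Q : K[X] := 729 * a - Z ^ 2 with hQ
  -- the key identity
  have key : C ((5832 : K) ^ 2 * D) * Z ^ 2 * g ^ 5 = P ^ 3 * Q := by
    have e1 : (5832 : K[X]) ^ 2 * Z ^ 2 * (a ^ 3 - b ^ 2) = P ^ 3 * Q := by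
      rw [hP, hQ]
      linear_combination (Z ^ 4 - 486 * a * Z ^ 2 - 19683 * a ^ 2 + 5832 * b * Z) * h
    rw [hdisc] at e1
    rw [← e1]
    simp only [map_mul, map_pow, map_ofNat]
    ring
  have hc0 : (5832 : K) ^ 2 * D ≠ 0 := mul_ne_zero (by norm_num) hD
  have hcu : IsUnit (C ((5832 : K) ^ 2 * D) : K[X]) := isUnit_C.mpr (IsUnit.mk0 _ hc0)
  have h648 : IsUnit (C (648 : K) : K[X]) := isUnit_C.mpr (IsUnit.mk0 _ (by norm_num))
  have h81 : IsUnit (C (81 : K) : K[X]) := isUnit_C.mpr (IsUnit.mk0 _ (by norm_num))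
  have hPQ : P + Q = C (648 : K) * a := by
    rw [hP, hQ]; simp only [map_ofNat]; ring
  have hZP : Z ^ 2 - P = C (81 : K) * a := by
    rw [hP]; simp only [map_ofNat]; ring
  -- Q ≠ 0
  have hQ0 : Q ≠ 0 := by
    intro hQz
    rw [hQz, mul_zero] at key
    have hZ : Z = 0 := by
      rcases mul_eq_zero.mp key with h1 | h1
      · rcases mul_eq_zero.mp h1 with h2 | h2
        · exact absurd h2 (by simpa using hc0)
        · exact pow_eq_zero_iff (two_ne_zero) |>.mp h2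
      · exact absurd (pow_eq_zero_iff (by norm_num) |>.mp h1) hg0
    have : (729 : K[X]) * a = 0 := by
      have := hQz
      rw [hQ, hZ] at this
      simpa using this
    rcases mul_eq_zero.mp this with h1 | h1
    · have : (C (729 : K) : K[X]) = 0 := by simpa using h1
      have h729 : (729 : K) = 0 := by simpa using this
      exact absurd h729 (by norm_num)
    · exact ha0 h1
  -- g is coprime to P
  have hgP : IsCoprime g P := by
    refine isCoprime_of_prime_dvd (fun h0 => hg0 h0.1) ?_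
    intro π hπ hπg hπP
    have hπa : ¬ π ∣ a := by
      intro hπa
      obtain ⟨u, v, huv⟩ := hcop
      have : π ∣ 1 := by
        rw [← huv]
        exact dvd_add (hπa.mul_left u) (hπg.mul_left v)
      exact hπ.not_isUnit (isUnit_of_dvd_one this)
    have hπQ : ¬ π ∣ Q := by
      intro hπQ
      have h1 : π ∣ C (648 : K) * a := by
        rw [← hPQ]; exact dvd_add hπP hπQ
      rcases hπ.dvd_or_dvd h1 with h2 | h2
      · exact hπ.not_isUnit (isUnit_of_dvd_unit h2 h648)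
      · exact hπa h2
    have hπZ : ¬ π ∣ Z := by
      intro hπZ
      have h1 : π ∣ C (81 : K) * a := by
        rw [← hZP]; exact dvd_sub (hπZ.pow (by norm_num)) hπP
      rcases hπ.dvd_or_dvd h1 with h2 | h2
      · exact hπ.not_isUnit (isUnit_of_dvd_unit h2 h81)
      · exact hπa h2
    have hπc : ¬ π ∣ C ((5832 : K) ^ 2 * D) * Z ^ 2 := by
      intro h1
      rcases hπ.dvd_or_dvd h1 with h2 | h2
      · exact hπ.not_isUnit (isUnit_of_dvd_unit h2 hcu)
      · exact hπZ (hπ.dvd_of_dvd_pow h2)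
    have h5 : π ^ 5 ∣ P ^ 3 * Q := by
      rw [← key]
      exact (pow_dvd_pow_of_dvd hπg 5).mul_left _
    have h5' : π ^ 5 ∣ P ^ 3 := hπ.pow_dvd_of_dvd_mul_right 5 hπQ h5
    have h2P : π ^ 2 ∣ P := h58_sq_dvd_of_pow5_dvd_cube hπ h5'
    have h6 : π ^ 6 ∣ C ((5832 : K) ^ 2 * D) * Z ^ 2 * g ^ 5 := by
      rw [key]
      have : π ^ 6 = (π ^ 2) ^ 3 := by ring
      rw [this]
      exact (pow_dvd_pow_of_dvd h2P 3).mul_right _
    have h6' : π ^ 6 ∣ g ^ 5 := hπ.pow_dvd_of_dvd_mul_left 6 hπc h6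
    have h2g : π ^ 2 ∣ g := h58_sq_dvd_of_pow6_dvd_pow5 hπ h6'
    have : π * π ∣ g := by rwa [← sq]
    exact hπ.not_isUnit (hsq π this)
  -- hence g^5 ∣ Q
  have hdvd : g ^ 5 ∣ Q := by
    have h1 : IsCoprime (g ^ 5) (P ^ 3) := hgP.pow
    have h2 : g ^ 5 ∣ P ^ 3 * Q := by
      rw [← key]; exact dvd_mul_left _ _
    exact h1.dvd_of_dvd_mul_left h2
  -- degrees
  have hdeg60 : (g ^ 5).natDegree = 60 := by
    rw [natDegree_pow, hg]
  have hQdeg : 60 ≤ Q.natDegree := by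
    rw [← hdeg60]; exact natDegree_le_of_dvd hdvd hQ0
  have hZ2 : (Z ^ 2).natDegree = 2 * Z.natDegree := natDegree_pow _ _
  have h729a : ((729 : K[X]) * a).natDegree ≤ 20 := by
    have : (729 : K[X]) = C (729 : K) := (map_ofNat C 729).symm
    rw [this]
    exact (natDegree_C_mul_le _ _).trans ha
  have h81a : ((81 : K[X]) * a).natDegree ≤ 20 := by
    have : (81 : K[X]) = C (81 : K) := (map_ofNat C 81).symm
    rw [this]
    exact (natDegree_C_mul_le _ _).trans ha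
  have hZbig : 30 ≤ Z.natDegree := by
    by_contra hlt
    have h1 : Q.natDegree ≤ max ((729 : K[X]) * a).natDegree (Z ^ 2).natDegree :=
      natDegree_sub_le _ _
    have h2 : (Z ^ 2).natDegree < 60 := by rw [hZ2]; omega
    have h3 : max ((729 : K[X]) * a).natDegree (Z ^ 2).natDegree < 60 :=
      max_lt (by omega) h2
    omega
  have hPdeg : P.natDegree = 2 * Z.natDegree := by
    rw [hP, ← hZ2]
    exact natDegree_sub_eq_left_of_natDegree_lt (by rw [hZ2]; omega)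
  have hQdeg' : Q.natDegree = 2 * Z.natDegree := by
    rw [hQ, ← hZ2]
    exact natDegree_sub_eq_right_of_natDegree_lt (by rw [hZ2]; omega)
  have hZ0 : Z ≠ 0 := by
    intro h0; rw [h0] at hZbig; simp at hZbig
  have hP0 : P ≠ 0 := by
    intro h0; rw [h0] at hPdeg; simp at hPdeg; omega
  have hR : (P ^ 3 * Q).natDegree = 8 * Z.natDegree := by
    rw [natDegree_mul (pow_ne_zero 3 hP0) hQ0, natDegree_pow, hPdeg, hQdeg']
    ring
  have hL : (C ((5832 : K) ^ 2 * D) * Z ^ 2 * g ^ 5).natDegree = 2 * Z.natDegree + 60 := by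
    rw [natDegree_mul (mul_ne_zero (by simpa using hc0) (pow_ne_zero 2 hZ0)) (pow_ne_zero 5 hg0),
      natDegree_C_mul hc0, hZ2, hdeg60]
  rw [key, hR] at hL
  omega

end Core

end Fermat.Agent.S52
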