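import Fermat.Agent.S52.h5_ManinDefs

/-!
# S52 block (I), row D1: degrees of rational functions (helper86)

`h5_deg u = max (deg num) (deg denom)` is the degree of `F(x) / F(u)`; it is multiplicative
under substitution.
-/

set_option autoImplicit false

namespace Fermat.Agent.S52

open WeierstrassCurve WeierstrassCurve.Affine

section D

variable {F : Type*} [Field F] (A B : F)

/-- `h5_deg u` is the degree of the field extension `F(x) / F(u)`. -/
theorem h86_deg_eq_finrank (u : RatFunc F) :
    h5_deg u = Module.finrank (IntermediateField.adjoin F {u}) (RatFunc F) :=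
  (RatFunc.finrank_eq_max_natDegree u).symm

/-- The degree of a quotient of coprime polynomials. -/
theorem h86_deg_div_of_isCoprime {U V : Polynomial F} (hV : V ≠ 0) (h : IsCoprime U V) :
    h5_deg (algebraMap (Polynomial F) (RatFunc F) U / algebraMap (Polynomial F) (RatFunc F) V) =
      max U.natDegree V.natDegree := by
  set x : RatFunc F :=
    algebraMap (Polynomial F) (RatFunc F) U / algebraMap (Polynomial F) (RatFunc F) V with hx
  have hinj : Function.Injective (algebraMap (Polynomial F) (RatFunc F)) :=
    IsFractionRing.injective _ _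
  have hV' : algebraMap (Polynomial F) (RatFunc F) V ≠ 0 := by
    rw [Ne, ← map_zero (algebraMap (Polynomial F) (RatFunc F))]
    exact fun h0 => hV (hinj h0)
  have hd' : algebraMap (Polynomial F) (RatFunc F) x.denom ≠ 0 := by
    rw [Ne, ← map_zero (algebraMap (Polynomial F) (RatFunc F))]
    exact fun h0 => x.denom_ne_zero (hinj h0)
  -- cross-multiplication
  have hcross : x.num * V = U * x.denom := by
    apply hinj
    rw [map_mul, map_mul]
    have h1 := RatFunc.num_div_denom x
    rw [hx] at h1 ⊢
    rw [div_eq_div_iff hd' hV'] at h1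
    exact h1
  have hcop := x.isCoprime_num_denom
  have h1 : x.num ∣ U := hcop.dvd_of_dvd_mul_right ⟨V, hcross.symm⟩
  have h2 : U ∣ x.num := h.dvd_of_dvd_mul_right ⟨x.denom, hcross⟩
  have h3 : x.denom ∣ V := hcop.symm.dvd_of_dvd_mul_left ⟨U, by linear_combination hcross⟩
  have h4 : V ∣ x.denom := h.symm.dvd_of_dvd_mul_left ⟨x.num, by linear_combination -hcross⟩
  have e1 : x.num.natDegree = U.natDegree :=
    Polynomial.natDegree_eq_of_degree_eq (Polynomial.degree_eq_degree_of_associated
      (associated_of_dvd_dvd h1 h2))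
  have e2 : x.denom.natDegree = V.natDegree :=
    Polynomial.natDegree_eq_of_degree_eq (Polynomial.degree_eq_degree_of_associated
      (associated_of_dvd_dvd h3 h4))
  rw [h5_deg, e1, e2]

theorem h5_deg_X : h5_deg (RatFunc.X : RatFunc F) = 1 := by
  simp [h5_deg, RatFunc.num_X, RatFunc.denom_X]

theorem h5_deg_C (c : F) : h5_deg (RatFunc.C c) = 0 := by
  simp [h5_deg, RatFunc.num_C, RatFunc.denom_C]

theorem h5_deg_eq_zero_iff (u : RatFunc F) : h5_deg u = 0 ↔ ∃ c : F, u = RatFunc.C c := by
  rw [h5_deg, Nat.max_eq_zero_iff, ← RatFunc.eq_C_iff]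

theorem h5_deg_pow (u : RatFunc F) (n : ℕ) : h5_deg (u ^ n) = n * h5_deg u := by
  have hu : u ^ n = algebraMap (Polynomial F) (RatFunc F) (u.num ^ n) /
      algebraMap (Polynomial F) (RatFunc F) (u.denom ^ n) := by
    rw [map_pow, map_pow, ← div_pow, RatFunc.num_div_denom]
  rw [hu, h86_deg_div_of_isCoprime (pow_ne_zero n u.denom_ne_zero)
    (u.isCoprime_num_denom.pow), Polynomial.natDegree_pow, Polynomial.natDegree_pow, h5_deg,
    Nat.mul_max_mul_left]

/-- a root of a nonzero polynomial over `F` is constant -/
theorem h5_deg_eq_zero_of_cubic {u : RatFunc F}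
    (h : u ^ 3 + RatFunc.C A * u + RatFunc.C B = 0) : h5_deg u = 0 := by
  rw [h5_deg_eq_zero_iff]
  by_contra hc
  have htr : Transcendental F u := RatFunc.transcendental_of_ne_C u hc
  apply htr
  refine ⟨Polynomial.X ^ 3 + Polynomial.C A * Polynomial.X + Polynomial.C B, ?_, ?_⟩
  · intro h0
    have := congrArg (fun p : Polynomial F => p.coeff 3) h0
    simp at this
  · simpa [RatFunc.algebraMap_eq_C] using h

/-- degree is multiplicative under substitution -/
theorem h5_deg_algHom (σ : RatFunc F →ₐ[F] RatFunc F) (v : RatFunc F) :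
    h5_deg (σ v) = h5_deg v * h5_deg (σ RatFunc.X) := by
  rw [h86_deg_eq_finrank, h86_deg_eq_finrank, h86_deg_eq_finrank]
  have htop : (⊤ : IntermediateField F (RatFunc F)).map σ =
      IntermediateField.adjoin F {σ RatFunc.X} := by
    rw [← RatFunc.adjoin_X, IntermediateField.adjoin_map, Set.image_singleton]
  have hv : (IntermediateField.adjoin F {v}).map σ = IntermediateField.adjoin F {σ v} := by
    rw [IntermediateField.adjoin_map, Set.image_singleton]
  have hle : IntermediateField.adjoin F {σ v} ≤ IntermediateField.adjoin F {σ RatFunc.X} := by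
    rw [← hv, ← htop]
    exact IntermediateField.map_mono σ le_top
  rw [← IntermediateField.relfinrank_mul_finrank_top hle, ← hv, ← htop,
    IntermediateField.relfinrank_map_map, IntermediateField.relfinrank_top_right]

end D

end Fermat.Agent.S52
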