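import Fermat.Agent.S52.h5_ManinDefs

/-!
# Addition formulas on the short Weierstrass curve `y² = x³ + A x + B` (helper5)
-/

set_option autoImplicit false

namespace Fermat.Agent.S52

open WeierstrassCurve WeierstrassCurve.Affine

variable {K₁ : Type*} [Field K₁] [DecidableEq K₁] (A B : K₁)

/-- Sum and difference of two points with distinct `X`-coordinates. -/
theorem h5_sw_add_sub_of_X_ne {X₁ Y₁ X₂ Y₂ : K₁}
    (h₁ : (h5_sw A B).toAffine.Nonsingular X₁ Y₁) (h₂ : (h5_sw A B).toAffine.Nonsingular X₂ Y₂)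
    (hX : X₁ ≠ X₂) :
    ∃ (X₃ Y₃ X₄ Y₄ : K₁) (h₃ : (h5_sw A B).toAffine.Nonsingular X₃ Y₃)
      (h₄ : (h5_sw A B).toAffine.Nonsingular X₄ Y₄),
      Affine.Point.some X₁ Y₁ h₁ + Affine.Point.some X₂ Y₂ h₂ = Affine.Point.some X₃ Y₃ h₃ ∧
      Affine.Point.some X₁ Y₁ h₁ - Affine.Point.some X₂ Y₂ h₂ = Affine.Point.some X₄ Y₄ h₄ ∧
      (X₃ + X₄) * (X₁ - X₂) ^ 2 = 2 * (X₁ * X₂ + A) * (X₁ + X₂) + 4 * B ∧
      X₃ * X₄ * (X₁ - X₂) ^ 2 = (X₁ * X₂ - A) ^ 2 - 4 * B * (X₁ + X₂) ∧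
      X₃ * (X₁ - X₂) ^ 2 = (Y₁ - Y₂) ^ 2 - (X₁ + X₂) * (X₁ - X₂) ^ 2 ∧
      Y₃ * (X₁ - X₂) = -((Y₁ - Y₂) * (X₃ - X₁) + Y₁ * (X₁ - X₂)) ∧
      X₄ * (X₁ - X₂) ^ 2 = (Y₁ + Y₂) ^ 2 - (X₁ + X₂) * (X₁ - X₂) ^ 2 ∧
      Y₄ * (X₁ - X₂) = -((Y₁ + Y₂) * (X₄ - X₁) + Y₁ * (X₁ - X₂)) := by
  have e₁ : Y₁ ^ 2 = X₁ ^ 3 + A * X₁ + B := (h5_sw_equation_iff A B X₁ Y₁).1 h₁.1
  have e₂ : Y₂ ^ 2 = X₂ ^ 3 + A * X₂ + B := (h5_sw_equation_iff A B X₂ Y₂).1 h₂.1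
  have hD : X₁ - X₂ ≠ 0 := sub_ne_zero.2 hX
  have h₂' : (h5_sw A B).toAffine.Nonsingular X₂ (-Y₂) := by
    have := (Affine.nonsingular_neg (W' := (h5_sw A B).toAffine) X₂ Y₂).2 h₂
    rwa [h5_sw_negY] at this
  have hneg : -Affine.Point.some X₂ Y₂ h₂ = Affine.Point.some X₂ (-Y₂) h₂' := by
    rw [Affine.Point.neg_some]
    congr 1
    exact h5_sw_negY A B X₂ Y₂
  refine ⟨_, _, _, _, Affine.nonsingular_add h₁ h₂ (fun hxy => hX hxy.1),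
    Affine.nonsingular_add h₁ h₂' (fun hxy => hX hxy.1),
    Affine.Point.add_of_X_ne hX, ?_, ?_, ?_, ?_, ?_, ?_, ?_⟩
  · rw [sub_eq_add_neg, hneg]
    exact Affine.Point.add_of_X_ne hX
  · rw [Affine.slope_of_X_ne hX, Affine.slope_of_X_ne hX]
    simp only [Affine.addX, h5_sw_a₁, h5_sw_a₂]
    field_simp
    linear_combination 2 * e₁ + 2 * e₂
  · rw [Affine.slope_of_X_ne hX, Affine.slope_of_X_ne hX]
    simp only [Affine.addX, h5_sw_a₁, h5_sw_a₂]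
    field_simp
    linear_combination (Y₁^2 + (X₁ ^ 3 + A * X₁ + B) - 2 * Y₂^2
      - 2 * (X₁ + X₂) * (X₁ - X₂)^2) * e₁
      + (Y₂^2 + (X₂ ^ 3 + A * X₂ + B) - 2 * (X₁ ^ 3 + A * X₁ + B)
      - 2 * (X₁ + X₂) * (X₁ - X₂)^2) * e₂
  · rw [Affine.slope_of_X_ne hX]
    simp only [Affine.addX, h5_sw_a₁, h5_sw_a₂]
    field_simp
    ring
  · rw [Affine.slope_of_X_ne hX]
    simp only [Affine.addY, Affine.negAddY, Affine.negY, Affine.addX, h5_sw_a₁, h5_sw_a₂,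
      h5_sw_a₃]
    field_simp
    ring
  · rw [Affine.slope_of_X_ne hX]
    simp only [Affine.addX, h5_sw_a₁, h5_sw_a₂]
    field_simp
    ring
  · rw [Affine.slope_of_X_ne hX]
    simp only [Affine.addY, Affine.negAddY, Affine.negY, Affine.addX, h5_sw_a₁, h5_sw_a₂,
      h5_sw_a₃]
    field_simp
    ring

/-- Duplication formula. -/
theorem h5_sw_add_self_of_Y_ne {X Y : K₁} (h : (h5_sw A B).toAffine.Nonsingular X Y) (hY : Y ≠ 0)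
    (h2 : (2 : K₁) ≠ 0) :
    ∃ (X₅ Y₅ : K₁) (h₅ : (h5_sw A B).toAffine.Nonsingular X₅ Y₅),
      Affine.Point.some X Y h + Affine.Point.some X Y h = Affine.Point.some X₅ Y₅ h₅ ∧
      X₅ * (4 * Y ^ 2) = X ^ 4 - 2 * A * X ^ 2 - 8 * B * X + A ^ 2 ∧
      Y₅ * (2 * Y) = -((3 * X ^ 2 + A) * (X₅ - X) + 2 * Y ^ 2) := by
  have e : Y ^ 2 = X ^ 3 + A * X + B := (h5_sw_equation_iff A B X Y).1 h.1
  have hne : Y ≠ (h5_sw A B).toAffine.negY X Y := by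
    rw [h5_sw_negY]
    intro h0
    have : 2 * Y = 0 := by linear_combination h0
    rcases mul_eq_zero.1 this with h' | h'
    · exact h2 h'
    · exact hY h'
  refine ⟨_, _, Affine.nonsingular_add h h (fun hxy => hne hxy.2),
    Affine.Point.add_self_of_Y_ne hne, ?_, ?_⟩
  · rw [Affine.slope_of_Y_ne rfl hne, h5_sw_negY]
    simp only [Affine.addX, h5_sw_a₁, h5_sw_a₂, h5_sw_a₄]
    have h2Y : Y - -Y = 2 * Y := by ring
    rw [h2Y]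
    field_simp
    linear_combination (-(32 : K₁) * X) * e
  · rw [Affine.slope_of_Y_ne rfl hne, h5_sw_negY]
    simp only [Affine.addY, Affine.negAddY, Affine.negY, Affine.addX, h5_sw_a₁, h5_sw_a₂,
      h5_sw_a₃, h5_sw_a₄]
    have h2Y : Y - -Y = 2 * Y := by ring
    rw [h2Y]
    field_simp
    ring

theorem h5_sw_add_self_of_Y_eq {X Y : K₁} (h : (h5_sw A B).toAffine.Nonsingular X Y)
    (hY : Y = 0) : Affine.Point.some X Y h + Affine.Point.some X Y h = 0 := by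
  apply Affine.Point.add_self_of_Y_eq
  rw [h5_sw_negY, hY, neg_zero]

end Fermat.Agent.S52
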