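import Fermat.Agent.S52.h5_CountPoly
import Fermat.Agent.S52.h5_SwAdd
import Fermat.Agent.S52.h5_Deg

/-!
# S52 block (I), row N2: `h(φ R - R) = #E(F) * h(R)` (helper40)

For a point `R = (u, Y)` whose `x`-coordinate `u` is a non-constant element of `K = F(x)`, the
`x`-coordinate of `φ R - R` is the image of `(h5_Num / h5_Den)(u)`, whose degree is
`#E(F) * deg u` (row N1 and multiplicativity of the degree under substitution).
For the generic point `P₀ = (x, y)` this is `h(φ P₀ - P₀) = #E(F)`.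
-/

set_option autoImplicit false

namespace Fermat.Agent.S52

open WeierstrassCurve WeierstrassCurve.Affine
open Polynomial

section N2aux

variable {K₁ : Type*} [Field K₁] [DecidableEq K₁]

/-- The `x`-coordinate of a difference of two points with distinct `x`-coordinates, for a
curve that is propositionally a short Weierstrass curve. -/
private theorem h40_sub_of_X_ne (W : WeierstrassCurve K₁) (A B : K₁) (hW : W = h5_sw A B)
    {X₁ Y₁ X₂ Y₂ : K₁}
    (h₁ : W.toAffine.Nonsingular X₁ Y₁) (h₂ : W.toAffine.Nonsingular X₂ Y₂) (hX : X₁ ≠ X₂) :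
    ∃ (X₄ Y₄ : K₁) (h₄ : W.toAffine.Nonsingular X₄ Y₄),
      Affine.Point.some X₁ Y₁ h₁ - Affine.Point.some X₂ Y₂ h₂ = Affine.Point.some X₄ Y₄ h₄ ∧
      X₄ * (X₁ - X₂) ^ 2 = (Y₁ + Y₂) ^ 2 - (X₁ + X₂) * (X₁ - X₂) ^ 2 := by
  subst hW
  obtain ⟨X₃, Y₃, X₄, Y₄, h₃, h₄, -, hsub, -, -, -, -, hX₄, -⟩ :=
    h5_sw_add_sub_of_X_ne A B h₁ h₂ hX
  exact ⟨X₄, Y₄, h₄, hsub, hX₄⟩

omit [DecidableEq K₁] in
/-- Negation of an affine point on a curve that is propositionally short Weierstrass. -/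
private theorem h40_neg_some (W : WeierstrassCurve K₁) (A B : K₁) (hW : W = h5_sw A B)
    {X Y : K₁} (h : W.toAffine.Nonsingular X Y) :
    ∃ h' : W.toAffine.Nonsingular X (-Y),
      -Affine.Point.some X Y h = Affine.Point.some X (-Y) h' := by
  subst hW
  have h' : (h5_sw A B).toAffine.Nonsingular X (-Y) := by
    have := (Affine.nonsingular_neg (W' := (h5_sw A B).toAffine) X Y).2 h
    rwa [h5_sw_negY] at this
  refine ⟨h', ?_⟩
  rw [Affine.Point.neg_some]
  congr 1
  exact h5_sw_negY A B X Y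

/-- Duplication on a curve that is propositionally short Weierstrass. -/
private theorem h40_double (W : WeierstrassCurve K₁) (A B : K₁) (hW : W = h5_sw A B)
    {X Y : K₁} (h : W.toAffine.Nonsingular X Y) (hY : Y ≠ 0) (h2 : (2 : K₁) ≠ 0) :
    ∃ (X₅ Y₅ : K₁) (h₅ : W.toAffine.Nonsingular X₅ Y₅),
      Affine.Point.some X Y h + Affine.Point.some X Y h = Affine.Point.some X₅ Y₅ h₅ ∧
      X₅ * (4 * Y ^ 2) = X ^ 4 - 2 * A * X ^ 2 - 8 * B * X + A ^ 2 := by
  subst hW
  obtain ⟨X₅, Y₅, h₅, hadd, hX₅, -⟩ := h5_sw_add_self_of_Y_ne A B h hY h2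
  exact ⟨X₅, Y₅, h₅, hadd, hX₅⟩

omit [DecidableEq K₁] in
/-- Equality of affine points from equality of coordinates. -/
private theorem h40_some_eq (W : WeierstrassCurve K₁) {X Y X' Y' : K₁}
    (h : W.toAffine.Nonsingular X Y) (h' : W.toAffine.Nonsingular X' Y')
    (hX : X = X') (hY : Y = Y') :
    Affine.Point.some X Y h = Affine.Point.some X' Y' h' := by
  subst hX hY
  rfl

end N2aux

section N2

variable {F : Type*} [Field F] (A B : F)
variable {Ω : Type*} [Field Ω] [DecidableEq Ω] [Algebra F Ω] [Algebra (RatFunc F) Ω]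
  [IsScalarTower F (RatFunc F) Ω] (y : Ω)
variable [Fintype F]

omit [Fintype F] [DecidableEq Ω] [IsScalarTower F (RatFunc F) Ω] in
/-- `h5_ht_some` with a propositional equality for the `x`-coordinate. -/
private theorem h40_ht_some_of_eq {X Y : Ω} (u : RatFunc F)
    (hX : X = algebraMap (RatFunc F) Ω u)
    (h : ((h5_sw A B).toAffine⁄Ω).Nonsingular X Y) :
    h5_ht A B (Affine.Point.some _ _ h : h5_Pt A B Ω) = h5_deg u := by
  subst hX
  exact h5_ht_some A B h

/-- In odd characteristic the cardinality of a finite field is `2 * m + 1`. -/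
private theorem h40_card_eq (h2 : (2 : F) ≠ 0) :
    Fintype.card F = 2 * ((Fintype.card F - 1) / 2) + 1 := by
  have hchar : ringChar F ≠ 2 := by
    intro h
    apply h2
    have := ringChar.Nat.cast_ringChar (R := F)
    rw [h] at this
    exact_mod_cast this
  have := FiniteField.odd_card_of_char_ne_two hchar
  omega

omit [Fintype F] [DecidableEq Ω] in
/-- The equation of a point of the base change with `x`-coordinate in `K`. -/
private theorem h40_sq_eq {u : RatFunc F} {Y : Ω}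
    (h : ((h5_sw A B).toAffine⁄Ω).Nonsingular (algebraMap (RatFunc F) Ω u) Y) :
    Y ^ 2 = algebraMap (RatFunc F) Ω (u ^ 3 + RatFunc.C A * u + RatFunc.C B) := by
  have hW : (h5_sw A B)⁄Ω = h5_sw (algebraMap F Ω A) (algebraMap F Ω B) :=
    h5_sw_map A B (algebraMap F Ω)
  have hE : ((h5_sw A B)⁄Ω).toAffine.Equation (algebraMap (RatFunc F) Ω u) Y := h.1
  rw [hW, h5_sw_equation_iff] at hE
  rw [hE, IsScalarTower.algebraMap_apply F (RatFunc F) Ω A,
    IsScalarTower.algebraMap_apply F (RatFunc F) Ω B, RatFunc.algebraMap_eq_C]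
  simp only [map_add, map_mul, map_pow]

/-- **Count in composition form.** For a point `R = (u, Y)` with `u ∈ K` non-constant,
`h(φ R - R) = #E(F) * deg u`. -/
theorem h40_ht_frob_sub_some_of_ne (h2 : (2 : F) ≠ 0) (hΔ : 4 * A ^ 3 + 27 * B ^ 2 ≠ 0)
    {u : RatFunc F} {Y : Ω} (hu : h5_deg u ≠ 0)
    (h : ((h5_sw A B).toAffine⁄Ω).Nonsingular (algebraMap (RatFunc F) Ω u) Y) :
    h5_ht A B (h5_frob A B Ω (Affine.Point.some _ _ h) - Affine.Point.some _ _ h) =
      Nat.card (h5_sw A B).toAffine.Point * h5_deg u := by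
  classical
  set ι := algebraMap (RatFunc F) Ω with hι
  set q := Fintype.card F with hq
  set m := (q - 1) / 2 with hm
  have hqm : q = 2 * m + 1 := h40_card_eq h2
  obtain ⟨h', hfrob⟩ := h5_frob_some A B h
  -- `u` is transcendental over `F`
  have htr : Transcendental F u :=
    RatFunc.transcendental_of_ne_C u (fun hc => hu ((h5_deg_eq_zero_iff u).2 hc))
  have hinj : Function.Injective (aeval u : F[X] →ₐ[F] RatFunc F) :=
    transcendental_iff_injective.1 htr
  -- the substitution `x ↦ u`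
  let σ : RatFunc F →ₐ[F] RatFunc F :=
    RatFunc.liftAlgHom (aeval u : F[X] →ₐ[F] RatFunc F)
      (nonZeroDivisors_le_comap_nonZeroDivisors_of_injective _ hinj)
  have hσ : ∀ p : F[X], σ (algebraMap F[X] (RatFunc F) p) = aeval u p := by
    intro p
    have h1 := RatFunc.liftAlgHom_apply_div (aeval u : F[X] →ₐ[F] RatFunc F)
      (nonZeroDivisors_le_comap_nonZeroDivisors_of_injective _ hinj) p 1
    simpa using h1
  have hσX : σ RatFunc.X = u := by
    rw [← RatFunc.algebraMap_X, hσ, aeval_X]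
  -- the `x`-coordinates are distinct
  have hXK : u ^ q - u ≠ 0 := by
    have h1 : (X ^ q - X : F[X]) ≠ 0 :=
      FiniteField.X_pow_card_sub_X_ne_zero F Fintype.one_lt_card
    have h3 : aeval u (X ^ q - X : F[X]) ≠ 0 := fun h0 => h1 (hinj (by rw [h0, map_zero]))
    simpa using h3
  have hXΩ : ι u ^ q - ι u ≠ 0 := by
    have : ι (u ^ q - u) ≠ 0 := by
      rw [Ne, map_eq_zero_iff _ ι.injective]
      exact hXK
    simpa using this
  have hX : ι u ^ q ≠ ι u := fun h0 => hXΩ (sub_eq_zero.2 h0)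
  -- the difference
  have hW : (h5_sw A B)⁄Ω = h5_sw (algebraMap F Ω A) (algebraMap F Ω B) :=
    h5_sw_map A B (algebraMap F Ω)
  obtain ⟨X₄, Y₄, h₄, hsub, hX₄⟩ :=
    h40_sub_of_X_ne ((h5_sw A B)⁄Ω) (algebraMap F Ω A) (algebraMap F Ω B) hW h' h hX
  -- the `x`-coordinate of the difference is the image of `σ (Num / Den)`
  set fu : RatFunc F := u ^ 3 + RatFunc.C A * u + RatFunc.C B with hfu
  have hY : Y ^ 2 = ι fu := h40_sq_eq A B h
  set N : RatFunc F := algebraMap F[X] (RatFunc F) (h5_Num A B) with hN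
  set D : RatFunc F := algebraMap F[X] (RatFunc F) (h5_Den (F := F)) with hD
  have hDval : σ D = (u ^ q - u) ^ 2 := by
    rw [hD, hσ]
    simp [h5_Den, hq]
  have hNval : σ N = fu * (fu ^ m + 1) ^ 2 - (u ^ q + u) * (u ^ q - u) ^ 2 := by
    rw [hN, hσ, h5_Num, h5_fP]
    simp only [map_sub, map_mul, map_pow, map_add, map_one, aeval_X, aeval_C]
    rfl
  have hιD : ι (σ D) = (ι u ^ q - ι u) ^ 2 := by
    rw [hDval]; simp
  have hyq : Y ^ q = Y * (Y ^ 2) ^ m := by
    rw [hqm, ← pow_mul, pow_succ, mul_comm]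
  have hιN : ι (σ N) = (Y ^ q + Y) ^ 2 - (ι u ^ q + ι u) * (ι u ^ q - ι u) ^ 2 := by
    rw [hNval, hyq]
    simp only [map_sub, map_mul, map_pow, map_add, map_one, ← hY]
    ring
  have hX₄' : X₄ = ι (σ (N / D)) := by
    rw [map_div₀, map_div₀, hιD, hιN, eq_div_iff (pow_ne_zero 2 hXΩ)]
    exact hX₄
  rw [hfrob, hsub, h40_ht_some_of_eq A B (σ (N / D)) hX₄' h₄, h5_deg_algHom, hσX,
    h5_count_poly A B h2 hΔ, h5_card_points A B h2 hΔ]

/-- For a point `R = (c, Y)` with constant `x`-coordinate, `φ R - R` has height `0`. -/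
theorem h40_ht_frob_sub_const (h2 : (2 : F) ≠ 0) {c : F} {Y : Ω}
    (h : ((h5_sw A B).toAffine⁄Ω).Nonsingular (algebraMap (RatFunc F) Ω (RatFunc.C c)) Y) :
    h5_ht A B (h5_frob A B Ω (Affine.Point.some _ _ h) - Affine.Point.some _ _ h) = 0 := by
  classical
  set ι := algebraMap (RatFunc F) Ω with hι
  set q := Fintype.card F with hq
  set m := (q - 1) / 2 with hm
  have hqm : q = 2 * m + 1 := h40_card_eq h2
  have hchar : ringChar F ≠ 2 := by
    intro h0
    apply h2
    have := ringChar.Nat.cast_ringChar (R := F)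
    rw [h0] at this
    exact_mod_cast this
  have hq2 : q / 2 = m := by omega
  obtain ⟨h', hfrob⟩ := h5_frob_some A B h
  have hW : (h5_sw A B)⁄Ω = h5_sw (algebraMap F Ω A) (algebraMap F Ω B) :=
    h5_sw_map A B (algebraMap F Ω)
  have hA : algebraMap F Ω A = ι (RatFunc.C A) := by
    rw [IsScalarTower.algebraMap_apply F (RatFunc F) Ω A, RatFunc.algebraMap_eq_C]
  have hB : algebraMap F Ω B = ι (RatFunc.C B) := by
    rw [IsScalarTower.algebraMap_apply F (RatFunc F) Ω B, RatFunc.algebraMap_eq_C]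
  set d : F := c ^ 3 + A * c + B with hd
  have hY : Y ^ 2 = ι (RatFunc.C d) := by
    rw [h40_sq_eq A B h, hd]
    simp only [map_add, map_mul, map_pow]
    rfl
  have hXq : ι (RatFunc.C c) ^ q = ι (RatFunc.C c) := by
    rw [← map_pow, ← map_pow, FiniteField.pow_card]
  have hyq : Y ^ q = Y * (Y ^ 2) ^ m := by
    rw [hqm, ← pow_mul, pow_succ, mul_comm]
  have hYq : Y ^ q = Y * ι (RatFunc.C (d ^ m)) := by
    rw [hyq, hY, ← map_pow, ← map_pow]
  -- the case `φ R = R`
  have hsame : Y ^ q = Y →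
      h5_ht A B (h5_frob A B Ω (Affine.Point.some _ _ h) - Affine.Point.some _ _ h) = 0 := by
    intro hYY
    rw [hfrob, h40_some_eq ((h5_sw A B)⁄Ω) h' h hXq hYY, sub_self]
    exact h5_ht_zero A B
  by_cases hY0 : Y = 0
  · apply hsame
    rw [hY0, zero_pow (by omega)]
  have hd0 : d ≠ 0 := by
    intro h0
    apply hY0
    have : Y ^ 2 = 0 := by rw [hY, h0]; simp
    exact pow_eq_zero_iff (two_ne_zero) |>.1 this
  rcases FiniteField.pow_dichotomy hchar hd0 with h1 | h1
  · apply hsame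
    rw [hYq, ← hq2, h1]
    simp
  · -- `φ R = -R`
    have hYneg : Y ^ q = -Y := by
      rw [hYq, ← hq2, h1]
      simp
    obtain ⟨hn, hneg⟩ := h40_neg_some ((h5_sw A B)⁄Ω) _ _ hW h
    have h2Ω : (2 : Ω) ≠ 0 := by
      have e : ι (RatFunc.C (2 : F)) = (2 : Ω) := by rw [map_ofNat, map_ofNat]
      rw [← e, Ne, map_eq_zero_iff _ ι.injective, map_eq_zero_iff _ (RatFunc.C_injective)]
      exact h2
    obtain ⟨X₅, Y₅, h₅, hadd, hX₅⟩ := h40_double ((h5_sw A B)⁄Ω) _ _ hW h hY0 h2Ω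
    obtain ⟨hn₅, hneg₅⟩ := h40_neg_some ((h5_sw A B)⁄Ω) _ _ hW h₅
    have hdiff : h5_frob A B Ω (Affine.Point.some _ _ h) - Affine.Point.some _ _ h =
        Affine.Point.some X₅ (-Y₅) hn₅ := by
      rw [hfrob, h40_some_eq ((h5_sw A B)⁄Ω) h' hn hXq hYneg, ← hneg, ← hneg₅, ← hadd]
      abel
    have h4d : (4 : F) * d ≠ 0 := by
      have h4 : (4 : F) = 2 * 2 := by norm_num
      rw [h4]
      exact mul_ne_zero (mul_ne_zero h2 h2) hd0
    have hX₅' : X₅ = ι (RatFunc.C ((c ^ 4 - 2 * A * c ^ 2 - 8 * B * c + A ^ 2) / (4 * d))) := by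
      have h4dΩ : ι (RatFunc.C (4 * d)) ≠ 0 := by
        rw [Ne, map_eq_zero_iff _ ι.injective, map_eq_zero_iff _ (RatFunc.C_injective)]
        exact h4d
      rw [map_div₀, map_div₀, eq_div_iff h4dΩ]
      rw [hY, hA, hB] at hX₅
      rw [show ι (RatFunc.C (4 * d)) = 4 * ι (RatFunc.C d) by
        rw [map_mul, map_mul, map_ofNat, map_ofNat], hX₅]
      simp only [map_add, map_sub, map_mul, map_pow, map_ofNat]
    rw [hdiff, h40_ht_some_of_eq A B _ hX₅' hn₅, h5_deg_C]

/-- **Count in composition form**, for every point `R = (u, Y)` with `u ∈ K`: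
`h(φ R - R) = #E(F) * deg u`. -/
theorem h40_ht_frob_sub_some (h2 : (2 : F) ≠ 0) (hΔ : 4 * A ^ 3 + 27 * B ^ 2 ≠ 0)
    {u : RatFunc F} {Y : Ω}
    (h : ((h5_sw A B).toAffine⁄Ω).Nonsingular (algebraMap (RatFunc F) Ω u) Y) :
    h5_ht A B (h5_frob A B Ω (Affine.Point.some _ _ h) - Affine.Point.some _ _ h) =
      Nat.card (h5_sw A B).toAffine.Point * h5_deg u := by
  by_cases hu : h5_deg u = 0
  · rw [hu, mul_zero]
    obtain ⟨c, rfl⟩ := (h5_deg_eq_zero_iff u).1 hu
    exact h40_ht_frob_sub_const A B h2 h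
  · exact h40_ht_frob_sub_some_of_ne A B h2 hΔ hu h

/-- **Count in composition form**, for every odd point: `h(φ R - R) = #E(F) * h(R)`. -/
theorem h40_ht_frob_sub_of_isOdd (h2 : (2 : F) ≠ 0) (hΔ : 4 * A ^ 3 + 27 * B ^ 2 ≠ 0)
    {R : h5_Pt A B Ω} (hR : h5_IsOdd A B y R) :
    h5_ht A B (h5_frob A B Ω R - R) =
      Nat.card (h5_sw A B).toAffine.Point * h5_ht A B R := by
  rcases hR with rfl | ⟨u, w, h, rfl⟩
  · rw [map_zero, sub_zero, h5_ht_zero, mul_zero]
  · rw [h5_ht_some (h := h)]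
    exact h40_ht_frob_sub_some A B h2 hΔ h

set_option linter.unusedVariables false in
/-- **Row N2 (revised).** For every odd point `R`: `h(φ R - R) = #E(F) * h(R)`. -/
theorem h5_ht_frob_sub (h2 : (2 : F) ≠ 0) (hΔ : 4 * A ^ 3 + 27 * B ^ 2 ≠ 0)
    (hy : y ^ 2 = algebraMap (RatFunc F) Ω (h5_fK A B))
    {R : h5_Pt A B Ω} (hR : h5_IsOdd A B y R) :
    h5_ht A B (h5_frob A B Ω R - R) = Nat.card (h5_sw A B).toAffine.Point * h5_ht A B R :=
  h40_ht_frob_sub_of_isOdd A B y h2 hΔ hR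

set_option linter.unusedSectionVars false in
set_option linter.unusedVariables false in
/-- Row N2, original form: the generic point. -/
theorem h5_ht_frob_sub_gen (h2 : (2 : F) ≠ 0) (hΔ : 4 * A ^ 3 + 27 * B ^ 2 ≠ 0)
    (hy : y ^ 2 = algebraMap (RatFunc F) Ω (h5_fK A B))
    (h : ((h5_sw A B).toAffine⁄Ω).Nonsingular (algebraMap (RatFunc F) Ω RatFunc.X) y) :
    h5_ht A B (h5_frob A B Ω (Affine.Point.some _ _ h) - Affine.Point.some _ _ h) =
      Nat.card (h5_sw A B).toAffine.Point := by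
  have hX : h5_deg (RatFunc.X : RatFunc F) ≠ 0 := by rw [h5_deg_X]; exact one_ne_zero
  rw [h40_ht_frob_sub_some_of_ne A B h2 hΔ hX h, h5_deg_X, mul_one]

end N2

end Fermat.Agent.S52
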