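import Fermat.Agent.S52.h5_ManinDefs

/-!
# S52 block (I), row N1: the pure polynomial count (helper7)

`h5_count_poly` : `deg (Num / Den) = 1 + #{(c, e) ∈ F² : e² = c³ + A c + B}`, where
`Num / Den` is the `x`-coordinate of `φ P₀ - P₀`.
`h5_card_points` : `#E(F) = 1 + #{(c, e) ∈ F² : e² = c³ + A c + B}`.
-/

set_option autoImplicit false

namespace Fermat.Agent.S52

open WeierstrassCurve WeierstrassCurve.Affine Polynomial

section N1gen

variable {F : Type*} [Field F]

/-- The degree of a quotient of coprime polynomials. -/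
theorem h7_deg_div_of_coprime {U V : F[X]} (hV : V ≠ 0) (h : IsCoprime U V) :
    h5_deg (algebraMap F[X] (RatFunc F) U / algebraMap F[X] (RatFunc F) V) =
      max U.natDegree V.natDegree := by
  set r := algebraMap F[X] (RatFunc F) U / algebraMap F[X] (RatFunc F) V with hr
  have hinj : Function.Injective (algebraMap F[X] (RatFunc F)) :=
    IsFractionRing.injective F[X] (RatFunc F)
  have hVK : algebraMap F[X] (RatFunc F) V ≠ 0 := fun h0 => hV (hinj (by rw [h0, map_zero]))
  have hd0 : r.denom ≠ 0 := RatFunc.denom_ne_zero r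
  have hdK : algebraMap F[X] (RatFunc F) r.denom ≠ 0 :=
    fun h0 => hd0 (hinj (by rw [h0, map_zero]))
  have key : U * r.denom = r.num * V := by
    apply hinj
    rw [map_mul, map_mul]
    have h1 := RatFunc.num_div_denom r
    rw [hr] at h1
    rw [div_eq_div_iff hdK hVK] at h1
    exact h1.symm
  have hcop := RatFunc.isCoprime_num_denom r
  have hV1 : V ∣ r.denom := h.symm.dvd_of_dvd_mul_left ⟨r.num, by rw [key]; ring⟩
  have hV2 : r.denom ∣ V := hcop.symm.dvd_of_dvd_mul_left ⟨U, by rw [← key]; ring⟩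
  have hU1 : U ∣ r.num := h.dvd_of_dvd_mul_right ⟨r.denom, key.symm⟩
  have hU2 : r.num ∣ U := hcop.dvd_of_dvd_mul_right ⟨V, key⟩
  have e1 : r.num.natDegree = U.natDegree :=
    natDegree_eq_of_degree_eq (degree_eq_degree_of_associated (associated_of_dvd_dvd hU2 hU1))
  have e2 : r.denom.natDegree = V.natDegree :=
    natDegree_eq_of_degree_eq (degree_eq_degree_of_associated (associated_of_dvd_dvd hV2 hV1))
  rw [h5_deg, e1, e2]

/-- A polynomial not vanishing at `c` is coprime to `X - c`. -/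
theorem h7_isCoprime_X_sub_C {p : F[X]} {c : F} (h : p.eval c ≠ 0) :
    IsCoprime p (X - C c) := by
  have h1 : IsCoprime (X - C c) p :=
    (irreducible_X_sub_C c).coprime_iff_not_dvd.2 (fun hd => h (dvd_iff_isRoot.1 hd))
  exact h1.symm

/-- A polynomial not vanishing on `S` is coprime to `∏_{c ∈ S} (X - c)`. -/
theorem h7_isCoprime_prod {p : F[X]} (S : Finset F) (h : ∀ c ∈ S, p.eval c ≠ 0) :
    IsCoprime p (∏ c ∈ S, (X - C c)) :=
  IsCoprime.prod_right fun c hc => h7_isCoprime_X_sub_C (h c hc)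

/-- A polynomial vanishing on `S` is divisible by `∏_{c ∈ S} (X - c)`. -/
theorem h7_prod_dvd {p : F[X]} (S : Finset F) (h : ∀ c ∈ S, p.eval c = 0) :
    (∏ c ∈ S, (X - C c)) ∣ p := by
  refine Finset.prod_dvd_of_coprime (fun a _ b _ hab => ?_) (fun c hc => dvd_iff_isRoot.2 (h c hc))
  exact pairwise_coprime_X_sub_C (K := F) (s := fun c : F => c) (fun _ _ hxy => hxy) hab

theorem h7_prod_monic (S : Finset F) : (∏ c ∈ S, (X - C c)).Monic :=
  monic_prod_of_monic _ _ fun c _ => monic_X_sub_C c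

theorem h7_prod_natDegree (S : Finset F) : (∏ c ∈ S, (X - C c)).natDegree = S.card := by
  rw [natDegree_prod_of_monic _ _ fun c _ => monic_X_sub_C c]
  simp

theorem h7_prod_eval_eq_zero (S : Finset F) {c : F} (hc : c ∈ S) :
    (∏ c ∈ S, (X - C c)).eval c = 0 := by
  rw [eval_prod]
  exact Finset.prod_eq_zero hc (by simp)

end N1gen

section N1

variable {F : Type*} [Field F] [Fintype F] (A B : F)

/-- the cubic as a polynomial -/
noncomputable def h5_fP : F[X] := X ^ 3 + C A * X + C B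

/-- numerator of `x(φP₀ - P₀)` -/
noncomputable def h5_Num : F[X] :=
  h5_fP A B * (h5_fP A B ^ ((Fintype.card F - 1) / 2) + 1) ^ 2
    - (X ^ Fintype.card F + X) * (X ^ Fintype.card F - X) ^ 2

/-- denominator of `x(φP₀ - P₀)` -/
noncomputable def h5_Den : F[X] := (X ^ Fintype.card F - X) ^ 2

omit [Fintype F] in
theorem h7_fP_eval (c : F) : (h5_fP A B).eval c = c ^ 3 + A * c + B := by
  simp [h5_fP]

omit [Fintype F] in
theorem h7_fP_derivative_eval (c : F) : (derivative (h5_fP A B)).eval c = 3 * c ^ 2 + A := by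
  simp only [h5_fP, derivative_add, derivative_mul, derivative_X_pow, derivative_C, derivative_X,
    eval_add, eval_mul, eval_pow, eval_C, eval_X, zero_mul, zero_add, mul_one, add_zero]
  norm_num

omit [Fintype F] in
theorem h7_fP_natDegree_le : (h5_fP A B).natDegree ≤ 3 := by
  unfold h5_fP
  compute_degree

omit [Fintype F] in
theorem h7_ringChar_ne_two (h2 : (2 : F) ≠ 0) : ringChar F ≠ 2 := by
  intro h
  apply h2
  have := ringChar.Nat.cast_ringChar (R := F)
  rw [h] at this
  exact_mod_cast this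

theorem h7_card_odd (h2 : (2 : F) ≠ 0) : Fintype.card F % 2 = 1 :=
  FiniteField.odd_card_of_char_ne_two (h7_ringChar_ne_two h2)

theorem h7_half (h2 : (2 : F) ≠ 0) : (Fintype.card F - 1) / 2 = Fintype.card F / 2 := by
  have := h7_card_odd h2
  omega

/-- Trichotomy for the value of `a ^ ((q-1)/2)`. -/
theorem h7_tri (h2 : (2 : F) ≠ 0) (a : F) :
    (a = 0 ∧ a ^ ((Fintype.card F - 1) / 2) ≠ 1 ∧ a ^ ((Fintype.card F - 1) / 2) ≠ -1) ∨
    (a ≠ 0 ∧ a ^ ((Fintype.card F - 1) / 2) = 1 ∧ a ^ ((Fintype.card F - 1) / 2) ≠ -1) ∨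
    (a ≠ 0 ∧ a ^ ((Fintype.card F - 1) / 2) ≠ 1 ∧ a ^ ((Fintype.card F - 1) / 2) = -1) := by
  have hodd := h7_card_odd h2
  have hq : 1 < Fintype.card F := Fintype.one_lt_card
  have hm : (Fintype.card F - 1) / 2 ≠ 0 := by omega
  have h11 : (1 : F) ≠ -1 := by
    intro h
    apply h2
    have : (2 : F) = 1 + 1 := by norm_num
    rw [this]
    nth_rewrite 1 [h]
    ring
  by_cases ha : a = 0
  · left
    refine ⟨ha, ?_, ?_⟩
    · rw [ha, zero_pow hm]; exact zero_ne_one
    · rw [ha, zero_pow hm]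
      intro h
      exact one_ne_zero (neg_eq_zero.1 h.symm)
  · right
    rw [h7_half h2]
    rcases FiniteField.pow_dichotomy (h7_ringChar_ne_two h2) ha with h | h
    · left
      exact ⟨ha, h, by rw [h]; exact h11⟩
    · right
      exact ⟨ha, by rw [h]; exact fun h' => h11 h'.symm, h⟩

/-- The number of square roots. -/
theorem h7_card_sqrt [DecidableEq F] (h2 : (2 : F) ≠ 0) (a : F) :
    (Finset.univ.filter (fun e : F => e ^ 2 = a)).card =
      2 * (if a ^ ((Fintype.card F - 1) / 2) = 1 then 1 else 0) + (if a = 0 then 1 else 0) := by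
  have hF := h7_ringChar_ne_two h2
  have key := quadraticChar_card_sqrts hF a
  have hset : ({x : F | x ^ 2 = a}.toFinset) = Finset.univ.filter (fun e : F => e ^ 2 = a) := by
    ext x
    simp
  rw [hset] at key
  rcases h7_tri h2 a with ⟨h0, h1, _⟩ | ⟨h0, h1, _⟩ | ⟨h0, h1, _⟩
  · rw [if_neg h1, if_pos h0]
    rw [h0, quadraticChar_zero] at key
    rw [h0]
    exact_mod_cast key
  · rw [if_pos h1, if_neg h0]
    rw [quadraticChar_eq_pow_of_char_ne_two hF h0, ← h7_half h2, if_pos h1] at key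
    exact_mod_cast key
  · rw [if_neg h1, if_neg h0]
    rw [quadraticChar_eq_pow_of_char_ne_two hF h0, ← h7_half h2, if_neg h1] at key
    have : ((Finset.univ.filter (fun e : F => e ^ 2 = a)).card : ℤ) = 0 := by rw [key]; norm_num
    exact_mod_cast this

/-- The number of affine solutions in terms of the two relevant sets. -/
theorem h7_card_sol [DecidableEq F] (h2 : (2 : F) ≠ 0) :
    Nat.card {p : F × F // p.2 ^ 2 = p.1 ^ 3 + A * p.1 + B} =
      2 * (Finset.univ.filter
          (fun c : F => ((h5_fP A B).eval c) ^ ((Fintype.card F - 1) / 2) = 1)).card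
        + (Finset.univ.filter (fun c : F => (h5_fP A B).eval c = 0)).card := by
  rw [Nat.card_eq_fintype_card, Fintype.card_subtype, Finset.card_filter, Fintype.sum_prod_type]
  have h1 : ∀ c : F, (∑ e : F, if ((c, e) : F × F).2 ^ 2 =
      ((c, e) : F × F).1 ^ 3 + A * ((c, e) : F × F).1 + B then 1 else 0) =
      2 * (if ((h5_fP A B).eval c) ^ ((Fintype.card F - 1) / 2) = 1 then 1 else 0)
        + (if (h5_fP A B).eval c = 0 then 1 else 0) := by
    intro c
    rw [← h7_card_sqrt h2 ((h5_fP A B).eval c), Finset.card_filter, h7_fP_eval]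
  rw [Finset.sum_congr rfl fun c _ => h1 c, Finset.sum_add_distrib, ← Finset.mul_sum,
    Finset.card_filter, Finset.card_filter]

/-- The three sets partition `F`. -/
theorem h7_card_split [DecidableEq F] (h2 : (2 : F) ≠ 0) (g : F → F) :
    Fintype.card F =
      (Finset.univ.filter (fun c : F => (g c) ^ ((Fintype.card F - 1) / 2) = 1)).card
        + (Finset.univ.filter (fun c : F => g c = 0)).card
        + (Finset.univ.filter (fun c : F => (g c) ^ ((Fintype.card F - 1) / 2) = -1)).card := by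
  have key : ∀ c : F, (1 : ℕ) =
      (if (g c) ^ ((Fintype.card F - 1) / 2) = 1 then 1 else 0) + (if g c = 0 then 1 else 0)
        + (if (g c) ^ ((Fintype.card F - 1) / 2) = -1 then 1 else 0) := by
    intro c
    rcases h7_tri h2 (g c) with ⟨h0, h1, h3⟩ | ⟨h0, h1, h3⟩ | ⟨h0, h1, h3⟩
    · rw [if_neg h1, if_pos h0, if_neg h3]
    · rw [if_pos h1, if_neg h0, if_neg h3]
    · rw [if_neg h1, if_neg h0, if_pos h3]
  calc Fintype.card F = ∑ _c : F, 1 := by simp
    _ = ∑ c : F, ((if (g c) ^ ((Fintype.card F - 1) / 2) = 1 then 1 else 0)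
          + (if g c = 0 then 1 else 0)
          + (if (g c) ^ ((Fintype.card F - 1) / 2) = -1 then 1 else 0)) :=
        Finset.sum_congr rfl fun c _ => key c
    _ = _ := by
        rw [Finset.sum_add_distrib, Finset.sum_add_distrib, Finset.card_filter,
          Finset.card_filter, Finset.card_filter]

/-- `X^q - X` as the product over the three sets. -/
theorem h7_prod_split [DecidableEq F] (h2 : (2 : F) ≠ 0) (g : F → F) :
    (X ^ Fintype.card F - X : F[X]) =
      (∏ c ∈ Finset.univ.filter (fun c : F => (g c) ^ ((Fintype.card F - 1) / 2) = 1), (X - C c))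
        * (∏ c ∈ Finset.univ.filter (fun c : F => g c = 0), (X - C c))
        * (∏ c ∈ Finset.univ.filter (fun c : F => (g c) ^ ((Fintype.card F - 1) / 2) = -1),
            (X - C c)) := by
  have hq : 1 < Fintype.card F := Fintype.one_lt_card
  have hmonic : (X ^ Fintype.card F - X : F[X]).Monic := by
    apply monic_X_pow_sub
    rw [degree_X]
    exact_mod_cast hq
  have hroots := FiniteField.roots_X_pow_card_sub_X F
  have hcard : Multiset.card (X ^ Fintype.card F - X : F[X]).roots =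
      (X ^ Fintype.card F - X : F[X]).natDegree := by
    rw [hroots, FiniteField.X_pow_card_sub_X_natDegree_eq F hq]
    rfl
  have hprod := prod_multiset_X_sub_C_of_monic_of_roots_card_eq hmonic hcard
  rw [hroots] at hprod
  rw [← hprod]
  change ∏ c ∈ Finset.univ, (X - C c) = _
  rw [Finset.prod_filter, Finset.prod_filter, Finset.prod_filter, ← Finset.prod_mul_distrib,
    ← Finset.prod_mul_distrib]
  refine Finset.prod_congr rfl fun c _ => ?_
  rcases h7_tri h2 (g c) with ⟨h0, h1, h3⟩ | ⟨h0, h1, h3⟩ | ⟨h0, h1, h3⟩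
  · rw [if_neg h1, if_pos h0, if_neg h3, one_mul, mul_one]
  · rw [if_pos h1, if_neg h0, if_neg h3, mul_one, mul_one]
  · rw [if_neg h1, if_neg h0, if_pos h3, one_mul, one_mul]

/-- `f ^ q = f (X ^ q)`. -/
theorem h7_fP_pow_card :
    h5_fP A B ^ Fintype.card F =
      (X ^ Fintype.card F) ^ 3 + C A * X ^ Fintype.card F + C B := by
  rw [← FiniteField.expand_card]
  simp [h5_fP]

theorem h7_Num_natDegree (h2 : (2 : F) ≠ 0) : (h5_Num A B).natDegree = 2 * Fintype.card F + 1 := by
  have hodd := h7_card_odd h2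
  have hq : 1 < Fintype.card F := Fintype.one_lt_card
  obtain ⟨m, hm⟩ : ∃ m, (Fintype.card F - 1) / 2 = m := ⟨_, rfl⟩
  have hqm : Fintype.card F = 2 * m + 1 := by omega
  have hm1 : 1 ≤ m := by omega
  have hexp := h7_fP_pow_card A B
  have hrew : h5_Num A B = X ^ (2 * Fintype.card F + 1) +
      (X ^ (Fintype.card F + 2) - X ^ 3 + C A * X ^ Fintype.card F + C B
        + 2 * h5_fP A B ^ (m + 1) + h5_fP A B) := by
    unfold h5_Num
    rw [hm]
    rw [hqm] at hexp ⊢
    linear_combination hexp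
  rw [hrew]
  have hf3 := h7_fP_natDegree_le A B
  have hR : (X ^ (Fintype.card F + 2) - X ^ 3 + C A * X ^ Fintype.card F + C B
        + 2 * h5_fP A B ^ (m + 1) + h5_fP A B : F[X]).natDegree ≤ 2 * Fintype.card F := by
    refine natDegree_add_le_of_degree_le (natDegree_add_le_of_degree_le
      (natDegree_add_le_of_degree_le (natDegree_add_le_of_degree_le
        ((natDegree_sub_le _ _).trans (max_le ?_ ?_)) ?_) ?_) ?_) ?_
    · exact (natDegree_X_pow_le _).trans (by omega)
    · exact (natDegree_X_pow_le _).trans (by omega)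
    · exact (natDegree_C_mul_le _ _).trans ((natDegree_X_pow_le _).trans (by omega))
    · rw [natDegree_C]; omega
    · have h2' : (2 : F[X]) = C (2 : F) := (map_ofNat C 2).symm
      rw [h2']
      refine (natDegree_C_mul_le _ _).trans ((natDegree_pow_le_of_le (m + 1) hf3).trans ?_)
      omega
    · omega
  rw [natDegree_add_eq_left_of_natDegree_lt, natDegree_X_pow]
  rw [natDegree_X_pow]
  omega

theorem h5_count_poly (h2 : (2 : F) ≠ 0) (hΔ : 4 * A ^ 3 + 27 * B ^ 2 ≠ 0) :
    h5_deg (algebraMap F[X] (RatFunc F) (h5_Num A B) /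
        algebraMap F[X] (RatFunc F) (h5_Den (F := F))) =
      1 + Nat.card {p : F × F // p.2 ^ 2 = p.1 ^ 3 + A * p.1 + B} := by
  classical
  have hodd := h7_card_odd h2
  have hq : 1 < Fintype.card F := Fintype.one_lt_card
  have hm0 : (Fintype.card F - 1) / 2 ≠ 0 := by omega
  set m := (Fintype.card F - 1) / 2 with hm
  set f := h5_fP A B with hf
  set S0 := Finset.univ.filter (fun c : F => (f.eval c) ^ m = 1) with hS0
  set S1 := Finset.univ.filter (fun c : F => f.eval c = 0) with hS1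
  set S2 := Finset.univ.filter (fun c : F => (f.eval c) ^ m = -1) with hS2
  set P0 : F[X] := ∏ c ∈ S0, (X - C c) with hP0
  set P1 : F[X] := ∏ c ∈ S1, (X - C c) with hP1
  set P2 : F[X] := ∏ c ∈ S2, (X - C c) with hP2
  have hD : (X ^ Fintype.card F - X : F[X]) = P0 * P1 * P2 := h7_prod_split h2 (fun c => f.eval c)
  have hcard : Fintype.card F = S0.card + S1.card + S2.card :=
    h7_card_split h2 (fun c => f.eval c)
  have hsol : Nat.card {p : F × F // p.2 ^ 2 = p.1 ^ 3 + A * p.1 + B} = 2 * S0.card + S1.card :=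
    h7_card_sol A B h2
  -- divisibilities
  obtain ⟨f₁, hf₁⟩ : P1 ∣ f := h7_prod_dvd S1 fun c hc => (Finset.mem_filter.1 hc).2
  obtain ⟨g₂, hg₂⟩ : P2 ∣ f ^ m + 1 := h7_prod_dvd S2 fun c hc => by
    have := (Finset.mem_filter.1 hc).2
    simp [this]
  have hNum : h5_Num A B = (P1 * P2 ^ 2) * (f₁ * g₂ ^ 2 - (X ^ Fintype.card F + X) * P0 ^ 2 * P1) := by
    unfold h5_Num
    rw [← hm, ← hf]
    linear_combination ((f ^ m + 1) ^ 2) * hf₁ + (P1 * f₁ * (f ^ m + 1 + P2 * g₂)) * hg₂
      - ((X ^ Fintype.card F + X) * (X ^ Fintype.card F - X + P0 * P1 * P2)) * hD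
  have hDen : h5_Den (F := F) = (P1 * P2 ^ 2) * (P0 ^ 2 * P1) := by
    unfold h5_Den
    rw [hD]
    ring
  -- evaluation facts
  have hev0 : ∀ c ∈ S0, f₁.eval c ≠ 0 ∧ g₂.eval c ≠ 0 := by
    intro c hc
    have h1 : (f.eval c) ^ m = 1 := (Finset.mem_filter.1 hc).2
    have hfc : f.eval c ≠ 0 := by
      intro h0
      rw [h0, zero_pow hm0] at h1
      exact zero_ne_one h1
    constructor
    · intro h0
      apply hfc
      rw [hf₁, eval_mul, h0, mul_zero]
    · intro h0
      have h3 : (f ^ m + 1).eval c = 0 := by rw [hg₂, eval_mul, h0, mul_zero]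
      rw [eval_add, eval_pow, eval_one, h1] at h3
      apply h2
      rw [← h3]
      norm_num
  have hev1 : ∀ c ∈ S1, f₁.eval c ≠ 0 ∧ g₂.eval c ≠ 0 := by
    intro c hc
    have h1 : f.eval c = 0 := (Finset.mem_filter.1 hc).2
    constructor
    · intro h0
      have hd : (derivative f).eval c = 0 := by
        rw [hf₁, derivative_mul, eval_add, eval_mul, eval_mul, h0, mul_zero, zero_add,
          h7_prod_eval_eq_zero S1 hc, zero_mul]
      rw [hf, h7_fP_derivative_eval] at hd
      rw [hf, h7_fP_eval] at h1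
      apply hΔ
      have hA : A = -3 * c ^ 2 := by linear_combination hd
      have hB : B = 2 * c ^ 3 := by linear_combination h1 - c * hd
      rw [hA, hB]
      ring
    · intro h0
      have h3 : (f ^ m + 1).eval c = 0 := by rw [hg₂, eval_mul, h0, mul_zero]
      rw [eval_add, eval_pow, eval_one, h1, zero_pow hm0, zero_add] at h3
      exact one_ne_zero h3
  -- coprimality
  have hcop1 : ∀ p : F[X], (∀ c ∈ S0, p.eval c ≠ 0) → (∀ c ∈ S1, p.eval c ≠ 0) →
      IsCoprime p (P0 ^ 2 * P1) := fun p h0 h1 =>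
    IsCoprime.mul_right (IsCoprime.pow_right (h7_isCoprime_prod S0 h0)) (h7_isCoprime_prod S1 h1)
  have hcop : IsCoprime (f₁ * g₂ ^ 2 - (X ^ Fintype.card F + X) * P0 ^ 2 * P1) (P0 ^ 2 * P1) := by
    have h1 : IsCoprime (f₁ * g₂ ^ 2) (P0 ^ 2 * P1) :=
      IsCoprime.mul_left (hcop1 f₁ (fun c hc => (hev0 c hc).1) (fun c hc => (hev1 c hc).1))
        (IsCoprime.pow_left (hcop1 g₂ (fun c hc => (hev0 c hc).2) (fun c hc => (hev1 c hc).2)))
    have h3 := h1.add_mul_right_left (-(X ^ Fintype.card F + X))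
    have h4 : f₁ * g₂ ^ 2 + -(X ^ Fintype.card F + X) * (P0 ^ 2 * P1) =
        f₁ * g₂ ^ 2 - (X ^ Fintype.card F + X) * P0 ^ 2 * P1 := by ring
    rwa [h4] at h3
  -- degrees
  have hP0m : P0.Monic := h7_prod_monic S0
  have hP1m : P1.Monic := h7_prod_monic S1
  have hP2m : P2.Monic := h7_prod_monic S2
  have hGm : (P1 * P2 ^ 2).Monic := hP1m.mul (hP2m.pow 2)
  have hVm : (P0 ^ 2 * P1).Monic := (hP0m.pow 2).mul hP1m
  have hGdeg : (P1 * P2 ^ 2).natDegree = S1.card + 2 * S2.card := by
    rw [hP1m.natDegree_mul (hP2m.pow 2), hP2m.natDegree_pow, h7_prod_natDegree, h7_prod_natDegree]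
  have hVdeg : (P0 ^ 2 * P1).natDegree = 2 * S0.card + S1.card := by
    rw [(hP0m.pow 2).natDegree_mul hP1m, hP0m.natDegree_pow, h7_prod_natDegree, h7_prod_natDegree]
  have hNdeg := h7_Num_natDegree A B h2
  have hU0 : f₁ * g₂ ^ 2 - (X ^ Fintype.card F + X) * P0 ^ 2 * P1 ≠ 0 := by
    intro h0
    rw [hNum, h0, mul_zero, natDegree_zero] at hNdeg
    omega
  have hUdeg : (f₁ * g₂ ^ 2 - (X ^ Fintype.card F + X) * P0 ^ 2 * P1).natDegree =
      2 * S0.card + S1.card + 1 := by
    rw [hNum, hGm.natDegree_mul' hU0, hGdeg] at hNdeg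
    omega
  have hG0 : algebraMap F[X] (RatFunc F) (P1 * P2 ^ 2) ≠ 0 := by
    intro h0
    exact hGm.ne_zero (IsFractionRing.injective F[X] (RatFunc F) (by rw [h0, map_zero]))
  rw [hNum, hDen, map_mul (algebraMap F[X] (RatFunc F)) (P1 * P2 ^ 2) _,
    map_mul (algebraMap F[X] (RatFunc F)) (P1 * P2 ^ 2) _, mul_div_mul_left _ _ hG0,
    h7_deg_div_of_coprime hVm.ne_zero hcop, hUdeg, hVdeg, hsol]
  omega

omit [Fintype F] in
theorem h5_card_points [Finite F] (h2 : (2 : F) ≠ 0) (hΔ : 4 * A ^ 3 + 27 * B ^ 2 ≠ 0) :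
    Nat.card (h5_sw A B).toAffine.Point =
      1 + Nat.card {p : F × F // p.2 ^ 2 = p.1 ^ 3 + A * p.1 + B} := by
  classical
  let e : (h5_sw A B).toAffine.Point ≃ Option {p : F × F // p.2 ^ 2 = p.1 ^ 3 + A * p.1 + B} :=
    { toFun := fun P => match P with
        | .zero => none
        | .some x y h => some ⟨(x, y), (h5_sw_equation_iff A B x y).1 h.1⟩
      invFun := fun o => match o with
        | none => .zero
        | some p => .some p.1.1 p.1.2 (h5_sw_nonsingular A B h2 hΔ p.2)
      left_inv := by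
        rintro (_ | ⟨x, y, h⟩) <;> rfl
      right_inv := by
        rintro (_ | ⟨⟨x, y⟩, h⟩) <;> rfl }
  rw [Nat.card_congr e, Finite.card_option, add_comm]

end N1

end Fermat.Agent.S52
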