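import Fermat.Agent.S52.h5_ManinDefs

/-!
# S52 block (I), row D2: exact parallelogram law and duplication for degrees (helper16)

`h5_deg_dup` : the duplication formula multiplies the degree of a rational function by `4`.
`h5_deg_para` : if `p`, `m` are the two roots of the biquadratic "sum/difference" equation of
`u ≠ u'`, then `deg p + deg m = 2 deg u + 2 deg u'`.

The upper bound comes from Gauss' lemma for the triple `(b₊b₋, a₊b₋ + a₋b₊, a₊a₋)`; the
equality is forced by applying the upper bound a second time to `(p, m)` (whose "sum" and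
"difference" are the duplicates of `u`, `u'`) together with the exact duplication degree.
-/

set_option autoImplicit false

namespace Fermat.Agent.S52

open Polynomial

section D2

variable {F : Type*} [Field F]

/-- Any representation `u = U / V` is a multiple of the reduced one. -/
private lemma h16_repr (u : RatFunc F) (U V : F[X]) (hV : V ≠ 0)
    (h : u * algebraMap F[X] (RatFunc F) V = algebraMap F[X] (RatFunc F) U) :
    ∃ c : F[X], c ≠ 0 ∧ U = u.num * c ∧ V = u.denom * c := by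
  have hd : algebraMap F[X] (RatFunc F) u.denom ≠ 0 := by
    rw [Ne, map_eq_zero_iff _ (RatFunc.algebraMap_injective F)]
    exact u.denom_ne_zero
  have hu : u * algebraMap F[X] (RatFunc F) u.denom = algebraMap F[X] (RatFunc F) u.num := by
    have e := RatFunc.num_div_denom u
    rw [div_eq_iff hd] at e
    exact e.symm
  have hcross : u.num * V = U * u.denom := by
    apply RatFunc.algebraMap_injective F
    rw [map_mul, map_mul, ← hu, ← h]
    ring
  have hdvd : u.denom ∣ V := by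
    have hc : IsCoprime u.denom u.num := (RatFunc.isCoprime_num_denom u).symm
    refine hc.dvd_of_dvd_mul_right ?_
    exact ⟨U, by rw [mul_comm, hcross, mul_comm]⟩
  obtain ⟨c, hc⟩ := hdvd
  refine ⟨c, ?_, ?_, hc⟩
  · rintro rfl
    exact hV (by rw [hc, mul_zero])
  · have h1 : u.num * c * u.denom = U * u.denom := by
      rw [← hcross, hc]; ring
    exact (mul_right_cancel₀ u.denom_ne_zero h1).symm

private lemma h16_deg_le (u : RatFunc F) (U V : F[X]) (hV : V ≠ 0)
    (h : u * algebraMap F[X] (RatFunc F) V = algebraMap F[X] (RatFunc F) U) :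
    h5_deg u ≤ max U.natDegree V.natDegree := by
  obtain ⟨c, hc, hU, hVc⟩ := h16_repr u U V hV h
  have h1 : u.denom.natDegree ≤ V.natDegree :=
    natDegree_le_of_dvd ⟨c, hVc⟩ hV
  have h2 : u.num.natDegree ≤ U.natDegree := by
    by_cases hn : u.num = 0
    · rw [hn]; simp
    · exact natDegree_le_of_dvd ⟨c, hU⟩ (by rw [hU]; exact mul_ne_zero hn hc)
  unfold h5_deg
  exact max_le_max h2 h1

private lemma h16_deg_eq (u : RatFunc F) (U V : F[X]) (hV : V ≠ 0) (hUV : IsCoprime U V)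
    (h : u * algebraMap F[X] (RatFunc F) V = algebraMap F[X] (RatFunc F) U) :
    h5_deg u = max U.natDegree V.natDegree := by
  obtain ⟨c, hc, hU, hVc⟩ := h16_repr u U V hV h
  have hunit : IsUnit c := hUV.isUnit_of_dvd' ⟨u.num, by rw [hU]; ring⟩ ⟨u.denom, by rw [hVc]; ring⟩
  obtain ⟨a, ha, rfl⟩ := Polynomial.isUnit_iff.mp hunit
  have ha0 : a ≠ 0 := ha.ne_zero
  unfold h5_deg
  rw [hU, hVc, natDegree_mul_C ha0, natDegree_mul_C ha0]

/-- the reduced representation -/
private lemma h16_num_denom (u : RatFunc F) :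
    u * algebraMap F[X] (RatFunc F) u.denom = algebraMap F[X] (RatFunc F) u.num := by
  have hd : algebraMap F[X] (RatFunc F) u.denom ≠ 0 := by
    rw [Ne, map_eq_zero_iff _ (RatFunc.algebraMap_injective F)]
    exact u.denom_ne_zero
  have e := RatFunc.num_div_denom u
  rw [div_eq_iff hd] at e
  exact e.symm

/-- The triple `(b₁b₂, a₁b₂ + a₂b₁, a₁a₂)` is primitive. -/
private lemma h16_triple_prim {a₁ b₁ a₂ b₂ : F[X]} (h₁ : IsCoprime a₁ b₁)
    (h₂ : IsCoprime a₂ b₂) :
    ∃ c₀ c₁ c₂ : F[X],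
      c₀ * (b₁ * b₂) + c₁ * (a₁ * b₂ + a₂ * b₁) + c₂ * (a₁ * a₂) = 1 := by
  obtain ⟨s, t, e1⟩ := h₁
  obtain ⟨s', t', e2⟩ := h₂
  refine ⟨-s ^ 2 * t' ^ 2 * (a₁ * a₂) + 4 * s * t * s' * t' * (a₁ * a₂)
      + 2 * s * t * t' ^ 2 * (a₁ * b₂) - t ^ 2 * s' ^ 2 * (a₁ * a₂)
      + 2 * t ^ 2 * s' * t' * (b₁ * a₂) + t ^ 2 * t' ^ 2 * (b₁ * b₂),
    s ^ 2 * t' ^ 2 * (a₁ * b₂) + t ^ 2 * s' ^ 2 * (a₂ * b₁),
    s ^ 2 * s' ^ 2 * (a₁ * a₂) + 2 * s ^ 2 * s' * t' * (a₁ * b₂)
      + 2 * s * t * s' ^ 2 * (b₁ * a₂), ?_⟩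
  linear_combination ((s * a₁ + t * b₁ + 1) * (s' * a₂ + t' * b₂) ^ 2) * e1
    + (s' * a₂ + t' * b₂ + 1) * e2

/-- Gauss' lemma: the degrees of two rational functions add up to at most the degree of any
polynomial triple proportional to `(1, p + m, p m)`. -/
private lemma h16_gauss (p m : RatFunc F) (G₀ G₁ G₂ : F[X]) (hG₀ : G₀ ≠ 0)
    (hs : (p + m) * algebraMap F[X] (RatFunc F) G₀ = algebraMap F[X] (RatFunc F) G₁)
    (hp : p * m * algebraMap F[X] (RatFunc F) G₀ = algebraMap F[X] (RatFunc F) G₂) :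
    h5_deg p + h5_deg m ≤ max G₀.natDegree (max G₁.natDegree G₂.natDegree) := by
  have hp1 := h16_num_denom p
  have hm1 := h16_num_denom m
  have hb₁ : p.denom ≠ 0 := p.denom_ne_zero
  have hb₂ : m.denom ≠ 0 := m.denom_ne_zero
  set a₁ := p.num with ha₁
  set b₁ := p.denom with hb₁'
  set a₂ := m.num with ha₂
  set b₂ := m.denom with hb₂'
  have hY₀ : b₁ * b₂ ≠ 0 := mul_ne_zero hb₁ hb₂
  have e1 : (a₁ * b₂ + a₂ * b₁) * G₀ = G₁ * (b₁ * b₂) := by
    apply RatFunc.algebraMap_injective F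
    simp only [map_mul, map_add]
    rw [← hs, ← hp1, ← hm1]
    ring
  have e2 : (a₁ * a₂) * G₀ = G₂ * (b₁ * b₂) := by
    apply RatFunc.algebraMap_injective F
    simp only [map_mul]
    rw [← hp, ← hp1, ← hm1]
    ring
  obtain ⟨c₀, c₁, c₂, hc⟩ :=
    h16_triple_prim (RatFunc.isCoprime_num_denom p) (RatFunc.isCoprime_num_denom m)
  rw [← ha₁, ← hb₁', ← ha₂, ← hb₂'] at hc
  set c := c₀ * G₀ + c₁ * G₁ + c₂ * G₂ with hcdef
  have hG0 : G₀ = (b₁ * b₂) * c := by
    rw [hcdef]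
    linear_combination (-G₀) * hc + c₁ * e1 + c₂ * e2
  have hG1 : G₁ = (a₁ * b₂ + a₂ * b₁) * c := by
    have : G₁ * (b₁ * b₂) = (a₁ * b₂ + a₂ * b₁) * c * (b₁ * b₂) := by
      rw [← e1]
      conv_lhs => rw [hG0]
      ring
    exact mul_right_cancel₀ hY₀ this
  have hG2 : G₂ = (a₁ * a₂) * c := by
    have : G₂ * (b₁ * b₂) = (a₁ * a₂) * c * (b₁ * b₂) := by
      rw [← e2]
      conv_lhs => rw [hG0]
      ring
    exact mul_right_cancel₀ hY₀ this
  have hc0 : c ≠ 0 := by
    rintro h0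
    exact hG₀ (by rw [hG0, h0, mul_zero])
  have hdp : h5_deg p = max a₁.natDegree b₁.natDegree := rfl
  have hdm : h5_deg m = max a₂.natDegree b₂.natDegree := rfl
  rw [hdp, hdm]
  rcases lt_or_ge b₁.natDegree a₁.natDegree with h1 | h1 <;>
    rcases lt_or_ge b₂.natDegree a₂.natDegree with h2 | h2
  · -- both numerator-heavy
    have ha1 : a₁ ≠ 0 := by rintro h0; rw [h0] at h1; simp at h1
    have ha2 : a₂ ≠ 0 := by rintro h0; rw [h0] at h2; simp at h2
    have : G₂.natDegree = a₁.natDegree + a₂.natDegree + c.natDegree := by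
      rw [hG2, natDegree_mul (mul_ne_zero ha1 ha2) hc0, natDegree_mul ha1 ha2]
    rw [max_eq_left h1.le, max_eq_left h2.le]
    have h3 : G₂.natDegree ≤ max G₀.natDegree (max G₁.natDegree G₂.natDegree) :=
      le_trans (le_max_right _ _) (le_max_right _ _)
    omega
  · -- mixed
    have ha1 : a₁ ≠ 0 := by rintro h0; rw [h0] at h1; simp at h1
    have hlt : (a₂ * b₁).natDegree < (a₁ * b₂).natDegree := by
      rw [natDegree_mul ha1 hb₂]
      calc (a₂ * b₁).natDegree ≤ a₂.natDegree + b₁.natDegree := natDegree_mul_le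
        _ < a₁.natDegree + b₂.natDegree := by omega
    have hY1 : (a₁ * b₂ + a₂ * b₁).natDegree = a₁.natDegree + b₂.natDegree := by
      rw [natDegree_add_eq_left_of_natDegree_lt hlt, natDegree_mul ha1 hb₂]
    have hY1ne : a₁ * b₂ + a₂ * b₁ ≠ 0 := by
      rintro h0
      rw [h0] at hY1
      simp at hY1
      omega
    have : G₁.natDegree = a₁.natDegree + b₂.natDegree + c.natDegree := by
      rw [hG1, natDegree_mul hY1ne hc0, hY1]
    rw [max_eq_left h1.le, max_eq_right h2]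
    have h3 : G₁.natDegree ≤ max G₀.natDegree (max G₁.natDegree G₂.natDegree) :=
      le_trans (le_max_left _ _) (le_max_right _ _)
    omega
  · -- mixed
    have ha2 : a₂ ≠ 0 := by rintro h0; rw [h0] at h2; simp at h2
    have hlt : (a₁ * b₂).natDegree < (a₂ * b₁).natDegree := by
      rw [natDegree_mul ha2 hb₁]
      calc (a₁ * b₂).natDegree ≤ a₁.natDegree + b₂.natDegree := natDegree_mul_le
        _ < a₂.natDegree + b₁.natDegree := by omega
    have hY1 : (a₁ * b₂ + a₂ * b₁).natDegree = a₂.natDegree + b₁.natDegree := by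
      rw [natDegree_add_eq_right_of_natDegree_lt hlt, natDegree_mul ha2 hb₁]
    have hY1ne : a₁ * b₂ + a₂ * b₁ ≠ 0 := by
      rintro h0
      rw [h0] at hY1
      simp at hY1
      omega
    have : G₁.natDegree = a₂.natDegree + b₁.natDegree + c.natDegree := by
      rw [hG1, natDegree_mul hY1ne hc0, hY1]
    rw [max_eq_right h1, max_eq_left h2.le]
    have h3 : G₁.natDegree ≤ max G₀.natDegree (max G₁.natDegree G₂.natDegree) :=
      le_trans (le_max_left _ _) (le_max_right _ _)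
    omega
  · -- both denominator-heavy
    have : G₀.natDegree = b₁.natDegree + b₂.natDegree + c.natDegree := by
      rw [hG0, natDegree_mul hY₀ hc0, natDegree_mul hb₁ hb₂]
    rw [max_eq_right h1, max_eq_right h2]
    have h3 : G₀.natDegree ≤ max G₀.natDegree (max G₁.natDegree G₂.natDegree) :=
      le_max_left _ _
    omega

private lemma h16_nd_mul {x y : F[X]} {m n : ℕ} (hx : x.natDegree ≤ m) (hy : y.natDegree ≤ n) :
    (x * y).natDegree ≤ m + n :=
  natDegree_mul_le.trans (add_le_add hx hy)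

private lemma h16_nd_add {x y : F[X]} {m : ℕ} (hx : x.natDegree ≤ m) (hy : y.natDegree ≤ m) :
    (x + y).natDegree ≤ m :=
  (natDegree_add_le x y).trans (max_le hx hy)

private lemma h16_nd_sub {x y : F[X]} {m : ℕ} (hx : x.natDegree ≤ m) (hy : y.natDegree ≤ m) :
    (x - y).natDegree ≤ m :=
  (natDegree_sub_le x y).trans (max_le hx hy)

private lemma h16_nd_pow {x : F[X]} {m : ℕ} (hx : x.natDegree ≤ m) (k : ℕ) :
    (x ^ k).natDegree ≤ k * m :=
  natDegree_pow_le.trans (Nat.mul_le_mul_left k hx)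

private lemma h16_nd_C (c : F) : (C c : F[X]).natDegree ≤ 0 := by simp

private lemma h16_nd_two : (2 : F[X]).natDegree ≤ 0 := by
  have : (2 : F[X]) = C (2 : F) := (map_ofNat C 2).symm
  rw [this]; exact h16_nd_C 2

private lemma h16_nd_four : (4 : F[X]).natDegree ≤ 0 := by
  have : (4 : F[X]) = C (4 : F) := (map_ofNat C 4).symm
  rw [this]; exact h16_nd_C 4

private lemma h16_nd_eight : (8 : F[X]).natDegree ≤ 0 := by
  have : (8 : F[X]) = C (8 : F) := (map_ofNat C 8).symm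
  rw [this]; exact h16_nd_C 8

/-- The upper bound: `deg p + deg m ≤ 2 deg u + 2 deg u'`. -/
private lemma h16_ub (A B : F) {u u' p m : RatFunc F} (hne : u ≠ u')
    (hs : (p + m) * (u - u') ^ 2 = 2 * (u * u' + RatFunc.C A) * (u + u') + 4 * RatFunc.C B)
    (hp : p * m * (u - u') ^ 2 = (u * u' - RatFunc.C A) ^ 2 - 4 * RatFunc.C B * (u + u')) :
    h5_deg p + h5_deg m ≤ 2 * h5_deg u + 2 * h5_deg u' := by
  have hu := h16_num_denom u
  have hu' := h16_num_denom u'
  have hb0 : u.denom ≠ 0 := u.denom_ne_zero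
  have hb0' : u'.denom ≠ 0 := u'.denom_ne_zero
  set a := u.num with ha
  set b := u.denom with hb
  set a' := u'.num with ha'
  set b' := u'.denom with hb'
  have hιb : algebraMap F[X] (RatFunc F) b ≠ 0 := by
    rw [Ne, map_eq_zero_iff _ (RatFunc.algebraMap_injective F)]; exact hb0
  have hιb' : algebraMap F[X] (RatFunc F) b' ≠ 0 := by
    rw [Ne, map_eq_zero_iff _ (RatFunc.algebraMap_injective F)]; exact hb0'
  set M := h5_deg u with hM
  set M' := h5_deg u' with hM'
  have hda : a.natDegree ≤ M := le_max_left _ _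
  have hdb : b.natDegree ≤ M := le_max_right _ _
  have hda' : a'.natDegree ≤ M' := le_max_left _ _
  have hdb' : b'.natDegree ≤ M' := le_max_right _ _
  set G₀ : F[X] := (a * b' - a' * b) ^ 2 with hG₀
  set G₁ : F[X] := 2 * (a * a' + C A * (b * b')) * (a * b' + a' * b) + 4 * C B * (b ^ 2 * b' ^ 2)
    with hG₁
  set G₂ : F[X] := (a * a' - C A * (b * b')) ^ 2 - 4 * C B * ((b * b') * (a * b' + a' * b))
    with hG₂
  have hG₀ne : G₀ ≠ 0 := by
    rw [hG₀]
    refine pow_ne_zero 2 ?_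
    intro h0
    apply hne
    have h1 : a * b' = a' * b := sub_eq_zero.mp h0
    have h2 : algebraMap F[X] (RatFunc F) (a * b') = algebraMap F[X] (RatFunc F) (a' * b) := by
      rw [h1]
    rw [map_mul, map_mul, ← hu, ← hu'] at h2
    have h3 : u * (algebraMap F[X] (RatFunc F) b * algebraMap F[X] (RatFunc F) b') =
        u' * (algebraMap F[X] (RatFunc F) b * algebraMap F[X] (RatFunc F) b') := by
      linear_combination h2
    exact mul_right_cancel₀ (mul_ne_zero hιb hιb') h3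
  have e1 : (p + m) * algebraMap F[X] (RatFunc F) G₀ = algebraMap F[X] (RatFunc F) G₁ := by
    simp only [hG₀, hG₁, map_mul, map_add, map_sub, map_pow, RatFunc.algebraMap_C, map_ofNat]
    rw [← hu, ← hu']
    linear_combination ((algebraMap F[X] (RatFunc F) b) ^ 2 *
      (algebraMap F[X] (RatFunc F) b') ^ 2) * hs
  have e2 : p * m * algebraMap F[X] (RatFunc F) G₀ = algebraMap F[X] (RatFunc F) G₂ := by
    simp only [hG₀, hG₂, map_mul, map_add, map_sub, map_pow, RatFunc.algebraMap_C, map_ofNat]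
    rw [← hu, ← hu']
    linear_combination ((algebraMap F[X] (RatFunc F) b) ^ 2 *
      (algebraMap F[X] (RatFunc F) b') ^ 2) * hp
  have hg := h16_gauss p m G₀ G₁ G₂ hG₀ne e1 e2
  have hab' : (a * b').natDegree ≤ M + M' := h16_nd_mul hda hdb'
  have ha'b : (a' * b).natDegree ≤ M + M' := by have := h16_nd_mul hda' hdb; omega
  have haa' : (a * a').natDegree ≤ M + M' := h16_nd_mul hda hda'
  have hbb' : (b * b').natDegree ≤ M + M' := h16_nd_mul hdb hdb'
  have hCbb' : (C A * (b * b')).natDegree ≤ M + M' := by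
    have := h16_nd_mul (h16_nd_C A) hbb'; omega
  have hsum : (a * b' + a' * b).natDegree ≤ M + M' := h16_nd_add hab' ha'b
  have d0 : G₀.natDegree ≤ 2 * M + 2 * M' := by
    rw [hG₀]
    have := h16_nd_pow (h16_nd_sub hab' ha'b) 2
    omega
  have d1 : G₁.natDegree ≤ 2 * M + 2 * M' := by
    rw [hG₁]
    have h1 := h16_nd_mul (h16_nd_mul h16_nd_two (h16_nd_add haa' hCbb')) hsum
    have h2 := h16_nd_mul (h16_nd_mul h16_nd_four (h16_nd_C B))
      (h16_nd_mul (h16_nd_pow hdb 2) (h16_nd_pow hdb' 2))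
    refine h16_nd_add (by omega) (by omega)
  have d2 : G₂.natDegree ≤ 2 * M + 2 * M' := by
    rw [hG₂]
    have h1 := h16_nd_pow (h16_nd_sub haa' hCbb') 2
    have h2 := h16_nd_mul (h16_nd_mul h16_nd_four (h16_nd_C B)) (h16_nd_mul hbb' hsum)
    refine h16_nd_sub (by omega) (by omega)
  exact hg.trans (max_le d0 (max_le d1 d2))

private lemma h16_nd_Cmul {x : F[X]} {m : ℕ} (c : F) (hx : x.natDegree ≤ m) :
    (C c * x).natDegree ≤ m := by
  have := h16_nd_mul (h16_nd_C c) hx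
  omega

private lemma h16_nd_mono {a b : F[X]} {M : ℕ} (ha : a.natDegree ≤ M) (hb : b.natDegree ≤ M)
    (i j : ℕ) : (a ^ i * b ^ j).natDegree ≤ (i + j) * M := by
  have := h16_nd_mul (h16_nd_pow ha i) (h16_nd_pow hb j)
  rw [add_mul]
  exact this

/-- homogenised numerator of the duplication formula -/
private noncomputable def h16_F4 (A B : F) (a b : F[X]) : F[X] :=
  C 1 * (a ^ 4 * b ^ 0) - C (2 * A) * (a ^ 2 * b ^ 2) - C (8 * B) * (a ^ 1 * b ^ 3)
    + C (A ^ 2) * (a ^ 0 * b ^ 4)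

/-- homogenised denominator of the duplication formula -/
private noncomputable def h16_G4 (A B : F) (a b : F[X]) : F[X] :=
  C 4 * (a ^ 3 * b ^ 1) + C (4 * A) * (a ^ 1 * b ^ 3) + C (4 * B) * (a ^ 0 * b ^ 4)

private lemma h16_F4_nd (A B : F) {a b : F[X]} {M : ℕ} (ha : a.natDegree ≤ M)
    (hb : b.natDegree ≤ M) : (h16_F4 A B a b).natDegree ≤ 4 * M := by
  unfold h16_F4
  refine h16_nd_add (h16_nd_sub (h16_nd_sub ?_ ?_) ?_) ?_
  · exact h16_nd_Cmul _ (h16_nd_mono ha hb 4 0)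
  · exact h16_nd_Cmul _ (h16_nd_mono ha hb 2 2)
  · exact h16_nd_Cmul _ (h16_nd_mono ha hb 1 3)
  · exact h16_nd_Cmul _ (h16_nd_mono ha hb 0 4)

private lemma h16_G4_nd (A B : F) {a b : F[X]} {M : ℕ} (ha : a.natDegree ≤ M)
    (hb : b.natDegree ≤ M) : (h16_G4 A B a b).natDegree ≤ 4 * M := by
  unfold h16_G4
  refine h16_nd_add (h16_nd_add ?_ ?_) ?_
  · exact h16_nd_Cmul _ (h16_nd_mono ha hb 3 1)
  · exact h16_nd_Cmul _ (h16_nd_mono ha hb 1 3)
  · exact h16_nd_Cmul _ (h16_nd_mono ha hb 0 4)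

private noncomputable def h16_f1 (A : F) (a b : F[X]) : F[X] :=
  C 12 * (a ^ 2 * b ^ 1) + C (16 * A) * (a ^ 0 * b ^ 3)

private noncomputable def h16_g1 (A B : F) (a b : F[X]) : F[X] :=
  C 3 * (a ^ 3 * b ^ 0) - C (5 * A) * (a ^ 1 * b ^ 2) - C (27 * B) * (a ^ 0 * b ^ 3)

private noncomputable def h16_f2 (A B : F) (a b : F[X]) : F[X] :=
  C (4 * (4 * A ^ 3 + 27 * B ^ 2)) * (a ^ 3 * b ^ 0) - C (4 * A ^ 2 * B) * (a ^ 2 * b ^ 1)
    + C (4 * A * (3 * A ^ 3 + 22 * B ^ 2)) * (a ^ 1 * b ^ 2)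
    + C (12 * B * (A ^ 3 + 8 * B ^ 2)) * (a ^ 0 * b ^ 3)

private noncomputable def h16_g2 (A B : F) (a b : F[X]) : F[X] :=
  C (A ^ 2 * B) * (a ^ 3 * b ^ 0) + C (A * (5 * A ^ 3 + 32 * B ^ 2)) * (a ^ 2 * b ^ 1)
    + C (2 * B * (13 * A ^ 3 + 96 * B ^ 2)) * (a ^ 1 * b ^ 2)
    - C (3 * A ^ 2 * (A ^ 3 + 8 * B ^ 2)) * (a ^ 0 * b ^ 3)

private lemma h16_f1_nd (A : F) {a b : F[X]} {M : ℕ} (ha : a.natDegree ≤ M)
    (hb : b.natDegree ≤ M) : (h16_f1 A a b).natDegree ≤ 3 * M := by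
  unfold h16_f1
  refine h16_nd_add ?_ ?_
  · exact h16_nd_Cmul _ (h16_nd_mono ha hb 2 1)
  · exact h16_nd_Cmul _ (h16_nd_mono ha hb 0 3)

private lemma h16_g1_nd (A B : F) {a b : F[X]} {M : ℕ} (ha : a.natDegree ≤ M)
    (hb : b.natDegree ≤ M) : (h16_g1 A B a b).natDegree ≤ 3 * M := by
  unfold h16_g1
  refine h16_nd_sub (h16_nd_sub ?_ ?_) ?_
  · exact h16_nd_Cmul _ (h16_nd_mono ha hb 3 0)
  · exact h16_nd_Cmul _ (h16_nd_mono ha hb 1 2)
  · exact h16_nd_Cmul _ (h16_nd_mono ha hb 0 3)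

private lemma h16_f2_nd (A B : F) {a b : F[X]} {M : ℕ} (ha : a.natDegree ≤ M)
    (hb : b.natDegree ≤ M) : (h16_f2 A B a b).natDegree ≤ 3 * M := by
  unfold h16_f2
  refine h16_nd_add (h16_nd_add (h16_nd_sub ?_ ?_) ?_) ?_
  · exact h16_nd_Cmul _ (h16_nd_mono ha hb 3 0)
  · exact h16_nd_Cmul _ (h16_nd_mono ha hb 2 1)
  · exact h16_nd_Cmul _ (h16_nd_mono ha hb 1 2)
  · exact h16_nd_Cmul _ (h16_nd_mono ha hb 0 3)

private lemma h16_g2_nd (A B : F) {a b : F[X]} {M : ℕ} (ha : a.natDegree ≤ M)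
    (hb : b.natDegree ≤ M) : (h16_g2 A B a b).natDegree ≤ 3 * M := by
  unfold h16_g2
  refine h16_nd_sub (h16_nd_add (h16_nd_add ?_ ?_) ?_) ?_
  · exact h16_nd_Cmul _ (h16_nd_mono ha hb 3 0)
  · exact h16_nd_Cmul _ (h16_nd_mono ha hb 2 1)
  · exact h16_nd_Cmul _ (h16_nd_mono ha hb 1 2)
  · exact h16_nd_Cmul _ (h16_nd_mono ha hb 0 3)

private lemma h16_id1 (A B : F) (a b : F[X]) :
    h16_f1 A a b * h16_F4 A B a b - h16_g1 A B a b * h16_G4 A B a b
      = C (4 * (4 * A ^ 3 + 27 * B ^ 2)) * b ^ 7 := by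
  simp only [h16_f1, h16_F4, h16_g1, h16_G4, map_mul, map_add, map_pow, map_ofNat, map_one]
  ring

private lemma h16_id2 (A B : F) (a b : F[X]) :
    h16_f2 A B a b * h16_F4 A B a b + h16_g2 A B a b * h16_G4 A B a b
      = C (4 * (4 * A ^ 3 + 27 * B ^ 2)) * a ^ 7 := by
  simp only [h16_f2, h16_F4, h16_g2, h16_G4, map_mul, map_add, map_pow, map_ofNat, map_one]
  ring

/-- the homogenised duplication pair at a coprime pair: coprime, of exact degree `4 M` -/
private lemma h16_dup_pair (A B : F) (h2 : (2 : F) ≠ 0) (hΔ : 4 * A ^ 3 + 27 * B ^ 2 ≠ 0)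
    {a b : F[X]} (hab : IsCoprime a b) :
    IsCoprime (h16_F4 A B a b) (h16_G4 A B a b) ∧
      max (h16_F4 A B a b).natDegree (h16_G4 A B a b).natDegree
        = 4 * max a.natDegree b.natDegree := by
  have hκ : (4 * (4 * A ^ 3 + 27 * B ^ 2) : F) ≠ 0 := by
    have h4 : (4 : F) ≠ 0 := by
      have : (4 : F) = 2 * 2 := by norm_num
      rw [this]; exact mul_ne_zero h2 h2
    exact mul_ne_zero h4 hΔ
  set κ : F := 4 * (4 * A ^ 3 + 27 * B ^ 2) with hκdef
  have i1 := h16_id1 A B a b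
  have i2 := h16_id2 A B a b
  rw [← hκdef] at i1 i2
  constructor
  · obtain ⟨x, y, hxy⟩ := IsCoprime.pow (m := 7) (n := 7) hab
    have hk : C κ⁻¹ * C κ = (1 : F[X]) := by
      rw [← C_mul, inv_mul_cancel₀ hκ, C_1]
    refine ⟨C κ⁻¹ * (x * h16_f2 A B a b + y * h16_f1 A a b),
      C κ⁻¹ * (x * h16_g2 A B a b - y * h16_g1 A B a b), ?_⟩
    linear_combination (C κ⁻¹ * x) * i2 + (C κ⁻¹ * y) * i1 + (C κ⁻¹ * C κ) * hxy + hk
  · set M := max a.natDegree b.natDegree with hM
    have ha : a.natDegree ≤ M := le_max_left _ _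
    have hbM : b.natDegree ≤ M := le_max_right _ _
    have hF := h16_F4_nd A B ha hbM
    have hG := h16_G4_nd A B ha hbM
    refine le_antisymm (max_le hF hG) ?_
    rcases le_or_gt a.natDegree b.natDegree with hcase | hcase
    · -- `M = deg b`, use the first identity
      have hMb : M = b.natDegree := max_eq_right hcase
      have h7 : (C κ * b ^ 7).natDegree = 7 * M := by
        rw [natDegree_C_mul hκ, natDegree_pow, hMb]
      have hle : (h16_f1 A a b * h16_F4 A B a b - h16_g1 A B a b * h16_G4 A B a b).natDegree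
          ≤ 3 * M + max (h16_F4 A B a b).natDegree (h16_G4 A B a b).natDegree := by
        refine h16_nd_sub ?_ ?_
        · exact h16_nd_mul (h16_f1_nd A ha hbM) (le_max_left _ _)
        · exact h16_nd_mul (h16_g1_nd A B ha hbM) (le_max_right _ _)
      rw [i1, h7] at hle
      omega
    · -- `M = deg a`, use the second identity
      have hMa : M = a.natDegree := max_eq_left hcase.le
      have h7 : (C κ * a ^ 7).natDegree = 7 * M := by
        rw [natDegree_C_mul hκ, natDegree_pow, hMa]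
      have hle : (h16_f2 A B a b * h16_F4 A B a b + h16_g2 A B a b * h16_G4 A B a b).natDegree
          ≤ 3 * M + max (h16_F4 A B a b).natDegree (h16_G4 A B a b).natDegree := by
        refine h16_nd_add ?_ ?_
        · exact h16_nd_mul (h16_f2_nd A B ha hbM) (le_max_left _ _)
        · exact h16_nd_mul (h16_g2_nd A B ha hbM) (le_max_right _ _)
      rw [i2, h7] at hle
      omega

private lemma h16_four_ne (h2 : (2 : F) ≠ 0) : (4 : RatFunc F) ≠ 0 := by
  have h4 : (4 : F) ≠ 0 := by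
    have : (4 : F) = 2 * 2 := by norm_num
    rw [this]; exact mul_ne_zero h2 h2
  have : (4 : RatFunc F) = RatFunc.C (4 : F) := (map_ofNat (RatFunc.C : F →+* RatFunc F) 4).symm
  rw [this]
  exact (map_ne_zero (RatFunc.C : F →+* RatFunc F)).mpr h4

variable (A B : F)

/-- duplication multiplies the degree by 4 -/
theorem h5_deg_dup (h2 : (2 : F) ≠ 0) (hΔ : 4 * A ^ 3 + 27 * B ^ 2 ≠ 0) {u d : RatFunc F}
    (hf : u ^ 3 + RatFunc.C A * u + RatFunc.C B ≠ 0)
    (hd : d * (4 * (u ^ 3 + RatFunc.C A * u + RatFunc.C B)) =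
      u ^ 4 - 2 * RatFunc.C A * u ^ 2 - 8 * RatFunc.C B * u + RatFunc.C A ^ 2) :
    h5_deg d = 4 * h5_deg u := by
  have hu := h16_num_denom u
  have hb0 : u.denom ≠ 0 := u.denom_ne_zero
  have hcop := RatFunc.isCoprime_num_denom u
  have hdeg : h5_deg u = max u.num.natDegree u.denom.natDegree := rfl
  set a := u.num with ha
  set b := u.denom with hb
  have hιb : algebraMap F[X] (RatFunc F) b ≠ 0 := by
    rw [Ne, map_eq_zero_iff _ (RatFunc.algebraMap_injective F)]; exact hb0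
  have e : d * algebraMap F[X] (RatFunc F) (h16_G4 A B a b)
      = algebraMap F[X] (RatFunc F) (h16_F4 A B a b) := by
    simp only [h16_G4, h16_F4, map_mul, map_add, map_sub, map_pow, RatFunc.algebraMap_C,
      map_ofNat, map_one]
    rw [← hu]
    linear_combination ((algebraMap F[X] (RatFunc F) b) ^ 4) * hd
  have hGeq : algebraMap F[X] (RatFunc F) (h16_G4 A B a b)
      = 4 * (algebraMap F[X] (RatFunc F) b) ^ 4 * (u ^ 3 + RatFunc.C A * u + RatFunc.C B) := by
    simp only [h16_G4, map_mul, map_add, map_pow, RatFunc.algebraMap_C, map_ofNat]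
    rw [← hu]
    ring
  have hG : h16_G4 A B a b ≠ 0 := by
    intro h0
    rw [h0, map_zero] at hGeq
    exact mul_ne_zero (mul_ne_zero (h16_four_ne h2) (pow_ne_zero 4 hιb)) hf hGeq.symm
  obtain ⟨hc, hmax⟩ := h16_dup_pair A B h2 hΔ hcop
  rw [h16_deg_eq d _ _ hG hc e, hmax, hdeg]

/-- the degenerate case `f(u) = 0` of the parallelogram law -/
private lemma h16_para_special (h2 : (2 : F) ≠ 0) (hΔ : 4 * A ^ 3 + 27 * B ^ 2 ≠ 0)
    {u u' p m : RatFunc F} (hne : u ≠ u')
    (hs : (p + m) * (u - u') ^ 2 = 2 * (u * u' + RatFunc.C A) * (u + u') + 4 * RatFunc.C B)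
    (hp : p * m * (u - u') ^ 2 = (u * u' - RatFunc.C A) ^ 2 - 4 * RatFunc.C B * (u + u'))
    (hfu : u ^ 3 + RatFunc.C A * u + RatFunc.C B = 0) :
    2 * h5_deg u' ≤ h5_deg p + h5_deg m ∧ h5_deg u = 0 := by
  -- `u` is a constant
  have hconst : ∃ e : F, u = RatFunc.C e := by
    by_contra hcon
    have htr := RatFunc.transcendental_of_ne_C u hcon
    apply htr
    refine ⟨X ^ 3 + C A * X + C B, ?_, ?_⟩
    · intro h0
      have := congrArg (fun q : F[X] => q.coeff 3) h0
      simp at this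
    · simpa [RatFunc.algebraMap_eq_C] using hfu
  obtain ⟨e, rfl⟩ := hconst
  have hfe : e ^ 3 + A * e + B = 0 := by
    have : RatFunc.C (e ^ 3 + A * e + B) = (0 : RatFunc F) := by
      simpa [map_add, map_mul, map_pow] using hfu
    exact (map_eq_zero (RatFunc.C : F →+* RatFunc F)).mp this
  have hfe' : 3 * e ^ 2 + A ≠ 0 := by
    intro h0
    apply hΔ
    linear_combination (3 * (9 * B - 6 * A * e)) * hfe + (4 * A ^ 2 - e * (9 * B - 6 * A * e)) * h0
  have hdeg0 : h5_deg (RatFunc.C e : RatFunc F) = 0 := by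
    simp [h5_deg, RatFunc.num_C, RatFunc.denom_C]
  refine ⟨?_, hdeg0⟩
  have hw : (RatFunc.C e - u') ≠ 0 := sub_ne_zero.mpr hne
  have hw' : (u' - RatFunc.C e) ≠ 0 := sub_ne_zero.mpr (Ne.symm hne)
  -- `p = m`
  have hpm : p = m := by
    have k1 : (p - m) ^ 2 * (RatFunc.C e - u') ^ 4 = 0 := by
      linear_combination ((p + m) * (RatFunc.C e - u') ^ 2
        + (2 * (RatFunc.C e * u' + RatFunc.C A) * (RatFunc.C e + u') + 4 * RatFunc.C B)) * hs
        - 4 * (RatFunc.C e - u') ^ 2 * hp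
        + 16 * (u' ^ 3 + RatFunc.C A * u' + RatFunc.C B) * hfu
    have k2 : (p - m) ^ 2 = 0 := by
      rcases mul_eq_zero.mp k1 with h | h
      · exact h
      · exact absurd (pow_eq_zero_iff (by norm_num) |>.mp h) hw
    exact sub_eq_zero.mp (pow_eq_zero_iff (by norm_num) |>.mp k2)
  subst hpm
  have h2R : (2 : RatFunc F) ≠ 0 := by
    intro h0
    apply h16_four_ne h2
    have : (4 : RatFunc F) = 2 * 2 := by norm_num
    rw [this, h0, mul_zero]
  have key : p * (u' - RatFunc.C e) = RatFunc.C e * u' + 2 * RatFunc.C e ^ 2 + RatFunc.C A := by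
    apply mul_left_cancel₀ (mul_ne_zero h2R hw')
    linear_combination hs + 4 * hfu
  have key2 : u' * (p - RatFunc.C e) = p * RatFunc.C e + 2 * RatFunc.C e ^ 2 + RatFunc.C A := by
    linear_combination key
  have hpe : p ≠ RatFunc.C e := by
    intro h0
    rw [h0, sub_self, mul_zero] at key2
    have : RatFunc.C (3 * e ^ 2 + A) = (0 : RatFunc F) := by
      simp only [map_add, map_mul, map_pow, map_ofNat]
      linear_combination -key2
    exact hfe' ((map_eq_zero (RatFunc.C : F →+* RatFunc F)).mp this)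
  have hpr := h16_num_denom p
  have hb0 : p.denom ≠ 0 := p.denom_ne_zero
  have hdegp : h5_deg p = max p.num.natDegree p.denom.natDegree := rfl
  set a := p.num with ha
  set b := p.denom with hb
  have hιb : algebraMap F[X] (RatFunc F) b ≠ 0 := by
    rw [Ne, map_eq_zero_iff _ (RatFunc.algebraMap_injective F)]; exact hb0
  have hV : a - C e * b ≠ 0 := by
    intro h0
    apply hpe
    have h1 : algebraMap F[X] (RatFunc F) (a - C e * b) = 0 := by rw [h0, map_zero]
    simp only [map_sub, map_mul, RatFunc.algebraMap_C] at h1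
    rw [← hpr] at h1
    have h3 : (p - RatFunc.C e) * algebraMap F[X] (RatFunc F) b = 0 := by linear_combination h1
    rcases mul_eq_zero.mp h3 with h | h
    · exact sub_eq_zero.mp h
    · exact absurd h hιb
  have hrel : u' * algebraMap F[X] (RatFunc F) (a - C e * b)
      = algebraMap F[X] (RatFunc F) (C e * a + C (2 * e ^ 2 + A) * b) := by
    simp only [map_sub, map_mul, map_add, map_pow, RatFunc.algebraMap_C, map_ofNat]
    rw [← hpr]
    linear_combination (algebraMap F[X] (RatFunc F) b) * key2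
  have hle := h16_deg_le u' _ _ hV hrel
  have hda : a.natDegree ≤ h5_deg p := by rw [hdegp]; exact le_max_left _ _
  have hdb : b.natDegree ≤ h5_deg p := by rw [hdegp]; exact le_max_right _ _
  have hU : (C e * a + C (2 * e ^ 2 + A) * b).natDegree ≤ h5_deg p :=
    h16_nd_add (h16_nd_Cmul _ hda) (h16_nd_Cmul _ hdb)
  have hVd : (a - C e * b).natDegree ≤ h5_deg p :=
    h16_nd_sub hda (h16_nd_Cmul _ hdb)
  have : h5_deg u' ≤ h5_deg p := hle.trans (max_le hU hVd)
  omega

/-- exact parallelogram law for degrees -/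
theorem h5_deg_para (h2 : (2 : F) ≠ 0) (hΔ : 4 * A ^ 3 + 27 * B ^ 2 ≠ 0) {u u' p m : RatFunc F}
    (hne : u ≠ u')
    (hs : (p + m) * (u - u') ^ 2 = 2 * (u * u' + RatFunc.C A) * (u + u') + 4 * RatFunc.C B)
    (hp : p * m * (u - u') ^ 2 = (u * u' - RatFunc.C A) ^ 2 - 4 * RatFunc.C B * (u + u')) :
    h5_deg p + h5_deg m = 2 * h5_deg u + 2 * h5_deg u' := by
  have hub := h16_ub A B hne hs hp
  by_cases hfu : u ^ 3 + RatFunc.C A * u + RatFunc.C B = 0
  · obtain ⟨h1, h0⟩ := h16_para_special A B h2 hΔ hne hs hp hfu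
    omega
  by_cases hfu' : u' ^ 3 + RatFunc.C A * u' + RatFunc.C B = 0
  · have hs' : (p + m) * (u' - u) ^ 2
        = 2 * (u' * u + RatFunc.C A) * (u' + u) + 4 * RatFunc.C B := by
      linear_combination hs
    have hp' : p * m * (u' - u) ^ 2
        = (u' * u - RatFunc.C A) ^ 2 - 4 * RatFunc.C B * (u' + u) := by
      linear_combination hp
    obtain ⟨h1, h0⟩ := h16_para_special A B h2 hΔ (Ne.symm hne) hs' hp' hfu'
    omega
  -- the general case
  have h4 := h16_four_ne (F := F) h2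
  have h16 : (16 : RatFunc F) ≠ 0 := by
    have : (16 : RatFunc F) = 4 * 4 := by norm_num
    rw [this]; exact mul_ne_zero h4 h4
  have hw : u - u' ≠ 0 := sub_ne_zero.mpr hne
  set fu := u ^ 3 + RatFunc.C A * u + RatFunc.C B with hfu_def
  set fu' := u' ^ 3 + RatFunc.C A * u' + RatFunc.C B with hfu'_def
  set D := (u ^ 4 - 2 * RatFunc.C A * u ^ 2 - 8 * RatFunc.C B * u + RatFunc.C A ^ 2) / (4 * fu)
    with hD_def
  set D' := (u' ^ 4 - 2 * RatFunc.C A * u' ^ 2 - 8 * RatFunc.C B * u' + RatFunc.C A ^ 2)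
    / (4 * fu') with hD'_def
  have hD : D * (4 * fu)
      = u ^ 4 - 2 * RatFunc.C A * u ^ 2 - 8 * RatFunc.C B * u + RatFunc.C A ^ 2 :=
    div_mul_cancel₀ _ (mul_ne_zero h4 hfu)
  have hD' : D' * (4 * fu')
      = u' ^ 4 - 2 * RatFunc.C A * u' ^ 2 - 8 * RatFunc.C B * u' + RatFunc.C A ^ 2 :=
    div_mul_cancel₀ _ (mul_ne_zero h4 hfu')
  have hdegD : h5_deg D = 4 * h5_deg u := h5_deg_dup A B h2 hΔ hfu hD
  have hdegD' : h5_deg D' = 4 * h5_deg u' := h5_deg_dup A B h2 hΔ hfu' hD'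
  -- the discriminant
  have k1 : (p - m) ^ 2 * (u - u') ^ 4 = 16 * fu * fu' := by
    rw [hfu_def, hfu'_def]
    linear_combination ((p + m) * (u - u') ^ 2
        + (2 * (u * u' + RatFunc.C A) * (u + u') + 4 * RatFunc.C B)) * hs
      - 4 * (u - u') ^ 2 * hp
  have hpm : p ≠ m := by
    intro h0
    rw [h0, sub_self] at k1
    have : (16 : RatFunc F) * fu * fu' = 0 := by rw [← k1]; ring
    exact mul_ne_zero (mul_ne_zero h16 hfu) hfu' this
  have hK : (u - u') ^ 4 * (16 * fu * fu') ≠ 0 :=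
    mul_ne_zero (pow_ne_zero 4 hw) (mul_ne_zero (mul_ne_zero h16 hfu) hfu')
  have k2 : (D + D') * (16 * fu * fu')
      = 4 * ((u ^ 4 - 2 * RatFunc.C A * u ^ 2 - 8 * RatFunc.C B * u + RatFunc.C A ^ 2) * fu'
        + (u' ^ 4 - 2 * RatFunc.C A * u' ^ 2 - 8 * RatFunc.C B * u' + RatFunc.C A ^ 2) * fu) := by
    linear_combination (4 * fu') * hD + (4 * fu) * hD'
  have k4 : D * D' * (16 * fu * fu')
      = (u ^ 4 - 2 * RatFunc.C A * u ^ 2 - 8 * RatFunc.C B * u + RatFunc.C A ^ 2)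
        * (u' ^ 4 - 2 * RatFunc.C A * u' ^ 2 - 8 * RatFunc.C B * u' + RatFunc.C A ^ 2) := by
    linear_combination (D' * 4 * fu') * hD
      + (u ^ 4 - 2 * RatFunc.C A * u ^ 2 - 8 * RatFunc.C B * u + RatFunc.C A ^ 2) * hD'
  -- `(p, m)` have "sum" and "difference" `D`, `D'`
  have hs2 : (D + D') * (p - m) ^ 2
      = 2 * (p * m + RatFunc.C A) * (p + m) + 4 * RatFunc.C B := by
    apply mul_right_cancel₀ hK
    have k3 : (2 * (p * m + RatFunc.C A) * (p + m) + 4 * RatFunc.C B) * (u - u') ^ 4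
        = 2 * (((u * u' - RatFunc.C A) ^ 2 - 4 * RatFunc.C B * (u + u'))
            + RatFunc.C A * (u - u') ^ 2)
          * (2 * (u * u' + RatFunc.C A) * (u + u') + 4 * RatFunc.C B)
          + 4 * RatFunc.C B * (u - u') ^ 4 := by
      linear_combination (2 * (p * m * (u - u') ^ 2 + RatFunc.C A * (u - u') ^ 2)) * hs
        + (2 * (2 * (u * u' + RatFunc.C A) * (u + u') + 4 * RatFunc.C B)) * hp
    rw [hfu_def, hfu'_def] at k1 k2 ⊢
    linear_combination ((D + D') * 16 * (u ^ 3 + RatFunc.C A * u + RatFunc.C B)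
        * (u' ^ 3 + RatFunc.C A * u' + RatFunc.C B)) * k1
      + (16 * (u ^ 3 + RatFunc.C A * u + RatFunc.C B)
        * (u' ^ 3 + RatFunc.C A * u' + RatFunc.C B)) * k2
      - (16 * (u ^ 3 + RatFunc.C A * u + RatFunc.C B)
        * (u' ^ 3 + RatFunc.C A * u' + RatFunc.C B)) * k3
  have hp2 : D * D' * (p - m) ^ 2
      = (p * m - RatFunc.C A) ^ 2 - 4 * RatFunc.C B * (p + m) := by
    apply mul_right_cancel₀ hK
    have k5 : ((p * m - RatFunc.C A) ^ 2 - 4 * RatFunc.C B * (p + m)) * (u - u') ^ 4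
        = (((u * u' - RatFunc.C A) ^ 2 - 4 * RatFunc.C B * (u + u'))
            - RatFunc.C A * (u - u') ^ 2) ^ 2
          - 4 * RatFunc.C B * (2 * (u * u' + RatFunc.C A) * (u + u') + 4 * RatFunc.C B)
            * (u - u') ^ 2 := by
      linear_combination (p * m * (u - u') ^ 2
          + ((u * u' - RatFunc.C A) ^ 2 - 4 * RatFunc.C B * (u + u'))
          - 2 * RatFunc.C A * (u - u') ^ 2) * hp
        - (4 * RatFunc.C B * (u - u') ^ 2) * hs
    rw [hfu_def, hfu'_def] at k1 k4 ⊢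
    linear_combination (D * D' * 16 * (u ^ 3 + RatFunc.C A * u + RatFunc.C B)
        * (u' ^ 3 + RatFunc.C A * u' + RatFunc.C B)) * k1
      + (16 * (u ^ 3 + RatFunc.C A * u + RatFunc.C B)
        * (u' ^ 3 + RatFunc.C A * u' + RatFunc.C B)) * k4
      - (16 * (u ^ 3 + RatFunc.C A * u + RatFunc.C B)
        * (u' ^ 3 + RatFunc.C A * u' + RatFunc.C B)) * k5
  have hub2 := h16_ub A B hpm hs2 hp2
  omega

end D2

end Fermat.Agent.S52
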