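import Fermat.Agent.S52.h5_Main
import Fermat.Agent.S52.h48_FrobX

/-
helper48, project S52 block (I), row X (final): the characteristic equation of Frobenius on the
short Weierstrass curve `h5_sw A B` over a finite field `F` of characteristic `≠ 2`, for every
point over every field extension `Ω'` of `F`:  `φ² Q - a φ Q + q Q = 0`, `a = q + 1 - #E(F)`.
-/

set_option autoImplicit false

namespace Fermat.Agent.S52

open WeierstrassCurve WeierstrassCurve.Affine

section X
variable {F : Type*} [Field F] [Fintype F] (A B : F)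

theorem h5_frob_charpoly (h2 : (2 : F) ≠ 0) (hΔ : 4 * A ^ 3 + 27 * B ^ 2 ≠ 0)
    {Ω' : Type*} [Field Ω'] [DecidableEq Ω'] [Algebra F Ω'] (Q : h5_Pt A B Ω') :
    h5_psi A B (h5_trace A B) Q = 0 :=
  h48_frob_charpoly_of_two_gen A B h2 hΔ (h5_trace A B)
    (fun y hy h => h5_two_psi_gen A B y h2 hΔ hy h) Q

end X

end Fermat.Agent.S52
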