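import Fermat.Agent.S52.h5_SwAdd

/-!
# Addition formulas for any Weierstrass curve with `a₁ = a₂ = a₃ = 0` (helper5)

Same statements as in `h5_SwAdd`, for an arbitrary `W` with `a₁ = a₂ = a₃ = 0`; they apply
verbatim to base changes `(h5_sw A B).toAffine⁄Ω` (whose `a₄`, `a₆` are `algebraMap F Ω A`,
`algebraMap F Ω B` by `rfl`).
-/

set_option autoImplicit false
set_option linter.unusedSectionVars false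

namespace Fermat.Agent.S52

open WeierstrassCurve WeierstrassCurve.Affine

variable {K₁ : Type*} [Field K₁] [DecidableEq K₁]

theorem h5_W_equation_iff (W : WeierstrassCurve K₁) (ha₁ : W.a₁ = 0) (ha₂ : W.a₂ = 0)
    (ha₃ : W.a₃ = 0) (X Y : K₁) :
    W.toAffine.Equation X Y ↔ Y ^ 2 = X ^ 3 + W.a₄ * X + W.a₆ := by
  obtain ⟨a₁, a₂, a₃, a₄, a₆⟩ := W
  simp only at ha₁ ha₂ ha₃
  subst ha₁ ha₂ ha₃
  exact h5_sw_equation_iff a₄ a₆ X Y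

theorem h5_W_negY (W : WeierstrassCurve K₁) (ha₁ : W.a₁ = 0) (ha₃ : W.a₃ = 0) (X Y : K₁) :
    W.toAffine.negY X Y = -Y := by
  simp [Affine.negY, ha₁, ha₃]

theorem h5_W_nonsingular (W : WeierstrassCurve K₁) (ha₁ : W.a₁ = 0) (ha₂ : W.a₂ = 0)
    (ha₃ : W.a₃ = 0) (h2 : (2 : K₁) ≠ 0) (hΔ : 4 * W.a₄ ^ 3 + 27 * W.a₆ ^ 2 ≠ 0) {X Y : K₁}
    (h : Y ^ 2 = X ^ 3 + W.a₄ * X + W.a₆) : W.toAffine.Nonsingular X Y := by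
  obtain ⟨a₁, a₂, a₃, a₄, a₆⟩ := W
  simp only at ha₁ ha₂ ha₃ hΔ h
  subst ha₁ ha₂ ha₃
  exact h5_sw_nonsingular a₄ a₆ h2 hΔ h

theorem h5_W_add_sub_of_X_ne (W : WeierstrassCurve K₁) (ha₁ : W.a₁ = 0) (ha₂ : W.a₂ = 0)
    (ha₃ : W.a₃ = 0) {X₁ Y₁ X₂ Y₂ : K₁}
    (h₁ : W.toAffine.Nonsingular X₁ Y₁) (h₂ : W.toAffine.Nonsingular X₂ Y₂)
    (hX : X₁ ≠ X₂) :
    ∃ (X₃ Y₃ X₄ Y₄ : K₁) (h₃ : W.toAffine.Nonsingular X₃ Y₃)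
      (h₄ : W.toAffine.Nonsingular X₄ Y₄),
      Affine.Point.some X₁ Y₁ h₁ + Affine.Point.some X₂ Y₂ h₂ = Affine.Point.some X₃ Y₃ h₃ ∧
      Affine.Point.some X₁ Y₁ h₁ - Affine.Point.some X₂ Y₂ h₂ = Affine.Point.some X₄ Y₄ h₄ ∧
      (X₃ + X₄) * (X₁ - X₂) ^ 2 = 2 * (X₁ * X₂ + W.a₄) * (X₁ + X₂) + 4 * W.a₆ ∧
      X₃ * X₄ * (X₁ - X₂) ^ 2 = (X₁ * X₂ - W.a₄) ^ 2 - 4 * W.a₆ * (X₁ + X₂) ∧
      X₃ * (X₁ - X₂) ^ 2 = (Y₁ - Y₂) ^ 2 - (X₁ + X₂) * (X₁ - X₂) ^ 2 ∧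
      Y₃ * (X₁ - X₂) = -((Y₁ - Y₂) * (X₃ - X₁) + Y₁ * (X₁ - X₂)) ∧
      X₄ * (X₁ - X₂) ^ 2 = (Y₁ + Y₂) ^ 2 - (X₁ + X₂) * (X₁ - X₂) ^ 2 ∧
      Y₄ * (X₁ - X₂) = -((Y₁ + Y₂) * (X₄ - X₁) + Y₁ * (X₁ - X₂)) := by
  obtain ⟨a₁, a₂, a₃, a₄, a₆⟩ := W
  simp only at ha₁ ha₂ ha₃
  subst ha₁ ha₂ ha₃
  exact h5_sw_add_sub_of_X_ne a₄ a₆ h₁ h₂ hX

theorem h5_W_add_self_of_Y_ne (W : WeierstrassCurve K₁) (ha₁ : W.a₁ = 0) (ha₂ : W.a₂ = 0)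
    (ha₃ : W.a₃ = 0) {X Y : K₁} (h : W.toAffine.Nonsingular X Y) (hY : Y ≠ 0)
    (h2 : (2 : K₁) ≠ 0) :
    ∃ (X₅ Y₅ : K₁) (h₅ : W.toAffine.Nonsingular X₅ Y₅),
      Affine.Point.some X Y h + Affine.Point.some X Y h = Affine.Point.some X₅ Y₅ h₅ ∧
      X₅ * (4 * Y ^ 2) = X ^ 4 - 2 * W.a₄ * X ^ 2 - 8 * W.a₆ * X + W.a₄ ^ 2 ∧
      Y₅ * (2 * Y) = -((3 * X ^ 2 + W.a₄) * (X₅ - X) + 2 * Y ^ 2) := by
  obtain ⟨a₁, a₂, a₃, a₄, a₆⟩ := W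
  simp only at ha₁ ha₂ ha₃
  subst ha₁ ha₂ ha₃
  exact h5_sw_add_self_of_Y_ne a₄ a₆ h hY h2

theorem h5_W_add_self_of_Y_eq (W : WeierstrassCurve K₁) (ha₁ : W.a₁ = 0) (ha₃ : W.a₃ = 0)
    {X Y : K₁} (h : W.toAffine.Nonsingular X Y) (hY : Y = 0) :
    Affine.Point.some X Y h + Affine.Point.some X Y h = 0 := by
  apply Affine.Point.add_self_of_Y_eq
  rw [h5_W_negY W ha₁ ha₃, hY, neg_zero]

/-- The same facts for the base change of `h5_sw A B`, in ready-to-use form. -/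
theorem h5_bc_equation_iff {F : Type*} [Field F] (A B : F) [Algebra F K₁] (X Y : K₁) :
    ((h5_sw A B).toAffine⁄K₁).Equation X Y ↔
      Y ^ 2 = X ^ 3 + algebraMap F K₁ A * X + algebraMap F K₁ B :=
  h5_W_equation_iff ((h5_sw A B).toAffine⁄K₁) (by simp [h5_sw]) (by simp [h5_sw])
    (by simp [h5_sw]) X Y

theorem h5_bc_nonsingular {F : Type*} [Field F] (A B : F) [Algebra F K₁] (h2 : (2 : F) ≠ 0)
    (hΔ : 4 * A ^ 3 + 27 * B ^ 2 ≠ 0) {X Y : K₁}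
    (h : Y ^ 2 = X ^ 3 + algebraMap F K₁ A * X + algebraMap F K₁ B) :
    ((h5_sw A B).toAffine⁄K₁).Nonsingular X Y := by
  refine h5_W_nonsingular ((h5_sw A B).toAffine⁄K₁) (by simp [h5_sw]) (by simp [h5_sw])
    (by simp [h5_sw]) ?_ ?_ h
  · have : (2 : K₁) = algebraMap F K₁ 2 := (map_ofNat (algebraMap F K₁) 2).symm
    rw [this]
    exact (map_ne_zero _).2 h2
  · have : (4 * ((h5_sw A B).toAffine⁄K₁).a₄ ^ 3 + 27 * ((h5_sw A B).toAffine⁄K₁).a₆ ^ 2 : K₁) =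
        algebraMap F K₁ (4 * A ^ 3 + 27 * B ^ 2) := by
      simp only [map_add, map_mul, map_pow, map_ofNat]
      rfl
    rw [this]
    exact (map_ne_zero _).2 hΔ

section bc

variable {F : Type*} [Field F] (A B : F) [Algebra F K₁]

theorem h5_bc_a₁ : ((h5_sw A B).toAffine⁄K₁).a₁ = 0 := by simp [h5_sw]

theorem h5_bc_a₂ : ((h5_sw A B).toAffine⁄K₁).a₂ = 0 := by simp [h5_sw]

theorem h5_bc_a₃ : ((h5_sw A B).toAffine⁄K₁).a₃ = 0 := by simp [h5_sw]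

theorem h5_bc_a₄ : ((h5_sw A B).toAffine⁄K₁).a₄ = algebraMap F K₁ A := rfl

theorem h5_bc_a₆ : ((h5_sw A B).toAffine⁄K₁).a₆ = algebraMap F K₁ B := rfl

theorem h5_bc_negY (X Y : K₁) : ((h5_sw A B).toAffine⁄K₁).negY X Y = -Y :=
  h5_W_negY _ (h5_bc_a₁ A B) (h5_bc_a₃ A B) X Y

/-- Sum and difference of two points with distinct `x`-coordinates on the base change. -/
theorem h5_bc_add_sub_of_X_ne {X₁ Y₁ X₂ Y₂ : K₁}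
    (h₁ : ((h5_sw A B).toAffine⁄K₁).Nonsingular X₁ Y₁)
    (h₂ : ((h5_sw A B).toAffine⁄K₁).Nonsingular X₂ Y₂) (hX : X₁ ≠ X₂) :
    ∃ (X₃ Y₃ X₄ Y₄ : K₁) (h₃ : ((h5_sw A B).toAffine⁄K₁).Nonsingular X₃ Y₃)
      (h₄ : ((h5_sw A B).toAffine⁄K₁).Nonsingular X₄ Y₄),
      Affine.Point.some X₁ Y₁ h₁ + Affine.Point.some X₂ Y₂ h₂ = Affine.Point.some X₃ Y₃ h₃ ∧
      Affine.Point.some X₁ Y₁ h₁ - Affine.Point.some X₂ Y₂ h₂ = Affine.Point.some X₄ Y₄ h₄ ∧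
      (X₃ + X₄) * (X₁ - X₂) ^ 2 =
        2 * (X₁ * X₂ + algebraMap F K₁ A) * (X₁ + X₂) + 4 * algebraMap F K₁ B ∧
      X₃ * X₄ * (X₁ - X₂) ^ 2 =
        (X₁ * X₂ - algebraMap F K₁ A) ^ 2 - 4 * algebraMap F K₁ B * (X₁ + X₂) ∧
      X₃ * (X₁ - X₂) ^ 2 = (Y₁ - Y₂) ^ 2 - (X₁ + X₂) * (X₁ - X₂) ^ 2 ∧
      Y₃ * (X₁ - X₂) = -((Y₁ - Y₂) * (X₃ - X₁) + Y₁ * (X₁ - X₂)) ∧
      X₄ * (X₁ - X₂) ^ 2 = (Y₁ + Y₂) ^ 2 - (X₁ + X₂) * (X₁ - X₂) ^ 2 ∧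
      Y₄ * (X₁ - X₂) = -((Y₁ + Y₂) * (X₄ - X₁) + Y₁ * (X₁ - X₂)) :=
  h5_W_add_sub_of_X_ne _ (h5_bc_a₁ A B) (h5_bc_a₂ A B) (h5_bc_a₃ A B) h₁ h₂ hX

/-- Doubling a point with `Y ≠ 0` on the base change. -/
theorem h5_bc_add_self_of_Y_ne {X Y : K₁} (h : ((h5_sw A B).toAffine⁄K₁).Nonsingular X Y)
    (hY : Y ≠ 0) (h2 : (2 : K₁) ≠ 0) :
    ∃ (X₅ Y₅ : K₁) (h₅ : ((h5_sw A B).toAffine⁄K₁).Nonsingular X₅ Y₅),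
      Affine.Point.some X Y h + Affine.Point.some X Y h = Affine.Point.some X₅ Y₅ h₅ ∧
      X₅ * (4 * Y ^ 2) = X ^ 4 - 2 * algebraMap F K₁ A * X ^ 2 - 8 * algebraMap F K₁ B * X +
        algebraMap F K₁ A ^ 2 ∧
      Y₅ * (2 * Y) = -((3 * X ^ 2 + algebraMap F K₁ A) * (X₅ - X) + 2 * Y ^ 2) :=
  h5_W_add_self_of_Y_ne _ (h5_bc_a₁ A B) (h5_bc_a₂ A B) (h5_bc_a₃ A B) h hY h2

/-- A point with `Y = 0` on the base change has order two. -/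
theorem h5_bc_add_self_of_Y_eq {X Y : K₁} (h : ((h5_sw A B).toAffine⁄K₁).Nonsingular X Y)
    (hY : Y = 0) : Affine.Point.some X Y h + Affine.Point.some X Y h = 0 :=
  h5_W_add_self_of_Y_eq _ (h5_bc_a₁ A B) (h5_bc_a₃ A B) h hY

/-- Negation on the base change. -/
theorem h5_bc_neg_some {X Y : K₁} (h : ((h5_sw A B).toAffine⁄K₁).Nonsingular X Y) :
    ∃ h' : ((h5_sw A B).toAffine⁄K₁).Nonsingular X (-Y),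
      -Affine.Point.some X Y h = Affine.Point.some X (-Y) h' := by
  have h' : ((h5_sw A B).toAffine⁄K₁).Nonsingular X (-Y) := by
    have := (Affine.nonsingular_neg (W' := (h5_sw A B).toAffine⁄K₁) (x := X) (y := Y)).2 h
    rwa [h5_bc_negY] at this
  refine ⟨h', ?_⟩
  rw [Affine.Point.neg_some]
  congr 1
  exact h5_bc_negY A B X Y

end bc

end Fermat.Agent.S52
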