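import Mathlib

/-!
# S52, block (I), row R5 QUAD : abstract algebra of a function satisfying the parallelogram law

`G` an additive commutative group, `h : G → ℤ` with
`h (P + Q) + h (P - Q) = 2 * h P + 2 * h Q` for all `P Q`.

* `h8_pair h P Q := h (P + Q) - h P - h Q` is symmetric and biadditive, `h8_pair h P P = 2 * h P`,
  `h (n • P) = n ^ 2 * h P`, and `h` of a `ℤ`-combination of three elements is the expected
  quadratic expression (`h8_h_lin3`).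
* Frobenius form (`h8_frob_quad_A / _B / _C`): if `φ : G →+ G` scales `h` by `ℓ`, `h Q = 1`,
  `N = h (φ Q - Q)` and one further value is known, then
  `h (φ (φ Q) - (ℓ + 1 - N) • φ Q + ℓ • Q) = 0`.
* `h8_hasse` : `(ℓ + 1 - N) ^ 2 ≤ 4 * ℓ` when `h` is nonnegative.
-/

set_option autoImplicit false

namespace Fermat.Agent.S52

section Quad

variable {G : Type*} [AddCommGroup G] (h : G → ℤ)

/-- The pairing attached to `h`. -/
def h8_pair (P Q : G) : ℤ := h (P + Q) - h P - h Q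

variable {h}

theorem h8_h_zero (hpar : ∀ P Q : G, h (P + Q) + h (P - Q) = 2 * h P + 2 * h Q) : h 0 = 0 := by
  have := hpar 0 0
  simp only [add_zero, sub_zero] at this
  linarith

theorem h8_h_neg (hpar : ∀ P Q : G, h (P + Q) + h (P - Q) = 2 * h P + 2 * h Q) (P : G) :
    h (-P) = h P := by
  have h0 := h8_h_zero hpar
  have := hpar 0 P
  simp only [zero_add, zero_sub] at this
  linarith

theorem h8_h_sub_comm (hpar : ∀ P Q : G, h (P + Q) + h (P - Q) = 2 * h P + 2 * h Q) (P Q : G) :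
    h (P - Q) = h (Q - P) := by
  rw [← h8_h_neg hpar (P - Q), neg_sub]

theorem h8_pair_comm (P Q : G) : h8_pair h P Q = h8_pair h Q P := by
  unfold h8_pair
  rw [add_comm P Q]
  ring

theorem h8_h_add (P Q : G) : h (P + Q) = h P + h Q + h8_pair h P Q := by
  unfold h8_pair
  ring

theorem h8_h_sub (hpar : ∀ P Q : G, h (P + Q) + h (P - Q) = 2 * h P + 2 * h Q) (P Q : G) :
    h (P - Q) = h P + h Q - h8_pair h P Q := by
  have := hpar P Q
  unfold h8_pair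
  linarith

theorem h8_pair_self (hpar : ∀ P Q : G, h (P + Q) + h (P - Q) = 2 * h P + 2 * h Q) (P : G) :
    h8_pair h P P = 2 * h P := by
  have h0 := h8_h_zero hpar
  have := hpar P P
  rw [sub_self] at this
  unfold h8_pair
  linarith

theorem h8_pair_zero_left (hpar : ∀ P Q : G, h (P + Q) + h (P - Q) = 2 * h P + 2 * h Q) (Q : G) :
    h8_pair h 0 Q = 0 := by
  have h0 := h8_h_zero hpar
  unfold h8_pair
  rw [zero_add]
  linarith

/-- The "theorem of the cube" consequence of the parallelogram law. -/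
theorem h8_cube (hpar : ∀ P Q : G, h (P + Q) + h (P - Q) = 2 * h P + 2 * h Q) (P R Q : G) :
    h (P + R + Q) - h (P + R) - h (P + Q) - h (R + Q) + h P + h R + h Q = 0 := by
  have ha := hpar (P + R) Q
  have hb := hpar P (R - Q)
  have hc := hpar (P + Q) R
  have hd := hpar R Q
  have e1 : P + (R - Q) = P + R - Q := by abel
  have e2 : P - (R - Q) = P + Q - R := by abel
  have e3 : P + Q + R = P + R + Q := by abel
  rw [e1, e2] at hb
  rw [e3] at hc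
  linarith

theorem h8_pair_add_left (hpar : ∀ P Q : G, h (P + Q) + h (P - Q) = 2 * h P + 2 * h Q)
    (P R Q : G) : h8_pair h (P + R) Q = h8_pair h P Q + h8_pair h R Q := by
  have := h8_cube hpar P R Q
  unfold h8_pair
  linarith

theorem h8_pair_add_right (hpar : ∀ P Q : G, h (P + Q) + h (P - Q) = 2 * h P + 2 * h Q)
    (P Q R : G) : h8_pair h P (Q + R) = h8_pair h P Q + h8_pair h P R := by
  rw [h8_pair_comm P (Q + R), h8_pair_add_left hpar, h8_pair_comm Q P, h8_pair_comm R P]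

/-- The pairing as an additive map in the first variable. -/
def h8_pairHom (hpar : ∀ P Q : G, h (P + Q) + h (P - Q) = 2 * h P + 2 * h Q) (Q : G) : G →+ ℤ where
  toFun P := h8_pair h P Q
  map_zero' := h8_pair_zero_left hpar Q
  map_add' P R := h8_pair_add_left hpar P R Q

theorem h8_pair_neg_left (hpar : ∀ P Q : G, h (P + Q) + h (P - Q) = 2 * h P + 2 * h Q)
    (P Q : G) : h8_pair h (-P) Q = -h8_pair h P Q :=
  map_neg (h8_pairHom hpar Q) P

theorem h8_pair_neg_right (hpar : ∀ P Q : G, h (P + Q) + h (P - Q) = 2 * h P + 2 * h Q)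
    (P Q : G) : h8_pair h P (-Q) = -h8_pair h P Q := by
  rw [h8_pair_comm P (-Q), h8_pair_neg_left hpar, h8_pair_comm Q P]

theorem h8_pair_sub_left (hpar : ∀ P Q : G, h (P + Q) + h (P - Q) = 2 * h P + 2 * h Q)
    (P R Q : G) : h8_pair h (P - R) Q = h8_pair h P Q - h8_pair h R Q :=
  map_sub (h8_pairHom hpar Q) P R

theorem h8_pair_sub_right (hpar : ∀ P Q : G, h (P + Q) + h (P - Q) = 2 * h P + 2 * h Q)
    (P Q R : G) : h8_pair h P (Q - R) = h8_pair h P Q - h8_pair h P R := by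
  rw [h8_pair_comm P (Q - R), h8_pair_sub_left hpar, h8_pair_comm Q P, h8_pair_comm R P]

theorem h8_pair_zsmul_left (hpar : ∀ P Q : G, h (P + Q) + h (P - Q) = 2 * h P + 2 * h Q)
    (n : ℤ) (P Q : G) : h8_pair h (n • P) Q = n * h8_pair h P Q := by
  have h1 : (h8_pairHom hpar Q) (n • P) = n • (h8_pairHom hpar Q) P :=
    map_zsmul (h8_pairHom hpar Q) n P
  rw [smul_eq_mul] at h1
  exact h1

theorem h8_pair_zsmul_right (hpar : ∀ P Q : G, h (P + Q) + h (P - Q) = 2 * h P + 2 * h Q)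
    (n : ℤ) (P Q : G) : h8_pair h P (n • Q) = n * h8_pair h P Q := by
  rw [h8_pair_comm P (n • Q), h8_pair_zsmul_left hpar, h8_pair_comm Q P]

theorem h8_pair_nsmul_left (hpar : ∀ P Q : G, h (P + Q) + h (P - Q) = 2 * h P + 2 * h Q)
    (n : ℕ) (P Q : G) : h8_pair h (n • P) Q = n * h8_pair h P Q := by
  have := h8_pair_zsmul_left hpar (n : ℤ) P Q
  rwa [natCast_zsmul] at this

theorem h8_pair_nsmul_right (hpar : ∀ P Q : G, h (P + Q) + h (P - Q) = 2 * h P + 2 * h Q)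
    (n : ℕ) (P Q : G) : h8_pair h P (n • Q) = n * h8_pair h P Q := by
  have := h8_pair_zsmul_right hpar (n : ℤ) P Q
  rwa [natCast_zsmul] at this

theorem h8_h_zsmul (hpar : ∀ P Q : G, h (P + Q) + h (P - Q) = 2 * h P + 2 * h Q)
    (n : ℤ) (P : G) : h (n • P) = n ^ 2 * h P := by
  have h1 := h8_pair_self hpar (n • P)
  rw [h8_pair_zsmul_left hpar, h8_pair_zsmul_right hpar, h8_pair_self hpar] at h1
  linarith

theorem h8_h_nsmul (hpar : ∀ P Q : G, h (P + Q) + h (P - Q) = 2 * h P + 2 * h Q)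
    (n : ℕ) (P : G) : h (n • P) = (n : ℤ) ^ 2 * h P := by
  have := h8_h_zsmul hpar (n : ℤ) P
  rwa [natCast_zsmul] at this

/-- `h` of a combination of two elements. -/
theorem h8_h_lin2 (hpar : ∀ P Q : G, h (P + Q) + h (P - Q) = 2 * h P + 2 * h Q)
    (x y : ℤ) (X Y : G) :
    h (x • X + y • Y) = x ^ 2 * h X + y ^ 2 * h Y + x * y * h8_pair h X Y := by
  rw [h8_h_add (h := h), h8_h_zsmul hpar, h8_h_zsmul hpar, h8_pair_zsmul_left hpar,
    h8_pair_zsmul_right hpar]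
  ring

/-- `h` of a combination of three elements. -/
theorem h8_h_lin3 (hpar : ∀ P Q : G, h (P + Q) + h (P - Q) = 2 * h P + 2 * h Q)
    (x y z : ℤ) (X Y Z : G) :
    h (x • X + y • Y + z • Z) = x ^ 2 * h X + y ^ 2 * h Y + z ^ 2 * h Z +
      x * y * h8_pair h X Y + x * z * h8_pair h X Z + y * z * h8_pair h Y Z := by
  rw [h8_h_add (h := h), h8_h_lin2 hpar, h8_h_zsmul hpar, h8_pair_add_left hpar,
    h8_pair_zsmul_left hpar, h8_pair_zsmul_left hpar, h8_pair_zsmul_right hpar,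
    h8_pair_zsmul_right hpar]
  ring

end Quad

section Frob

variable {G : Type*} [AddCommGroup G] {h : G → ℤ}

/-- The pairing of `φ Q` and `Q` is the "trace" `ℓ + 1 - N`. -/
theorem h8_pair_frob (hpar : ∀ P Q : G, h (P + Q) + h (P - Q) = 2 * h P + 2 * h Q)
    (φ : G →+ G) (ℓ : ℤ) (hφ : ∀ P, h (φ P) = ℓ * h P) (Q : G) (hQ : h Q = 1)
    (N : ℤ) (hN : h (φ Q - Q) = N) : h8_pair h (φ Q) Q = ℓ + 1 - N := by
  have h1 := h8_h_sub hpar (φ Q) Q
  rw [hN, hφ, hQ] at h1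
  linarith

/-- `φ` scales the pairing by `ℓ`. -/
theorem h8_pair_map (φ : G →+ G) (ℓ : ℤ) (hφ : ∀ P, h (φ P) = ℓ * h P) (P Q : G) :
    h8_pair h (φ P) (φ Q) = ℓ * h8_pair h P Q := by
  unfold h8_pair
  rw [← map_add, hφ, hφ, hφ]
  ring

/-- The quadratic form on the span of `φ Q` and `Q`. -/
theorem h8_h_frob_lin2 (hpar : ∀ P Q : G, h (P + Q) + h (P - Q) = 2 * h P + 2 * h Q)
    (φ : G →+ G) (ℓ : ℤ) (hφ : ∀ P, h (φ P) = ℓ * h P) (Q : G) (hQ : h Q = 1)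
    (N : ℤ) (hN : h (φ Q - Q) = N) (m n : ℤ) :
    h (m • φ Q + n • Q) = ℓ * m ^ 2 + (ℓ + 1 - N) * m * n + n ^ 2 := by
  rw [h8_h_lin2 hpar, hφ, hQ, h8_pair_frob hpar φ ℓ hφ Q hQ N hN]
  ring

/-- **Hasse bound** in abstract form. -/
theorem h8_hasse (hpar : ∀ P Q : G, h (P + Q) + h (P - Q) = 2 * h P + 2 * h Q)
    (hnn : ∀ P, 0 ≤ h P)
    (φ : G →+ G) (ℓ : ℤ) (hφ : ∀ P, h (φ P) = ℓ * h P) (Q : G) (hQ : h Q = 1)
    (N : ℤ) (hN : h (φ Q - Q) = N) : (ℓ + 1 - N) ^ 2 ≤ 4 * ℓ := by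
  have h1 := h8_h_frob_lin2 hpar φ ℓ hφ Q hQ N hN 2 (-(ℓ + 1 - N))
  have h2 := hnn ((2 : ℤ) • φ Q + (-(ℓ + 1 - N)) • Q)
  nlinarith

/-- Frobenius form, input (C): the value `h (φ (φ Q) - Q)`. -/
theorem h8_frob_quad_C (hpar : ∀ P Q : G, h (P + Q) + h (P - Q) = 2 * h P + 2 * h Q)
    (φ : G →+ G) (ℓ : ℤ) (hφ : ∀ P, h (φ P) = ℓ * h P) (Q : G) (hQ : h Q = 1)
    (N : ℤ) (hN : h (φ Q - Q) = N)
    (hC : h (φ (φ Q) - Q) = N * (2 * ℓ + 2 - N)) :
    h (φ (φ Q) - (ℓ + 1 - N) • φ Q + ℓ • Q) = 0 := by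
  have hYZ := h8_pair_frob hpar φ ℓ hφ Q hQ N hN
  have hXY := h8_pair_map φ ℓ hφ (φ Q) Q
  rw [hYZ] at hXY
  have hXZ := h8_h_sub hpar (φ (φ Q)) Q
  rw [hC, hφ, hφ, hQ] at hXZ
  have hX : h (φ (φ Q)) = ℓ * ℓ := by rw [hφ, hφ, hQ, mul_one]
  have hY : h (φ Q) = ℓ := by rw [hφ, hQ, mul_one]
  have e : φ (φ Q) - (ℓ + 1 - N) • φ Q + ℓ • Q =
      (1 : ℤ) • φ (φ Q) + (-(ℓ + 1 - N)) • φ Q + ℓ • Q := by
    rw [one_zsmul, neg_zsmul, sub_eq_add_neg]
  rw [e, h8_h_lin3 hpar, hX, hY, hQ, hXY, hYZ]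
  have hXZ' : h8_pair h (φ (φ Q)) Q = ℓ * ℓ + 1 - N * (2 * ℓ + 2 - N) := by linarith
  rw [hXZ']
  ring

/-- Frobenius form, input (A): `h (φ R - R) = N * h R` for `R = φ Q + Q`. -/
theorem h8_frob_quad_A (hpar : ∀ P Q : G, h (P + Q) + h (P - Q) = 2 * h P + 2 * h Q)
    (φ : G →+ G) (ℓ : ℤ) (hφ : ∀ P, h (φ P) = ℓ * h P) (Q : G) (hQ : h Q = 1)
    (N : ℤ) (hN : h (φ Q - Q) = N)
    (hA : h (φ (φ Q + Q) - (φ Q + Q)) = N * h (φ Q + Q)) :
    h (φ (φ Q) - (ℓ + 1 - N) • φ Q + ℓ • Q) = 0 := by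
  refine h8_frob_quad_C hpar φ ℓ hφ Q hQ N hN ?_
  have e : φ (φ Q + Q) - (φ Q + Q) = φ (φ Q) - Q := by
    rw [map_add]; abel
  have h1 := h8_h_add (h := h) (φ Q) Q
  rw [h8_pair_frob hpar φ ℓ hφ Q hQ N hN, hφ, hQ] at h1
  rw [e, h1] at hA
  rw [hA]
  ring

/-- Frobenius form, input (B): `h (φ R + R) = h R ^ 2` for `R = φ Q + Q`. -/
theorem h8_frob_quad_B (hpar : ∀ P Q : G, h (P + Q) + h (P - Q) = 2 * h P + 2 * h Q)
    (φ : G →+ G) (ℓ : ℤ) (hφ : ∀ P, h (φ P) = ℓ * h P) (Q : G) (hQ : h Q = 1)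
    (N : ℤ) (hN : h (φ Q - Q) = N)
    (hB : h (φ (φ Q + Q) + (φ Q + Q)) = h (φ Q + Q) ^ 2) :
    h (φ (φ Q) - (ℓ + 1 - N) • φ Q + ℓ • Q) = 0 := by
  refine h8_frob_quad_C hpar φ ℓ hφ Q hQ N hN ?_
  have hYZ := h8_pair_frob hpar φ ℓ hφ Q hQ N hN
  have hXY := h8_pair_map φ ℓ hφ (φ Q) Q
  rw [hYZ] at hXY
  have hX : h (φ (φ Q)) = ℓ * ℓ := by rw [hφ, hφ, hQ, mul_one]
  have hY : h (φ Q) = ℓ := by rw [hφ, hQ, mul_one]
  have h1 := h8_h_add (h := h) (φ Q) Q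
  rw [hYZ, hY, hQ] at h1
  have e : φ (φ Q + Q) + (φ Q + Q) = (1 : ℤ) • φ (φ Q) + (2 : ℤ) • φ Q + (1 : ℤ) • Q := by
    rw [map_add, one_zsmul, one_zsmul, two_zsmul]; abel
  rw [e, h8_h_lin3 hpar, hX, hY, hQ, hXY, hYZ, h1] at hB
  have hXZ := h8_h_sub hpar (φ (φ Q)) Q
  rw [hX, hQ] at hXZ
  rw [hXZ]
  linarith

end Frob

end Fermat.Agent.S52
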