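import Fermat.Agent.S52.h5_Odd
import Fermat.Agent.S52.h5_Count
import Fermat.Agent.S52.h5_SwAddW
import Fermat.Agent.S52.h8_Quad

/-!
# S52 block (I), row T: `2 • ψ(P₀) = 0` for the generic point (helper5)

`ψ = φ² - a φ + q` with `a = q + 1 - #E(F)`.  On the subgroup of odd points the height is an
exact quadratic form (`h5_ht_para`), Frobenius scales it by `q` (`h5_ht_frob`), and
`ht (φ R - R) = #E(F) * ht R` (`h5_ht_frob_sub`); the abstract lemma `h8_frob_quad_A` then gives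
`ht (ψ P₀) = 0`, so `ψ P₀` is `0` or a point of order two.
-/

set_option autoImplicit false

namespace Fermat.Agent.S52

open WeierstrassCurve WeierstrassCurve.Affine

section T

variable {F : Type*} [Field F] (A B : F)
variable {Ω : Type*} [Field Ω] [DecidableEq Ω] [Algebra F Ω] [Algebra (RatFunc F) Ω]
  [IsScalarTower F (RatFunc F) Ω] (y : Ω)

/-- The subgroup of odd points. -/
def h5_oddSubgroup (h2 : (2 : F) ≠ 0) (hy : y ^ 2 = algebraMap (RatFunc F) Ω (h5_fK A B)) :
    AddSubgroup (h5_Pt A B Ω) where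
  carrier := {P | h5_IsOdd A B y P}
  zero_mem' := h5_isOdd_zero A B y
  add_mem' := fun hP hQ => h5_isOdd_add A B y h2 hy hP hQ
  neg_mem' := fun hP => h5_isOdd_neg A B y hP

variable [Fintype F]

/-- The height of `ψ(P₀)` vanishes. -/
theorem h5_ht_psi_gen (h2 : (2 : F) ≠ 0) (hΔ : 4 * A ^ 3 + 27 * B ^ 2 ≠ 0)
    (hy : y ^ 2 = algebraMap (RatFunc F) Ω (h5_fK A B))
    (h : ((h5_sw A B).toAffine⁄Ω).Nonsingular (algebraMap (RatFunc F) Ω RatFunc.X) y) :
    h5_ht A B (h5_psi A B (h5_trace A B) (Affine.Point.some _ _ h : h5_Pt A B Ω)) = 0 ∧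
      h5_IsOdd A B y (h5_psi A B (h5_trace A B) (Affine.Point.some _ _ h : h5_Pt A B Ω)) := by
  classical
  let G : AddSubgroup (h5_Pt A B Ω) := h5_oddSubgroup A B y h2 hy
  let ht : G → ℤ := fun P => (h5_ht A B (P : h5_Pt A B Ω) : ℤ)
  have hpar : ∀ P Q : G, ht (P + Q) + ht (P - Q) = 2 * ht P + 2 * ht Q := by
    intro P Q
    have := h5_ht_para A B y h2 hΔ hy P.2 Q.2
    simp only [ht, AddSubgroup.coe_add, AddSubgroup.coe_sub]
    exact_mod_cast this
  let φ : G →+ G := ((h5_frob A B Ω).comp G.subtype).codRestrict G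
    (fun P => h5_isOdd_frob A B y h2 hy P.2)
  have hφc : ∀ P : G, ((φ P : G) : h5_Pt A B Ω) = h5_frob A B Ω (P : h5_Pt A B Ω) := fun P => rfl
  have hφ : ∀ P, ht (φ P) = (Fintype.card F : ℤ) * ht P := by
    intro P
    have := h5_ht_frob A B y hy P.2
    simp only [ht, hφc]
    exact_mod_cast this
  let Q : G := ⟨Affine.Point.some _ _ h, h5_isOdd_gen A B y h⟩
  have hQ : ht Q = 1 := by
    have := h5_ht_gen A B y h
    simp only [ht, Q]
    exact_mod_cast this
  have hsub : ∀ R : G, ht (φ R - R) =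
      (Nat.card (h5_sw A B).toAffine.Point : ℤ) * ht R := by
    intro R
    have := h5_ht_frob_sub A B y h2 hΔ hy R.2
    simp only [ht, AddSubgroup.coe_sub, hφc]
    exact_mod_cast this
  have hN : ht (φ Q - Q) = (Nat.card (h5_sw A B).toAffine.Point : ℤ) := by
    rw [hsub Q, hQ, mul_one]
  have key := h8_frob_quad_A hpar φ _ hφ Q hQ _ hN (hsub (φ Q + Q))
  have hcoe : ((φ (φ Q) - ((Fintype.card F : ℤ) + 1 -
      (Nat.card (h5_sw A B).toAffine.Point : ℤ)) • φ Q + (Fintype.card F : ℤ) • Q : G) :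
        h5_Pt A B Ω) = h5_psi A B (h5_trace A B) (Affine.Point.some _ _ h : h5_Pt A B Ω) := by
    simp only [AddSubgroup.coe_add, AddSubgroup.coe_sub, AddSubgroup.coe_zsmul, hφc, h5_psi,
      h5_trace, Q]
  constructor
  · have key' : ((h5_ht A B ((φ (φ Q) - ((Fintype.card F : ℤ) + 1 -
      (Nat.card (h5_sw A B).toAffine.Point : ℤ)) • φ Q + (Fintype.card F : ℤ) • Q : G) :
        h5_Pt A B Ω) : ℕ) : ℤ) = 0 := key
    rw [hcoe] at key'
    exact_mod_cast key'
  · rw [← hcoe]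
    exact (φ (φ Q) - ((Fintype.card F : ℤ) + 1 -
      (Nat.card (h5_sw A B).toAffine.Point : ℤ)) • φ Q + (Fintype.card F : ℤ) • Q : G).2

/-- Row T: `2 • ψ(P₀) = 0`. -/
theorem h5_two_psi_gen (h2 : (2 : F) ≠ 0) (hΔ : 4 * A ^ 3 + 27 * B ^ 2 ≠ 0)
    (hy : y ^ 2 = algebraMap (RatFunc F) Ω (h5_fK A B))
    (h : ((h5_sw A B).toAffine⁄Ω).Nonsingular (algebraMap (RatFunc F) Ω RatFunc.X) y) :
    (2 : ℤ) • h5_psi A B (h5_trace A B) (Affine.Point.some _ _ h : h5_Pt A B Ω) = 0 := by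
  obtain ⟨h0, hodd⟩ := h5_ht_psi_gen A B y h2 hΔ hy h
  rcases h5_ht_eq_zero A B y hy hodd h0 with h1 | ⟨c, hc, h1⟩
  · rw [h1, smul_zero]
  · rw [h1, two_zsmul]
    exact h5_bc_add_self_of_Y_eq A B hc rfl

end T

section X1

variable {F : Type*} [Field F] [Fintype F] (A B : F)

open Polynomial in
/-- Row X1: `2 • ψ(S) = 0` for every point whose `x`-coordinate is transcendental over `F`. -/
theorem h5_two_psi_of_transcendental (h2 : (2 : F) ≠ 0) (hΔ : 4 * A ^ 3 + 27 * B ^ 2 ≠ 0)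
    {Ω : Type*} [Field Ω] [DecidableEq Ω] [Algebra F Ω] {s t : Ω}
    (h : ((h5_sw A B).toAffine⁄Ω).Nonsingular s t) (hs : Transcendental F s) :
    (2 : ℤ) • h5_psi A B (h5_trace A B) (Affine.Point.some _ _ h : h5_Pt A B Ω) = 0 := by
  have hinj : Function.Injective (aeval (R := F) s) := transcendental_iff_injective.1 hs
  have hnzd : nonZeroDivisors F[X] ≤ Submonoid.comap (aeval (R := F) s) (nonZeroDivisors Ω) := by
    intro p hp
    rw [Submonoid.mem_comap, mem_nonZeroDivisors_iff_ne_zero]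
    rw [mem_nonZeroDivisors_iff_ne_zero] at hp
    exact (map_ne_zero_iff _ hinj).2 hp
  let σ : RatFunc F →ₐ[F] Ω := RatFunc.liftAlgHom (aeval (R := F) s) hnzd
  let _ : Algebra (RatFunc F) Ω := σ.toRingHom.toAlgebra
  have : IsScalarTower F (RatFunc F) Ω := IsScalarTower.of_algebraMap_eq (fun c => by
    show algebraMap F Ω c = σ (algebraMap F (RatFunc F) c)
    rw [σ.commutes])
  have hσp : ∀ p : F[X], σ (algebraMap F[X] (RatFunc F) p) = aeval s p := by
    intro p
    have := RatFunc.liftAlgHom_apply_div (aeval (R := F) s) hnzd p 1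
    simpa using this
  have hX : algebraMap (RatFunc F) Ω RatFunc.X = s := by
    show σ RatFunc.X = s
    rw [← RatFunc.algebraMap_X, hσp, aeval_X]
  have hC : ∀ c : F, algebraMap (RatFunc F) Ω (RatFunc.C c) = algebraMap F Ω c := by
    intro c
    show σ (RatFunc.C c) = algebraMap F Ω c
    rw [← RatFunc.algebraMap_C, hσp, aeval_C]
  have hE := (h5_bc_equation_iff A B s t).1 h.1
  have hy : t ^ 2 = algebraMap (RatFunc F) Ω (h5_fK A B) := by
    rw [hE, h5_fK, map_add, map_add, map_mul, map_pow, hX, hC, hC]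
  have key := h5_two_psi_gen A B t h2 hΔ hy (by rw [hX]; exact h)
  convert key using 4
  exact hX.symm

end X1

end Fermat.Agent.S52
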