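import Fermat.Agent.S52.h5_Deg
import Fermat.Agent.S52.h5_DegPara
import Fermat.Agent.S52.h5_SwAdd
import Fermat.Agent.S52.h8_Quad

/-!
# S52 block (I), row M+G (helper8): odd points, heights, exact parallelogram law

Odd points `O`, `(u, w y)` (`u, w ∈ K = F(x)`, `y² = x³ + A x + B`) form a subgroup of `E(Ω)`;
the height `h5_ht` satisfies the exact parallelogram law on it, hence a quadratic expansion;
height-zero odd points; the generic point; Frobenius on odd points.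
-/

set_option autoImplicit false
set_option linter.unusedSectionVars false
set_option linter.unusedVariables false

namespace Fermat.Agent.S52

open WeierstrassCurve WeierstrassCurve.Affine

/-! ### general-curve wrappers -/

section wrappers

variable {K₁ : Type*} [Field K₁] [DecidableEq K₁]

theorem h8_some_eq {W : WeierstrassCurve K₁} {X Y X' Y' : K₁}
    (h : W.toAffine.Nonsingular X Y) (h' : W.toAffine.Nonsingular X' Y')
    (hX : X = X') (hY : Y = Y') :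
    (Affine.Point.some X Y h : W.toAffine.Point) = Affine.Point.some X' Y' h' := by
  subst hX hY
  rfl

theorem h8_add_sub_of_X_ne (W : WeierstrassCurve K₁) (A₁ B₁ : K₁)
    (hW : W = h5_sw A₁ B₁) {X₁ Y₁ X₂ Y₂ : K₁}
    (h₁ : W.toAffine.Nonsingular X₁ Y₁) (h₂ : W.toAffine.Nonsingular X₂ Y₂)
    (hX : X₁ ≠ X₂) :
    ∃ (X₃ Y₃ X₄ Y₄ : K₁) (h₃ : W.toAffine.Nonsingular X₃ Y₃)
      (h₄ : W.toAffine.Nonsingular X₄ Y₄),
      Affine.Point.some X₁ Y₁ h₁ + Affine.Point.some X₂ Y₂ h₂ = Affine.Point.some X₃ Y₃ h₃ ∧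
      Affine.Point.some X₁ Y₁ h₁ - Affine.Point.some X₂ Y₂ h₂ = Affine.Point.some X₄ Y₄ h₄ ∧
      (X₃ + X₄) * (X₁ - X₂) ^ 2 = 2 * (X₁ * X₂ + A₁) * (X₁ + X₂) + 4 * B₁ ∧
      X₃ * X₄ * (X₁ - X₂) ^ 2 = (X₁ * X₂ - A₁) ^ 2 - 4 * B₁ * (X₁ + X₂) ∧
      X₃ * (X₁ - X₂) ^ 2 = (Y₁ - Y₂) ^ 2 - (X₁ + X₂) * (X₁ - X₂) ^ 2 ∧
      Y₃ * (X₁ - X₂) = -((Y₁ - Y₂) * (X₃ - X₁) + Y₁ * (X₁ - X₂)) ∧
      X₄ * (X₁ - X₂) ^ 2 = (Y₁ + Y₂) ^ 2 - (X₁ + X₂) * (X₁ - X₂) ^ 2 ∧
      Y₄ * (X₁ - X₂) = -((Y₁ + Y₂) * (X₄ - X₁) + Y₁ * (X₁ - X₂)) := by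
  subst hW
  exact h5_sw_add_sub_of_X_ne A₁ B₁ h₁ h₂ hX

theorem h8_add_self_of_Y_ne (W : WeierstrassCurve K₁) (A₁ B₁ : K₁)
    (hW : W = h5_sw A₁ B₁) {X Y : K₁} (h : W.toAffine.Nonsingular X Y) (hY : Y ≠ 0)
    (h2 : (2 : K₁) ≠ 0) :
    ∃ (X₅ Y₅ : K₁) (h₅ : W.toAffine.Nonsingular X₅ Y₅),
      Affine.Point.some X Y h + Affine.Point.some X Y h = Affine.Point.some X₅ Y₅ h₅ ∧
      X₅ * (4 * Y ^ 2) = X ^ 4 - 2 * A₁ * X ^ 2 - 8 * B₁ * X + A₁ ^ 2 ∧
      Y₅ * (2 * Y) = -((3 * X ^ 2 + A₁) * (X₅ - X) + 2 * Y ^ 2) := by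
  subst hW
  exact h5_sw_add_self_of_Y_ne A₁ B₁ h hY h2

theorem h8_add_self_of_Y_eq (W : WeierstrassCurve K₁) (A₁ B₁ : K₁)
    (hW : W = h5_sw A₁ B₁) {X Y : K₁} (h : W.toAffine.Nonsingular X Y)
    (hY : Y = 0) : Affine.Point.some X Y h + Affine.Point.some X Y h = 0 := by
  subst hW
  exact h5_sw_add_self_of_Y_eq A₁ B₁ h hY

theorem h8_neg_some (W : WeierstrassCurve K₁) (A₁ B₁ : K₁)
    (hW : W = h5_sw A₁ B₁) {X Y : K₁} (h : W.toAffine.Nonsingular X Y) :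
    ∃ h' : W.toAffine.Nonsingular X (-Y),
      -(Affine.Point.some X Y h : W.toAffine.Point) = Affine.Point.some X (-Y) h' := by
  subst hW
  have h' : (h5_sw A₁ B₁).toAffine.Nonsingular X (-Y) := by
    have := (Affine.nonsingular_neg (W' := (h5_sw A₁ B₁).toAffine) X Y).2 h
    rwa [h5_sw_negY] at this
  refine ⟨h', ?_⟩
  rw [Affine.Point.neg_some]
  exact h8_some_eq _ _ rfl (h5_sw_negY A₁ B₁ X Y)

theorem h8_equation (W : WeierstrassCurve K₁) (A₁ B₁ : K₁)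
    (hW : W = h5_sw A₁ B₁) {X Y : K₁} (h : W.toAffine.Nonsingular X Y) :
    Y ^ 2 = X ^ 3 + A₁ * X + B₁ := by
  subst hW
  exact (h5_sw_equation_iff A₁ B₁ X Y).1 h.1

theorem h8_nonsingular (W : WeierstrassCurve K₁) (A₁ B₁ : K₁)
    (hW : W = h5_sw A₁ B₁) (h2 : (2 : K₁) ≠ 0) (hΔ : 4 * A₁ ^ 3 + 27 * B₁ ^ 2 ≠ 0) {X Y : K₁}
    (h : Y ^ 2 = X ^ 3 + A₁ * X + B₁) : W.toAffine.Nonsingular X Y := by
  subst hW
  exact h5_sw_nonsingular A₁ B₁ h2 hΔ h

end wrappers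

section M
variable {F : Type*} [Field F] (A B : F)
variable {Ω : Type*} [Field Ω] [DecidableEq Ω] [Algebra F Ω] [Algebra (RatFunc F) Ω]
  [IsScalarTower F (RatFunc F) Ω] (y : Ω)

theorem h8_curve_eq :
    ((h5_sw A B).toAffine⁄Ω : WeierstrassCurve Ω) =
      h5_sw (algebraMap F Ω A) (algebraMap F Ω B) :=
  h5_sw_map A B (algebraMap F Ω)

theorem h8_map_C (c : F) :
    algebraMap (RatFunc F) Ω (RatFunc.C c) = algebraMap F Ω c := by
  rw [← RatFunc.algebraMap_eq_C, ← IsScalarTower.algebraMap_apply]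

theorem h8_fK_eq : h5_fK A B = algebraMap (Polynomial F) (RatFunc F)
    (Polynomial.X ^ 3 + Polynomial.C A * Polynomial.X + Polynomial.C B) := by
  simp [h5_fK, RatFunc.algebraMap_X, RatFunc.algebraMap_C]

theorem h8_fK_ne_zero : h5_fK A B ≠ 0 := by
  rw [h8_fK_eq]
  intro h0
  have h3 : (Polynomial.X ^ 3 + Polynomial.C A * Polynomial.X + Polynomial.C B :
      Polynomial F) = 0 :=
    (RatFunc.algebraMap_injective F) (h0.trans (map_zero _).symm)
  have hdeg : (Polynomial.X ^ 3 + Polynomial.C A * Polynomial.X + Polynomial.C B :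
      Polynomial F).natDegree = 3 := by
    compute_degree!
  rw [h3] at hdeg
  simp at hdeg

theorem h5_y_ne_zero (hy : y ^ 2 = algebraMap (RatFunc F) Ω (h5_fK A B)) : y ≠ 0 := by
  intro h0
  rw [h0] at hy
  have : algebraMap (RatFunc F) Ω (h5_fK A B) = 0 := by
    rw [← hy]; ring
  exact h8_fK_ne_zero A B ((map_eq_zero _).1 this)

theorem h5_isOdd_zero : h5_IsOdd A B y (0 : h5_Pt A B Ω) := Or.inl rfl

/-- The relation between the coordinates of an odd point. -/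
theorem h8_odd_rel (hy : y ^ 2 = algebraMap (RatFunc F) Ω (h5_fK A B)) {u w : RatFunc F}
    (h : ((h5_sw A B).toAffine⁄Ω).Nonsingular
      (algebraMap (RatFunc F) Ω u) (algebraMap (RatFunc F) Ω w * y)) :
    w ^ 2 * h5_fK A B = u ^ 3 + RatFunc.C A * u + RatFunc.C B := by
  have e := h8_equation _ _ _ (h8_curve_eq A B) h
  apply (algebraMap (RatFunc F) Ω).injective
  simp only [map_mul, map_pow, map_add, h8_map_C]
  rw [← hy, ← e]
  ring

theorem h5_isOdd_neg {P : h5_Pt A B Ω} (hP : h5_IsOdd A B y P) : h5_IsOdd A B y (-P) := by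
  rcases hP with rfl | ⟨u, w, h, rfl⟩
  · left; exact neg_zero
  · right
    obtain ⟨h', e⟩ := h8_neg_some _ _ _ (h8_curve_eq A B) h
    have h'' : ((h5_sw A B).toAffine⁄Ω).Nonsingular
        (algebraMap (RatFunc F) Ω u) (algebraMap (RatFunc F) Ω (-w) * y) := by
      have : algebraMap (RatFunc F) Ω (-w) * y = -(algebraMap (RatFunc F) Ω w * y) := by
        rw [map_neg]; ring
      rw [this]; exact h'
    refine ⟨u, -w, h'', ?_⟩
    rw [e]
    exact h8_some_eq _ _ rfl (by rw [map_neg]; ring)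

/-- Sum and difference of two odd points with distinct `x`-coordinates. -/
theorem h8_odd_add_sub (hy : y ^ 2 = algebraMap (RatFunc F) Ω (h5_fK A B)) {u w u' w' : RatFunc F}
    (h₁ : ((h5_sw A B).toAffine⁄Ω).Nonsingular
      (algebraMap (RatFunc F) Ω u) (algebraMap (RatFunc F) Ω w * y))
    (h₂ : ((h5_sw A B).toAffine⁄Ω).Nonsingular
      (algebraMap (RatFunc F) Ω u') (algebraMap (RatFunc F) Ω w' * y))
    (hne : u ≠ u') :
    ∃ (p wp m wm : RatFunc F)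
      (hp : ((h5_sw A B).toAffine⁄Ω).Nonsingular
        (algebraMap (RatFunc F) Ω p) (algebraMap (RatFunc F) Ω wp * y))
      (hm : ((h5_sw A B).toAffine⁄Ω).Nonsingular
        (algebraMap (RatFunc F) Ω m) (algebraMap (RatFunc F) Ω wm * y)),
      (Affine.Point.some _ _ h₁ + Affine.Point.some _ _ h₂ : h5_Pt A B Ω) =
        Affine.Point.some _ _ hp ∧
      (Affine.Point.some _ _ h₁ - Affine.Point.some _ _ h₂ : h5_Pt A B Ω) =
        Affine.Point.some _ _ hm ∧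
      (p + m) * (u - u') ^ 2 = 2 * (u * u' + RatFunc.C A) * (u + u') + 4 * RatFunc.C B ∧
      p * m * (u - u') ^ 2 = (u * u' - RatFunc.C A) ^ 2 - 4 * RatFunc.C B * (u + u') := by
  have hinj := (algebraMap (RatFunc F) Ω).injective
  have hιne : algebraMap (RatFunc F) Ω u ≠ algebraMap (RatFunc F) Ω u' := fun h => hne (hinj h)
  obtain ⟨X₃, Y₃, X₄, Y₄, h₃, h₄, hadd, hsub, hs, hpr, hX3, hY3, hX4, hY4⟩ :=
    h8_add_sub_of_X_ne _ _ _ (h8_curve_eq A B) h₁ h₂ hιne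
  have hd : algebraMap (RatFunc F) Ω u - algebraMap (RatFunc F) Ω u' ≠ 0 := sub_ne_zero.2 hιne
  have hd2 : (algebraMap (RatFunc F) Ω u - algebraMap (RatFunc F) Ω u') ^ 2 ≠ 0 :=
    pow_ne_zero 2 hd
  have hd' : u - u' ≠ 0 := sub_ne_zero.2 hne
  -- the coordinates as rational functions
  obtain ⟨p, hp_def⟩ : ∃ p : RatFunc F,
      p = ((w - w') ^ 2 * h5_fK A B - (u + u') * (u - u') ^ 2) / (u - u') ^ 2 := ⟨_, rfl⟩
  obtain ⟨wp, hwp_def⟩ : ∃ wp : RatFunc F,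
      wp = -((w - w') * (p - u) + w * (u - u')) / (u - u') := ⟨_, rfl⟩
  obtain ⟨m, hm_def⟩ : ∃ m : RatFunc F,
      m = ((w + w') ^ 2 * h5_fK A B - (u + u') * (u - u') ^ 2) / (u - u') ^ 2 := ⟨_, rfl⟩
  obtain ⟨wm, hwm_def⟩ : ∃ wm : RatFunc F,
      wm = -((w + w') * (m - u) + w * (u - u')) / (u - u') := ⟨_, rfl⟩
  have e3 : X₃ = algebraMap (RatFunc F) Ω p := by
    apply mul_right_cancel₀ hd2
    rw [hX3, hp_def]
    simp only [map_div₀, map_sub, map_mul, map_pow, map_add]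
    rw [div_mul_cancel₀ _ hd2, ← hy]
    ring
  have e4 : X₄ = algebraMap (RatFunc F) Ω m := by
    apply mul_right_cancel₀ hd2
    rw [hX4, hm_def]
    simp only [map_div₀, map_sub, map_mul, map_pow, map_add]
    rw [div_mul_cancel₀ _ hd2, ← hy]
    ring
  have e3' : Y₃ = algebraMap (RatFunc F) Ω wp * y := by
    apply mul_right_cancel₀ hd
    rw [hY3, hwp_def, e3]
    simp only [map_div₀, map_sub, map_mul, map_neg, map_add]
    field_simp
  have e4' : Y₄ = algebraMap (RatFunc F) Ω wm * y := by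
    apply mul_right_cancel₀ hd
    rw [hY4, hwm_def, e4]
    simp only [map_div₀, map_sub, map_mul, map_neg, map_add]
    field_simp
  have hp : ((h5_sw A B).toAffine⁄Ω).Nonsingular
      (algebraMap (RatFunc F) Ω p) (algebraMap (RatFunc F) Ω wp * y) := by
    rw [← e3, ← e3']; exact h₃
  have hm : ((h5_sw A B).toAffine⁄Ω).Nonsingular
      (algebraMap (RatFunc F) Ω m) (algebraMap (RatFunc F) Ω wm * y) := by
    rw [← e4, ← e4']; exact h₄
  refine ⟨p, wp, m, wm, hp, hm, hadd.trans (h8_some_eq _ _ e3 e3'),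
    hsub.trans (h8_some_eq _ _ e4 e4'), ?_, ?_⟩
  · apply hinj
    rw [e3, e4] at hs
    simp only [map_mul, map_pow, map_add, map_sub, h8_map_C, map_ofNat]
    exact hs
  · apply hinj
    rw [e3, e4] at hpr
    simp only [map_mul, map_pow, map_add, map_sub, h8_map_C, map_ofNat]
    exact hpr

theorem h8_two_ne_zero (h2 : (2 : F) ≠ 0) : (2 : Ω) ≠ 0 := by
  rw [← map_ofNat (algebraMap F Ω) 2]
  exact (map_ne_zero _).2 h2

theorem h8_two_ne_zero' (h2 : (2 : F) ≠ 0) : (2 : RatFunc F) ≠ 0 := by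
  rw [← map_ofNat (algebraMap F (RatFunc F)) 2]
  exact (map_ne_zero _).2 h2

/-- Doubling an odd point with `w ≠ 0`. -/
theorem h8_odd_double (h2 : (2 : F) ≠ 0) (hy : y ^ 2 = algebraMap (RatFunc F) Ω (h5_fK A B))
    {u w : RatFunc F}
    (h : ((h5_sw A B).toAffine⁄Ω).Nonsingular
      (algebraMap (RatFunc F) Ω u) (algebraMap (RatFunc F) Ω w * y))
    (hw : w ≠ 0) :
    ∃ (d wd : RatFunc F)
      (hd : ((h5_sw A B).toAffine⁄Ω).Nonsingular
        (algebraMap (RatFunc F) Ω d) (algebraMap (RatFunc F) Ω wd * y)),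
      (Affine.Point.some _ _ h + Affine.Point.some _ _ h : h5_Pt A B Ω) =
        Affine.Point.some _ _ hd ∧
      u ^ 3 + RatFunc.C A * u + RatFunc.C B ≠ 0 ∧
      d * (4 * (u ^ 3 + RatFunc.C A * u + RatFunc.C B)) =
        u ^ 4 - 2 * RatFunc.C A * u ^ 2 - 8 * RatFunc.C B * u + RatFunc.C A ^ 2 := by
  have hinj := (algebraMap (RatFunc F) Ω).injective
  have h2Ω : (2 : Ω) ≠ 0 := h8_two_ne_zero h2
  have h2K : (2 : RatFunc F) ≠ 0 := h8_two_ne_zero' h2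
  have hy0 : y ≠ 0 := h5_y_ne_zero A B y hy
  have hιw : algebraMap (RatFunc F) Ω w ≠ 0 := (map_ne_zero _).2 hw
  have hY : algebraMap (RatFunc F) Ω w * y ≠ 0 := mul_ne_zero hιw hy0
  have hf0 : h5_fK A B ≠ 0 := h8_fK_ne_zero A B
  have hιf : algebraMap (RatFunc F) Ω (h5_fK A B) ≠ 0 := (map_ne_zero _).2 hf0
  obtain ⟨X₅, Y₅, h₅, hadd, hX5, hY5⟩ :=
    h8_add_self_of_Y_ne _ _ _ (h8_curve_eq A B) h hY h2Ω
  have rel := h8_odd_rel A B y hy h
  have hg : u ^ 3 + RatFunc.C A * u + RatFunc.C B ≠ 0 := by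
    rw [← rel]; exact mul_ne_zero (pow_ne_zero 2 hw) hf0
  have h4g : (4 : RatFunc F) * (u ^ 3 + RatFunc.C A * u + RatFunc.C B) ≠ 0 := by
    have h4 : (4 : RatFunc F) ≠ 0 := by
      have : (4 : RatFunc F) = 2 * 2 := by norm_num
      rw [this]; exact mul_ne_zero h2K h2K
    exact mul_ne_zero h4 hg
  obtain ⟨d, hd_def⟩ : ∃ d : RatFunc F,
      d = (u ^ 4 - 2 * RatFunc.C A * u ^ 2 - 8 * RatFunc.C B * u + RatFunc.C A ^ 2) /
        (4 * (u ^ 3 + RatFunc.C A * u + RatFunc.C B)) := ⟨_, rfl⟩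
  have hdrel : d * (4 * (u ^ 3 + RatFunc.C A * u + RatFunc.C B)) =
      u ^ 4 - 2 * RatFunc.C A * u ^ 2 - 8 * RatFunc.C B * u + RatFunc.C A ^ 2 := by
    rw [hd_def, div_mul_cancel₀ _ h4g]
  obtain ⟨wd, hwd_def⟩ : ∃ wd : RatFunc F,
      wd = -((3 * u ^ 2 + RatFunc.C A) * (d - u) + 2 * (w ^ 2 * h5_fK A B)) /
        (2 * w * h5_fK A B) := ⟨_, rfl⟩
  have hY2 : (algebraMap (RatFunc F) Ω w * y) ^ 2 =
      algebraMap (RatFunc F) Ω (u ^ 3 + RatFunc.C A * u + RatFunc.C B) := by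
    rw [← rel, map_mul, map_pow, ← hy]; ring
  have e5 : X₅ = algebraMap (RatFunc F) Ω d := by
    have h4Y : (4 : Ω) * (algebraMap (RatFunc F) Ω w * y) ^ 2 ≠ 0 := by
      have h4 : (4 : Ω) ≠ 0 := by
        have : (4 : Ω) = 2 * 2 := by norm_num
        rw [this]; exact mul_ne_zero h2Ω h2Ω
      exact mul_ne_zero h4 (pow_ne_zero 2 hY)
    apply mul_right_cancel₀ h4Y
    rw [hX5, hY2]
    have := congrArg (algebraMap (RatFunc F) Ω) hdrel
    simp only [map_mul, map_pow, map_add, map_sub, h8_map_C, map_ofNat] at this ⊢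
    rw [this]
  have e5' : Y₅ = algebraMap (RatFunc F) Ω wd * y := by
    have h2Y : (2 : Ω) * (algebraMap (RatFunc F) Ω w * y) ≠ 0 := mul_ne_zero h2Ω hY
    apply mul_right_cancel₀ h2Y
    rw [hY5, hwd_def, e5]
    simp only [map_div₀, map_sub, map_mul, map_neg, map_add, map_pow, h8_map_C, map_ofNat]
    rw [← hy]
    field_simp
  have hd : ((h5_sw A B).toAffine⁄Ω).Nonsingular
      (algebraMap (RatFunc F) Ω d) (algebraMap (RatFunc F) Ω wd * y) := by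
    rw [← e5, ← e5']; exact h₅
  exact ⟨d, wd, hd, hadd.trans (h8_some_eq _ _ e5 e5'), hg, hdrel⟩

/-- Doubling an odd point with `w = 0`. -/
theorem h8_odd_double_zero (hy : y ^ 2 = algebraMap (RatFunc F) Ω (h5_fK A B))
    {u w : RatFunc F}
    (h : ((h5_sw A B).toAffine⁄Ω).Nonsingular
      (algebraMap (RatFunc F) Ω u) (algebraMap (RatFunc F) Ω w * y))
    (hw : w = 0) :
    (Affine.Point.some _ _ h + Affine.Point.some _ _ h : h5_Pt A B Ω) = 0 ∧
      u ^ 3 + RatFunc.C A * u + RatFunc.C B = 0 := by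
  refine ⟨h8_add_self_of_Y_eq _ _ _ (h8_curve_eq A B) h (by rw [hw, map_zero, zero_mul]), ?_⟩
  rw [← h8_odd_rel A B y hy h, hw]
  ring

/-- Two odd points with the same `x`-coordinate are equal or opposite. -/
theorem h8_odd_same (hy : y ^ 2 = algebraMap (RatFunc F) Ω (h5_fK A B)) {u w w' : RatFunc F}
    (h₁ : ((h5_sw A B).toAffine⁄Ω).Nonsingular
      (algebraMap (RatFunc F) Ω u) (algebraMap (RatFunc F) Ω w * y))
    (h₂ : ((h5_sw A B).toAffine⁄Ω).Nonsingular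
      (algebraMap (RatFunc F) Ω u) (algebraMap (RatFunc F) Ω w' * y)) :
    w' = w ∨ w' = -w := by
  have r₁ := h8_odd_rel A B y hy h₁
  have r₂ := h8_odd_rel A B y hy h₂
  have hf0 : h5_fK A B ≠ 0 := h8_fK_ne_zero A B
  have h0 : (w' - w) * (w' + w) * h5_fK A B = 0 := by
    linear_combination r₂ - r₁
  rcases mul_eq_zero.1 h0 with h0 | h0
  · rcases mul_eq_zero.1 h0 with h0 | h0
    · left; exact sub_eq_zero.1 h0
    · right; exact eq_neg_of_add_eq_zero_left h0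
  · exact absurd h0 hf0

/-- The negative of an odd point, in coordinates. -/
theorem h8_odd_neg {u w : RatFunc F}
    (h : ((h5_sw A B).toAffine⁄Ω).Nonsingular
      (algebraMap (RatFunc F) Ω u) (algebraMap (RatFunc F) Ω w * y))
    (h' : ((h5_sw A B).toAffine⁄Ω).Nonsingular
      (algebraMap (RatFunc F) Ω u) (algebraMap (RatFunc F) Ω (-w) * y)) :
    (Affine.Point.some _ _ h' : h5_Pt A B Ω) = -Affine.Point.some _ _ h := by
  obtain ⟨h'', e⟩ := h8_neg_some _ _ _ (h8_curve_eq A B) h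
  rw [e]
  exact h8_some_eq _ _ rfl (by rw [map_neg]; ring)

theorem h5_isOdd_add (h2 : (2 : F) ≠ 0) (hy : y ^ 2 = algebraMap (RatFunc F) Ω (h5_fK A B))
    {P Q : h5_Pt A B Ω} (hP : h5_IsOdd A B y P) (hQ : h5_IsOdd A B y Q) :
    h5_IsOdd A B y (P + Q) := by
  rcases hP with rfl | ⟨u, w, h₁, rfl⟩
  · rw [zero_add]; exact hQ
  rcases hQ with rfl | ⟨u', w', h₂, rfl⟩
  · rw [add_zero]; exact Or.inr ⟨u, w, h₁, rfl⟩
  by_cases hne : u = u'
  · subst hne
    rcases h8_odd_same A B y hy h₁ h₂ with rfl | rfl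
    · by_cases hw : w' = 0
      · left
        exact (h8_odd_double_zero A B y hy h₁ hw).1
      · right
        obtain ⟨d, wd, hd, e, -, -⟩ := h8_odd_double A B y h2 hy h₁ hw
        exact ⟨d, wd, hd, e⟩
    · left
      rw [h8_odd_neg A B y h₁ h₂, add_neg_cancel]
  · right
    obtain ⟨p, wp, m, wm, hp, hm, e1, -, -, -⟩ := h8_odd_add_sub A B y hy h₁ h₂ hne
    exact ⟨p, wp, hp, e1⟩

theorem h5_isOdd_sub (h2 : (2 : F) ≠ 0) (hy : y ^ 2 = algebraMap (RatFunc F) Ω (h5_fK A B))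
    {P Q : h5_Pt A B Ω} (hP : h5_IsOdd A B y P) (hQ : h5_IsOdd A B y Q) :
    h5_IsOdd A B y (P - Q) := by
  rw [sub_eq_add_neg]
  exact h5_isOdd_add A B y h2 hy hP (h5_isOdd_neg A B y hQ)

/-- The subgroup of odd points. -/
def h8_oddSubgroup (h2 : (2 : F) ≠ 0) (hy : y ^ 2 = algebraMap (RatFunc F) Ω (h5_fK A B)) :
    AddSubgroup (h5_Pt A B Ω) where
  carrier := {P | h5_IsOdd A B y P}
  zero_mem' := h5_isOdd_zero A B y
  add_mem' := fun hP hQ => h5_isOdd_add A B y h2 hy hP hQ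
  neg_mem' := fun hP => h5_isOdd_neg A B y hP

theorem h8_mem_oddSubgroup (h2 : (2 : F) ≠ 0)
    (hy : y ^ 2 = algebraMap (RatFunc F) Ω (h5_fK A B)) (P : h5_Pt A B Ω) :
    P ∈ h8_oddSubgroup A B y h2 hy ↔ h5_IsOdd A B y P := Iff.rfl

theorem h5_isOdd_zsmul (h2 : (2 : F) ≠ 0) (hy : y ^ 2 = algebraMap (RatFunc F) Ω (h5_fK A B))
    {P : h5_Pt A B Ω} (hP : h5_IsOdd A B y P) (n : ℤ) : h5_IsOdd A B y (n • P) :=
  (h8_oddSubgroup A B y h2 hy).zsmul_mem hP n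

theorem h5_ht_neg (P : h5_Pt A B Ω) : h5_ht A B (-P) = h5_ht A B P := by
  rcases P with _ | ⟨X, Y, h⟩
  · rfl
  · rfl

/-- The height of an odd point given in coordinates. -/
theorem h8_ht_odd {u w : RatFunc F}
    (h : ((h5_sw A B).toAffine⁄Ω).Nonsingular
      (algebraMap (RatFunc F) Ω u) (algebraMap (RatFunc F) Ω w * y)) :
    h5_ht A B (Affine.Point.some _ _ h : h5_Pt A B Ω) = h5_deg u :=
  h5_ht_some A B h

/-- Height of the double of an odd point. -/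
theorem h8_ht_double (h2 : (2 : F) ≠ 0) (hΔ : 4 * A ^ 3 + 27 * B ^ 2 ≠ 0)
    (hy : y ^ 2 = algebraMap (RatFunc F) Ω (h5_fK A B))
    {P : h5_Pt A B Ω} (hP : h5_IsOdd A B y P) :
    h5_ht A B (P + P) = 4 * h5_ht A B P := by
  rcases hP with rfl | ⟨u, w, h₁, rfl⟩
  · rw [add_zero, h5_ht_zero]
  by_cases hw : w = 0
  · obtain ⟨e, hcub⟩ := h8_odd_double_zero A B y hy h₁ hw
    rw [e, h5_ht_zero, h8_ht_odd, h5_deg_eq_zero_of_cubic A B hcub]
  · obtain ⟨d, wd, hd, e, hg, hrel⟩ := h8_odd_double A B y h2 hy h₁ hw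
    rw [e, h8_ht_odd, h8_ht_odd]
    exact h5_deg_dup A B h2 hΔ hg hrel

/-- exact parallelogram law on odd points -/
theorem h5_ht_para (h2 : (2 : F) ≠ 0) (hΔ : 4 * A ^ 3 + 27 * B ^ 2 ≠ 0)
    (hy : y ^ 2 = algebraMap (RatFunc F) Ω (h5_fK A B))
    {P Q : h5_Pt A B Ω} (hP : h5_IsOdd A B y P) (hQ : h5_IsOdd A B y Q) :
    h5_ht A B (P + Q) + h5_ht A B (P - Q) = 2 * h5_ht A B P + 2 * h5_ht A B Q := by
  have hdbl := h8_ht_double A B y h2 hΔ hy hP
  rcases hP with rfl | ⟨u, w, h₁, rfl⟩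
  · rw [zero_add, zero_sub, h5_ht_neg, h5_ht_zero]; ring
  rcases hQ with rfl | ⟨u', w', h₂, rfl⟩
  · rw [add_zero, sub_zero, h5_ht_zero]; ring
  by_cases hne : u = u'
  · subst hne
    rcases h8_odd_same A B y hy h₁ h₂ with rfl | rfl
    · rw [sub_self, h5_ht_zero, hdbl]; ring
    · rw [h8_odd_neg A B y h₁ h₂, add_neg_cancel, sub_neg_eq_add, h5_ht_zero, hdbl, h5_ht_neg]
      ring
  · obtain ⟨p, wp, m, wm, hp, hm, e1, e2, hs, hpr⟩ := h8_odd_add_sub A B y hy h₁ h₂ hne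
    rw [e1, e2, h8_ht_odd, h8_ht_odd, h8_ht_odd, h8_ht_odd]
    exact h5_deg_para A B h2 hΔ hne hs hpr

/-- The parallelogram law on the subgroup of odd points, in the form used by `h8_Quad`. -/
theorem h8_ht_para_sub (h2 : (2 : F) ≠ 0) (hΔ : 4 * A ^ 3 + 27 * B ^ 2 ≠ 0)
    (hy : y ^ 2 = algebraMap (RatFunc F) Ω (h5_fK A B))
    (P Q : h8_oddSubgroup A B y h2 hy) :
    ((h5_ht A B ((P + Q : h8_oddSubgroup A B y h2 hy) : h5_Pt A B Ω) : ℕ) : ℤ) +
        (h5_ht A B ((P - Q : h8_oddSubgroup A B y h2 hy) : h5_Pt A B Ω) : ℕ) =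
      2 * (h5_ht A B (P : h5_Pt A B Ω) : ℤ) + 2 * (h5_ht A B (Q : h5_Pt A B Ω) : ℤ) := by
  have := h5_ht_para A B y h2 hΔ hy P.2 Q.2
  rw [AddSubgroup.coe_add, AddSubgroup.coe_sub]
  exact_mod_cast this

/-- quadratic expansion -/
theorem h5_ht_add_zsmul (h2 : (2 : F) ≠ 0) (hΔ : 4 * A ^ 3 + 27 * B ^ 2 ≠ 0)
    (hy : y ^ 2 = algebraMap (RatFunc F) Ω (h5_fK A B))
    {P Q : h5_Pt A B Ω} (hP : h5_IsOdd A B y P) (hQ : h5_IsOdd A B y Q) (n : ℤ) :
    (h5_ht A B (P + n • Q) : ℤ) = h5_ht A B P +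
      n * ((h5_ht A B (P + Q) : ℤ) - h5_ht A B P - h5_ht A B Q) + n ^ 2 * h5_ht A B Q := by
  have hpar := h8_ht_para_sub A B y h2 hΔ hy
  have key := h8_h_lin2 (h := fun R : h8_oddSubgroup A B y h2 hy =>
    ((h5_ht A B (R : h5_Pt A B Ω) : ℕ) : ℤ)) hpar 1 n ⟨P, hP⟩ ⟨Q, hQ⟩
  simp only [one_zsmul, h8_pair, AddSubgroup.coe_add, AddSubgroup.coe_zsmul] at key
  rw [key]
  ring

/-- an odd point of height `0` is `O` or a 2-torsion point with constant coordinates -/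
theorem h5_ht_eq_zero (hy : y ^ 2 = algebraMap (RatFunc F) Ω (h5_fK A B))
    {P : h5_Pt A B Ω} (hP : h5_IsOdd A B y P) (h0 : h5_ht A B P = 0) :
    P = 0 ∨ ∃ (c : F) (h : ((h5_sw A B).toAffine⁄Ω).Nonsingular (algebraMap F Ω c) 0),
      P = Affine.Point.some _ _ h := by
  rcases hP with rfl | ⟨u, w, h₁, rfl⟩
  · left; rfl
  right
  rw [h8_ht_odd] at h0
  obtain ⟨c, rfl⟩ := (h5_deg_eq_zero_iff u).1 h0
  have rel := h8_odd_rel A B y hy h₁
  have hw : w = 0 := by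
    by_contra hw
    have e : w ^ 2 * h5_fK A B = RatFunc.C (c ^ 3 + A * c + B) := by
      rw [rel]; simp only [map_add, map_mul, map_pow]
    have hf0 := h8_fK_ne_zero A B
    have hdeg := congrArg RatFunc.intDegree e
    rw [RatFunc.intDegree_mul (pow_ne_zero 2 hw) hf0, RatFunc.intDegree_C, pow_two,
      RatFunc.intDegree_mul hw hw, h8_fK_eq, RatFunc.intDegree_polynomial] at hdeg
    have hnd : (Polynomial.X ^ 3 + Polynomial.C A * Polynomial.X + Polynomial.C B :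
        Polynomial F).natDegree = 3 := by
      compute_degree!
    rw [hnd] at hdeg
    omega
  have hX : algebraMap (RatFunc F) Ω (RatFunc.C c) = algebraMap F Ω c := h8_map_C c
  have hY : algebraMap (RatFunc F) Ω w * y = 0 := by rw [hw, map_zero, zero_mul]
  have h' : ((h5_sw A B).toAffine⁄Ω).Nonsingular (algebraMap F Ω c) 0 := by
    rw [← hX, ← hY]; exact h₁
  exact ⟨c, h', h8_some_eq _ _ hX hY⟩

/-- the generic point -/
theorem h5_nonsingular_gen (h2 : (2 : F) ≠ 0) (hΔ : 4 * A ^ 3 + 27 * B ^ 2 ≠ 0)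
    (hy : y ^ 2 = algebraMap (RatFunc F) Ω (h5_fK A B)) :
    ((h5_sw A B).toAffine⁄Ω).Nonsingular (algebraMap (RatFunc F) Ω RatFunc.X) y := by
  refine h8_nonsingular _ _ _ (h8_curve_eq A B) (h8_two_ne_zero h2) ?_ ?_
  · have : 4 * (algebraMap F Ω A) ^ 3 + 27 * (algebraMap F Ω B) ^ 2 =
        algebraMap F Ω (4 * A ^ 3 + 27 * B ^ 2) := by
      simp only [map_add, map_mul, map_pow, map_ofNat]
    rw [this]
    exact (map_ne_zero _).2 hΔ
  · rw [hy, h5_fK]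
    simp only [map_add, map_mul, map_pow, h8_map_C]

theorem h5_isOdd_gen
    (h : ((h5_sw A B).toAffine⁄Ω).Nonsingular (algebraMap (RatFunc F) Ω RatFunc.X) y) :
    h5_IsOdd A B y (Affine.Point.some _ _ h : h5_Pt A B Ω) := by
  right
  have hY : y = algebraMap (RatFunc F) Ω 1 * y := by rw [map_one, one_mul]
  have h' : ((h5_sw A B).toAffine⁄Ω).Nonsingular (algebraMap (RatFunc F) Ω RatFunc.X)
      (algebraMap (RatFunc F) Ω 1 * y) := by
    rw [← hY]; exact h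
  exact ⟨RatFunc.X, 1, h', h8_some_eq _ _ rfl hY⟩

theorem h5_ht_gen
    (h : ((h5_sw A B).toAffine⁄Ω).Nonsingular (algebraMap (RatFunc F) Ω RatFunc.X) y) :
    h5_ht A B (Affine.Point.some _ _ h : h5_Pt A B Ω) = 1 := by
  rw [h5_ht_some, h5_deg_X]

variable [Fintype F]

theorem h8_card_odd (h2 : (2 : F) ≠ 0) : Fintype.card F % 2 = 1 := by
  apply FiniteField.odd_card_of_char_ne_two
  intro h
  apply h2
  have := ringChar.Nat.cast_ringChar (R := F)
  rw [h] at this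
  exact_mod_cast this

theorem h5_isOdd_frob (h2 : (2 : F) ≠ 0) (hy : y ^ 2 = algebraMap (RatFunc F) Ω (h5_fK A B))
    {P : h5_Pt A B Ω} (hP : h5_IsOdd A B y P) : h5_IsOdd A B y (h5_frob A B Ω P) := by
  rcases hP with rfl | ⟨u, w, h₁, rfl⟩
  · left; exact map_zero _
  right
  obtain ⟨h', e⟩ := h5_frob_some A B h₁
  have hq : Fintype.card F = 2 * (Fintype.card F / 2) + 1 := by
    have := h8_card_odd h2
    omega
  have hX : (algebraMap (RatFunc F) Ω u) ^ Fintype.card F =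
      algebraMap (RatFunc F) Ω (u ^ Fintype.card F) := (map_pow _ _ _).symm
  have hyq : y ^ Fintype.card F = (y ^ 2) ^ (Fintype.card F / 2) * y := by
    conv_lhs => rw [hq]
    rw [pow_succ, pow_mul]
  have hY : (algebraMap (RatFunc F) Ω w * y) ^ Fintype.card F =
      algebraMap (RatFunc F) Ω (w ^ Fintype.card F * h5_fK A B ^ (Fintype.card F / 2)) * y := by
    rw [mul_pow, map_mul, map_pow, map_pow, ← hy, hyq]
    ring
  have h'' : ((h5_sw A B).toAffine⁄Ω).Nonsingular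
      (algebraMap (RatFunc F) Ω (u ^ Fintype.card F))
      (algebraMap (RatFunc F) Ω (w ^ Fintype.card F * h5_fK A B ^ (Fintype.card F / 2)) * y) := by
    rw [← hX, ← hY]; exact h'
  exact ⟨u ^ Fintype.card F, w ^ Fintype.card F * h5_fK A B ^ (Fintype.card F / 2), h'',
    e.trans (h8_some_eq _ _ hX hY)⟩

theorem h5_ht_frob (hy : y ^ 2 = algebraMap (RatFunc F) Ω (h5_fK A B))
    {P : h5_Pt A B Ω} (hP : h5_IsOdd A B y P) :
    h5_ht A B (h5_frob A B Ω P) = Fintype.card F * h5_ht A B P := by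
  rcases hP with rfl | ⟨u, w, h₁, rfl⟩
  · rw [map_zero, h5_ht_zero, mul_zero]
  obtain ⟨h', e⟩ := h5_frob_some A B h₁
  have hX : (algebraMap (RatFunc F) Ω u) ^ Fintype.card F =
      algebraMap (RatFunc F) Ω (u ^ Fintype.card F) := (map_pow _ _ _).symm
  have h'' : ((h5_sw A B).toAffine⁄Ω).Nonsingular
      (algebraMap (RatFunc F) Ω (u ^ Fintype.card F))
      ((algebraMap (RatFunc F) Ω w * y) ^ Fintype.card F) := by
    rw [← hX]; exact h'
  rw [e, h8_some_eq h' h'' hX rfl, h5_ht_some, h8_ht_odd, h5_deg_pow]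

end M

end Fermat.Agent.S52
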