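import Mathlib

/-!
# S52 block (III): an elementary Hilbert irreducibility lemma (helper7)

`h7_hit`: let `Q(s, y) = y⁴ + q₂(s) y² + q₁(s) y + q₀(s)` with `qᵢ ∈ ℤ[s]`,
`deg qᵢ ≤ (4 - i) d`, such that every real root of the top form
`z⁴ + l₂ z² + l₁ z + l₀` is simple, and such that `Q` has no root `p ∈ ℚ[s]` of degree `≤ d`.
Then every arithmetic progression contains arbitrarily large integers `s` for which
`Q(s, ·)` has no integer root.

Proof (Runge / Dörge style, elementary): for large real `s` every real root of `Q(s, ·)`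
is `p(s) + O(1/s)` for one of finitely many real polynomials `p` of degree `≤ d`
(Newton lifts of the simple real roots of the top form in the variable `u = 1/s`).
By van der Waerden, a long arithmetic progression of integer roots lies on one branch;
the `(d+1)`-st finite differences of the integer roots are integers of absolute value `< 1`,
hence vanish, so the integer roots are the values of a rational polynomial of degree `≤ d`
at `4 d + 1` points, which is then a root of `Q`.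
-/

set_option autoImplicit false

namespace Fermat.Agent.S52

open Polynomial

/-! ### Part 1: the Newton lift -/

/-- Newton lift of a simple root of `z⁴ + r₂(0) z² + r₁(0) z + r₀(0)` to an approximate root
of `z⁴ + r₂(u) z² + r₁(u) z + r₀(u)` modulo `u ^ (n + 1)`. -/
theorem h7_newton_lift (r2 r1 r0 : ℝ[X]) (ρ : ℝ)
    (hρ : ρ ^ 4 + r2.eval 0 * ρ ^ 2 + r1.eval 0 * ρ + r0.eval 0 = 0)
    (hD : 4 * ρ ^ 3 + 2 * r2.eval 0 * ρ + r1.eval 0 ≠ 0) (n : ℕ) :
    ∃ zh : ℝ[X], zh.natDegree ≤ n ∧ zh.eval 0 = ρ ∧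
      X ^ (n + 1) ∣ zh ^ 4 + r2 * zh ^ 2 + r1 * zh + r0 := by
  induction n with
  | zero =>
    refine ⟨C ρ, by simp, by simp, ?_⟩
    rw [zero_add, pow_one, X_dvd_iff, coeff_zero_eq_eval_zero]
    simpa using hρ
  | succ n ih =>
    obtain ⟨zh, hdeg, h0, g, hg⟩ := ih
    set D := 4 * ρ ^ 3 + 2 * r2.eval 0 * ρ + r1.eval 0 with hDdef
    set c := - g.eval 0 / D with hc
    refine ⟨zh + C c * X ^ (n + 1), ?_, ?_, ?_⟩
    · exact (natDegree_add_le _ _).trans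
        (max_le (hdeg.trans (Nat.le_succ n)) (natDegree_C_mul_X_pow_le c (n + 1)))
    · simp [h0]
    · have key : (zh + C c * X ^ (n + 1)) ^ 4 + r2 * (zh + C c * X ^ (n + 1)) ^ 2
            + r1 * (zh + C c * X ^ (n + 1)) + r0
          = X ^ (n + 1) * (g + C c * (4 * zh ^ 3 + 2 * r2 * zh + r1)
              + X * (X ^ n * (C c ^ 2 * (6 * zh ^ 2 + r2)
                + X ^ (n + 1) * (4 * C c ^ 3 * zh) + X ^ (2 * (n + 1)) * C c ^ 4))) := by
        linear_combination hg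
      rw [key, pow_succ X (n + 1)]
      apply mul_dvd_mul_left
      rw [X_dvd_iff, coeff_zero_eq_eval_zero]
      simp only [eval_add, eval_mul, eval_C, eval_pow, eval_X, eval_ofNat, h0]
      rw [hc]
      field_simp
      ring

/-- A real polynomial is bounded on `[0, 1]`. -/
theorem h7_poly_bdd (p : ℝ[X]) : ∃ M : ℝ, 0 ≤ M ∧ ∀ u : ℝ, 0 ≤ u → u ≤ 1 → |p.eval u| ≤ M := by
  obtain ⟨Cb, hCb⟩ := isCompact_Icc.exists_bound_of_continuousOn (s := Set.Icc (0 : ℝ) 1)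
    (f := fun u => p.eval u) p.continuous.continuousOn
  refine ⟨max Cb 0, le_max_right _ _, fun u h0 h1 => ?_⟩
  have := hCb u ⟨h0, h1⟩
  rw [Real.norm_eq_abs] at this
  exact this.trans (le_max_left _ _)


/-- `p(u) - p(0) = u * (p / X)(u)`. -/
theorem h7_eval_sub_eval_zero (p : ℝ[X]) (u : ℝ) : p.eval u - p.eval 0 = u * p.divX.eval u := by
  have h := congrArg (Polynomial.eval u) (divX_mul_X_add p)
  simp only [eval_add, eval_mul, eval_X, eval_C] at h
  have h0 : p.coeff 0 = p.eval 0 := coeff_zero_eq_eval_zero p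
  rw [h0] at h
  linarith

/-! ### Part 2: real roots near `u = 0` -/

/-- Near a simple root `ρ` of the top form, the real roots of the quartic at small `u > 0` are
`O(u ^ (n + 1))`-close to the Newton lift. -/
theorem h7_near_root (r2 r1 r0 : ℝ[X]) (ρ : ℝ)
    (hρ : ρ ^ 4 + r2.eval 0 * ρ ^ 2 + r1.eval 0 * ρ + r0.eval 0 = 0)
    (hD : 4 * ρ ^ 3 + 2 * r2.eval 0 * ρ + r1.eval 0 ≠ 0) (n : ℕ) :
    ∃ zh : ℝ[X], ∃ η u₁ Cc : ℝ, zh.natDegree ≤ n ∧ 0 < η ∧ 0 < u₁ ∧ 0 ≤ Cc ∧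
      ∀ u : ℝ, 0 < u → u ≤ u₁ → ∀ z : ℝ,
        z ^ 4 + r2.eval u * z ^ 2 + r1.eval u * z + r0.eval u = 0 → |z - ρ| < η →
        |z - zh.eval u| ≤ Cc * u ^ (n + 1) := by
  obtain ⟨zh, hdeg, h0, g, hg⟩ := h7_newton_lift r2 r1 r0 ρ hρ hD n
  obtain ⟨M, hM0, hM⟩ := h7_poly_bdd g
  set D := 4 * ρ ^ 3 + 2 * r2.eval 0 * ρ + r1.eval 0 with hDdef
  set Gf : ℝ × ℝ → ℝ := fun p => p.2 ^ 3 + p.2 ^ 2 * zh.eval p.1 + p.2 * zh.eval p.1 ^ 2
      + zh.eval p.1 ^ 3 + r2.eval p.1 * (p.2 + zh.eval p.1) + r1.eval p.1 with hGf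
  have hcont : Continuous Gf := by
    have hz : Continuous fun p : ℝ × ℝ => zh.eval p.1 := zh.continuous.comp continuous_fst
    have h2 : Continuous fun p : ℝ × ℝ => r2.eval p.1 := r2.continuous.comp continuous_fst
    have h1 : Continuous fun p : ℝ × ℝ => r1.eval p.1 := r1.continuous.comp continuous_fst
    have hs : Continuous fun p : ℝ × ℝ => p.2 := continuous_snd
    exact (((((hs.pow 3).add ((hs.pow 2).mul hz)).add (hs.mul (hz.pow 2))).add (hz.pow 3)).add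
      (h2.mul (hs.add hz))).add h1
  have hG0 : Gf (0, ρ) = D := by
    simp only [hGf, h0, hDdef]; ring
  have hopen : IsOpen {p : ℝ × ℝ | |D| / 2 < |Gf p|} :=
    isOpen_lt continuous_const (continuous_abs.comp hcont)
  have hDpos : 0 < |D| := abs_pos.mpr hD
  have hmem : ((0 : ℝ), ρ) ∈ {p : ℝ × ℝ | |D| / 2 < |Gf p|} := by
    show |D| / 2 < |Gf (0, ρ)|
    rw [hG0]; linarith
  obtain ⟨ε, hε, hball⟩ := Metric.isOpen_iff.mp hopen _ hmem
  refine ⟨zh, ε, min (ε / 2) 1, 2 * M / |D|, hdeg, hε, by positivity, by positivity, ?_⟩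
  intro u hu0 hu1 z hz hzρ
  have hu_le1 : u ≤ 1 := hu1.trans (min_le_right _ _)
  have huε : u < ε := by
    have := hu1.trans (min_le_left _ _); linarith
  have hGbig : |D| / 2 < |Gf (u, z)| := by
    apply hball
    rw [Metric.mem_ball, Prod.dist_eq]
    simp only [Real.dist_eq, sub_zero]
    exact max_lt (by rw [abs_of_pos hu0]; exact huε) hzρ
  have heq : (z - zh.eval u) * Gf (u, z) = - (u ^ (n + 1) * g.eval u) := by
    have hg' := congrArg (Polynomial.eval u) hg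
    simp only [eval_add, eval_mul, eval_pow, eval_X] at hg'
    simp only [hGf]
    linear_combination hz - hg'
  have habs : |z - zh.eval u| * |Gf (u, z)| = u ^ (n + 1) * |g.eval u| := by
    rw [← abs_mul, heq, abs_neg, abs_mul, abs_of_pos (pow_pos hu0 _)]
  have hgb := hM u hu0.le hu_le1
  have h3 : |z - zh.eval u| * (|D| / 2) ≤ u ^ (n + 1) * M := by
    calc |z - zh.eval u| * (|D| / 2) ≤ |z - zh.eval u| * |Gf (u, z)| :=
          mul_le_mul_of_nonneg_left hGbig.le (abs_nonneg _)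
      _ = u ^ (n + 1) * |g.eval u| := habs
      _ ≤ u ^ (n + 1) * M := mul_le_mul_of_nonneg_left hgb (pow_pos hu0 _).le
  rw [div_mul_eq_mul_div, le_div_iff₀ hDpos]
  linarith

/-- For small `u > 0`, every real root of the quartic is close to a real root of the top form. -/
theorem h7_root_near (r2 r1 r0 : ℝ[X]) (η : ℝ) (hη : 0 < η) :
    ∃ u₂ : ℝ, 0 < u₂ ∧ ∀ u : ℝ, 0 < u → u ≤ u₂ → ∀ z : ℝ,
      z ^ 4 + r2.eval u * z ^ 2 + r1.eval u * z + r0.eval u = 0 →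
      ∃ ρ : ℝ, ρ ^ 4 + r2.eval 0 * ρ ^ 2 + r1.eval 0 * ρ + r0.eval 0 = 0 ∧ |z - ρ| < η := by
  obtain ⟨M2, hM20, hM2⟩ := h7_poly_bdd r2
  obtain ⟨M1, hM10, hM1⟩ := h7_poly_bdd r1
  obtain ⟨M0, hM00, hM0⟩ := h7_poly_bdd r0
  obtain ⟨K2, hK20, hK2⟩ := h7_poly_bdd r2.divX
  obtain ⟨K1, hK10, hK1⟩ := h7_poly_bdd r1.divX
  obtain ⟨K0, hK00, hK0⟩ := h7_poly_bdd r0.divX
  set B := 1 + M2 + M1 + M0 with hB
  have hB1 : 1 ≤ B := by rw [hB]; linarith
  set Λ : ℝ → ℝ := fun z => z ^ 4 + r2.eval 0 * z ^ 2 + r1.eval 0 * z + r0.eval 0 with hΛ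
  set Ks : Set ℝ := Set.Icc (-B) B \ ⋃ ρ ∈ {ρ : ℝ | Λ ρ = 0}, Metric.ball ρ η with hKs
  have hKc : IsCompact Ks := isCompact_Icc.diff (isOpen_biUnion fun ρ _ => Metric.isOpen_ball)
  have hΛc : Continuous fun z => |Λ z| := by
    apply continuous_abs.comp
    simp only [hΛ]
    fun_prop
  have hpos : ∀ z ∈ Ks, 0 < |Λ z| := by
    intro z hz
    rw [abs_pos]
    intro h0
    apply hz.2
    simp only [Set.mem_iUnion]
    exact ⟨z, h0, Metric.mem_ball_self hη⟩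
  obtain ⟨m, hm0, hm⟩ := hKc.exists_forall_le' hΛc.continuousOn hpos
  set T := (K2 * B ^ 2 + K1 * B + K0) + 1 with hT
  have hT0 : 0 < T := by positivity
  refine ⟨min 1 (m / (2 * T)), by positivity, ?_⟩
  intro u hu0 hu z hz
  have hu1 : u ≤ 1 := hu.trans (min_le_left _ _)
  have hum : u ≤ m / (2 * T) := hu.trans (min_le_right _ _)
  have hzB : |z| ≤ B := by
    by_contra hcon
    rw [not_le] at hcon
    have h2 := hM2 u hu0.le hu1
    have h1 := hM1 u hu0.le hu1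
    have h0 := hM0 u hu0.le hu1
    have hz1 : 1 < |z| := lt_of_le_of_lt hB1 hcon
    have hle : |z| ^ 4 ≤ M2 * |z| ^ 2 + M1 * |z| + M0 := by
      have e : z ^ 4 = -(r2.eval u * z ^ 2 + r1.eval u * z + r0.eval u) := by linarith
      calc |z| ^ 4 = |z ^ 4| := (abs_pow z 4).symm
        _ = |r2.eval u * z ^ 2 + r1.eval u * z + r0.eval u| := by rw [e, abs_neg]
        _ ≤ |r2.eval u * z ^ 2| + |r1.eval u * z| + |r0.eval u| := abs_add_three _ _ _
        _ = |r2.eval u| * |z| ^ 2 + |r1.eval u| * |z| + |r0.eval u| := by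
            rw [abs_mul, abs_mul, abs_pow]
        _ ≤ M2 * |z| ^ 2 + M1 * |z| + M0 := by gcongr
    have ht2 : |z| ^ 2 ≤ |z| ^ 3 := pow_le_pow_right₀ hz1.le (by norm_num)
    have ht1 : |z| ≤ |z| ^ 3 := by
      calc |z| = |z| ^ 1 := (pow_one _).symm
        _ ≤ |z| ^ 3 := pow_le_pow_right₀ hz1.le (by norm_num)
    have ht0 : 1 ≤ |z| ^ 3 := one_le_pow₀ hz1.le
    have ht3 : 0 < |z| ^ 3 := by positivity
    have hlt : M2 * |z| ^ 2 + M1 * |z| + M0 < |z| ^ 4 := by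
      calc M2 * |z| ^ 2 + M1 * |z| + M0 ≤ M2 * |z| ^ 3 + M1 * |z| ^ 3 + M0 * |z| ^ 3 := by
            have a2 := mul_le_mul_of_nonneg_left ht2 hM20
            have a1 := mul_le_mul_of_nonneg_left ht1 hM10
            have a0 := mul_le_mul_of_nonneg_left ht0 hM00
            linarith
        _ = (M2 + M1 + M0) * |z| ^ 3 := by ring
        _ < |z| * |z| ^ 3 := by
            apply mul_lt_mul_of_pos_right _ ht3
            rw [hB] at hcon; linarith
        _ = |z| ^ 4 := by ring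
    linarith
  have hΛz : |Λ z| < m := by
    have e2 := h7_eval_sub_eval_zero r2 u
    have e1 := h7_eval_sub_eval_zero r1 u
    have e0 := h7_eval_sub_eval_zero r0 u
    have hΛeq : Λ z = -(u * (r2.divX.eval u * z ^ 2 + r1.divX.eval u * z + r0.divX.eval u)) := by
      simp only [hΛ]
      linear_combination hz - z ^ 2 * e2 - z * e1 - e0
    have k2 := hK2 u hu0.le hu1
    have k1 := hK1 u hu0.le hu1
    have k0 := hK0 u hu0.le hu1
    have hb : |r2.divX.eval u * z ^ 2 + r1.divX.eval u * z + r0.divX.eval u|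
        ≤ K2 * B ^ 2 + K1 * B + K0 := by
      calc |r2.divX.eval u * z ^ 2 + r1.divX.eval u * z + r0.divX.eval u|
          ≤ |r2.divX.eval u * z ^ 2| + |r1.divX.eval u * z| + |r0.divX.eval u| :=
            abs_add_three _ _ _
        _ = |r2.divX.eval u| * |z| ^ 2 + |r1.divX.eval u| * |z| + |r0.divX.eval u| := by
            rw [abs_mul, abs_mul, abs_pow]
        _ ≤ K2 * B ^ 2 + K1 * B + K0 := by gcongr
    rw [hΛeq, abs_neg, abs_mul, abs_of_pos hu0]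
    calc u * |r2.divX.eval u * z ^ 2 + r1.divX.eval u * z + r0.divX.eval u|
        ≤ u * (K2 * B ^ 2 + K1 * B + K0) := mul_le_mul_of_nonneg_left hb hu0.le
      _ < u * T := by
          apply mul_lt_mul_of_pos_left _ hu0
          rw [hT]; linarith
      _ ≤ m / (2 * T) * T := mul_le_mul_of_nonneg_right hum hT0.le
      _ = m / 2 := by field_simp
      _ < m := by linarith
  by_contra hnot
  have hzK : z ∈ Ks := by
    refine ⟨⟨neg_le_of_abs_le hzB, le_of_abs_le hzB⟩, fun hmem => hnot ?_⟩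
    simp only [Set.mem_iUnion] at hmem
    obtain ⟨ρ, hρ, hzρ⟩ := hmem
    exact ⟨ρ, hρ, by rwa [Metric.mem_ball, Real.dist_eq] at hzρ⟩
  exact absurd (hm z hzK) (not_le.mpr hΛz)


/-! ### Part 3: the branches -/

theorem h7_exists_pos_le {ι : Type*} (s : Finset ι) (f : ι → ℝ) (hf : ∀ i ∈ s, 0 < f i) :
    ∃ e : ℝ, 0 < e ∧ ∀ i ∈ s, e ≤ f i := by
  classical
  induction s using Finset.induction_on with
  | empty => exact ⟨1, one_pos, by simp⟩
  | insert a s ha ih =>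
    obtain ⟨e, he, hle⟩ := ih (fun i hi => hf i (Finset.mem_insert_of_mem hi))
    refine ⟨min e (f a), lt_min he (hf a (Finset.mem_insert_self a s)), ?_⟩
    intro i hi
    rcases Finset.mem_insert.mp hi with rfl | hi
    · exact min_le_right _ _
    · exact (min_le_left _ _).trans (hle i hi)

theorem h7_exists_ge {ι : Type*} (s : Finset ι) (f : ι → ℝ) :
    ∃ C : ℝ, 0 ≤ C ∧ ∀ i ∈ s, f i ≤ C := by
  refine ⟨∑ i ∈ s, |f i|, Finset.sum_nonneg fun i _ => abs_nonneg _, fun i hi => ?_⟩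
  exact (le_abs_self _).trans
    (Finset.single_le_sum (f := fun i => |f i|) (fun i _ => abs_nonneg _) hi)

/-- All real roots of the quartic at small `u > 0` lie on finitely many polynomial branches,
up to `O(u ^ (n + 1))`. -/
theorem h7_branches_u (r2 r1 r0 : ℝ[X]) (n : ℕ)
    (hsep : ∀ z : ℝ, z ^ 4 + r2.eval 0 * z ^ 2 + r1.eval 0 * z + r0.eval 0 = 0 →
      4 * z ^ 3 + 2 * r2.eval 0 * z + r1.eval 0 ≠ 0) :
    ∃ (Z : Finset ℝ[X]) (Cc u₀ : ℝ), 0 ≤ Cc ∧ 0 < u₀ ∧ (∀ zh ∈ Z, zh.natDegree ≤ n) ∧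
      ∀ u : ℝ, 0 < u → u ≤ u₀ → ∀ z : ℝ,
        z ^ 4 + r2.eval u * z ^ 2 + r1.eval u * z + r0.eval u = 0 →
        ∃ zh ∈ Z, |z - zh.eval u| ≤ Cc * u ^ (n + 1) := by
  classical
  have key : ∀ ρ : ℝ, ∃ zh : ℝ[X], ∃ η u₁ Cc : ℝ,
      ρ ^ 4 + r2.eval 0 * ρ ^ 2 + r1.eval 0 * ρ + r0.eval 0 = 0 →
      (zh.natDegree ≤ n ∧ 0 < η ∧ 0 < u₁ ∧ 0 ≤ Cc ∧
      ∀ u : ℝ, 0 < u → u ≤ u₁ → ∀ z : ℝ,
        z ^ 4 + r2.eval u * z ^ 2 + r1.eval u * z + r0.eval u = 0 → |z - ρ| < η →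
        |z - zh.eval u| ≤ Cc * u ^ (n + 1)) := by
    intro ρ
    by_cases hρ : ρ ^ 4 + r2.eval 0 * ρ ^ 2 + r1.eval 0 * ρ + r0.eval 0 = 0
    · obtain ⟨zh, η, u₁, Cc, h⟩ := h7_near_root r2 r1 r0 ρ hρ (hsep ρ hρ) n
      exact ⟨zh, η, u₁, Cc, fun _ => h⟩
    · exact ⟨0, 0, 0, 0, fun h => absurd h hρ⟩
  choose zh η u₁ Cc hkey using key
  set P : ℝ[X] := X ^ 4 + C (r2.eval 0) * X ^ 2 + C (r1.eval 0) * X + C (r0.eval 0) with hP
  have hP0 : P ≠ 0 := by
    intro h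
    have h4 : P.coeff 4 = 1 := by
      simp [hP, coeff_X_pow]
    rw [h] at h4
    simp at h4
  set Rts : Finset ℝ := P.roots.toFinset with hRts
  have hmemR : ∀ ρ : ℝ, ρ ∈ Rts ↔
      ρ ^ 4 + r2.eval 0 * ρ ^ 2 + r1.eval 0 * ρ + r0.eval 0 = 0 := by
    intro ρ
    rw [hRts, Multiset.mem_toFinset, mem_roots hP0, IsRoot.def]
    simp [hP]
  obtain ⟨η₀, hη₀, hη₀le⟩ := h7_exists_pos_le Rts η
    (fun ρ hρ => (hkey ρ ((hmemR ρ).1 hρ)).2.1)
  obtain ⟨u₁₀, hu₁₀, hu₁₀le⟩ := h7_exists_pos_le Rts u₁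
    (fun ρ hρ => (hkey ρ ((hmemR ρ).1 hρ)).2.2.1)
  obtain ⟨C₀, hC₀, hC₀le⟩ := h7_exists_ge Rts Cc
  obtain ⟨u₂, hu₂, hroot⟩ := h7_root_near r2 r1 r0 η₀ hη₀
  refine ⟨Rts.image zh, C₀, min u₂ u₁₀, hC₀, lt_min hu₂ hu₁₀, ?_, ?_⟩
  · intro p hp
    obtain ⟨ρ, hρ, rfl⟩ := Finset.mem_image.mp hp
    exact (hkey ρ ((hmemR ρ).1 hρ)).1
  · intro u hu0 hu z hz
    obtain ⟨ρ, hρ, hzρ⟩ := hroot u hu0 (hu.trans (min_le_left _ _)) z hz
    have hρR := (hmemR ρ).2 hρ
    refine ⟨zh ρ, Finset.mem_image_of_mem _ hρR, ?_⟩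
    have h := (hkey ρ hρ).2.2.2.2 u hu0 ((hu.trans (min_le_right _ _)).trans (hu₁₀le ρ hρR)) z hz
      (hzρ.trans_le (hη₀le ρ hρR))
    exact h.trans (mul_le_mul_of_nonneg_right (hC₀le ρ hρR) (pow_pos hu0 _).le)

/-- Evaluation of a reflected polynomial at `1 / s`. -/
theorem h7_eval_reflect (f : ℝ[X]) (N : ℕ) (hf : f.natDegree ≤ N) (s : ℝ) (hs : s ≠ 0) :
    (reflect N f).eval s⁻¹ * s ^ N = f.eval s := by
  let _ : Invertible s := invertibleOfNonzero hs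
  have h := eval₂_reflect_mul_pow (RingHom.id ℝ) s N f hf
  rw [invOf_eq_inv] at h
  exact h

/-- All real roots of `y⁴ + Q₂(s) y² + Q₁(s) y + Q₀(s)` at large real `s` lie on finitely many
polynomial branches of degree `≤ d`, up to `O(1 / s)`. -/
theorem h7_branches (Q2 Q1 Q0 : ℝ[X]) (d : ℕ)
    (h2 : Q2.natDegree ≤ 2 * d) (h1 : Q1.natDegree ≤ 3 * d) (h0 : Q0.natDegree ≤ 4 * d)
    (hsep : ∀ z : ℝ,
      z ^ 4 + Q2.coeff (2 * d) * z ^ 2 + Q1.coeff (3 * d) * z + Q0.coeff (4 * d) = 0 →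
        4 * z ^ 3 + 2 * Q2.coeff (2 * d) * z + Q1.coeff (3 * d) ≠ 0) :
    ∃ (Ps : Finset ℝ[X]) (Cc S₀ : ℝ), 0 ≤ Cc ∧ 0 < S₀ ∧ (∀ p ∈ Ps, p.natDegree ≤ d) ∧
      ∀ s : ℝ, S₀ ≤ s → ∀ y : ℝ,
        y ^ 4 + Q2.eval s * y ^ 2 + Q1.eval s * y + Q0.eval s = 0 →
        ∃ p ∈ Ps, |y - p.eval s| ≤ Cc / s := by
  classical
  have e2 : (reflect (2 * d) Q2).eval 0 = Q2.coeff (2 * d) := by
    rw [← coeff_zero_eq_eval_zero, coeff_reflect, revAt_zero]
  have e1 : (reflect (3 * d) Q1).eval 0 = Q1.coeff (3 * d) := by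
    rw [← coeff_zero_eq_eval_zero, coeff_reflect, revAt_zero]
  have e0 : (reflect (4 * d) Q0).eval 0 = Q0.coeff (4 * d) := by
    rw [← coeff_zero_eq_eval_zero, coeff_reflect, revAt_zero]
  obtain ⟨Z, Cc, u₀, hCc, hu₀, hZdeg, hZ⟩ := h7_branches_u (reflect (2 * d) Q2)
    (reflect (3 * d) Q1) (reflect (4 * d) Q0) d (by rw [e2, e1, e0]; exact hsep)
  refine ⟨Z.image (reflect d), Cc, 1 / u₀, hCc, by positivity, ?_, ?_⟩
  · intro p hp
    obtain ⟨zh, hzh, rfl⟩ := Finset.mem_image.mp hp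
    exact natDegree_reflect_le.trans (max_le le_rfl (hZdeg zh hzh))
  · intro s hs y hy
    have hs0 : 0 < s := lt_of_lt_of_le (by positivity) hs
    have hsne : s ≠ 0 := hs0.ne'
    have hsd : 0 < s ^ d := pow_pos hs0 d
    have hu : s⁻¹ ≤ u₀ := by
      rw [inv_le_comm₀ hs0 hu₀]
      simpa [one_div] using hs
    have hz : (y / s ^ d) ^ 4 + (reflect (2 * d) Q2).eval s⁻¹ * (y / s ^ d) ^ 2
        + (reflect (3 * d) Q1).eval s⁻¹ * (y / s ^ d) + (reflect (4 * d) Q0).eval s⁻¹ = 0 := by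
      have E2 := h7_eval_reflect Q2 (2 * d) h2 s hsne
      have E1 := h7_eval_reflect Q1 (3 * d) h1 s hsne
      have E0 := h7_eval_reflect Q0 (4 * d) h0 s hsne
      have key : ((y / s ^ d) ^ 4 + (reflect (2 * d) Q2).eval s⁻¹ * (y / s ^ d) ^ 2
          + (reflect (3 * d) Q1).eval s⁻¹ * (y / s ^ d) + (reflect (4 * d) Q0).eval s⁻¹)
          * s ^ (4 * d) = 0 := by
        rw [← hy, ← E2, ← E1, ← E0]
        have p2 : s ^ (2 * d) = (s ^ d) ^ 2 := by rw [← pow_mul, mul_comm]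
        have p3 : s ^ (3 * d) = (s ^ d) ^ 3 := by rw [← pow_mul, mul_comm]
        have p4 : s ^ (4 * d) = (s ^ d) ^ 4 := by rw [← pow_mul, mul_comm]
        rw [p2, p3, p4]
        field_simp
      exact (mul_eq_zero.mp key).resolve_right (pow_ne_zero _ hsne)
    obtain ⟨zh, hzh, hb⟩ := hZ s⁻¹ (inv_pos.mpr hs0) hu _ hz
    refine ⟨reflect d zh, Finset.mem_image_of_mem _ hzh, ?_⟩
    have Ez := h7_eval_reflect zh d (hZdeg zh hzh) s⁻¹ (inv_ne_zero hsne)
    rw [inv_inv] at Ez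
    have hp : (reflect d zh).eval s = zh.eval s⁻¹ * s ^ d := by
      rw [← Ez, inv_pow, mul_assoc, inv_mul_cancel₀ hsd.ne', mul_one]
    have hdiff : y - (reflect d zh).eval s = s ^ d * (y / s ^ d - zh.eval s⁻¹) := by
      rw [hp]
      field_simp
    rw [hdiff, abs_mul, abs_of_pos hsd]
    calc s ^ d * |y / s ^ d - zh.eval s⁻¹| ≤ s ^ d * (Cc * s⁻¹ ^ (d + 1)) :=
          mul_le_mul_of_nonneg_left hb hsd.le
      _ = Cc / s := by
          rw [inv_pow, pow_succ]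
          field_simp


/-! ### Part 4: finite differences and interpolation -/

/-- The `n`-th finite difference of a polynomial of degree `< n` vanishes. -/
theorem h7_fd_zero {R : Type*} [CommRing R] (P : R[X]) (n : ℕ) (hP : P.natDegree < n) (x : R) :
    ∑ k ∈ Finset.range (n + 1),
      ((-1 : R) ^ (n - k) * (n.choose k : R)) * P.eval (x + (k : R)) = 0 := by
  have h := congrFun (Polynomial.fwdDiff_iter_eq_zero_of_degree_lt hP) x
  rw [fwdDiff_iter_eq_sum_shift] at h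
  simpa [zsmul_eq_mul, nsmul_eq_mul] using h

/-- Integers that are uniformly close to the values of a real polynomial of degree `≤ d` at
`0, 1, …, L` are the values of a rational polynomial of degree `≤ d`. -/
theorem h7_interp (d : ℕ) (pt : ℝ[X]) (hpt : pt.natDegree ≤ d) (Y : ℕ → ℤ) (ε : ℝ)
    (hε : 2 ^ (d + 1) * ε < 1) (L : ℕ)
    (hclose : ∀ k ≤ L, |(Y k : ℝ) - pt.eval (k : ℝ)| ≤ ε) :
    ∃ P : ℚ[X], P.natDegree ≤ d ∧ ∀ k ≤ L, P.eval (k : ℚ) = Y k := by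
  classical
  have hrec : ∀ k₀ : ℕ, k₀ + (d + 1) ≤ L →
      ∑ i ∈ Finset.range (d + 2),
        ((-1 : ℤ) ^ (d + 1 - i) * ((d + 1).choose i : ℤ)) * Y (k₀ + i) = 0 := by
    intro k₀ hk₀
    rw [← Int.abs_lt_one_iff]
    have hfd := h7_fd_zero pt (d + 1) (Nat.lt_succ_of_le hpt) (k₀ : ℝ)
    have hcast : ((∑ i ∈ Finset.range (d + 2),
        ((-1 : ℤ) ^ (d + 1 - i) * ((d + 1).choose i : ℤ)) * Y (k₀ + i) : ℤ) : ℝ)
        = ∑ i ∈ Finset.range (d + 2), ((-1 : ℝ) ^ (d + 1 - i) * ((d + 1).choose i : ℝ))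
            * ((Y (k₀ + i) : ℝ) - pt.eval ((k₀ : ℝ) + (i : ℝ))) := by
      push_cast
      simp only [mul_sub, Finset.sum_sub_distrib]
      rw [hfd, sub_zero]
    have hbound : |∑ i ∈ Finset.range (d + 2), ((-1 : ℝ) ^ (d + 1 - i) * ((d + 1).choose i : ℝ))
            * ((Y (k₀ + i) : ℝ) - pt.eval ((k₀ : ℝ) + (i : ℝ)))| ≤ 2 ^ (d + 1) * ε := by
      calc |∑ i ∈ Finset.range (d + 2), ((-1 : ℝ) ^ (d + 1 - i) * ((d + 1).choose i : ℝ))
            * ((Y (k₀ + i) : ℝ) - pt.eval ((k₀ : ℝ) + (i : ℝ)))|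
          ≤ ∑ i ∈ Finset.range (d + 2), |((-1 : ℝ) ^ (d + 1 - i) * ((d + 1).choose i : ℝ))
            * ((Y (k₀ + i) : ℝ) - pt.eval ((k₀ : ℝ) + (i : ℝ)))| := Finset.abs_sum_le_sum_abs _ _
        _ ≤ ∑ i ∈ Finset.range (d + 2), ((d + 1).choose i : ℝ) * ε := by
            apply Finset.sum_le_sum
            intro i hi
            rw [abs_mul, abs_mul, abs_pow, abs_neg, abs_one, one_pow, one_mul, Nat.abs_cast]
            apply mul_le_mul_of_nonneg_left _ (Nat.cast_nonneg _)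
            have h := hclose (k₀ + i) (by have := Finset.mem_range.mp hi; omega)
            rwa [Nat.cast_add] at h
        _ = 2 ^ (d + 1) * ε := by
            rw [← Finset.sum_mul]
            congr 1
            have h := Nat.sum_range_choose (d + 1)
            exact_mod_cast h
    have hlt : |((∑ i ∈ Finset.range (d + 2),
        ((-1 : ℤ) ^ (d + 1 - i) * ((d + 1).choose i : ℤ)) * Y (k₀ + i) : ℤ) : ℝ)| < 1 := by
      rw [hcast]
      exact lt_of_le_of_lt hbound hε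
    exact_mod_cast hlt
  set v : ℕ → ℚ := fun k => (k : ℚ) with hv
  have hvinj : Set.InjOn v (Finset.range (d + 1) : Set ℕ) := by
    intro a _ b _ h
    exact Nat.cast_injective h
  set P : ℚ[X] := Lagrange.interpolate (Finset.range (d + 1)) v (fun k => (Y k : ℚ)) with hP
  have hPdeg : P.natDegree ≤ d := by
    have h := Lagrange.degree_interpolate_le (fun k => (Y k : ℚ)) hvinj
    rw [Finset.card_range, Nat.add_sub_cancel] at h
    exact natDegree_le_of_degree_le h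
  have hPrec : ∀ k₀ : ℕ, ∑ i ∈ Finset.range (d + 2),
      ((-1 : ℚ) ^ (d + 1 - i) * ((d + 1).choose i : ℚ)) * P.eval ((k₀ : ℚ) + (i : ℚ)) = 0 :=
    fun k₀ => h7_fd_zero P (d + 1) (Nat.lt_succ_of_le hPdeg) (k₀ : ℚ)
  have hmain : ∀ k : ℕ, k ≤ L → P.eval (k : ℚ) = Y k := by
    intro k
    induction k using Nat.strong_induction_on with
    | _ k ih =>
      intro hk
      by_cases hkd : k ≤ d
      · exact Lagrange.eval_interpolate_at_node (fun k => (Y k : ℚ)) hvinj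
          (Finset.mem_range.mpr (Nat.lt_succ_of_le hkd))
      · rw [not_le] at hkd
        obtain ⟨k₀, rfl⟩ : ∃ k₀, k = k₀ + (d + 1) := ⟨k - (d + 1), by omega⟩
        have h1 := hPrec k₀
        have h2 := hrec k₀ hk
        have h2' : ∑ i ∈ Finset.range (d + 2),
            ((-1 : ℚ) ^ (d + 1 - i) * ((d + 1).choose i : ℚ)) * (Y (k₀ + i) : ℚ) = 0 := by
          exact_mod_cast h2
        rw [Finset.sum_range_succ] at h1 h2'
        have hsum : ∑ i ∈ Finset.range (d + 1),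
            ((-1 : ℚ) ^ (d + 1 - i) * ((d + 1).choose i : ℚ)) * P.eval ((k₀ : ℚ) + (i : ℚ))
            = ∑ i ∈ Finset.range (d + 1),
            ((-1 : ℚ) ^ (d + 1 - i) * ((d + 1).choose i : ℚ)) * (Y (k₀ + i) : ℚ) := by
          apply Finset.sum_congr rfl
          intro i hi
          have hi' := Finset.mem_range.mp hi
          have h := ih (k₀ + i) (by omega) (by omega)
          rw [← h, Nat.cast_add]
        rw [hsum] at h1
        simp only [Nat.sub_self, pow_zero, Nat.choose_self, Nat.cast_one, one_mul] at h1 h2'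
        have h3 : P.eval ((k₀ : ℚ) + ((d + 1 : ℕ) : ℚ)) = (Y (k₀ + (d + 1)) : ℚ) := by
          linarith
        rw [Nat.cast_add]
        exact h3
  exact ⟨P, hPdeg, hmain⟩


/-! ### Part 5: the Hilbert irreducibility lemma -/

/-- **Elementary Hilbert irreducibility for a depressed quartic.**
Let `Q(s, y) = y⁴ + q₂(s) y² + q₁(s) y + q₀(s)` with `qᵢ ∈ ℤ[s]`, `deg qᵢ ≤ (4 - i) d`.
Assume every real root of the top form `z⁴ + l₂ z² + l₁ z + l₀` is simple and that `Q` has no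
root `p ∈ ℚ[s]` of degree `≤ d`.  Then every arithmetic progression `r mod N` contains integers
`s ≥ S` such that `Q(s, ·)` has no integer root. -/
theorem h7_hit (q2 q1 q0 : ℤ[X]) (d : ℕ)
    (h2 : q2.natDegree ≤ 2 * d) (h1 : q1.natDegree ≤ 3 * d) (h0 : q0.natDegree ≤ 4 * d)
    (hsep : ∀ z : ℝ, z ^ 4 + (q2.coeff (2 * d) : ℝ) * z ^ 2 + (q1.coeff (3 * d) : ℝ) * z
        + (q0.coeff (4 * d) : ℝ) = 0 →
        4 * z ^ 3 + 2 * (q2.coeff (2 * d) : ℝ) * z + (q1.coeff (3 * d) : ℝ) ≠ 0)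
    (hroot : ¬ ∃ p : ℚ[X], p.natDegree ≤ d ∧
        p ^ 4 + q2.map (Int.castRingHom ℚ) * p ^ 2 + q1.map (Int.castRingHom ℚ) * p
          + q0.map (Int.castRingHom ℚ) = 0)
    (N : ℕ) (hN : 0 < N) (r S : ℤ) :
    ∃ s : ℤ, S ≤ s ∧ s ≡ r [ZMOD N] ∧
      ∀ y : ℤ, y ^ 4 + q2.eval s * y ^ 2 + q1.eval s * y + q0.eval s ≠ 0 := by
  classical
  by_contra hcon
  simp only [not_exists, not_and, not_forall, not_not] at hcon
  obtain ⟨Ps, Cc, S₀, hCc, hS₀, hPsdeg, hPs⟩ := h7_branches (q2.map (Int.castRingHom ℝ))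
    (q1.map (Int.castRingHom ℝ)) (q0.map (Int.castRingHom ℝ)) d
    (natDegree_map_le.trans h2) (natDegree_map_le.trans h1) (natDegree_map_le.trans h0)
    (by simpa [coeff_map] using hsep)
  -- the base point
  set A : ℕ := ⌈S₀⌉₊ + ⌈2 ^ (d + 1) * Cc⌉₊ + 1 with hA
  set T : ℕ := (|r| + |S|).toNat + A with hT
  set s₀ : ℤ := r + N * T with hs₀
  have hNpos : (0 : ℤ) < N := by exact_mod_cast hN
  have hTcast : (T : ℤ) = |r| + |S| + A := by
    rw [hT]
    push_cast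
    rw [Int.toNat_of_nonneg (by positivity)]
  have hNT : (T : ℤ) ≤ N * T := by
    have h1 : (1 : ℤ) ≤ N := hNpos
    have hT0 : (0 : ℤ) ≤ T := Int.natCast_nonneg T
    nlinarith
  have hr : 0 ≤ r + |r| := by
    have := neg_abs_le r
    linarith
  have hA0 : (0 : ℤ) ≤ A := Int.natCast_nonneg A
  have hs₀S : S ≤ s₀ := by
    have := le_abs_self S
    rw [hs₀]
    linarith
  have hs₀A : (A : ℤ) ≤ s₀ := by
    have := abs_nonneg S
    rw [hs₀]
    linarith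
  have hs₀Ar : (A : ℝ) ≤ (s₀ : ℝ) := by exact_mod_cast hs₀A
  have hAS₀ : S₀ ≤ (A : ℝ) := by
    have h1 := Nat.le_ceil S₀
    have h2 : (0 : ℝ) ≤ (⌈2 ^ (d + 1) * Cc⌉₊ : ℝ) := Nat.cast_nonneg _
    rw [hA]
    push_cast
    linarith
  have hACc : 2 ^ (d + 1) * Cc < (A : ℝ) := by
    have h1 := Nat.le_ceil (2 ^ (d + 1) * Cc)
    have h2 : (0 : ℝ) ≤ (⌈S₀⌉₊ : ℝ) := Nat.cast_nonneg _
    rw [hA]
    push_cast
    linarith
  have hs₀pos : (0 : ℝ) < s₀ := lt_of_lt_of_le hS₀ (hAS₀.trans hs₀Ar)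
  -- the points of the progression
  set sj : ℕ → ℤ := fun j => s₀ + j * N with hsj
  have hsjge : ∀ j, s₀ ≤ sj j := by
    intro j
    have h : (0 : ℤ) ≤ (j : ℤ) * N := by positivity
    simp only [hsj]
    linarith
  have hsjmod : ∀ j, sj j ≡ r [ZMOD N] := by
    intro j
    rw [Int.modEq_iff_dvd]
    exact ⟨-(T + j), by simp only [hsj, hs₀]; ring⟩
  have hex : ∀ j, ∃ y : ℤ,
      y ^ 4 + q2.eval (sj j) * y ^ 2 + q1.eval (sj j) * y + q0.eval (sj j) = 0 :=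
    fun j => hcon (sj j) (hs₀S.trans (hsjge j)) (hsjmod j)
  choose Y hY using hex
  have hYr : ∀ j, (Y j : ℝ) ^ 4 + (q2.map (Int.castRingHom ℝ)).eval ((sj j : ℤ) : ℝ) * (Y j : ℝ) ^ 2
      + (q1.map (Int.castRingHom ℝ)).eval ((sj j : ℤ) : ℝ) * (Y j : ℝ)
      + (q0.map (Int.castRingHom ℝ)).eval ((sj j : ℤ) : ℝ) = 0 := by
    intro j
    have h := congrArg (Int.cast : ℤ → ℝ) (hY j)
    push_cast at h
    simpa [eval_intCast_map] using h
  have hsjS₀ : ∀ j, S₀ ≤ ((sj j : ℤ) : ℝ) := fun j =>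
    hAS₀.trans (hs₀Ar.trans (by exact_mod_cast hsjge j))
  have hbr : ∀ j, ∃ p ∈ Ps, |(Y j : ℝ) - p.eval ((sj j : ℤ) : ℝ)| ≤ Cc / ((sj j : ℤ) : ℝ) :=
    fun j => hPs (sj j) (hsjS₀ j) (Y j) (hYr j)
  choose pj hpjmem hpjb using hbr
  -- van der Waerden: a long progression on one branch
  obtain ⟨a, ha, b, c, hc⟩ := Combinatorics.exists_mono_homothetic_copy
    (Finset.range (4 * d + 1)) (fun j : ℕ => (⟨pj j, hpjmem j⟩ : {p // p ∈ Ps}))
  have hcol : ∀ k ≤ 4 * d, pj (a * k + b) = c.1 := by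
    intro k hk
    have h := hc k (Finset.mem_range.mpr (Nat.lt_succ_of_le hk))
    have h' := congrArg Subtype.val h
    simpa [smul_eq_mul] using h'
  set α : ℝ := (s₀ : ℝ) + (b : ℝ) * N with hα
  set β : ℝ := (a : ℝ) * N with hβ
  set pt : ℝ[X] := (c.1).comp (C β * X + C α) with hpt
  have hptdeg : pt.natDegree ≤ d := by
    calc pt.natDegree ≤ (c.1).natDegree * (C β * X + C α).natDegree := natDegree_comp_le
      _ ≤ d * 1 := Nat.mul_le_mul (hPsdeg _ c.2) natDegree_linear_le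
      _ = d := mul_one d
  have hpteval : ∀ k : ℕ, pt.eval (k : ℝ) = (c.1).eval ((sj (a * k + b) : ℤ) : ℝ) := by
    intro k
    simp only [hpt, eval_comp, eval_add, eval_mul, eval_C, eval_X, hsj, hα, hβ]
    congr 1
    push_cast
    ring
  have hε : 2 ^ (d + 1) * (Cc / (s₀ : ℝ)) < 1 := by
    rw [← mul_div_assoc, div_lt_one hs₀pos]
    exact lt_of_lt_of_le hACc hs₀Ar
  have hclose : ∀ k ≤ 4 * d,
      |((Y (a * k + b) : ℤ) : ℝ) - pt.eval (k : ℝ)| ≤ Cc / (s₀ : ℝ) := by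
    intro k hk
    rw [hpteval k, ← hcol k hk]
    refine (hpjb (a * k + b)).trans ?_
    apply div_le_div_of_nonneg_left hCc hs₀pos
    exact_mod_cast hsjge (a * k + b)
  obtain ⟨P, hPdeg, hPval⟩ := h7_interp d pt hptdeg (fun k => Y (a * k + b)) (Cc / s₀) hε
    (4 * d) hclose
  -- back to the variable `s`
  have haQ : (a : ℚ) ≠ 0 := Nat.cast_ne_zero.mpr ha.ne'
  have hNQ : (N : ℚ) ≠ 0 := Nat.cast_ne_zero.mpr hN.ne'
  set P' : ℚ[X] := P.comp (C (1 / ((a : ℚ) * N)) * X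
    + C (-((s₀ : ℚ) + (b : ℚ) * N) / ((a : ℚ) * N))) with hP'
  have hP'deg : P'.natDegree ≤ d := by
    calc P'.natDegree ≤ P.natDegree * (C (1 / ((a : ℚ) * N)) * X
          + C (-((s₀ : ℚ) + (b : ℚ) * N) / ((a : ℚ) * N))).natDegree := natDegree_comp_le
      _ ≤ d * 1 := Nat.mul_le_mul hPdeg natDegree_linear_le
      _ = d := mul_one d
  have hP'eval : ∀ k ≤ 4 * d, P'.eval ((sj (a * k + b) : ℤ) : ℚ) = (Y (a * k + b) : ℚ) := by
    intro k hk
    rw [← hPval k hk]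
    simp only [hP', eval_comp, eval_add, eval_mul, eval_C, eval_X, hsj]
    congr 1
    push_cast
    field_simp
    ring
  apply hroot
  refine ⟨P', hP'deg, ?_⟩
  set F : ℚ[X] := P' ^ 4 + q2.map (Int.castRingHom ℚ) * P' ^ 2 + q1.map (Int.castRingHom ℚ) * P'
    + q0.map (Int.castRingHom ℚ) with hF
  have hFdeg : F.natDegree ≤ 4 * d := by
    have d4 : (P' ^ 4).natDegree ≤ 4 * d :=
      natDegree_pow_le.trans (Nat.mul_le_mul_left 4 hP'deg)
    have d2 : (q2.map (Int.castRingHom ℚ) * P' ^ 2).natDegree ≤ 4 * d := by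
      refine natDegree_mul_le.trans ?_
      have e1 := natDegree_map_le (f := Int.castRingHom ℚ) (p := q2)
      have e2 : (P' ^ 2).natDegree ≤ 2 * d :=
        natDegree_pow_le.trans (Nat.mul_le_mul_left 2 hP'deg)
      omega
    have d1 : (q1.map (Int.castRingHom ℚ) * P').natDegree ≤ 4 * d := by
      refine natDegree_mul_le.trans ?_
      have e1 := natDegree_map_le (f := Int.castRingHom ℚ) (p := q1)
      omega
    have d0 : (q0.map (Int.castRingHom ℚ)).natDegree ≤ 4 * d := natDegree_map_le.trans h0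
    exact (natDegree_add_le _ _).trans (max_le ((natDegree_add_le _ _).trans
      (max_le ((natDegree_add_le _ _).trans (max_le d4 d2)) d1)) d0)
  have hFeval : ∀ k : Fin (4 * d + 1), F.eval ((sj (a * k + b) : ℤ) : ℚ) = 0 := by
    intro k
    have hk : (k : ℕ) ≤ 4 * d := Nat.lt_succ_iff.mp k.2
    have h := congrArg (Int.cast : ℤ → ℚ) (hY (a * k + b))
    push_cast at h
    simp only [hF, eval_add, eval_mul, eval_pow, eval_intCast_map, hP'eval k hk]
    simpa using h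
  have hinj : Function.Injective
      (fun k : Fin (4 * d + 1) => ((sj (a * k + b) : ℤ) : ℚ)) := by
    intro k k' h
    have e1 : sj (a * k + b) = sj (a * k' + b) := Int.cast_injective h
    simp only [hsj] at e1
    have e2 : ((a * k + b : ℕ) : ℤ) * N = ((a * k' + b : ℕ) : ℤ) * N := by linarith
    have e3 := mul_right_cancel₀ hNpos.ne' e2
    have e4 : a * (k : ℕ) + b = a * (k' : ℕ) + b := by exact_mod_cast e3
    have e5 : a * (k : ℕ) = a * (k' : ℕ) := Nat.add_right_cancel e4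
    exact Fin.ext (Nat.eq_of_mul_eq_mul_left ha e5)
  exact eq_zero_of_natDegree_lt_card_of_eval_eq_zero F hinj hFeval
    (by rw [Fintype.card_fin]; omega)

/-- Rational form of `h7_hit`: the specialised quartic has no rational root. -/
theorem h7_hit_rat (q2 q1 q0 : ℤ[X]) (d : ℕ)
    (h2 : q2.natDegree ≤ 2 * d) (h1 : q1.natDegree ≤ 3 * d) (h0 : q0.natDegree ≤ 4 * d)
    (hsep : ∀ z : ℝ, z ^ 4 + (q2.coeff (2 * d) : ℝ) * z ^ 2 + (q1.coeff (3 * d) : ℝ) * z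
        + (q0.coeff (4 * d) : ℝ) = 0 →
        4 * z ^ 3 + 2 * (q2.coeff (2 * d) : ℝ) * z + (q1.coeff (3 * d) : ℝ) ≠ 0)
    (hroot : ¬ ∃ p : ℚ[X], p.natDegree ≤ d ∧
        p ^ 4 + q2.map (Int.castRingHom ℚ) * p ^ 2 + q1.map (Int.castRingHom ℚ) * p
          + q0.map (Int.castRingHom ℚ) = 0)
    (N : ℕ) (hN : 0 < N) (r S : ℤ) :
    ∃ s : ℤ, S ≤ s ∧ s ≡ r [ZMOD N] ∧
      ∀ y : ℚ, y ^ 4 + ((q2.eval s : ℤ) : ℚ) * y ^ 2 + ((q1.eval s : ℤ) : ℚ) * y
        + ((q0.eval s : ℤ) : ℚ) ≠ 0 := by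
  obtain ⟨s, hS, hmod, hs⟩ := h7_hit q2 q1 q0 d h2 h1 h0 hsep hroot N hN r S
  refine ⟨s, hS, hmod, fun y hy => ?_⟩
  set Pm : ℤ[X] := X ^ 4 + C (q2.eval s) * X ^ 2 + C (q1.eval s) * X + C (q0.eval s) with hPm
  have hmonic : Pm.Monic := by
    rw [hPm]
    monicity!
  have hr : Polynomial.aeval y Pm = 0 := by
    simp only [hPm, map_add, map_mul, map_pow, aeval_X, aeval_C]
    simpa using hy
  obtain ⟨n, hn⟩ := isInteger_of_is_root_of_monic hmonic hr
  have hn' : (n : ℚ) = y := by rw [← hn]; simp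
  apply hs n
  have h : ((n ^ 4 + q2.eval s * n ^ 2 + q1.eval s * n + q0.eval s : ℤ) : ℚ) = 0 := by
    push_cast
    rw [hn']
    exact hy
  exact_mod_cast h

end Fermat.Agent.S52
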