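import Fermat.Agent.S52.h7_HIT

/-!
# S52 route HIT: the 3-division quartic (helper7)

`h7_irr_of_polys`: specialisation of `h7_hit_rat` to the quartic
`Θ(z) = z⁴ - 486 a z² - 5832 b z - 19683 a²` of a one-parameter family `(a(s), b(s))` of
`(c₄, c₆)`-invariants with `deg a ≤ 20`, `deg b ≤ 30` and top coefficients `(c₄, c₆)`,
`c₄³ ≠ c₆²`.
-/

set_option autoImplicit false

namespace Fermat.Agent.S52

open Polynomial

/-- The 3-division quartic `z⁴ - 486 c₄ z² - 5832 c₆ z - 19683 c₄²` has only simple real roots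
when `c₄³ ≠ c₆²`. -/
theorem h7_theta_sep (c4 c6 : ℝ) (hΔ : c4 ^ 3 - c6 ^ 2 ≠ 0) (z : ℝ)
    (hL : z ^ 4 + (-486 * c4) * z ^ 2 + (-5832 * c6) * z + (-19683 * c4 ^ 2) = 0) :
    4 * z ^ 3 + 2 * (-486 * c4) * z + (-5832 * c6) ≠ 0 := by
  intro hL'
  apply hΔ
  have h1 : (z ^ 2 - 81 * c4) ^ 2 = 0 := by
    linear_combination (-1 / 3 : ℝ) * hL + (z / 3) * hL'
  have h2 : z ^ 2 - 81 * c4 = 0 := by
    rcases pow_eq_zero_iff (n := 2) (by norm_num) |>.mp h1 with h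
    exact h
  have h3 : 729 * c6 = -z ^ 3 := by
    linear_combination (-1 / 8 : ℝ) * hL' + (3 / 2 * z) * h2
  have h4 : 531441 * (c4 ^ 3 - c6 ^ 2) = 0 := by
    have e1 : 81 * c4 = z ^ 2 := by linarith
    have e2 : 531441 * (c4 ^ 3 - c6 ^ 2) = (81 * c4) ^ 3 - (729 * c6) ^ 2 := by ring
    rw [e2, e1, h3]
    ring
  have h5 : (531441 : ℝ) ≠ 0 := by norm_num
  exact (mul_eq_zero.mp h4).resolve_left h5

/-- **Route HIT, generic form.** For a polynomial family `(a, b)` of `(c₄, c₆)`-invariants of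
degrees `≤ 20, 30` with top coefficients `(c₄, c₆)`, `c₄³ ≠ c₆²`, whose 3-division quartic has
no polynomial root, there is `k ≡ 1 mod M` such that the 3-division quartic of the member
`(a(k), b(k))` has no rational root. -/
theorem h7_irr_of_polys (a b : ℤ[X]) (c4 c6 : ℤ) (hΔ : c4 ^ 3 - c6 ^ 2 ≠ 0)
    (ha : a.natDegree ≤ 20) (hb : b.natDegree ≤ 30) (hac : a.coeff 20 = c4)
    (hbc : b.coeff 30 = c6)
    (hnopoly : ∀ Z : ℚ[X], Z ^ 4 - 486 * a.map (Int.castRingHom ℚ) * Z ^ 2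
      - 5832 * b.map (Int.castRingHom ℚ) * Z - 19683 * a.map (Int.castRingHom ℚ) ^ 2 ≠ 0)
    (M : ℤ) (hM : 2 ≤ M) :
    ∃ k : ℤ, M ∣ k - 1 ∧ ∀ z : ℚ, z ^ 4 - 486 * ((a.eval k : ℤ) : ℚ) * z ^ 2
      - 5832 * ((b.eval k : ℤ) : ℚ) * z - 19683 * ((a.eval k : ℤ) : ℚ) ^ 2 ≠ 0 := by
  have h2 : (C (-486 : ℤ) * a).natDegree ≤ 2 * 10 := (natDegree_C_mul_le _ _).trans ha
  have h1 : (C (-5832 : ℤ) * b).natDegree ≤ 3 * 10 := (natDegree_C_mul_le _ _).trans hb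
  have h0 : (C (-19683 : ℤ) * a ^ 2).natDegree ≤ 4 * 10 :=
    (natDegree_C_mul_le _ _).trans (natDegree_pow_le.trans (by omega))
  have e2 : (C (-486 : ℤ) * a).coeff (2 * 10) = -486 * c4 := by
    rw [coeff_C_mul, show 2 * 10 = 20 from rfl, hac]
  have e1 : (C (-5832 : ℤ) * b).coeff (3 * 10) = -5832 * c6 := by
    rw [coeff_C_mul, show 3 * 10 = 30 from rfl, hbc]
  have e0 : (C (-19683 : ℤ) * a ^ 2).coeff (4 * 10) = -19683 * c4 ^ 2 := by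
    rw [coeff_C_mul, show 4 * 10 = 2 * 20 from rfl, coeff_pow_of_natDegree_le ha, hac]
  have hΔR : ((c4 : ℝ)) ^ 3 - (c6 : ℝ) ^ 2 ≠ 0 := by exact_mod_cast hΔ
  have hsep : ∀ z : ℝ, z ^ 4 + (((C (-486 : ℤ) * a).coeff (2 * 10) : ℤ) : ℝ) * z ^ 2
      + (((C (-5832 : ℤ) * b).coeff (3 * 10) : ℤ) : ℝ) * z
      + (((C (-19683 : ℤ) * a ^ 2).coeff (4 * 10) : ℤ) : ℝ) = 0 →
      4 * z ^ 3 + 2 * (((C (-486 : ℤ) * a).coeff (2 * 10) : ℤ) : ℝ) * z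
        + (((C (-5832 : ℤ) * b).coeff (3 * 10) : ℤ) : ℝ) ≠ 0 := by
    intro z hz
    rw [e2, e1, e0] at hz
    rw [e2, e1]
    push_cast at hz ⊢
    exact h7_theta_sep (c4 : ℝ) (c6 : ℝ) hΔR z hz
  have hroot : ¬ ∃ p : ℚ[X], p.natDegree ≤ 10 ∧
      p ^ 4 + (C (-486 : ℤ) * a).map (Int.castRingHom ℚ) * p ^ 2
        + (C (-5832 : ℤ) * b).map (Int.castRingHom ℚ) * p
        + (C (-19683 : ℤ) * a ^ 2).map (Int.castRingHom ℚ) = 0 := by
    rintro ⟨p, -, hp⟩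
    apply hnopoly p
    rw [← hp]
    simp only [Polynomial.map_mul, Polynomial.map_pow, eq_intCast, Int.cast_neg,
      Int.cast_ofNat, Polynomial.map_neg, Polynomial.map_ofNat]
    ring
  have hMnat : ((M.toNat : ℕ) : ℤ) = M := Int.toNat_of_nonneg (by omega)
  have hMpos : 0 < M.toNat := by omega
  obtain ⟨s, -, hmod, hs⟩ := h7_hit_rat (C (-486 : ℤ) * a) (C (-5832 : ℤ) * b)
    (C (-19683 : ℤ) * a ^ 2) 10 h2 h1 h0 hsep hroot M.toNat hMpos 1 0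
  refine ⟨s, ?_, fun z hz => hs z ?_⟩
  · rw [hMnat] at hmod
    have h := (Int.modEq_iff_dvd.mp hmod)
    have h' : M ∣ -(1 - s) := (dvd_neg).mpr h
    rwa [neg_sub] at h'
  · rw [← hz]
    simp only [eval_mul, eval_C, eval_pow]
    push_cast
    ring

end Fermat.Agent.S52
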