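import Mathlib

/-!
# S52 route HIT: the 3-division quartic of a family has no polynomial root (abstract half)

`h7_nopoly_abstract`: over a field `K` with `2, 3 ≠ 0`, let `a, b, g ∈ K[X]` with
`a³ - b² = D g⁵` (`D ≠ 0` constant), `a` coprime to `g`, `g` squarefree of degree `≥ 5`,
`deg a ≤ 20`, `deg b ≤ 30`.  Then `Z⁴ - 486 a Z² - 5832 b Z - 19683 a² ≠ 0` for every
`Z ∈ K[X]`.

Proof: with `P = Z² - 81 a`, `Q = 729 a - Z²` the equation gives
`5832² D Z² g⁵ = P³ Q`; every prime factor of `g` dividing `P` would divide `g` twice, so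
`g⁵ ∣ Q`, which is impossible by degrees.
-/

set_option autoImplicit false

namespace Fermat.Agent.S52

open Polynomial

theorem h7_sq_dvd_of_pow5_dvd_cube {R : Type*} [CommRing R] [IsDomain R] {p x : R} (hp : Prime p)
    (h : p ^ 5 ∣ x ^ 3) : p ^ 2 ∣ x := by
  have h1 : p ∣ x := hp.dvd_of_dvd_pow (dvd_trans (dvd_pow_self p (by norm_num)) h)
  obtain ⟨x₁, rfl⟩ := h1
  have h2 : p ^ 3 * p ^ 2 ∣ p ^ 3 * x₁ ^ 3 := by
    have e1 : p ^ 3 * p ^ 2 = p ^ 5 := by ring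
    have e2 : p ^ 3 * x₁ ^ 3 = (p * x₁) ^ 3 := by ring
    rw [e1, e2]
    exact h
  have h3 : p ^ 2 ∣ x₁ ^ 3 := (mul_dvd_mul_iff_left (pow_ne_zero 3 hp.ne_zero)).mp h2
  have h4 : p ∣ x₁ := hp.dvd_of_dvd_pow (dvd_trans (dvd_pow_self p (by norm_num)) h3)
  obtain ⟨x₂, rfl⟩ := h4
  exact ⟨x₂, by ring⟩

theorem h7_sq_dvd_of_pow6_dvd_pow5 {R : Type*} [CommRing R] [IsDomain R] {p x : R} (hp : Prime p)
    (h : p ^ 6 ∣ x ^ 5) : p ^ 2 ∣ x := by
  have h1 : p ∣ x := hp.dvd_of_dvd_pow (dvd_trans (dvd_pow_self p (by norm_num)) h)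
  obtain ⟨x₁, rfl⟩ := h1
  have h2 : p ^ 5 * p ∣ p ^ 5 * x₁ ^ 5 := by
    have e1 : p ^ 5 * p = p ^ 6 := by ring
    have e2 : p ^ 5 * x₁ ^ 5 = (p * x₁) ^ 5 := by ring
    rw [e1, e2]
    exact h
  have h3 : p ∣ x₁ ^ 5 := (mul_dvd_mul_iff_left (pow_ne_zero 5 hp.ne_zero)).mp h2
  have h4 : p ∣ x₁ := hp.dvd_of_dvd_pow h3
  obtain ⟨x₂, rfl⟩ := h4
  exact ⟨x₂, by ring⟩

theorem h7_prime_dvd_of_dvd_C_mul {K : Type*} [Field K] {π x : K[X]} (hπ : Prime π) (c : K)
    (hc : c ≠ 0) (h : π ∣ C c * x) : π ∣ x := by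
  rcases hπ.dvd_or_dvd h with h1 | h1
  · exact absurd (isUnit_of_dvd_unit h1 (isUnit_C.mpr (IsUnit.mk0 c hc))) hπ.not_isUnit
  · exact h1

/-- The 3-division quartic of a family `(a, b)` with `a³ - b² = D g⁵`, `g` squarefree and
coprime to `a`, has no polynomial root. -/
theorem h7_nopoly_abstract {K : Type*} [Field K] (h2 : (2 : K) ≠ 0) (h3 : (3 : K) ≠ 0)
    (a b g : K[X]) (D : K) (hD : D ≠ 0)
    (hrel : a ^ 3 - b ^ 2 = C D * g ^ 5) (hag : IsCoprime a g) (hsq : Squarefree g)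
    (hadeg : a.natDegree ≤ 20) (hbdeg : b.natDegree ≤ 30) (hgdeg : 5 ≤ g.natDegree) (Z : K[X]) :
    Z ^ 4 - 486 * a * Z ^ 2 - 5832 * b * Z - 19683 * a ^ 2 ≠ 0 := by
  intro hE
  have hg0 : g ≠ 0 := by
    intro h
    rw [h, natDegree_zero] at hgdeg
    omega
  have hgnu : ¬ IsUnit g := by
    intro h
    have := natDegree_eq_zero_of_isUnit h
    omega
  have n5832 : (5832 : K) ≠ 0 := by
    have e : (5832 : K) = 2 ^ 3 * 3 ^ 6 := by norm_num
    rw [e]
    exact mul_ne_zero (pow_ne_zero _ h2) (pow_ne_zero _ h3)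
  have n648 : (648 : K) ≠ 0 := by
    have e : (648 : K) = 2 ^ 3 * 3 ^ 4 := by norm_num
    rw [e]
    exact mul_ne_zero (pow_ne_zero _ h2) (pow_ne_zero _ h3)
  have n81 : (81 : K) ≠ 0 := by
    have e : (81 : K) = 3 ^ 4 := by norm_num
    rw [e]
    exact pow_ne_zero _ h3
  have n729 : (729 : K) ≠ 0 := by
    have e : (729 : K) = 3 ^ 6 := by norm_num
    rw [e]
    exact pow_ne_zero _ h3
  have nc : (5832 ^ 2 * D : K) ≠ 0 := mul_ne_zero (pow_ne_zero _ n5832) hD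
  obtain ⟨P, hP⟩ : ∃ P : K[X], P = Z ^ 2 - C 81 * a := ⟨_, rfl⟩
  obtain ⟨Q, hQ⟩ : ∃ Q : K[X], Q = C 729 * a - Z ^ 2 := ⟨_, rfl⟩
  have hid : C (5832 ^ 2 * D) * (Z ^ 2 * g ^ 5) = P ^ 3 * Q := by
    rw [hP, hQ]
    simp only [C_mul, C_pow, C_ofNat]
    linear_combination (Z ^ 4 - 486 * a * Z ^ 2 - 19683 * a ^ 2 + 5832 * b * Z) * hE
      - 5832 ^ 2 * Z ^ 2 * hrel
  have hPQ : P + Q = C 648 * a := by
    rw [hP, hQ]
    simp only [C_ofNat]
    ring
  have hQ0 : Q ≠ 0 := by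
    intro hQ0
    rw [hQ0, mul_zero] at hid
    have hZ : Z = 0 := by
      rcases mul_eq_zero.mp hid with h | h
      · exact absurd h (C_ne_zero.mpr nc)
      · rcases mul_eq_zero.mp h with h | h
        · exact (pow_eq_zero_iff (by norm_num)).mp h
        · exact absurd ((pow_eq_zero_iff (by norm_num)).mp h) hg0
    have ha0 : a = 0 := by
      have h : C (729 : K) * a = 0 := by
        rw [hQ0, hZ] at hQ
        simpa using hQ.symm
      rcases mul_eq_zero.mp h with h | h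
      · exact absurd h (C_ne_zero.mpr n729)
      · exact h
    rw [ha0] at hag
    exact hgnu (isCoprime_zero_left.mp hag)
  have hcop : IsCoprime g P := by
    apply isCoprime_of_prime_dvd
    · rintro ⟨h, -⟩
      exact hg0 h
    · intro π hπ hπg hπP
      have hπa : ¬ π ∣ a := by
        intro h
        obtain ⟨u, v, huv⟩ := hag
        have h1 : π ∣ 1 := by
          rw [← huv]
          exact dvd_add (dvd_mul_of_dvd_right h u) (dvd_mul_of_dvd_right hπg v)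
        exact hπ.not_isUnit (isUnit_of_dvd_one h1)
      have hπQ : ¬ π ∣ Q := by
        intro h
        have h1 : π ∣ C 648 * a := by
          rw [← hPQ]
          exact dvd_add hπP h
        exact hπa (h7_prime_dvd_of_dvd_C_mul hπ 648 n648 h1)
      have hπZ : ¬ π ∣ Z := by
        intro h
        have h1 : π ∣ C 81 * a := by
          have e : C 81 * a = Z ^ 2 - P := by
            rw [hP]
            ring
          rw [e]
          exact dvd_sub (dvd_pow h (by norm_num)) hπP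
        exact hπa (h7_prime_dvd_of_dvd_C_mul hπ 81 n81 h1)
      have h5 : π ^ 5 ∣ P ^ 3 * Q := by
        rw [← hid]
        exact dvd_mul_of_dvd_right (dvd_mul_of_dvd_right (pow_dvd_pow_of_dvd hπg 5) _) _
      have h5' : π ^ 5 ∣ P ^ 3 := hπ.pow_dvd_of_dvd_mul_right 5 hπQ h5
      have hP2 : π ^ 2 ∣ P := h7_sq_dvd_of_pow5_dvd_cube hπ h5'
      have h6 : π ^ 6 ∣ C (5832 ^ 2 * D) * (Z ^ 2 * g ^ 5) := by
        rw [hid]
        have h : π ^ 6 ∣ P ^ 3 := by
          have h' := pow_dvd_pow_of_dvd hP2 3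
          rwa [← pow_mul] at h'
        exact dvd_mul_of_dvd_left h _
      have h6' : π ^ 6 ∣ g ^ 5 := by
        have hc : ¬ π ∣ C (5832 ^ 2 * D) := fun h =>
          hπ.not_isUnit (isUnit_of_dvd_unit h (isUnit_C.mpr (IsUnit.mk0 _ nc)))
        have h6a := hπ.pow_dvd_of_dvd_mul_left 6 hc h6
        have hZ2 : ¬ π ∣ Z ^ 2 := fun h => hπZ (hπ.dvd_of_dvd_pow h)
        exact hπ.pow_dvd_of_dvd_mul_left 6 hZ2 h6a
      have hg2 : π ^ 2 ∣ g := h7_sq_dvd_of_pow6_dvd_pow5 hπ h6'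
      rw [pow_two] at hg2
      exact hπ.not_isUnit (hsq π hg2)
  have hgQ : g ^ 5 ∣ Q := by
    have h : g ^ 5 ∣ P ^ 3 * Q := by
      rw [← hid]
      exact dvd_mul_of_dvd_right (dvd_mul_left _ _) _
    exact (hcop.pow (m := 5) (n := 3)).dvd_of_dvd_mul_left h
  have hZdeg : Z.natDegree ≤ 10 := by
    by_contra hcon
    rw [not_le] at hcon
    have e : Z ^ 4 = 486 * a * Z ^ 2 + 5832 * b * Z + 19683 * a ^ 2 := by
      linear_combination hE
    have hl : (Z ^ 4).natDegree = 4 * Z.natDegree := natDegree_pow Z 4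
    have t1 : (486 * a * Z ^ 2).natDegree ≤ 0 + 20 + 2 * Z.natDegree :=
      natDegree_mul_le_of_le (natDegree_mul_le_of_le (natDegree_ofNat 486).le hadeg)
        (natDegree_pow_le_of_le 2 le_rfl)
    have t2 : (5832 * b * Z).natDegree ≤ 0 + 30 + Z.natDegree :=
      natDegree_mul_le_of_le (natDegree_mul_le_of_le (natDegree_ofNat 5832).le hbdeg) le_rfl
    have t3 : (19683 * a ^ 2).natDegree ≤ 0 + 2 * 20 :=
      natDegree_mul_le_of_le (natDegree_ofNat 19683).le (natDegree_pow_le_of_le 2 hadeg)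
    have hr : (486 * a * Z ^ 2 + 5832 * b * Z + 19683 * a ^ 2).natDegree < 4 * Z.natDegree := by
      refine lt_of_le_of_lt (natDegree_add_le _ _) (max_lt (lt_of_le_of_lt (natDegree_add_le _ _)
        (max_lt ?_ ?_)) ?_) <;> omega
    rw [e] at hl
    omega
  have hQdeg : Q.natDegree ≤ 20 := by
    rw [hQ]
    refine (natDegree_sub_le _ _).trans (max_le ?_ ?_)
    · exact (natDegree_C_mul_le _ _).trans hadeg
    · exact (natDegree_pow_le_of_le 2 hZdeg).trans (by norm_num)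
  have h1 : (g ^ 5).natDegree ≤ Q.natDegree := natDegree_le_of_dvd hgQ hQ0
  rw [natDegree_pow] at h1
  omega

end Fermat.Agent.S52
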