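import Fermat.Agent.S52.h5_Odd
import Fermat.Agent.S52.h5_CountPoly
import Fermat.Agent.S52.h5_SwAddW
import Fermat.Agent.S52.h8_Quad
import Fermat.Agent.S05.h86_Formal

/-!
# S52 block (I), row T: `ψ P₀ = 0` for the generic point (helper86)

`ψ = φ² - a φ + q` kills the generic point `P₀ = (x, y)`.

* `h86_ht_frob_sub` : for every odd point `R`, `h (φ R - R) = #E(F) * h R` (Manin's fraction is a
  composition);
* the quadratic-form algebra of `h8_Quad` then gives `h (ψ P₀) = 0`;
* a point of height `0` is `O` or a `2`-torsion point with constant coordinates; the latter is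
  excluded by a place at infinity (`P₀`, `φ P₀`, `φ² P₀` lie in the kernel of reduction, a
  subgroup, while a point with constant coordinates does not).
-/

set_option autoImplicit false

namespace Fermat.Agent.S52

open WeierstrassCurve WeierstrassCurve.Affine

section subst

variable {F : Type*} [Field F]

/-- The substitution `X ↦ u` for a non-constant rational function `u`. -/
noncomputable def h86_subst (u : RatFunc F) (hu : ¬∃ c : F, u = RatFunc.C c) :
    RatFunc F →ₐ[F] RatFunc F :=
  RatFunc.liftAlgHom (Polynomial.aeval u)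
    (nonZeroDivisors_le_comap_nonZeroDivisors_of_injective _
      (transcendental_iff_injective.mp (RatFunc.transcendental_of_ne_C u hu)))

lemma h86_subst_div (u : RatFunc F) (hu : ¬∃ c : F, u = RatFunc.C c) (p q : Polynomial F) :
    h86_subst u hu (algebraMap (Polynomial F) (RatFunc F) p /
      algebraMap (Polynomial F) (RatFunc F) q) = Polynomial.aeval u p / Polynomial.aeval u q :=
  RatFunc.liftAlgHom_apply_div _ _ p q

lemma h86_subst_X (u : RatFunc F) (hu : ¬∃ c : F, u = RatFunc.C c) :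
    h86_subst u hu RatFunc.X = u := by
  have h := h86_subst_div u hu Polynomial.X 1
  rw [map_one, div_one, RatFunc.algebraMap_X, map_one, div_one, Polynomial.aeval_X] at h
  exact h

end subst

section T

variable {F : Type*} [Field F] [Fintype F] (A B : F)
variable {Ω : Type*} [Field Ω] [DecidableEq Ω] [Algebra F Ω] [Algebra (RatFunc F) Ω]
  [IsScalarTower F (RatFunc F) Ω] (y : Ω)

omit [Fintype F] [DecidableEq Ω] in
/-- `ι (C c) = c` in `Ω`. -/
lemma h86_algebraMap_C (c : F) :
    algebraMap (RatFunc F) Ω (RatFunc.C c) = algebraMap F Ω c := by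
  rw [← RatFunc.algebraMap_eq_C, ← IsScalarTower.algebraMap_apply]

/-- **Count in composition form**: `h (φ R - R) = #E(F) · h R` for every odd point `R`. -/
theorem h86_ht_frob_sub (h2 : (2 : F) ≠ 0) (hΔ : 4 * A ^ 3 + 27 * B ^ 2 ≠ 0)
    (hy : y ^ 2 = algebraMap (RatFunc F) Ω (h5_fK A B))
    {R : h5_Pt A B Ω} (hR : h5_IsOdd A B y R) :
    h5_ht A B (h5_frob A B Ω R - R) =
      Nat.card (h5_sw A B).toAffine.Point * h5_ht A B R := by
  by_cases h0 : h5_ht A B R = 0
  · rw [h0, mul_zero]
    rcases h5_ht_eq_zero A B y hy hR h0 with rfl | ⟨c, hc, rfl⟩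
    · rw [map_zero, sub_zero]
      exact h5_ht_zero A B
    · have hfix : h5_frob A B Ω (Affine.Point.some _ _ hc) = Affine.Point.some _ _ hc := by
        obtain ⟨h', e⟩ := h5_frob_some A B hc
        rw [e]
        have e1 : algebraMap F Ω c ^ Fintype.card F = algebraMap F Ω c := by
          rw [← map_pow, FiniteField.pow_card]
        have e2 : (0 : Ω) ^ Fintype.card F = 0 := zero_pow Fintype.card_ne_zero
        simp only [Affine.Point.some.injEq]
        exact ⟨e1, e2⟩
      rw [hfix, sub_self]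
      exact h5_ht_zero A B
  · rcases hR with rfl | ⟨u, w, hns, rfl⟩
    · exact absurd (h5_ht_zero A B) h0
    · rw [h5_ht_some] at h0 ⊢
      have hu : ¬∃ c : F, u = RatFunc.C c := fun hc => h0 ((h5_deg_eq_zero_iff u).mpr hc)
      have hq2 : 2 ≤ Fintype.card F := Fintype.one_lt_card
      have hodd : Fintype.card F % 2 = 1 := by
        apply FiniteField.odd_card_of_char_ne_two
        intro hc
        apply h2
        have h := ringChar.Nat.cast_ringChar (R := F)
        rw [hc] at h
        exact_mod_cast h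
      obtain ⟨m, hm⟩ : ∃ m, Fintype.card F = 2 * m + 1 := ⟨Fintype.card F / 2, by omega⟩
      have hm' : (Fintype.card F - 1) / 2 = m := by omega
      have hι : Function.Injective (algebraMap (RatFunc F) Ω) :=
        (algebraMap (RatFunc F) Ω).injective
      -- `u ^ q ≠ u`
      have huq : u ^ Fintype.card F ≠ u := by
        intro e
        have h := h5_deg_pow u (Fintype.card F)
        rw [e] at h
        have hpos : 0 < h5_deg u := Nat.pos_of_ne_zero h0
        nlinarith
      obtain ⟨hφ, eφ⟩ := h5_frob_some A B hns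
      rw [eφ]
      have hX : algebraMap (RatFunc F) Ω u ^ Fintype.card F ≠ algebraMap (RatFunc F) Ω u := by
        rw [← map_pow]
        exact fun e => huq (hι e)
      obtain ⟨X₃, Y₃, X₄, Y₄, h₃, h₄, -, hsub, -, -, -, -, hX₄, -⟩ :=
        h5_W_add_sub_of_X_ne ((h5_sw A B).toAffine⁄Ω) (by simp [h5_sw]) (by simp [h5_sw])
          (by simp [h5_sw]) hφ hns hX
      rw [hsub]
      -- the equation of `R`
      have heq : (algebraMap (RatFunc F) Ω w * y) ^ 2 = algebraMap (RatFunc F) Ω u ^ 3 +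
          algebraMap F Ω A * algebraMap (RatFunc F) Ω u + algebraMap F Ω B :=
        (h5_bc_equation_iff A B _ _).mp hns.1
      -- the rational function `v = (Num / Den)(u)`
      have hDen : u ^ Fintype.card F - u ≠ 0 := sub_ne_zero.mpr huq
      have hv0 : h86_subst u hu (algebraMap (Polynomial F) (RatFunc F) (h5_Num A B) /
          algebraMap (Polynomial F) (RatFunc F) (h5_Den (F := F))) =
          ((u ^ 3 + RatFunc.C A * u + RatFunc.C B) *
            ((u ^ 3 + RatFunc.C A * u + RatFunc.C B) ^ m + 1) ^ 2 -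
            (u ^ Fintype.card F + u) * (u ^ Fintype.card F - u) ^ 2) /
            (u ^ Fintype.card F - u) ^ 2 := by
        rw [h86_subst_div]
        simp only [h5_Num, h5_Den, h5_fP, hm', map_sub, map_mul, map_add, map_pow, map_one,
          Polynomial.aeval_X, Polynomial.aeval_C, RatFunc.algebraMap_eq_C]
      have hv : X₄ = algebraMap (RatFunc F) Ω (h86_subst u hu
          (algebraMap (Polynomial F) (RatFunc F) (h5_Num A B) /
            algebraMap (Polynomial F) (RatFunc F) (h5_Den (F := F)))) := by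
        have hD : (algebraMap (RatFunc F) Ω u ^ Fintype.card F - algebraMap (RatFunc F) Ω u) ^ 2
            ≠ 0 := pow_ne_zero 2 (sub_ne_zero.mpr hX)
        apply mul_right_cancel₀ hD
        rw [hX₄, hv0]
        have e3 : ((algebraMap (RatFunc F) Ω w * y) ^ Fintype.card F +
            algebraMap (RatFunc F) Ω w * y) ^ 2 =
            (algebraMap (RatFunc F) Ω w * y) ^ 2 *
              (((algebraMap (RatFunc F) Ω w * y) ^ 2) ^ m + 1) ^ 2 := by
          rw [hm]
          ring
        rw [e3, heq]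
        simp only [map_div₀, map_sub, map_mul, map_add, map_pow, map_one, h86_algebraMap_C]
        rw [div_mul_cancel₀ _ hD]
      subst hv
      rw [h5_ht_some, h5_deg_algHom, h86_subst_X, h5_count_poly A B h2 hΔ,
        h5_card_points A B h2 hΔ]

omit [Fintype F] in
/-- The odd points as a subgroup. -/
def h86_oddSub (h2 : (2 : F) ≠ 0) (hy : y ^ 2 = algebraMap (RatFunc F) Ω (h5_fK A B)) :
    AddSubgroup (h5_Pt A B Ω) where
  carrier := {P | h5_IsOdd A B y P}
  zero_mem' := h5_isOdd_zero A B y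
  add_mem' := fun hP hQ => h5_isOdd_add A B y h2 hy hP hQ
  neg_mem' := fun hP => h5_isOdd_neg A B y hP

/-- Frobenius on the odd points. -/
noncomputable def h86_frobOdd (h2 : (2 : F) ≠ 0)
    (hy : y ^ 2 = algebraMap (RatFunc F) Ω (h5_fK A B)) :
    h86_oddSub A B y h2 hy →+ h86_oddSub A B y h2 hy :=
  ((h5_frob A B Ω).comp (h86_oddSub A B y h2 hy).subtype).codRestrict _
    (fun P => h5_isOdd_frob A B y h2 hy P.2)

/-- `ψ P₀` is an odd point of height `0`. -/
theorem h86_ht_psi_gen (h2 : (2 : F) ≠ 0) (hΔ : 4 * A ^ 3 + 27 * B ^ 2 ≠ 0)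
    (hy : y ^ 2 = algebraMap (RatFunc F) Ω (h5_fK A B))
    (h : ((h5_sw A B).toAffine⁄Ω).Nonsingular (algebraMap (RatFunc F) Ω RatFunc.X) y) :
    h5_IsOdd A B y (h5_psi A B (h5_trace A B) (Affine.Point.some _ _ h : h5_Pt A B Ω)) ∧
      h5_ht A B (h5_psi A B (h5_trace A B) (Affine.Point.some _ _ h : h5_Pt A B Ω)) = 0 := by
  let hZ : h86_oddSub A B y h2 hy → ℤ := fun P => (h5_ht A B (P : h5_Pt A B Ω) : ℤ)
  have hpar : ∀ P Q : h86_oddSub A B y h2 hy,
      hZ (P + Q) + hZ (P - Q) = 2 * hZ P + 2 * hZ Q := by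
    intro P Q
    have h := h5_ht_para A B y h2 hΔ hy P.2 Q.2
    simp only [hZ, AddSubgroup.coe_add, AddSubgroup.coe_sub]
    exact_mod_cast h
  have hφ : ∀ P : h86_oddSub A B y h2 hy,
      hZ (h86_frobOdd A B y h2 hy P) = (Fintype.card F : ℤ) * hZ P := by
    intro P
    have h := h5_ht_frob A B y hy P.2
    simp only [hZ]
    exact_mod_cast h
  have key : ∀ R : h86_oddSub A B y h2 hy, hZ (h86_frobOdd A B y h2 hy R - R) =
      (Nat.card (h5_sw A B).toAffine.Point : ℤ) * hZ R := by
    intro R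
    have h := h86_ht_frob_sub A B y h2 hΔ hy R.2
    simp only [hZ, AddSubgroup.coe_sub]
    exact_mod_cast h
  let Q : h86_oddSub A B y h2 hy := ⟨Affine.Point.some _ _ h, h5_isOdd_gen A B y h⟩
  have hQ : hZ Q = 1 := by
    simp only [hZ, Q]
    exact_mod_cast h5_ht_gen A B y h
  have hN := key Q
  rw [hQ, mul_one] at hN
  have hA := key (h86_frobOdd A B y h2 hy Q + Q)
  have hfin := h8_frob_quad_A hpar (h86_frobOdd A B y h2 hy) (Fintype.card F : ℤ) hφ Q hQ _ hN hA
  have e : ((h86_frobOdd A B y h2 hy (h86_frobOdd A B y h2 hy Q) -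
      ((Fintype.card F : ℤ) + 1 - (Nat.card (h5_sw A B).toAffine.Point : ℤ)) •
        h86_frobOdd A B y h2 hy Q + (Fintype.card F : ℤ) • Q : h86_oddSub A B y h2 hy) :
        h5_Pt A B Ω) =
      h5_psi A B (h5_trace A B) (Affine.Point.some _ _ h : h5_Pt A B Ω) := rfl
  rw [← e]
  refine ⟨?_, ?_⟩
  · exact Subtype.property (p := fun P => P ∈ h86_oddSub A B y h2 hy) _
  · exact Int.natCast_eq_zero.mp hfin

omit [Fintype F] [DecidableEq Ω] in
/-- A place at infinity: a valuation subring of `Ω` containing the constants but not `x`. -/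
theorem h86_exists_place :
    ∃ V : ValuationSubring Ω, (∀ c : F, algebraMap F Ω c ∈ V) ∧
      algebraMap (RatFunc F) Ω RatFunc.X ∉ V := by
  have hx : algebraMap (RatFunc F) Ω RatFunc.X ∉ (integralClosure F Ω).toSubring := by
    intro hmem
    have h1 : IsIntegral F (algebraMap (RatFunc F) Ω RatFunc.X) := hmem
    have h2 : IsIntegral F (RatFunc.X : RatFunc F) :=
      (isIntegral_algebraMap_iff (algebraMap (RatFunc F) Ω).injective).mp h1
    have h3 : Transcendental F (RatFunc.X : RatFunc F) := by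
      apply RatFunc.transcendental_of_ne_C
      intro hc
      have h := (h5_deg_eq_zero_iff _).mpr hc
      rw [h5_deg_X] at h
      exact one_ne_zero h
    exact h3 h2.isAlgebraic
  obtain ⟨V, hV, hxV⟩ := Subring.exists_le_valuationSubring_of_isIntegrallyClosedIn hx
  exact ⟨V, fun c => hV (Subalgebra.algebraMap_mem (integralClosure F Ω) c), hxV⟩

/-- **The key step**: `ψ = φ² - a φ + q` kills the generic point. -/
theorem h5_psi_gen [IsAlgClosed Ω] [Algebra.IsAlgebraic (RatFunc F) Ω]
    (h2 : (2 : F) ≠ 0) (hΔ : 4 * A ^ 3 + 27 * B ^ 2 ≠ 0)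
    (hy : y ^ 2 = algebraMap (RatFunc F) Ω (h5_fK A B))
    (h : ((h5_sw A B).toAffine⁄Ω).Nonsingular (algebraMap (RatFunc F) Ω RatFunc.X) y) :
    h5_psi A B (h5_trace A B) (Affine.Point.some _ _ h : h5_Pt A B Ω) = 0 := by
  obtain ⟨hodd, hht⟩ := h86_ht_psi_gen A B y h2 hΔ hy h
  rcases h5_ht_eq_zero A B y hy hodd hht with h0 | ⟨c, hc, hpsi⟩
  · exact h0
  · exfalso
    obtain ⟨V, hFV, hxV⟩ := h86_exists_place (F := F) (Ω := Ω)
    have hW : Fermat.Agent.S05.h86_Integral V ((h5_sw A B).toAffine⁄Ω) :=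
      ⟨by simp [h5_sw], by simp [h5_sw], by simp [h5_sw], hFV A, hFV B⟩
    -- powers of `x` are not in `V`
    have hpow : ∀ n : ℕ, n ≠ 0 → ∀ z : Ω, z ∉ V → z ^ n ∉ V := by
      intro n hn z hz hzn
      apply hz
      rw [← V.valuation_le_one_iff] at hzn ⊢
      rw [map_pow] at hzn
      exact (pow_le_one_iff_of_nonneg zero_le hn).mp hzn
    have hq0 : Fintype.card F ≠ 0 := Fintype.card_ne_zero
    -- `P₀`, `φ P₀`, `φ² P₀` lie in the kernel of reduction
    have m0 : (Affine.Point.some _ _ h : h5_Pt A B Ω) ∈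
        Fermat.Agent.S05.h86_E1 V ((h5_sw A B).toAffine⁄Ω) hW :=
      (Fermat.Agent.S05.h86_some_mem_E1_iff V _ hW h).mpr hxV
    obtain ⟨h₁, e₁⟩ := h5_frob_some A B h
    have m1 : h5_frob A B Ω (Affine.Point.some _ _ h) ∈
        Fermat.Agent.S05.h86_E1 V ((h5_sw A B).toAffine⁄Ω) hW := by
      rw [e₁]
      exact (Fermat.Agent.S05.h86_some_mem_E1_iff V _ hW h₁).mpr (hpow _ hq0 _ hxV)
    obtain ⟨h₂, e₂⟩ := h5_frob_some A B h₁
    have m2 : h5_frob A B Ω (h5_frob A B Ω (Affine.Point.some _ _ h)) ∈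
        Fermat.Agent.S05.h86_E1 V ((h5_sw A B).toAffine⁄Ω) hW := by
      rw [e₁, e₂]
      exact (Fermat.Agent.S05.h86_some_mem_E1_iff V _ hW h₂).mpr
        (hpow _ hq0 _ (hpow _ hq0 _ hxV))
    have mpsi : h5_psi A B (h5_trace A B) (Affine.Point.some _ _ h : h5_Pt A B Ω) ∈
        Fermat.Agent.S05.h86_E1 V ((h5_sw A B).toAffine⁄Ω) hW :=
      add_mem (sub_mem m2 (zsmul_mem m1 _)) (zsmul_mem m0 _)
    rw [hpsi] at mpsi
    exact (Fermat.Agent.S05.h86_some_mem_E1_iff V _ hW hc).mp mpsi (hFV c)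

end T

end Fermat.Agent.S52
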