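import Fermat.Agent.S52.h5_Half

/-!
# S52 block (I), row X (transfer), hypothesis-shaped core (helper99)

`ψ = φ² - a φ + q` is additive and commutes with the maps on points induced by `F`-algebra
homomorphisms.  If `2 ψ` kills every point with transcendental `x`-coordinate over an
algebraically closed field `Ω''` containing a transcendental element, then `ψ` kills every point
over every field `Ω'` mapping to `Ω''` (generic translate + halving).
-/

set_option autoImplicit false

namespace Fermat.Agent.S52

open WeierstrassCurve WeierstrassCurve.Affine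

section psi

variable {F : Type*} [Field F] [Fintype F] (A B : F)
variable {Ω : Type*} [Field Ω] [DecidableEq Ω] [Algebra F Ω]

lemma h99_psi_zero (a : ℤ) : h5_psi A B a (0 : h5_Pt A B Ω) = 0 := by
  simp [h5_psi]

lemma h99_psi_add (a : ℤ) (P Q : h5_Pt A B Ω) :
    h5_psi A B a (P + Q) = h5_psi A B a P + h5_psi A B a Q := by
  simp only [h5_psi, map_add, smul_add]
  abel

lemma h99_psi_map {Ω' : Type*} [Field Ω'] [DecidableEq Ω'] [Algebra F Ω'] (j : Ω →ₐ[F] Ω')
    (a : ℤ) (P : h5_Pt A B Ω) :
    Affine.Point.map (W' := (h5_sw A B).toAffine) j (h5_psi A B a P) =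
      h5_psi A B a (Affine.Point.map (W' := (h5_sw A B).toAffine) j P) := by
  simp only [h5_psi, map_add, map_sub, map_zsmul, h5_frob_map]

end psi

section transfer

variable {F : Type*} [Field F] [Fintype F] (A B : F)

/-- Transfer: from points with transcendental `x`-coordinate over one algebraically closed
field to all points over all fields mapping to it. -/
theorem h99_frob_charpoly_of (h2 : (2 : F) ≠ 0) (hΔ : 4 * A ^ 3 + 27 * B ^ 2 ≠ 0)
    {Ω' : Type*} [Field Ω'] [DecidableEq Ω'] [Algebra F Ω']
    {Ω'' : Type*} [Field Ω''] [DecidableEq Ω''] [IsAlgClosed Ω''] [Algebra F Ω'']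
    (j : Ω' →ₐ[F] Ω'') (X : Ω'') (hX : Transcendental F X)
    (hT : ∀ {s t : Ω''} (h : ((h5_sw A B).toAffine⁄Ω'').Nonsingular s t), Transcendental F s →
      (2 : ℤ) • h5_psi A B (h5_trace A B) (Affine.Point.some _ _ h : h5_Pt A B Ω'') = 0)
    (Q : h5_Pt A B Ω') : h5_psi A B (h5_trace A B) Q = 0 := by
  classical
  -- the points with algebraic coordinates form a subgroup
  let L : IntermediateField F Ω'' := algebraicClosure F Ω''
  let jL : L →ₐ[F] Ω'' := L.val
  let H : AddSubgroup (h5_Pt A B Ω'') :=
    (Affine.Point.map (W' := (h5_sw A B).toAffine) jL).range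
  have memH : ∀ (s t : Ω'') (h : ((h5_sw A B).toAffine⁄Ω'').Nonsingular s t),
      IsAlgebraic F s → (Affine.Point.some s t h : h5_Pt A B Ω'') ∈ H := by
    intro s t h hs
    have hsL : s ∈ L := mem_algebraicClosure_iff.mpr hs
    have hE := (h5_bc_equation_iff A B s t).mp h.1
    have htL : t ∈ L := by
      apply mem_algebraicClosure_iff.mpr
      apply IsAlgebraic.of_pow (n := 2) two_pos
      rw [← mem_algebraicClosure_iff, hE]
      exact L.add_mem (L.add_mem (pow_mem hsL 3) (L.mul_mem (L.algebraMap_mem A) hsL))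
        (L.algebraMap_mem B)
    have h' : ((h5_sw A B).toAffine⁄L).Nonsingular (⟨s, hsL⟩ : L) ⟨t, htL⟩ :=
      ((h5_sw A B).toAffine.baseChange_nonsingular jL.injective _ _).mp h
    exact ⟨Affine.Point.some _ _ h', rfl⟩
  have algOfH : ∀ (s t : Ω'') (h : ((h5_sw A B).toAffine⁄Ω'').Nonsingular s t),
      (Affine.Point.some s t h : h5_Pt A B Ω'') ∈ H → IsAlgebraic F s := by
    rintro s t h ⟨PL, hPL⟩
    rcases PL with _ | ⟨x, y, hxy⟩
    · exact absurd hPL.symm (Affine.Point.some_ne_zero h)
    · rw [Affine.Point.map_some] at hPL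
      have hx : jL x = s := (Affine.Point.some.inj hPL).1
      rw [← hx]
      exact mem_algebraicClosure_iff.mp x.2
  -- the generic point
  obtain ⟨Y, hY⟩ := IsAlgClosed.exists_pow_nat_eq
    (X ^ 3 + algebraMap F Ω'' A * X + algebraMap F Ω'' B) (n := 2) two_pos
  have hP : ((h5_sw A B).toAffine⁄Ω'').Nonsingular X Y := h5_bc_nonsingular A B h2 hΔ hY
  have hPH : (Affine.Point.some X Y hP : h5_Pt A B Ω'') ∉ H :=
    fun hmem => hX (algOfH X Y hP hmem)
  -- `2 ψ` kills every point of `E(Ω'')`
  have claim : ∀ S : h5_Pt A B Ω'', (2 : ℤ) • h5_psi A B (h5_trace A B) S = 0 := by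
    intro S
    rcases S with _ | ⟨s, t, h⟩
    · have h0 : h5_psi A B (h5_trace A B) (Affine.Point.zero : h5_Pt A B Ω'') = 0 :=
        h99_psi_zero A B _
      rw [h0, smul_zero]
    · by_cases hs : IsAlgebraic F s
      · have hSH := memH s t h hs
        have hS'H : (Affine.Point.some X Y hP : h5_Pt A B Ω'') + Affine.Point.some s t h ∉ H := by
          intro hmem
          apply hPH
          have := H.sub_mem hmem hSH
          rwa [add_sub_cancel_right] at this
        have key : (2 : ℤ) • h5_psi A B (h5_trace A B)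
            ((Affine.Point.some X Y hP : h5_Pt A B Ω'') + Affine.Point.some s t h) = 0 := by
          generalize (Affine.Point.some X Y hP : h5_Pt A B Ω'') + Affine.Point.some s t h = S'
            at hS'H
          rcases S' with _ | ⟨s', t', h'⟩
          · exact absurd H.zero_mem hS'H
          · exact hT h' (fun halg => hS'H (memH s' t' h' halg))
        rw [h99_psi_add, smul_add, hT hP hX, zero_add] at key
        exact key
      · exact hT h hs
  -- halving
  obtain ⟨R, hR⟩ := h5_exists_half A B h2 hΔ
    (Affine.Point.map (W' := (h5_sw A B).toAffine) j Q)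
  have h0 : Affine.Point.map (W' := (h5_sw A B).toAffine) j (h5_psi A B (h5_trace A B) Q) = 0 := by
    rw [h99_psi_map, ← hR, h99_psi_add, ← two_zsmul]
    exact claim R
  exact Affine.Point.map_injective (W' := (h5_sw A B).toAffine) j (by rw [h0, map_zero])

/-- Transfer, with the algebraically closed field `AlgebraicClosure (RatFunc Ω')`: if `2 ψ` kills
every point with transcendental `x`-coordinate over it, then `ψ` kills every point over `Ω'`. -/
theorem h99_frob_charpoly_of_two_psi (h2 : (2 : F) ≠ 0) (hΔ : 4 * A ^ 3 + 27 * B ^ 2 ≠ 0)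
    {Ω' : Type*} [Field Ω'] [DecidableEq Ω'] [Algebra F Ω']
    [DecidableEq (AlgebraicClosure (RatFunc Ω'))]
    (hT : ∀ {s t : AlgebraicClosure (RatFunc Ω')}
      (h : ((h5_sw A B).toAffine⁄(AlgebraicClosure (RatFunc Ω'))).Nonsingular s t),
      Transcendental F s →
        (2 : ℤ) • h5_psi A B (h5_trace A B)
          (Affine.Point.some _ _ h : h5_Pt A B (AlgebraicClosure (RatFunc Ω'))) = 0)
    (Q : h5_Pt A B Ω') : h5_psi A B (h5_trace A B) Q = 0 := by
  let j : Ω' →ₐ[F] AlgebraicClosure (RatFunc Ω') := IsScalarTower.toAlgHom F Ω' _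
  have hX : Transcendental F
      (algebraMap (RatFunc Ω') (AlgebraicClosure (RatFunc Ω')) RatFunc.X) := by
    intro halg
    have h1 : IsAlgebraic Ω'
        (algebraMap (RatFunc Ω') (AlgebraicClosure (RatFunc Ω')) RatFunc.X) :=
      halg.tower_top Ω'
    rw [isAlgebraic_algebraMap_iff
      (algebraMap (RatFunc Ω') (AlgebraicClosure (RatFunc Ω'))).injective] at h1
    exact RatFunc.transcendental_X h1
  exact h99_frob_charpoly_of A B h2 hΔ j _ hX hT Q

end transfer

end Fermat.Agent.S52
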